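import Fermat.Agent.Engine.Quadratic
import Fermat.Agent.HeckeModule.Localize
import Fermat.Agent.SemistableRed.Interface
import Fermat.Agent.DefRing.MatrixRep
import Fermat.Prelude.Def_ModularCurve_HeckeModule
import Fermat.Prelude.Def_GaloisRep_LocalConditions
import Fermat.Prelude.Def_FLTPrelim_Modularity

/-!
# What the modular side supplies

* `Occurs`: eigen systems in `H¹`.
* `IsAttachedSystem`: an eigen system attached to a representation.
* `NebentypusInertia`: the trace of inertia at a principal series prime.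
* `UnramifiedIsOld`: an eigen system unramified at `q ∥ level` comes from below.
-/

set_option autoImplicit false

noncomputable section

open AlgebraicCurve ModularCurve

namespace Fermat.Agent.Engine

local notation "Qbar" => AlgebraicClosure ℚ

/-- An eigen system occurs in `H¹(Γ₀(N), K(χ))` for the Hecke operators at primes outside `S`. -/
def Occurs (K : Type) [Field K] (N : ℕ) (χ : (ZMod N)ˣ →* K) (S : Finset ℕ) (lam : ℕ → K) : Prop :=
  ∃ c : HeckeModule.Coh1 (HeckeModule.scalarRep χ K), c ≠ 0 ∧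
    ∀ (ℓ : ℕ) [Fact ℓ.Prime], ℓ ∉ S → ¬ ℓ ∣ N →
      HeckeModule.heckeOp (HeckeModule.scalarRep χ K) ℓ c = lam ℓ • c

variable (O : Type) [CommRing O] [IsDomain O] [IsDiscreteValuationRing O]
  [IsAdicComplete (IsLocalRing.maximalIdeal O) O]

/-- A two-dimensional representation over `O` with Frobenius traces `a ℓ` outside `S` and
cyclotomic determinant. -/
def IsAttachedSystem (p : ℕ) (ρ : GaloisRepAdic O) (S : Finset ℕ) (a : ℕ → O) : Prop :=
  ρ.DetIsCyclotomic p ∧ ∀ ℓ : ℕ, ℓ.Prime → ℓ ∉ S →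
    ∀ A : ValuationSubring Qbar, A.LiesOverPrime ℓ → ∀ σ : Qbar ≃ₐ[ℚ] Qbar,
      A.IsFrobeniusAt σ ℓ → ρ.trace σ = a ℓ

/-- Principal series primes (`XHLite`): if `lam` occurs at level `N q` with character `ψ²` at `q`
and `ρ` is attached to `lam ⊗ ψ⁻¹`, inertia at `q` has trace `ψ + ψ⁻¹`. -/
def NebentypusInertia (p N q : ℕ) : Prop :=
  ∀ (ψ : (ZMod q)ˣ →* Oˣ), ψ ^ 2 ≠ 1 → q.Prime → q ≠ p → ¬ q ∣ N →
    ∀ (S : Finset ℕ) (lam a : ℕ → O) (ρ : GaloisRepAdic O), q ∈ S → p ∈ S →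
      (∀ r : ℕ, r.Prime → r ∣ N → r ∈ S) →
      Occurs (FractionRing O) (N * q)
        (((algebraMap O (FractionRing O)).toMonoidHom.comp (Units.coeHom O)).comp
          ((ψ ^ 2).comp (ZMod.unitsMap (dvd_mul_left q N)))) S
        (fun ℓ => algebraMap O (FractionRing O) (lam ℓ)) →
      (∀ (ℓ : ℕ) (hℓ : ℓ.Coprime q), ℓ.Prime → ℓ ∉ S →
        a ℓ * ((ψ (ZMod.unitOfCoprime ℓ hℓ) : Oˣ) : O) = lam ℓ) →
      IsAttachedSystem O p ρ S a →
      (∀ m : ℕ, 0 < m → ∃ ℓ : ℕ, ℓ.Prime ∧ ℓ ∉ S ∧ (ℓ : ZMod m) = 1 ∧ a ℓ ≠ (ℓ : O) + 1) →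
      ∀ A : ValuationSubring Qbar, A.LiesOverPrime q → ∀ σ ∈ A.inertiaSubgroupIn ℚ,
        ∀ e : (ZMod q)ˣ, (∀ μ : Qbar, μ ^ q = 1 → σ μ = μ ^ (e : ZMod q).val) →
          ρ.trace σ = ((ψ e : Oˣ) : O) + ((ψ⁻¹ e : Oˣ) : O)

/-- A residually irreducible eigen system which is unramified at a prime exactly dividing the level
comes from below. -/
def UnramifiedIsOld (p M q : ℕ) : Prop :=
  5 ≤ p → q.Prime → q ≠ p → ¬ q ∣ M →
    ∀ (S : Finset ℕ) (a : ℕ → O) (ρ : GaloisRepAdic O), q ∈ S → p ∈ S →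
      (∀ r : ℕ, r.Prime → r ∣ M → r ∈ S) →
      Occurs (FractionRing O) (M * q) 1 S (fun ℓ => algebraMap O (FractionRing O) (a ℓ)) →
      IsAttachedSystem O p ρ S a → Submodule.span O (Set.range fun σ => ρ.ρ σ) = ⊤ →
      ρ.IsUnramifiedAt q →
      Occurs (FractionRing O) M 1 S (fun ℓ => algebraMap O (FractionRing O) (a ℓ))

end Fermat.Agent.Engine
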