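import Fermat.Agent.Engine.Levels
import Fermat.Agent.Engine.TRep.TwistClassify
import Fermat.Agent.Engine.TRep.NonEis
import Fermat.Agent.HeckeModule.Elliptic
import Fermat.Agent.HeckeModule.Flat
import Fermat.Agent.Deform.TWInertia

/-!
# The modular hypotheses for lowering at a prime `≡ 1 (mod p)`

`LoweringSetting`: the base level `N₀`, exactly divisible by the prime `qv v`, a residual system
with the traces of `rbar`, and the local conditions of `L₀`.  `TopPlaceHyp`: the condition at the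
place holds for the representations of the Hecke algebras of the auxiliary top levels.
-/

set_option autoImplicit false
set_option linter.unusedSectionVars false

noncomputable section

namespace Fermat.Agent.Engine

open EigenRep HeckeModule IsLocalRing DefRing Deform EigenSystems

local notation "Qbar" => AlgebraicClosure ℚ

variable {O : Type} [CommRing O] [IsLocalRing O]

/-- The hypotheses at the base level shared by lifting and lowering. -/
structure BaseSetting (p : ℕ) [Fact p.Prime] (ι₀ : ℤ_[p] →+* O) (N₀ : ℕ) (lam : ℕ → O)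
    (L₀ : LevelData O) : Prop where
  three_le : 3 ≤ p
  three : ThreeOK p N₀
  p_mem : (p : O) ∈ maximalIdeal O
  sigma : ∀ ℓ : ℕ, ℓ.Prime → ℓ ∣ N₀ * p → ℓ ∈ L₀.Sigma
  smin : ∀ q ∈ L₀.Smin, q.Prime ∧ q ≠ p ∧ ¬ q * q ∣ N₀ ∧ q ∈ L₀.Sigma
  det : ∀ σ, L₀.detChar σ = ι₀ (epsilonPadic p σ : ℤ_[p])
  detbar : ∀ σ, (L₀.D.rbar σ).det = residue O (ι₀ (epsilonPadic p σ : ℤ_[p]))
  cont : IsCont L₀.D.rbar
  span : Submodule.span (ResidueField O) (Set.range L₀.D.rbar) = ⊤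
  split : ∀ σ, ∃ a b : ResidueField O,
    (L₀.D.rbar σ).trace = a + b ∧ (L₀.D.rbar σ).det = a * b
  trace_frob : ∀ ℓ : ℕ, ℓ.Prime → ℓ ∉ L₀.Sigma → ∀ A : ValuationSubring Qbar, A.LiesOverPrime ℓ →
    ∀ σ : GQ, A.IsFrobeniusAt σ ℓ → (L₀.D.rbar σ).trace = residue O (lam ℓ)

/-- The hypotheses at the base level for lowering. -/
structure LoweringSetting (p : ℕ) [Fact p.Prime] (ι₀ : ℤ_[p] →+* O) (N₀ : ℕ) (lam : ℕ → O)
    {T : Type} (qv : T → ℕ) (L₀ : LevelData O) (frob tame : T → GQ) (v : T) (ζ ζ' : O) : Prop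
    extends BaseSetting p ι₀ N₀ lam L₀ where
  qv_inj : Function.Injective qv
  framed : FramedPrimes p L₀ qv frob tame
  dvd : qv v ∣ N₀
  not_sq : ∀ w, ¬ qv w * qv w ∣ N₀
  one_mod : p ∣ qv v - 1
  zeta_mul : ζ * ζ' = 1
  zeta_pow : ζ ^ p = 1
  zeta_mem : ζ - 1 ∈ maximalIdeal O
  sigma_qv : ∀ w, qv w ∈ L₀.Sigma
  smin_v : qv v ∉ L₀.Smin

/-- The condition at the place holds for the representations of the Hecke algebras of the top
levels `N`, multiples of `N₀` by primes other than `p`. -/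
def TopPlaceHyp (p : ℕ) [Fact p.Prime] (ι₀ : ℤ_[p] →+* O) (N₀ : ℕ) (lam : ℕ → O)
    (L₀ : LevelData O) : Prop :=
  ∀ (N : ℕ) [NeZero N] (hes : EichlerShimuraRelations N p), N₀ ∣ N → ¬ p ∣ N / N₀ →
  ∀ (S : Finset ℕ), (∀ ℓ : ℕ, ℓ.Prime → ℓ ∣ N * p → ℓ ∈ S) →
  ∀ (Λ : Type) [CommRing Λ] [IsLocalRing Λ] [IsNoetherianRing Λ]
    [IsAdicComplete (maximalIdeal Λ) Λ] [Algebra O Λ] [IsLocalHom (algebraMap O Λ)]
    [Module.Finite O Λ] [IsReduced Λ] [Module.IsTorsionFree ℤ Λ]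
    (hsΛ : Function.Surjective (residue Λ ∘ algebraMap O Λ)),
  ∀ R, TRep.IsTorsionRep (TRep.stdInputs hes) ((algebraMap O Λ).comp ι₀) S
      (TRep.lamIdeal hsΛ S lam) R →
  ∀ (C : Type) [CommRing C] [IsLocalRing C] [Algebra O C] [Algebra Λ C] [IsScalarTower O Λ C]
    [Module.Finite Λ C] [IsAdicComplete (maximalIdeal C) C]
    [IsLocalHom (algebraMap O C)],
  (∀ (o : O) (x : C), o ≠ 0 → algebraMap O C o * x = 0 → x = 0) →
  ∀ (F : TRep.TLoc (TRep.stdInputs hes) ((algebraMap O Λ).comp ι₀) S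
      (TRep.lamIdeal hsΛ S lam) →ₐ[Λ] C)
    (g : (Matrix (Fin 2) (Fin 2) C)ˣ),
    L₀.atPlace.Mem' (coordsOf fun σ : L₀.place.decompositionSubgroup ℚ =>
      g.1 * mapRep (F : _ →+* C) R σ * g⁻¹.1)

namespace BaseSetting

variable {p : ℕ} [Fact p.Prime] {ι₀ : ℤ_[p] →+* O} {N₀ : ℕ} {lam : ℕ → O} {L₀ : LevelData O}
  (H : BaseSetting p ι₀ N₀ lam L₀)

include H

/-- The residual determinant at a Frobenius. -/
theorem detbar_frob {ℓ : ℕ} (hℓ : ℓ.Prime) (hℓp : ℓ ≠ p) {A : ValuationSubring Qbar}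
    (hA : A.LiesOverPrime ℓ) {σ : GQ} (hσ : A.IsFrobeniusAt σ ℓ) :
    (L₀.D.rbar σ).det = (ℓ : ResidueField O) := by
  rw [H.detbar, epsilon_frobenius hℓ hℓp hA hσ, map_natCast, map_natCast]

/-- `p` is in `Sigma`. -/
theorem p_mem_sigma : p ∈ L₀.Sigma := H.sigma p Fact.out (dvd_mul_left p N₀)

/-- The residual system is not Eisenstein at any level. -/
theorem exists_nonEisenstein (S : Finset ℕ) (hS : L₀.Sigma ⊆ S) {M : ℕ} (hM : 0 < M) :
    ∃ r : ℕ, r.Prime ∧ (r : ZMod M) = 1 ∧ r ≠ p ∧ r ∉ S ∧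
      residue O (lam r) ≠ (r : ResidueField O) + 1 := by
  obtain ⟨r, hr, hrS, hr1, Pl, hPl, τ, hτ, hne⟩ := TRep.exists_prime_trace_ne (Field.toIsField _)
    L₀.D.rbar H.cont.finite_level H.span S (fun ℓ hℓ hℓS Pl hPl τ hτ =>
      H.detbar_frob hℓ (fun h => hℓS (hS (h ▸ H.p_mem_sigma))) hPl hτ) M hM
  refine ⟨r, hr, hr1, fun h => hrS (hS (h ▸ H.p_mem_sigma)), hrS, ?_⟩
  rwa [H.trace_frob r hr (fun h => hrS (hS h)) Pl hPl τ hτ] at hne

/-- `2` is a unit in `O`. -/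
theorem two : IsUnit (2 : O) := by
  by_contra h
  have h3 := H.three_le
  obtain ⟨k, hk⟩ : Odd p := (Fact.out : p.Prime).odd_of_ne_two (by omega)
  have h1 : ((p : O) - 2 * (k : O)) ∈ maximalIdeal O :=
    sub_mem H.p_mem (Ideal.mul_mem_right _ _ h)
  rw [hk] at h1
  push_cast at h1
  rw [add_sub_cancel_left] at h1
  exact h1 isUnit_one

/-- `3` is a unit in `O` when `p ≠ 3`. -/
theorem three_unit (hp3 : p ≠ 3) : IsUnit (3 : O) := by
  by_contra h
  have hk1 : Nat.Coprime 3 p := (Nat.coprime_primes Nat.prime_three Fact.out).mpr (Ne.symm hp3)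
  obtain ⟨a, b, hab⟩ : IsCoprime ((3 : ℕ) : ℤ) (p : ℤ) := Nat.isCoprime_iff_coprime.mpr hk1
  have h1 : ((a * 3 + b * p : ℤ) : O) ∈ maximalIdeal O := by
    push_cast
    exact add_mem (Ideal.mul_mem_left _ _ h) (Ideal.mul_mem_left _ _ H.p_mem)
  rw [show (a * 3 + b * p : ℤ) = 1 by simpa using hab, Int.cast_one] at h1
  exact h1 isUnit_one

/-- The lifting criterion over an algebra of the base ring. -/
theorem liftable {M : ℕ} (hM : ThreeOK p M) (A : Type) [CommRing A] [Algebra O A] :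
    Liftable A M :=
  liftable_of A M (Or.inl (by simpa only [map_ofNat] using H.two.map (algebraMap O A)))
    (hM.imp_left fun h3 => by simpa only [map_ofNat] using (H.three_unit h3).map (algebraMap O A))

/-- Localised classes with an even character are exact over every algebra of the base ring. -/
theorem exactHyp {Λ : Type} [CommRing Λ] [IsLocalRing Λ] [IsNoetherianRing Λ]
    [IsAdicComplete (maximalIdeal Λ) Λ] [Algebra O Λ] [IsLocalHom (algebraMap O Λ)]
    (hsΛ : Function.Surjective (residue Λ ∘ algebraMap O Λ)) {S : Finset ℕ} (hS : L₀.Sigma ⊆ S)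
    (ψ : ∀ q : ℕ, (ZMod q)ˣ →* Λ) (Q : Finset ℕ) (M : ℕ) [NeZero M]
    (hM : ThreeOK p M) (hodd : ∀ q ∈ Q, ψ q (-1) = 1) :
    ExactHyp (awayMonoid (TRep.lamIdeal hsΛ S lam)) (TRep.charSq ψ Q M) := by
  obtain ⟨r, hr, hr1, -, hrS, hne⟩ := H.exists_nonEisenstein S hS (Nat.pos_of_ne_zero (NeZero.ne M))
  have : Fact r.Prime := ⟨hr⟩
  refine ⟨⟨r, hr, hr1, eisen_mem_awayMonoid (show r ∉ (↑S : Set ℕ) from hrS) fun h => hne ?_⟩,
    H.liftable hM Λ, ?_⟩
  · have h' : TRep.lamHom O Λ hsΛ S lam _ = 0 := h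
    rw [awayX, map_sub, TRep.lamHom_X, TRep.lamHom_C, map_add, map_natCast, map_one,
      sub_eq_zero] at h'
    exact h'
  · rw [TRep.charSq_apply]
    refine Finset.prod_eq_one fun q hq => ?_
    unfold TRep.charOn
    split
    · rw [MonoidHom.comp_apply, show ZMod.unitsMap ‹q ∣ M› (-1) = -1 from
        Units.ext (by simp [ZMod.unitsMap]), hodd q hq, one_pow]
    · exact one_pow _

end BaseSetting

end Fermat.Agent.Engine
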