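import Fermat.Agent.Engine.Levels
import Fermat.Agent.Engine.TW.Main

/-!
# Auxiliary levels from Taylor–Wiles primes

`AuxPrimes` records the primes behind `AuxLevels`: level `n` allows ramification at `r` further
primes `q ≡ 1 (mod p ^ (n + 1))` with distinct residual Frobenius eigenvalues, `tw n i` being a tame
generator at the `i`th of them.  `exists_auxLevels_of_coords` assembles the levels from local
coordinates (with any number of further generators); `exists_auxLevels` is the case of a closed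
condition at `p`, fed by `exists_taylorWiles_system_of`.
-/

set_option autoImplicit false

noncomputable section

open IsLocalRing GaloisRep Fermat.Agent.DefRing Fermat.Agent.Deform

namespace Fermat.Agent.Engine

local notation "Qbar" => AlgebraicClosure ℚ

variable {O : Type} [CommRing O] [IsLocalRing O]

/-- The primes and tame generators of auxiliary levels. -/
structure AuxPrimes (p : ℕ) {r : ℕ} {T : Type} [Fintype T] {r₀ : T} {frob tame : T → GQ}
    {Φ₀ : T → Matrix (Fin 2) (Fin 2) O} {L₀ : LevelData O} {PB : L₀.RepRing}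
    (X : AuxLevels r r₀ frob tame Φ₀ L₀ PB) (Q : ℕ → Fin r → ℕ) : Prop where
  injective : ∀ n, Function.Injective (Q n)
  prime : ∀ n i, (Q n i).Prime
  ne_p : ∀ n i, Q n i ≠ p
  not_mem : ∀ n i, Q n i ∉ L₀.Sigma
  dvd_sub_one : ∀ n i, p ^ (n + 1) ∣ Q n i - 1
  distinct : ∀ n i, ∀ A : ValuationSubring Qbar, A.LiesOverPrime (Q n i) →
    ∀ φ : GQ, A.IsFrobeniusAt φ (Q n i) →
      (L₀.D.rbar φ).trace ^ 2 ≠ 4 * (L₀.D.rbar φ).det
  sigma_eq : ∀ n, X.Sigma n = L₀.Sigma ∪ Finset.univ.image (Q n)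
  tame_generator : ∀ n i, ∃ A : ValuationSubring Qbar, A.LiesOverPrime (Q n i) ∧
    TameInertia.IsTameGenerator A p (Q n i) (X.tw n i)

namespace LevelData

variable {L : LevelData O}

/-- The residual representation satisfies weaker conditions. -/
theorem IsResidual.withSigma (h : L.IsResidual) {S : Finset ℕ} (hS : L.Sigma ⊆ S) :
    (L.withSigma S).IsResidual :=
  ⟨h.cont, ⟨h.eqs.det, fun q hq hqS => h.eqs.unram q hq fun hm => hqS (hS hm), h.eqs.unipotent⟩,
    h.atPlace⟩

/-- A lift of a level is a lift of every level allowing more ramification. -/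
theorem IsRepLift.withSigma {S : Finset ℕ} (hS : L.Sigma ⊆ S) {A : Type} [CommRing A]
    [IsLocalRing A] [Algebra O A] {hl : IsLocalHom (algebraMap O A)}
    {hs : Function.Surjective (residue A ∘ algebraMap O A)} {N : MRep A}
    (h : L.IsRepLift hl hs N) : (L.withSigma S).IsRepLift hl hs N :=
  ⟨h.normal, h.reduces, h.cont,
    ⟨h.eqs.det, fun q hq hqS => h.eqs.unram q hq fun hm => hqS (hS hm), h.eqs.unipotent⟩,
    h.atPlace⟩

/-- The ring of a level is a quotient of the ring of a level allowing more ramification. -/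
theorem RepRing.exists_map_of_subset {S : Finset ℕ} (hS : L.Sigma ⊆ S)
    (P : (L.withSigma S).RepRing) (PB : L.RepRing) :
    ∃ φ : P.R →ₐ[O] PB.R, IsLocalHom (φ : P.R →+* PB.R) ∧ Function.Surjective φ ∧
      ∀ σ, (P.rep σ).map φ = PB.rep σ := by
  obtain ⟨φ, ⟨hφl, hφ⟩, -⟩ :=
    P.universal PB.R PB.instIsLocalHom PB.residue_surjective PB.rep (PB.isLift.withSigma hS)
  have := hφl
  refine ⟨φ, hφl, surjective_of_cotangent (φ : P.R →+* PB.R) (fun z => ?_) (fun x hx => ?_),
    fun σ => DFunLike.congr_fun hφ σ⟩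
  · obtain ⟨o, ho⟩ := PB.residue_surjective z
    exact ⟨algebraMap O _ o, by rw [← ho]; exact congrArg (residue PB.R) (φ.commutes o)⟩
  · obtain ⟨s, hs, hxs⟩ := PB.topGen x 2
    have hle : Algebra.adjoin O (entries PB.rep) ≤ φ.range := Algebra.adjoin_le (by
      rintro _ ⟨⟨σ, a, b⟩, rfl⟩
      exact ⟨P.rep σ a b, congrFun (congrFun (DFunLike.congr_fun hφ σ) a) b⟩)
    obtain ⟨t, rfl⟩ := hle hs
    have ht : t ∈ maximalIdeal P.R := fun hu => by
      have h1 : φ t ∈ maximalIdeal PB.R := by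
        have := sub_mem hx (Ideal.pow_le_self two_ne_zero hxs)
        simpa using this
      exact h1 (hu.map φ)
    exact Submodule.mem_sup.mpr ⟨_, Ideal.mem_map_of_mem _ ht, _, hxs, by simp⟩

end LevelData

/-- Auxiliary levels from auxiliary primes and local coordinates at each level. -/
theorem exists_auxLevels_of_coords (p : ℕ) (hp : p.Prime) {r : ℕ} {T : Type} [Fintype T] (r₀ : T)
    (frob tame : T → GQ) (Φ₀ : T → Matrix (Fin 2) (Fin 2) O) (L₀ : LevelData O) (PB : L₀.RepRing)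
    {g : ℕ} (hg : g + 1 = r + Fintype.card T) (Q : ℕ → Fin r → ℕ)
    (hinj : ∀ n, Function.Injective (Q n)) (hprime : ∀ n i, (Q n i).Prime)
    (hne : ∀ n i, Q n i ≠ p) (hmem : ∀ n i, Q n i ∉ L₀.Sigma)
    (hdvd : ∀ n i, p ^ (n + 1) ∣ Q n i - 1)
    (hdist : ∀ n i, ∀ A : ValuationSubring Qbar, A.LiesOverPrime (Q n i) →
      ∀ φ : GQ, A.IsFrobeniusAt φ (Q n i) →
        (L₀.D.rbar φ).trace ^ 2 ≠ 4 * (L₀.D.rbar φ).det)
    (P : ∀ n, (L₀.withSigma (L₀.Sigma ∪ Finset.univ.image (Q n))).RepRing) (nExtra : ℕ)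
    (extra : ∀ n, Fin nExtra → (P n).R) (hextra : ∀ n i, extra n i ∈ maximalIdeal (P n).R)
    (θ : ∀ n, LocRing O T g →ₐ[O] (P n).Framed r₀)
    (hθl : ∀ n, IsLocalHom (θ n : LocRing O T g →+* (P n).Framed r₀))
    (hgen : ∀ n, ∃ Φ : MvPowerSeries (Fin nExtra) (LocRing O T g) →+* (P n).Framed r₀,
      Function.Surjective Φ ∧ (∀ x, Φ (MvPowerSeries.C x) = θ n x) ∧
        ∀ i, Φ (MvPowerSeries.X i) = MvPowerSeries.C (extra n i))
    (hθ : ∀ n v,
      (locFrob (g := g) Φ₀ v).map (θ n) = framedRep r₀ (P n).R (P n).rep v (frob v) ∧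
      (locMono (g := g) (O := O) v).map (θ n) = framedRep r₀ (P n).R (P n).rep v (tame v) - 1) :
    ∃ X : AuxLevels r r₀ frob tame Φ₀ L₀ PB, X.nExtra = nExtra ∧ AuxPrimes p X Q := by
  choose toBase hl hsur hrep using fun n =>
    LevelData.RepRing.exists_map_of_subset Finset.subset_union_left (P n) PB
  choose A hA using fun n i => Frobenius.exists_liesOverPrime Qbar (hprime n i)
  choose tw htw using fun n i =>
    TameInertia.exists_tameGenerator hp (hprime n i) (Ne.symm (hne n i)) (hA n i)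
  have hbase : ∀ n i, (PB.rep (tw n i)).trace = 2 := fun n i => by
    rw [PB.isLift.eqs.unram _ (hprime n i) (hmem n i) _ (hA n i) _ (htw n i).1, Matrix.trace_one,
      Fintype.card_fin, Nat.cast_ofNat]
  exact ⟨{ g := g
           g_eq := hg
           Sigma := fun n => L₀.Sigma ∪ Finset.univ.image (Q n)
           P := P
           θ := θ
           θ_isLocalHom := hθl
           nExtra := nExtra
           extra := extra
           extra_mem := hextra
           generates := hgen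
           θ_spec := hθ
           toBase := toBase
           toBase_isLocalHom := hl
           toBase_surjective := hsur
           toBase_rep := hrep
           tw := tw
           tw_base := hbase }, rfl,
    ⟨hinj, hprime, hne, hmem, hdvd, hdist, fun _ => rfl, fun n i => ⟨A n i, hA n i, htw n i⟩⟩⟩

/-- Tangent pairs of a smaller level are tangent pairs of a larger one. -/
theorem IsTangentPair.mono {k : Type} [Field k] {p : ℕ} {ρ : MRep k} {Smin S S' T : Finset ℕ}
    {C : LocalChoices T} {atP : CondAtP ρ p} {x : TangentPair k T} (hS : S ⊆ S')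
    (h : IsTangentPair ρ Smin S T C atP x) : IsTangentPair ρ Smin S' T C atP x :=
  ⟨h.1, fun q hq hqS => h.2.1 q hq fun hm => hqS (hS hm), h.2.2.1, h.2.2.2.1, h.2.2.2.2⟩

/-- The auxiliary levels for a closed condition at `p`, given the auxiliary primes and the framed
bound. -/
theorem exists_auxLevels_of_bound [Finite (ResidueField O)] [IsNoetherianRing O]
    [IsAdicComplete (maximalIdeal O) O] (p : ℕ) (hp : p.Prime) (h2 : (2 : ResidueField O) ≠ 0)
    (L₀ : LevelData O) (PB : L₀.RepRing) (h₀ : L₀.IsResidual) (atP : CondAtP L₀.D.rbar p)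
    (hfirst : ∀ N : MRep (DualNumber (ResidueField O)), IsCont N →
      (∀ σ, (N σ).map TrivSqZeroExt.fst = L₀.D.rbar σ) →
      (∀ σ, (cocOf L₀.D.rbar N σ).trace = 0) →
      (letI := dualAlgebra (𝒪 := O); L₀.atPlace.mem (L₀.atCoords N)) →
      (fun σ : atP.place.decompositionSubgroup ℚ => cocOf L₀.D.rbar N (σ : GQ)) ∈ atP.cond)
    (T : Finset ℕ) (C : LocalChoices T) (r₀ : T) (htame : ∀ v, L₀.D.rbar (C.tame v) = 1)
    (Φ₀ : T → Matrix (Fin 2) (Fin 2) O)
    (hΦ₀ : ∀ v, (Φ₀ v).map (residue O) = L₀.D.rbar (C.frob v))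
    {r : ℕ} (Q : ℕ → Fin r → ℕ)
    (hinj : ∀ n, Function.Injective (Q n)) (hprime : ∀ n i, (Q n i).Prime)
    (hne : ∀ n i, Q n i ≠ p) (hmem : ∀ n i, Q n i ∉ L₀.Sigma)
    (hdvd : ∀ n i, p ^ (n + 1) ∣ Q n i - 1)
    (hdist : ∀ n i, ∀ A : ValuationSubring Qbar, A.LiesOverPrime (Q n i) →
      ∀ φ : GQ, A.IsFrobeniusAt φ (Q n i) →
        (L₀.D.rbar φ).trace ^ 2 ≠ 4 * (L₀.D.rbar φ).det)
    (hbound : ∀ n, ∀ W : Submodule (ResidueField O) (TangentPair (ResidueField O) T),
      (∀ x ∈ W,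
        IsTangentPair L₀.D.rbar L₀.Smin (L₀.Sigma ∪ Finset.univ.image (Q n)) T C atP x) →
      FiniteDimensional (ResidueField O) W ∧
        Module.finrank (ResidueField O) W ≤ r + T.card + 3) :
    ∃ X : AuxLevels r r₀ C.frob C.tame Φ₀ L₀ PB, X.nExtra = 0 ∧ AuxPrimes p X Q := by
  have hT : 0 < T.card := Finset.card_pos.2 ⟨_, r₀.2⟩
  have hres : ∀ n, (L₀.withSigma (L₀.Sigma ∪ Finset.univ.image (Q n))).IsResidual := fun n =>
    h₀.withSigma Finset.subset_union_left
  let P := fun n => Classical.choice (LevelData.nonempty_repRing (hres n))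
  let := dualAlgebra (𝒪 := O)
  choose θ hθl hθs hθ using fun n =>
    LevelData.exists_surjective_locRing_lift (L := L₀.withSigma (L₀.Sigma ∪ Finset.univ.image (Q n)))
      (P n).instIsLocalHom (P n).residue_surjective (P n).rep (P n).isLift.normal
      (P n).isLift.reduces (P n).isLift.cont (P n).isLift.eqs (fun x => (P n).topGen x 2) h2 (hres n)
      atP (fun φ hfst htr => hfirst _
        ((P n).isLift.cont.map (φ : (P n).R →+* DualNumber (ResidueField O)) (isLocalHom_toDual φ))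
        hfst htr ((P n).isLift.atPlace.mem_of_hom (P n).instIsLocalHom (P n).residue_surjective
          isArtinianTestAlgebra_dual φ (isLocalHom_toDual φ))) T C r₀
      (g := r + T.card - 1) (fun W hW => by
        obtain ⟨h1, h2⟩ := hbound n W hW
        exact ⟨h1, by omega⟩) htame Φ₀ hΦ₀
  refine exists_auxLevels_of_coords p hp r₀ C.frob C.tame Φ₀ L₀ PB
    (g := r + T.card - 1) (by rw [Fintype.card_coe]; omega) Q hinj hprime hne hmem hdvd hdist P 0
    (fun _ => Fin.elim0) (fun _ i => i.elim0) θ hθl (fun n => ?_) hθ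
  refine ⟨(θ n : LocRing O T (r + T.card - 1) →+* (P n).Framed r₀).comp
    MvPowerSeries.constantCoeff, fun z => ?_, fun x => ?_, fun i => i.elim0⟩
  · obtain ⟨x, rfl⟩ := hθs n z
    exact ⟨MvPowerSeries.C x, by simp⟩
  · simp

/-- **Auxiliary levels exist** for a closed condition at `p`. -/
theorem exists_auxLevels [Finite (ResidueField O)] [IsNoetherianRing O]
    [IsAdicComplete (maximalIdeal O) O] (p : ℕ) [Fact p.Prime] (hp : 5 ≤ p)
    [CharP (ResidueField O) p] (hinv : GalCoh.Reciprocity p) (hGW : GalCoh.GreenbergWilesLe p)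
    (L₀ : LevelData O) (PB : L₀.RepRing) (h₀ : L₀.IsResidual)
    (habs : ∀ (K : Type) [Field K] [Algebra (ResidueField O) K] (G : Subgroup GQ),
      G.index = 1 ∨ G.index = 2 → ∀ V : Submodule K (Fin 2 → K),
        (∀ σ ∈ G, ∀ x ∈ V,
          ((L₀.D.rbar σ).map (algebraMap (ResidueField O) K)).mulVec x ∈ V) → V = ⊥ ∨ V = ⊤)
    (χ : GQ → ResidueField O) (hχ : IsCyclotomicModP p χ)
    (hdet : ∀ σ, (L₀.D.rbar σ).det = χ σ)
    (hvan : (∃ σ, ∃ c : ResidueField O, L₀.D.rbar σ = c • 1 ∧ χ σ ≠ 1) ∨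
      ¬ p ∣ (Set.range L₀.D.rbar).ncard)
    (atP : CondAtP L₀.D.rbar p)
    (hfirst : ∀ N : MRep (DualNumber (ResidueField O)), IsCont N →
      (∀ σ, (N σ).map TrivSqZeroExt.fst = L₀.D.rbar σ) →
      (∀ σ, (cocOf L₀.D.rbar N σ).trace = 0) →
      (letI := dualAlgebra (𝒪 := O); L₀.atPlace.mem (L₀.atCoords N)) →
      (fun σ : atP.place.decompositionSubgroup ℚ => cocOf L₀.D.rbar N (σ : GQ)) ∈ atP.cond)
    (T : Finset ℕ) (hpS : p ∉ L₀.Smin ∧ p ∉ T) (hdisj : Disjoint L₀.Smin T)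
    (hprime : ∀ q ∈ L₀.Smin ∪ T, q.Prime) (hSigma : L₀.Sigma = L₀.Smin ∪ T ∪ {p})
    (hram : ∀ q ∈ L₀.Smin, ∃ A : ValuationSubring Qbar, A.LiesOverPrime q ∧
      ∃ σ ∈ A.inertiaSubgroupIn ℚ, L₀.D.rbar σ ≠ 1)
    (hunr : ∀ q : ℕ, q.Prime → q ∉ L₀.Smin → q ≠ p →
      ∀ A : ValuationSubring Qbar, A.LiesOverPrime q →
        ∀ σ ∈ A.inertiaSubgroupIn ℚ, L₀.D.rbar σ = 1)
    (C : LocalChoices T) (hC : C.Valid p) (r₀ : T) (Φ₀ : T → Matrix (Fin 2) (Fin 2) O)
    (hΦ₀ : ∀ v, (Φ₀ v).map (residue O) = L₀.D.rbar (C.frob v)) :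
    ∃ r, T.card ≤ r ∧ ∃ (Q : ℕ → Fin r → ℕ) (X : AuxLevels r r₀ C.frob C.tame Φ₀ L₀ PB),
      X.nExtra = 0 ∧ AuxPrimes p X Q := by
  obtain ⟨r, hr, hQ⟩ := exists_taylorWiles_system_of p hp hinv hGW L₀.D.rbar h₀.cont.finite_level
    habs χ hχ hdet hvan atP L₀.Smin T hpS hdisj hprime h₀.eqs.unipotent hram hunr C hC
  choose S hcard hS hbound using hQ
  let Q : ℕ → Fin r → ℕ := fun n i => ((S n).equivFinOfCardEq (hcard n)).symm i
  have hQmem : ∀ n i, Q n i ∈ S n := fun n i => (((S n).equivFinOfCardEq (hcard n)).symm i).2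
  have himage : ∀ n, Finset.univ.image (Q n) = S n := fun n => Finset.ext fun q => by
    simp only [Finset.mem_image, Finset.mem_univ, true_and]
    exact ⟨fun ⟨i, hi⟩ => hi ▸ hQmem n i,
      fun hq => ⟨(S n).equivFinOfCardEq (hcard n) ⟨q, hq⟩, by simp [Q]⟩⟩
  have h2 : (2 : ResidueField O) ≠ 0 := fun h => by
    have h' : ((2 : ℕ) : ResidueField O) = 0 := by simpa using h
    have := Nat.le_of_dvd two_pos ((CharP.cast_eq_zero_iff _ p 2).mp h')
    omega
  refine ⟨r, hr, Q, exists_auxLevels_of_bound p Fact.out h2 L₀ PB h₀ atP hfirst T C r₀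
    (fun v => ?_) Φ₀ hΦ₀ Q
    (fun n i j h => ((S n).equivFinOfCardEq (hcard n)).symm.injective (Subtype.ext h))
    (fun n i => (hS n _ (hQmem n i)).1) (fun n i => (hS n _ (hQmem n i)).2.2.1) (fun n i => ?_)
    (fun n i => (hS n _ (hQmem n i)).2.2.2.1) (fun n i => (hS n _ (hQmem n i)).2.2.2.2)
    fun n W hW => hbound n W fun x hx => ?_⟩
  · obtain ⟨A, hA, -, hin, -⟩ := hC v
    exact hunr _ (hprime _ (Finset.mem_union_right _ v.2))
      (fun h => Finset.disjoint_left.1 hdisj h v.2) (fun h => hpS.2 (h ▸ v.2)) A hA _ hin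
  · obtain ⟨-, h1, h2', -⟩ := hS n _ (hQmem n i)
    simp only [hSigma, Finset.mem_union, Finset.mem_singleton, not_or] at h1 ⊢
    exact ⟨h1, h2'⟩
  · refine IsTangentPair.mono ?_ (hW x hx)
    rw [himage, hSigma]
    intro q hq
    simp only [Finset.mem_union, Finset.mem_singleton] at hq ⊢
    tauto

end Fermat.Agent.Engine
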