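import Fermat.Agent.Engine.FlatLevels
import Fermat.Agent.Engine.AuxLevels

/-!
# Auxiliary levels with the flat condition at `p`

`exists_flat_auxLevels` builds the levels from auxiliary primes and, at each level, a kernel with
Fontaine's bound alone: no Hecke module is needed.  `FlatLevelsNil` is what it records about the
further generators; `FlatLevelsNil.extra_nil` turns it into `LoweringLevels.extra_nil` for any pair
of actions through Hecke rings in which the entries on the kernels are divisible by `p` at every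
point.
-/

set_option autoImplicit false
set_option linter.unusedSectionVars false

noncomputable section

open IsLocalRing GaloisRep Fermat.Agent.DefRing Fermat.Agent.Deform

namespace Fermat.Agent.Engine

local notation "Qbar" => AlgebraicClosure ℚ

/-- The ideal of the entries of `rep σ - 1`, `σ` in `N`. -/
def kernelEntries {R : Type} [CommRing R] (ρ : MRep R) (N : Subgroup GQ) : Ideal R :=
  Ideal.span {x | ∃ σ ∈ N, ∃ a b, x = (ρ σ - 1) a b}

/-- The entries of `ρ σ - 1` for `σ` in the subgroup lie in its ideal of kernel entries. -/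
theorem entry_mem_kernelEntries {R : Type} [CommRing R] {ρ : MRep R} {N : Subgroup GQ} {σ : GQ}
    (hσ : σ ∈ N) (a b : Fin 2) : (ρ σ - 1) a b ∈ kernelEntries ρ N :=
  Ideal.subset_span ⟨σ, hσ, a, b, rfl⟩

variable {O : Type} [CommRing O] [IsLocalRing O] {r : ℕ} {T : Type} [Fintype T] {r₀ : T}
  {frob tame : T → GQ} {Φ₀ : T → Matrix (Fin 2) (Fin 2) O} {L₀ : LevelData O} {PB : L₀.RepRing}

/-- The further generators of flat levels with kernels `N n`. -/
def FlatLevelsNil (p : ℕ) (X : AuxLevels r r₀ frob tame Φ₀ L₀ PB) (N : ℕ → Subgroup GQ) : Prop :=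
  ∀ n {M : ℕ} (J : Ideal (X.P n).R),
    (∀ x ∈ kernelEntries (X.P n).rep (N n), x ^ M ∈ Ideal.span {((p : ℕ) : (X.P n).R)} ⊔ J) →
    ∀ i, (MvPowerSeries.C (X.extra n i) : (X.P n).Framed r₀) ^ (1 + (X.nExtra * M + 1)) ∈
      Ideal.span (Set.image (X.θ n)
          {x : LocRing O T X.g | MvPowerSeries.constantCoeff x ∈ maximalIdeal O}) ⊔
        J.map MvPowerSeries.C

section Build

variable [IsDomain O] [CharZero O] [IsNoetherianRing O] [IsAdicComplete (maximalIdeal O) O]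
  [Finite (ResidueField O)]

/-- **Flat auxiliary levels exist**, given the auxiliary primes and the framed bound. -/
theorem exists_flat_auxLevels (p : ℕ) [Fact p.Prime] [CharP (ResidueField O) p]
    (h2 : (2 : ResidueField O) ≠ 0) (L₀ : LevelData O) (PB : L₀.RepRing) (h₀ : L₀.IsResidual)
    (atP : CondAtP L₀.D.rbar p)
    (hatP : ∀ c : GQ → Matrix (Fin 2) (Fin 2) (ResidueField O), IsAdCocycle L₀.D.rbar c →
      ∀ N : Subgroup GQ, FlatJ0.IsBoundKernel atP.place p N L₀.D.rbar → (∀ σ ∈ N, c σ = 0) →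
        (fun g : atP.place.decompositionSubgroup ℚ => c g) ∈ atP.cond)
    (T : Finset ℕ) (C : LocalChoices T) (r₀ : T) (htame : ∀ v, L₀.D.rbar (C.tame v) = 1)
    (Φ₀ : T → Matrix (Fin 2) (Fin 2) O)
    (hΦ₀ : ∀ v, (Φ₀ v).map (residue O) = L₀.D.rbar (C.frob v))
    {r : ℕ} (Q : ℕ → Fin r → ℕ)
    (hinj : ∀ n, Function.Injective (Q n)) (hprime : ∀ n i, (Q n i).Prime)
    (hne : ∀ n i, Q n i ≠ p) (hmem : ∀ n i, Q n i ∉ L₀.Sigma)
    (hdvd : ∀ n i, p ^ (n + 1) ∣ Q n i - 1)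
    (hdist : ∀ n i, ∀ A : ValuationSubring Qbar, A.LiesOverPrime (Q n i) →
      ∀ φ : GQ, A.IsFrobeniusAt φ (Q n i) →
        (L₀.D.rbar φ).trace ^ 2 ≠ 4 * (L₀.D.rbar φ).det)
    (hbound : ∀ n, ∀ W : Submodule (ResidueField O) (TangentPair (ResidueField O) T),
      (∀ x ∈ W,
        IsTangentPair L₀.D.rbar L₀.Smin (L₀.Sigma ∪ Finset.univ.image (Q n)) T C atP x) →
      FiniteDimensional (ResidueField O) W ∧
        Module.finrank (ResidueField O) W ≤ r + T.card + 3)
    (N : ℕ → Subgroup GQ) (hN : ∀ n, FlatJ0.IsBoundKernel atP.place p (N n) L₀.D.rbar) :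
    ∃ X : AuxLevels r r₀ C.frob C.tame Φ₀ L₀ PB, AuxPrimes p X Q ∧ FlatLevelsNil p X N := by
  have hT : 0 < T.card := Finset.card_pos.2 ⟨_, r₀.2⟩
  obtain ⟨G, hG⟩ := IsNoetherian.noetherian (maximalIdeal PB.R)
  have hres : ∀ n, (L₀.withSigma (L₀.Sigma ∪ Finset.univ.image (Q n))).IsResidual := fun n =>
    h₀.withSigma Finset.subset_union_left
  let P := fun n => Classical.choice (LevelData.nonempty_repRing (hres n))
  have hKm : ∀ n, kernelEntries (P n).rep (N n) ≤ maximalIdeal (P n).R := fun n => by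
    refine Ideal.span_le.2 ?_
    rintro _ ⟨σ, hσ, a, b, rfl⟩
    show ((P n).rep σ - 1) a b ∈ maximalIdeal (P n).R
    rw [← toResidue_eq_zero_iff (P n).instIsLocalHom (P n).residue_surjective, Matrix.sub_apply,
      map_sub, show toResidue (P n).instIsLocalHom (P n).residue_surjective ((P n).rep σ a b) =
        L₀.D.rbar σ a b from
        congrFun (congrFun (DFunLike.congr_fun (P n).isLift.reduces σ) a) b,
      (hN n).trivial σ hσ]
    rw [Matrix.one_apply, Matrix.one_apply]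
    split_ifs <;> simp
  choose extra θ hext hθl hgen hθ hnil using fun n =>
    exists_flat_coords (p := p) h2 L₀ h₀ PB G hG atP hatP T C r₀ htame Φ₀ hΦ₀ (Q n) (hprime n) (hne n)
      (hmem n) (hbound n) (P n) _ (hKm n) (hN n) fun σ hσ => entry_mem_kernelEntries hσ
  choose toBase hl hsur hrep using fun n =>
    LevelData.RepRing.exists_map_of_subset Finset.subset_union_left (P n) PB
  choose A hA using fun n i => Frobenius.exists_liesOverPrime Qbar (hprime n i)
  choose tw htw using fun n i => TameInertia.exists_tameGenerator (Fact.out : p.Prime) (hprime n i)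
    (Ne.symm (hne n i)) (hA n i)
  have hbase : ∀ n i, (PB.rep (tw n i)).trace = 2 := fun n i => by
    rw [PB.isLift.eqs.unram _ (hprime n i) (hmem n i) _ (hA n i) _ (htw n i).1, Matrix.trace_one,
      Fintype.card_fin, Nat.cast_ofNat]
  let X : AuxLevels r r₀ C.frob C.tame Φ₀ L₀ PB :=
    { g := r + T.card - 1
      g_eq := by rw [Fintype.card_coe]; omega
      Sigma := fun n => L₀.Sigma ∪ Finset.univ.image (Q n)
      P := P
      θ := θ
      θ_isLocalHom := hθl
      nExtra := G.card + r * 4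
      extra := extra
      extra_mem := hext
      generates := hgen
      θ_spec := hθ
      toBase := toBase
      toBase_isLocalHom := hl
      toBase_surjective := hsur
      toBase_rep := hrep
      tw := tw
      tw_base := hbase }
  exact ⟨X, ⟨hinj, hprime, hne, hmem, hdvd, hdist, fun _ => rfl,
    fun n i => ⟨A n i, hA n i, htw n i⟩⟩, fun n {M} J hJ i => hnil n J hJ i⟩

/-- **Flat auxiliary levels exist**, the kernel at level `n` depending on the auxiliary primes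
through their set. -/
theorem exists_flat_auxLevels_tw (p : ℕ) [Fact p.Prime] (hp : 5 ≤ p)
    [CharP (ResidueField O) p] (hinv : GalCoh.Reciprocity p) (hGW : GalCoh.GreenbergWilesLe p)
    (L₀ : LevelData O) (PB : L₀.RepRing) (h₀ : L₀.IsResidual)
    (habs : ∀ (K : Type) [Field K] [Algebra (ResidueField O) K] (G : Subgroup GQ),
      G.index = 1 ∨ G.index = 2 → ∀ V : Submodule K (Fin 2 → K),
        (∀ σ ∈ G, ∀ x ∈ V,
          ((L₀.D.rbar σ).map (algebraMap (ResidueField O) K)).mulVec x ∈ V) → V = ⊥ ∨ V = ⊤)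
    (χ : GQ → ResidueField O) (hχ : IsCyclotomicModP p χ)
    (hdet : ∀ σ, (L₀.D.rbar σ).det = χ σ)
    (hvan : (∃ σ, ∃ c : ResidueField O, L₀.D.rbar σ = c • 1 ∧ χ σ ≠ 1) ∨
      ¬ p ∣ (Set.range L₀.D.rbar).ncard)
    (atP : CondAtP L₀.D.rbar p)
    (hatP : ∀ c : GQ → Matrix (Fin 2) (Fin 2) (ResidueField O), IsAdCocycle L₀.D.rbar c →
      ∀ N : Subgroup GQ, FlatJ0.IsBoundKernel atP.place p N L₀.D.rbar → (∀ σ ∈ N, c σ = 0) →
        (fun g : atP.place.decompositionSubgroup ℚ => c g) ∈ atP.cond)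
    (N : Finset ℕ → Subgroup GQ)
    (hN : ∀ Q : Finset ℕ, (∀ q ∈ Q, q.Prime ∧ q ≠ p) →
      FlatJ0.IsBoundKernel atP.place p (N Q) L₀.D.rbar)
    (T : Finset ℕ) (hpS : p ∉ L₀.Smin ∧ p ∉ T) (hdisj : Disjoint L₀.Smin T)
    (hprime : ∀ q ∈ L₀.Smin ∪ T, q.Prime) (hSigma : L₀.Sigma = L₀.Smin ∪ T ∪ {p})
    (hram : ∀ q ∈ L₀.Smin, ∃ A : ValuationSubring Qbar, A.LiesOverPrime q ∧
      ∃ σ ∈ A.inertiaSubgroupIn ℚ, L₀.D.rbar σ ≠ 1)
    (hunr : ∀ q : ℕ, q.Prime → q ∉ L₀.Smin → q ≠ p →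
      ∀ A : ValuationSubring Qbar, A.LiesOverPrime q →
        ∀ σ ∈ A.inertiaSubgroupIn ℚ, L₀.D.rbar σ = 1)
    (C : LocalChoices T) (hC : C.Valid p) (r₀ : T) (Φ₀ : T → Matrix (Fin 2) (Fin 2) O)
    (hΦ₀ : ∀ v, (Φ₀ v).map (residue O) = L₀.D.rbar (C.frob v)) :
    ∃ r, T.card ≤ r ∧ ∃ (Q : ℕ → Fin r → ℕ) (X : AuxLevels r r₀ C.frob C.tame Φ₀ L₀ PB),
      AuxPrimes p X Q ∧ FlatLevelsNil p X fun n => N (Finset.univ.image (Q n)) := by
  obtain ⟨r, hr, hQ⟩ := exists_taylorWiles_system_of p hp hinv hGW L₀.D.rbar h₀.cont.finite_level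
    habs χ hχ hdet hvan atP L₀.Smin T hpS hdisj hprime h₀.eqs.unipotent hram hunr C hC
  choose S hcard hS hbound using hQ
  let Q : ℕ → Fin r → ℕ := fun n i => ((S n).equivFinOfCardEq (hcard n)).symm i
  have hQmem : ∀ n i, Q n i ∈ S n := fun n i => (((S n).equivFinOfCardEq (hcard n)).symm i).2
  have himage : ∀ n, Finset.univ.image (Q n) = S n := fun n => Finset.ext fun q => by
    simp only [Finset.mem_image, Finset.mem_univ, true_and]
    exact ⟨fun ⟨i, hi⟩ => hi ▸ hQmem n i,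
      fun hq => ⟨(S n).equivFinOfCardEq (hcard n) ⟨q, hq⟩, by simp [Q]⟩⟩
  have h2 : (2 : ResidueField O) ≠ 0 := fun h => by
    have h' : ((2 : ℕ) : ResidueField O) = 0 := by simpa using h
    have := Nat.le_of_dvd two_pos ((CharP.cast_eq_zero_iff _ p 2).mp h')
    omega
  refine ⟨r, hr, Q, exists_flat_auxLevels p h2 L₀ PB h₀ atP hatP T C r₀
    (fun v => ?_) Φ₀ hΦ₀ Q
    (fun n i j h => ((S n).equivFinOfCardEq (hcard n)).symm.injective (Subtype.ext h))
    (fun n i => (hS n _ (hQmem n i)).1) (fun n i => (hS n _ (hQmem n i)).2.2.1) (fun n i => ?_)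
    (fun n i => (hS n _ (hQmem n i)).2.2.2.1) (fun n i => (hS n _ (hQmem n i)).2.2.2.2)
    (fun n W hW => hbound n W fun x hx => ?_) (fun n => N (Finset.univ.image (Q n)))
    fun n => hN _ fun q hq => ?_⟩
  · obtain ⟨A, hA, -, hin, -⟩ := hC v
    exact hunr _ (hprime _ (Finset.mem_union_right _ v.2))
      (fun h => Finset.disjoint_left.1 hdisj h v.2) (fun h => hpS.2 (h ▸ v.2)) A hA _ hin
  · obtain ⟨-, h1, h2', -⟩ := hS n _ (hQmem n i)
    simp only [hSigma, Finset.mem_union, Finset.mem_singleton, not_or] at h1 ⊢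
    exact ⟨h1, h2'⟩
  · refine IsTangentPair.mono ?_ (hW x hx)
    rw [himage, hSigma]
    intro q hq
    simp only [Finset.mem_union, Finset.mem_singleton] at hq ⊢
    tauto
  · rw [himage] at hq
    exact ⟨(hS n q hq).1, (hS n q hq).2.2.1⟩

end Build

variable {O : Type} [CommRing O] [IsDomain O] [IsDiscreteValuationRing O] [CharZero O] {p : ℕ}
  [IsAdicComplete (maximalIdeal O) O] [Finite (ResidueField O)] [Fact p.Prime]
  {Φ₀ : T → Matrix (Fin 2) (Fin 2) O} {L₀ : LevelData O} {PB : L₀.RepRing}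

/-- **The field `LoweringLevels.extra_nil` of flat levels.** -/
theorem FlatLevelsNil.extra_nil {X : AuxLevels r r₀ frob tame Φ₀ L₀ PB} {N : ℕ → Subgroup GQ}
    (hX : FlatLevelsNil p X N) (hp : (p : O) ∈ maximalIdeal O) {C C' : ℕ → Type}
    [∀ n, CommRing (C n)] [∀ n, Algebra O (C n)] [∀ n, Algebra.IsIntegral O (C n)]
    [∀ n, CommRing (C' n)] [∀ n, Algebra O (C' n)] [∀ n, Algebra.IsIntegral O (C' n)]
    (ψ : ∀ n, (X.P n).R →ₐ[O] C n) (ψ' : ∀ n, (X.P n).R →ₐ[O] C' n)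
    (hψ : ∀ n, ∀ σ ∈ N n, ∀ a b, ((X.P n).rep σ - 1) a b ∈ flatIdeal p (ψ n))
    (hψ' : ∀ n, ∀ σ ∈ N n, ∀ a b, ((X.P n).rep σ - 1) a b ∈ flatIdeal p (ψ' n)) {d : ℕ}
    (π : ∀ n, C n →ₐ[O] Matrix (Fin d) (Fin d) (TwQuot O p r n))
    (π' : ∀ n, C' n →ₐ[O] Matrix (Fin d) (Fin d) (TwQuot O p r n))
    (act act' : ∀ n, (X.P n).R →+* Matrix (Fin d) (Fin d) (TwQuot O p r n))
    (hact : ∀ n x, act n x = π n (ψ n x)) (hact' : ∀ n x, act' n x = π' n (ψ' n x))
    (hsq : ∃ k : ℕ, ∀ n i, (twVar O p r n i ^ 2 •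
        (1 : Matrix (Fin d) (Fin d) (TwQuot O p r n)) -
      (1 + twVar O p r n i) • act n (((X.P n).rep (X.tw n i)).trace - 2)) ^ k = 0)
    (hsq' : ∃ k : ℕ, ∀ n i, (twVar O p r n i ^ 2 •
        (1 : Matrix (Fin d) (Fin d) (TwQuot O p r n)) -
      (1 + twVar O p r n i) • act' n (((X.P n).rep (X.tw n i)).trace - 2)) ^ k = 0) :
    ∀ i, ∃ k : ℕ, ∀ j : ℕ, ∃ n₀ : ℕ, ∀ n, n₀ ≤ n →
      (MvPowerSeries.C (X.extra n i) : (X.P n).Framed r₀) ^ k ∈
        Ideal.span (Set.image (X.θ n)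
            {x : LocRing O T X.g | MvPowerSeries.constantCoeff x ∈ maximalIdeal O}) ⊔
          (RingHom.ker ((Ideal.Quotient.mk ((maximalIdeal O).comap (twAug O p r n) ^ j)).mapMatrix.comp
              (act n)) ⊓
            RingHom.ker ((Ideal.Quotient.mk ((maximalIdeal O).comap (twAug O p r n) ^ j)).mapMatrix.comp
              (act' n))).map MvPowerSeries.C :=
  extra_nil_of_flat hp X ψ ψ' π π' act act' hact hact' hsq hsq' fun n {M} J hJ =>
    hX n J fun x hx => hJ x (Ideal.span_le.2 (by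
      rintro _ ⟨σ, hσ, a, b, rfl⟩
      exact ⟨hψ n σ hσ a b, hψ' n σ hσ a b⟩) hx)

end Fermat.Agent.Engine
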