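import Fermat.Agent.Engine.LoweringAct
import Fermat.Agent.Engine.FlatAux

/-!
# The lowering levels

`LoweringSetting.exists_loweringLevels`: the Hecke side of lowering over the auxiliary levels `X`.
The base action is the action on the localised classes of level `N₀` in a basis; the eigen systems
of the Hecke operators there are those of the base representation.
-/

set_option autoImplicit false
set_option linter.unusedSectionVars false

noncomputable section

namespace Fermat.Agent.Engine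

open EigenRep HeckeModule IsLocalRing DefRing Deform EigenSystems TRep FlatJ0

local notation "Qbar" => AlgebraicClosure ℚ

variable {p : ℕ} [Fact p.Prime] {O : Type} [CommRing O] [IsDomain O]
  [IsDiscreteValuationRing O] [IsAdicComplete (maximalIdeal O) O] [Finite (ResidueField O)]
  [CharZero O] {ι₀ : ℤ_[p] →+* O} {N₀ : ℕ} [NeZero N₀] {lam : ℕ → O} {r : ℕ} {T : Type} [Fintype T]
  {r₀ : T} {qv : T → ℕ} {frob tame : T → GQ} {Φ₀ : T → Matrix (Fin 2) (Fin 2) O}
  {L₀ : LevelData O} {PB : L₀.RepRing} {v : T} {ζ ζ' : O}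

/-- The arithmetic of the base level, without characters. -/
theorem BaseSetting.levelArith_base (H : BaseSetting p ι₀ N₀ lam L₀) :
    LevelArith p N₀ L₀ L₀.Sigma ∅ N₀ (fun _ => (1 : _ →* O)) where
  dvd := dvd_mul_right _ _
  p_not_dvd := by
    rw [Finset.prod_empty, mul_one, Nat.div_self (Nat.pos_of_ne_zero (NeZero.ne N₀))]
    exact fun h => (Fact.out : p.Prime).ne_one (Nat.dvd_one.mp h)
  aux q hq := absurd hq (Finset.notMem_empty q)
  sub := subset_rfl
  mem_S ℓ hℓ h := H.sigma ℓ hℓ (by simpa using h)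
  smin q hq := by simpa using (H.smin q hq).2.2.1
  pow_one q hq := absurd hq (Finset.notMem_empty q)

/-- No characters at no primes. -/
theorem charSq_empty {R : Type} [CommRing R] (ψ : ∀ q : ℕ, (ZMod q)ˣ →* R) (M : ℕ) :
    charSq ψ ∅ M = 1 := by
  unfold charSq
  exact Finset.prod_empty

/-- The classes at the base level are finite free and carry a matrix action of the algebra. -/
theorem BaseSetting.exists_baseAction (H : BaseSetting p ι₀ N₀ lam L₀)
    (hsO : Function.Surjective (residue O ∘ algebraMap O O))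
    (hbase : Nontrivial (CohLoc (awayMonoid (lamIdeal hsO L₀.Sigma lam))
      (scalarRep (1 : (ZMod N₀)ˣ →* O) O))) :
    ∃ d : ℕ, d ≠ 0 ∧ ∃ b : Module.Basis (Fin d) O (CohLoc
        (awayMonoid (lamIdeal hsO L₀.Sigma lam)) (scalarRep (1 : (ZMod N₀)ˣ →* O) O)),
      ∃ G₀ : TwAlg hsO L₀.Sigma lam (fun _ => 1) ∅ (fun _ : Unit => N₀) →ₐ[O]
          Matrix (Fin d) (Fin d) O,
        ∀ l : AwayIndex (↑L₀.Sigma : Set ℕ),
          G₀ (twClass hsO L₀.Sigma lam (fun _ => 1) ∅ (fun _ : Unit => N₀) (MvPolynomial.X l)) =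
            LinearMap.toMatrix b b (Algebra.lsmul O O (CohLoc
              (awayMonoid (lamIdeal hsO L₀.Sigma lam))
              (scalarRep (1 : (ZMod N₀)ˣ →* O) O)) (A := HeckePoly O) (MvPolynomial.X l.1)) := by
  have key : ∀ χ : (ZMod N₀)ˣ →* O, charSq (fun _ => (1 : _ →* O)) ∅ N₀ = χ →
      Nontrivial (CohLoc (awayMonoid (lamIdeal hsO L₀.Sigma lam)) (scalarRep χ O)) →
      ∃ d : ℕ, d ≠ 0 ∧ ∃ b : Module.Basis (Fin d) O
          (CohLoc (awayMonoid (lamIdeal hsO L₀.Sigma lam)) (scalarRep χ O)),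
        ∃ G₀ : TwAlg hsO L₀.Sigma lam (fun _ => 1) ∅ (fun _ : Unit => N₀) →ₐ[O]
            Matrix (Fin d) (Fin d) O,
          ∀ l : AwayIndex (↑L₀.Sigma : Set ℕ),
            G₀ (twClass hsO L₀.Sigma lam (fun _ => 1) ∅ (fun _ : Unit => N₀) (MvPolynomial.X l)) =
              LinearMap.toMatrix b b (Algebra.lsmul O O (CohLoc
                (awayMonoid (lamIdeal hsO L₀.Sigma lam)) (scalarRep χ O))
                  (A := HeckePoly O) (MvPolynomial.X l.1)) := by
    rintro χ rfl hne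
    have : Module.Finite O (CohChar (awayMonoid (lamIdeal hsO L₀.Sigma lam))
        (charSq (fun _ => (1 : _ →* O)) ∅ N₀) O) :=
      finite_cohLoc _ _ (maximalIdeal_le_lamIdeal hsO L₀.Sigma lam)
    have : Module.Free O (CohChar (awayMonoid (lamIdeal hsO L₀.Sigma lam))
        (charSq (fun _ => (1 : _ →* O)) ∅ N₀) O) :=
      free_cohChar (H.exactHyp_family hsO H.levelArith_base)
    let b := Module.finBasis O (CohChar (awayMonoid (lamIdeal hsO L₀.Sigma lam))
        (charSq (fun _ => (1 : _ →* O)) ∅ N₀) O)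
    obtain ⟨G₀, hG₀⟩ := exists_matAction hsO L₀.Sigma lam (fun _ => (1 : _ →* O)) ∅
      (fun _ : Unit => N₀) (P := awayMonoid (lamIdeal hsO L₀.Sigma lam)) le_rfl () b
    refine ⟨_, fun h => ?_, b, G₀, fun l => (hG₀ (MvPolynomial.X l)).trans ?_⟩
    swap
    · rw [awayIncl_X]
    have : IsEmpty (Fin (Module.finrank O (CohChar (awayMonoid (lamIdeal hsO L₀.Sigma lam))
        (charSq (fun _ => (1 : _ →* O)) ∅ N₀) O))) := ⟨fun i => Nat.not_lt_zero _ (i.2.trans_eq h)⟩
    exact not_subsingleton (CohLoc (awayMonoid (lamIdeal hsO L₀.Sigma lam))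
        (scalarRep (charSq (fun _ => (1 : _ →* O)) ∅ N₀) O)) b.repr.toEquiv.subsingleton
  exact key 1 (charSq_empty _ N₀) hbase

/-- **Lowering levels exist over the auxiliary levels.** -/
theorem LoweringSetting.exists_loweringLevels
    (H : LoweringSetting p ι₀ N₀ lam qv L₀ frob tame v ζ ζ')
    (hplace : TopPlaceHyp p ι₀ N₀ lam L₀)
    (hneb : ∀ (O' : Type) [CommRing O'] [IsDomain O'] [IsDiscreteValuationRing O']
      [IsAdicComplete (maximalIdeal O') O'] [Finite (ResidueField O')] [CharZero O'],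
      (p : O') ∈ maximalIdeal O' → ∀ N : ℕ, N ≠ 0 → ∀ q, NebentypusInertia O' p N q)
    (X : AuxLevels r r₀ frob tame Φ₀ L₀ PB) (Q : ℕ → Fin r → ℕ) (hX : AuxPrimes p X Q)
    (hbase : Nontrivial (CohLoc
      (awayMonoid (lamIdeal (Λ := O) (residue_surjective (R := O)) L₀.Sigma lam))
      (scalarRep (1 : (ZMod N₀)ˣ →* O) O)))
    (hflat : (∀ i, ∃ k : ℕ, ∀ n, (MvPowerSeries.C (X.extra n i) : (X.P n).Framed r₀) ^ k ∈
        Ideal.span (Set.image (X.θ n)
          {x : LocRing O T X.g | MvPowerSeries.constantCoeff x ∈ maximalIdeal O})) ∨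
      ∃ (A : ValuationSubring Qbar) (N : ℕ → Subgroup GQ), FlatLevelsNil p X N ∧
        ∀ n, ∀ σ ∈ N n, L₀.D.rbar σ = 1 ∧ ∀ (M : ℕ) [NeZero M],
          IsTopLevel N₀ (Finset.univ.image (Q n)) (qv v) M →
            σ ∈ torsionKer A p (ModularCurve.JZero M)) :
    ∃ B : LoweringLevels p X v ζ ζ', ∃ b : Module.Basis (Fin B.rank) O (CohLoc
        (awayMonoid (lamIdeal (Λ := O) (residue_surjective (R := O)) L₀.Sigma lam))
        (scalarRep (1 : (ZMod N₀)ˣ →* O) O)),
      ∀ (ℓ : ℕ) (hℓ : ℓ.Prime), ℓ ∉ L₀.Sigma → ∀ A : ValuationSubring Qbar,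
        A.LiesOverPrime ℓ → ∀ σ : GQ, A.IsFrobeniusAt σ ℓ → ∀ x,
        ⇑(b.repr ((MvPolynomial.X ⟨ℓ, hℓ⟩ : HeckePoly O) • x)) =
          (B.act₀' (PB.rep σ).trace).mulVec ⇑(b.repr x) := by
  classical
  have : Fact ((p : O) ∈ maximalIdeal O) := ⟨H.p_mem⟩
  let hsO : Function.Surjective (residue O ∘ algebraMap O O) := residue_surjective (R := O)
  let V := CohLoc (awayMonoid (lamIdeal hsO L₀.Sigma lam)) (scalarRep (1 : (ZMod N₀)ˣ →* O) O)
  have hA : LevelArith p N₀ L₀ L₀.Sigma ∅ N₀ (fun _ => (1 : _ →* O)) :=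
    H.toBaseSetting.levelArith_base
  obtain ⟨d, hd, b₀, G₀, hG₀X⟩ := H.toBaseSetting.exists_baseAction hsO hbase
  have := nontrivial_of_action hd G₀
  obtain ⟨φ₀, hφ₀, hfrob, -, -, -⟩ := H.toBaseSetting.exists_familyAction hsO hA hplace
    (fun ℓ hℓ h => hA.mem_S ℓ hℓ h) PB
  have hfrob₀ : ∀ (ℓ : ℕ) (hℓ : ℓ.Prime) (hℓS : ℓ ∉ (↑L₀.Sigma : Set ℕ)),
      ∀ A : ValuationSubring Qbar, A.LiesOverPrime ℓ → ∀ σ : GQ, A.IsFrobeniusAt σ ℓ →
      φ₀ (PB.rep σ).trace = twClass hsO L₀.Sigma lam (fun _ => 1) ∅ (fun _ : Unit => N₀)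
        (MvPolynomial.X ⟨⟨ℓ, hℓ⟩, hℓS⟩) := fun ℓ hℓ hℓS A hA' σ hσ => by
    refine (hfrob ℓ hℓ hℓS A hA' σ hσ).trans ?_
    rw [invChar, charProd, Finset.prod_empty, MvPolynomial.C_1, one_mul]
  let W := fun n => Classical.choice
    (H.exists_levelAct hplace hneb hX hd b₀ G₀ hG₀X φ₀ hφ₀ hfrob₀ n)
  let : ∀ n, CommRing (W n).C := fun n => (W n).commRing
  let : ∀ n, CommRing (W n).C' := fun n => (W n).commRing'
  let : ∀ n, Algebra O (W n).C := fun n => (W n).algebra
  let : ∀ n, Algebra O (W n).C' := fun n => (W n).algebra'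
  have : ∀ n, Algebra.IsIntegral O (W n).C := fun n => (W n).isIntegral
  have : ∀ n, Algebra.IsIntegral O (W n).C' := fun n => (W n).isIntegral'
  let act : ∀ n, (X.P n).R →+* Matrix (Fin d) (Fin d) (TwQuot O p r n) := fun n =>
    ((W n).π.comp (W n).φ).toRingHom
  let act' : ∀ n, (X.P n).R →+* Matrix (Fin d) (Fin d) (TwQuot O p r n) := fun n =>
    ((W n).π'.comp (W n).φ').toRingHom
  have hconst : ∀ (n : ℕ) (f : (X.P n).R →ₐ[O] Matrix (Fin d) (Fin d) (TwQuot O p r n)) (o : O),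
      f (algebraMap O (X.P n).R o) = twConst O p r n o • 1 := fun n f o => by
    rw [f.commutes, IsScalarTower.algebraMap_apply O (TwQuot O p r n),
      Algebra.algebraMap_eq_smul_one]
    rfl
  have hsq : ∃ k : ℕ, ∀ n i, (twVar O p r n i ^ 2 •
      (1 : Matrix (Fin d) (Fin d) (TwQuot O p r n)) -
      (1 + twVar O p r n i) • act n (((X.P n).rep (X.tw n i)).trace - 2)) ^ k = 0 :=
    ⟨d, fun n i => (W n).square i⟩
  have hsq' : ∃ k : ℕ, ∀ n i, (twVar O p r n i ^ 2 •
      (1 : Matrix (Fin d) (Fin d) (TwQuot O p r n)) -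
      (1 + twVar O p r n i) • act' n (((X.P n).rep (X.tw n i)).trace - 2)) ^ k = 0 :=
    ⟨d, fun n i => (W n).square' i⟩
  have hnil : ∀ i, ∃ k : ℕ, ∀ j : ℕ, ∃ n₀ : ℕ, ∀ n, n₀ ≤ n →
      (MvPowerSeries.C (X.extra n i) : (X.P n).Framed r₀) ^ k ∈
        Ideal.span (Set.image (X.θ n)
            {x : LocRing O T X.g | MvPowerSeries.constantCoeff x ∈ maximalIdeal O}) ⊔
          (RingHom.ker ((Ideal.Quotient.mk
              ((maximalIdeal O).comap (twAug O p r n) ^ j)).mapMatrix.comp (act n)) ⊓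
            RingHom.ker ((Ideal.Quotient.mk
              ((maximalIdeal O).comap (twAug O p r n) ^ j)).mapMatrix.comp
                (act' n))).map MvPowerSeries.C := by
    rcases hflat with h | ⟨A, N, hN, hσ⟩
    · intro i
      obtain ⟨k, hk⟩ := h i
      exact ⟨k, fun _ => ⟨0, fun n _ => Ideal.mem_sup_left (hk n)⟩⟩
    · exact hN.extra_nil H.p_mem (fun n => (W n).φ) (fun n => (W n).φ')
        (fun n σ hn a b => ((W n).flat A σ (hσ n σ hn).1 (hσ n σ hn).2 a b).1)
        (fun n σ hn a b => ((W n).flat A σ (hσ n σ hn).1 (hσ n σ hn).2 a b).2)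
        (fun n => (W n).π) (fun n => (W n).π') act act' (fun _ _ => rfl) (fun _ _ => rfl) hsq hsq'
  refine ⟨{
    rank := d
    rank_ne_zero := hd
    act := act
    act' := act'
    act₀' := (G₀.comp φ₀).toRingHom
    act_const := fun n o => hconst n ((W n).π.comp (W n).φ) o
    act'_const := fun n o => hconst n ((W n).π'.comp (W n).φ') o
    act'_base := fun n x => (W n).act'_base x
    congr := fun n x i j => (W n).congr x i j
    square := hsq
    square' := hsq'
    trace_v := ⟨d, fun n => (W n).trace_v⟩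
    extra_nil := hnil
    unipotent := fun n w hw => (W n).unipotent w hw
    unipotent' := fun n w => (W n).unipotent' w }, b₀, fun ℓ hℓ hℓS A hA' σ hσ x => ?_⟩
  have h : G₀ (φ₀ (PB.rep σ).trace) =
      LinearMap.toMatrix b₀ b₀ (Algebra.lsmul O O V (A := HeckePoly O)
        (MvPolynomial.X ⟨ℓ, hℓ⟩)) :=
    (congrArg G₀ (hfrob₀ ℓ hℓ hℓS A hA' σ hσ)).trans (hG₀X ⟨⟨ℓ, hℓ⟩, hℓS⟩)
  show _ = (G₀ (φ₀ (PB.rep σ).trace)).mulVec _
  refine Eq.trans ?_ (congrArg (fun Y => Matrix.mulVec Y _) h).symm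
  rw [LinearMap.toMatrix_mulVec_repr]
  rfl

end Fermat.Agent.Engine
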