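import Fermat.Agent.DefRing.MatrixRep
import Fermat.Agent.LocalRingP.CondAtP
import Fermat.Prelude.Def_FLTPrelim_Ramification
import Fermat.Prelude.Def_GaloisRep_Residual

/-!
# The Galois side of patching: framed tangent spaces and Taylor–Wiles primes

A tangent pair is a first order lift `(1 + ε c) ρbar` of determinant `det ρbar`, together with first
order frames `X r` at the primes `r ∈ T` making Frobenius and the tame generator there equal to
their residual values.  The theorem bounds the space of pairs by `g + 4`, `g = r + |T| - 1`, the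
`4` being the change of global basis (its scalars act on the frames only).
-/

set_option autoImplicit false

noncomputable section

namespace Fermat.Agent.Engine

open Fermat.Agent.DefRing

variable {k : Type} [Field k]

/-- The choices at the primes of `T`. -/
structure LocalChoices (T : Finset ℕ) where
  frob : T → GQ
  tame : T → GQ

/-- Pairs (cocycle, frames). -/
abbrev TangentPair (k : Type) (T : Finset ℕ) : Type :=
  (GQ → Matrix (Fin 2) (Fin 2) k) × (T → Matrix (Fin 2) (Fin 2) k)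

/-- Cocycle for the adjoint action, of trace zero, factoring through a finite level. -/
def IsAdCocycle (ρ : MRep k) (c : GQ → Matrix (Fin 2) (Fin 2) k) : Prop :=
  (∀ g h, c (g * h) = c g + ρ g * c h * ρ g⁻¹) ∧ (∀ g, (c g).trace = 0) ∧
  ∃ L : IntermediateField ℚ (AlgebraicClosure ℚ), FiniteDimensional ℚ L ∧
    ∀ σ : GQ, (∀ a ∈ L, σ a = a) → c σ = 0

/-- A condition at `p`: a space of functions on a decomposition group. -/
structure CondAtP (ρ : MRep k) (p : ℕ) where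
  place : ValuationSubring (AlgebraicClosure ℚ)
  «over» : place.LiesOverPrime p
  cond : Submodule k (place.decompositionSubgroup ℚ → Matrix (Fin 2) (Fin 2) k)
  /-- it consists of trace zero cocycles -/
  cocycle : ∀ c ∈ cond, (∀ g h : place.decompositionSubgroup ℚ,
    c (g * h) = c g + ρ (g : GQ) * c h * ρ (g : GQ)⁻¹) ∧ ∀ g, (c g).trace = 0
  /-- it contains the coboundaries -/
  coboundary : ∀ X : Matrix (Fin 2) (Fin 2) k, X.trace = 0 →
    (fun g : place.decompositionSubgroup ℚ => ρ (g : GQ) * X * ρ (g : GQ)⁻¹ - X) ∈ cond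
  /-- dimension of `H¹` condition at most `h⁰ + 1`, i.e. cocycles at most `4` -/
  bound : FiniteDimensional k cond ∧ Module.finrank k cond ≤ 4

/-- First order lifts with frames: unramified outside `Sigma`, unipotent at `Smin`, in the
condition at `p`. -/
def IsTangentPair {p : ℕ} (ρ : MRep k) (Smin Sigma T : Finset ℕ) (C : LocalChoices T)
    (atP : CondAtP ρ p) (x : TangentPair k T) : Prop :=
  IsAdCocycle ρ x.1 ∧
  (∀ q : ℕ, q.Prime → q ∉ Sigma → ∀ A : ValuationSubring (AlgebraicClosure ℚ), A.LiesOverPrime q →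
    ∀ σ ∈ A.inertiaSubgroupIn ℚ, x.1 σ = 0) ∧
  (∀ q ∈ Smin, ∀ A : ValuationSubring (AlgebraicClosure ℚ), A.LiesOverPrime q →
    ∀ σ ∈ A.inertiaSubgroupIn ℚ,
      x.1 σ * ρ σ * (ρ σ - 1) + (ρ σ - 1) * (x.1 σ * ρ σ) = 0) ∧
  (fun g : atP.place.decompositionSubgroup ℚ => x.1 g) ∈ atP.cond ∧
  ∀ r : T, ∀ g ∈ ({C.frob r, C.tame r} : Set GQ), x.1 g + x.2 r - ρ g * x.2 r * ρ g⁻¹ = 0

/-- The ordinary equations `(σ - χ σ) (τ - 1) = 0` on inertia, to first order. -/
def OrdinaryCond (ρ : MRep k) (χ : GQ → k) (A : ValuationSubring (AlgebraicClosure ℚ))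
    (c : GQ → Matrix (Fin 2) (Fin 2) k) : Prop :=
  ∀ σ ∈ A.inertiaSubgroupIn ℚ, ∀ τ ∈ A.inertiaSubgroupIn ℚ,
    c σ * ρ σ * (ρ τ - 1) + (ρ σ - χ σ • 1) * (c τ * ρ τ) = 0

/-- The strict equations `(σ - γ σ χ σ) (τ - γ τ) = 0` on the decomposition group. -/
def StrictCond (ρ : MRep k) (χ γ : GQ → k) (A : ValuationSubring (AlgebraicClosure ℚ))
    (c : GQ → Matrix (Fin 2) (Fin 2) k) : Prop :=
  ∀ σ ∈ A.decompositionSubgroup ℚ, ∀ τ ∈ A.decompositionSubgroup ℚ,
    c σ * ρ σ * (ρ τ - γ τ • 1) + (ρ σ - (γ σ * χ σ) • 1) * (c τ * ρ τ) = 0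

/-- The mod `p` cyclotomic character with values in `k`. -/
def IsCyclotomicModP (p : ℕ) (χ : GQ → k) : Prop :=
  ∀ σ (a : ℕ), (∀ μ : AlgebraicClosure ℚ, μ ^ p = 1 → σ μ = μ ^ a) → χ σ = a

/-- The ordinary condition, when the unramified quotient character squared is not `1`. -/
theorem exists_ordinary_condAtP (p : ℕ) [Fact p.Prime] (hp : 5 ≤ p) [CharP k p] (ρ : MRep k)
    (hfin : GaloisFactorsThroughFiniteLevel (ρ : GQ →* _))
    (χ : GQ → k) (hχ : IsCyclotomicModP p χ) (hdet : ∀ σ, (ρ σ).det = χ σ)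
    (A : ValuationSubring (AlgebraicClosure ℚ)) (hA : A.LiesOverPrime p)
    (hord : ∀ σ ∈ A.inertiaSubgroupIn ℚ, ∀ τ ∈ A.inertiaSubgroupIn ℚ,
      (ρ σ - χ σ • 1) * (ρ τ - 1) = 0)
    (hdist : ∃ σ ∈ A.decompositionSubgroup ℚ, χ σ = 1 ∧ (ρ σ).trace ^ 2 ≠ 4) :
    ∃ L : CondAtP ρ p, L.place = A ∧ ∀ c : GQ → Matrix (Fin 2) (Fin 2) k, IsAdCocycle ρ c →
      OrdinaryCond ρ χ A c → (fun g : L.place.decompositionSubgroup ℚ => c g) ∈ L.cond := by
  obtain ⟨L, h1, h2, h3, h4⟩ :=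
    Fermat.Agent.LocalRingP.exists_ordinary_condition p hp ρ hfin χ hχ hdet A hA hord hdist
  exact ⟨⟨A, hA, L, h1, h2, h3⟩, rfl, fun c hc he => h4 c hc.1 hc.2.1 hc.2.2 he⟩

/-- The strict condition, for a quotient character `γ` with values `±1`, unramified. -/
theorem exists_strict_condAtP (p : ℕ) [Fact p.Prime] (hp : 5 ≤ p) [CharP k p] (ρ : MRep k)
    (hfin : GaloisFactorsThroughFiniteLevel (ρ : GQ →* _))
    (χ γ : GQ → k) (hχ : IsCyclotomicModP p χ) (hdet : ∀ σ, (ρ σ).det = χ σ)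
    (A : ValuationSubring (AlgebraicClosure ℚ)) (hA : A.LiesOverPrime p)
    (hγ : ∀ σ ∈ A.decompositionSubgroup ℚ, γ σ ^ 2 = 1)
    (hγ1 : ∀ σ ∈ A.inertiaSubgroupIn ℚ, γ σ = 1)
    (hord : ∀ σ ∈ A.decompositionSubgroup ℚ, ∀ τ ∈ A.decompositionSubgroup ℚ,
      (ρ σ - (γ σ * χ σ) • 1) * (ρ τ - γ τ • 1) = 0) :
    ∃ L : CondAtP ρ p, L.place = A ∧ ∀ c : GQ → Matrix (Fin 2) (Fin 2) k, IsAdCocycle ρ c →
      StrictCond ρ χ γ A c → (fun g : L.place.decompositionSubgroup ℚ => c g) ∈ L.cond := by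
  obtain ⟨L, h1, h2, h3, h4⟩ :=
    Fermat.Agent.LocalRingP.exists_strict_condition p hp ρ hfin χ γ hχ hdet A hA hγ1 hord
  exact ⟨⟨A, hA, L, h1, h2, h3⟩, rfl, fun c hc he => h4 c hc.1 hc.2.1 hc.2.2 he⟩

/-- Frobenius elements and elements of inertia generating its pro-`p` quotient. -/
def LocalChoices.Valid {T : Finset ℕ} (C : LocalChoices T) (p : ℕ) : Prop :=
  ∀ r : T, ∃ A : ValuationSubring (AlgebraicClosure ℚ), A.LiesOverPrime (r : ℕ) ∧
    A.IsFrobeniusAt (C.frob r) (r : ℕ) ∧ C.tame r ∈ A.inertiaSubgroupIn ℚ ∧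
      ∃ x : AlgebraicClosure ℚ, x ^ p = (r : ℕ) ∧ C.tame r x ≠ x

end Fermat.Agent.Engine
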