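import Fermat.Agent.Engine.LoweringSetting
import Fermat.Agent.Engine.TRep.TwistClassify
import Fermat.Agent.Engine.TRep.NilPoint

/-!
# The actions of the level rings on the families of lowering levels

`LevelArith`: a single level `M` with characters of `p`-power order at the primes `Q`.
`exists_familyAction`: the level ring acts on its family, with the trace of inertia at every prime.
-/

set_option autoImplicit false
set_option linter.unusedSectionVars false

noncomputable section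

namespace Fermat.Agent.Engine

open EigenRep HeckeModule IsLocalRing DefRing Deform EigenSystems TRep

local notation "Qbar" => AlgebraicClosure ℚ

/-- An element with a `p`-power root of unity as value is congruent to one. -/
theorem sub_one_mem_of_pow_eq_one {Λ : Type} [CommRing Λ] [IsLocalRing Λ] {p : ℕ} (hp : p.Prime)
    (hpm : (p : Λ) ∈ maximalIdeal Λ) {x : Λ} {k : ℕ} (hx : x ^ p ^ k = 1) :
    x - 1 ∈ maximalIdeal Λ := by
  obtain ⟨c, hc⟩ := exists_add_pow_prime_pow_eq hp (x - 1) 1 k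
  rw [sub_add_cancel, hx, one_pow, mul_one] at hc
  refine (maximalIdeal.isMaximal Λ).isPrime.mem_of_pow_mem (p ^ k) ?_
  rw [show (x - 1) ^ p ^ k = -((p : Λ) * ((x - 1) * c)) by linear_combination -hc]
  exact neg_mem (Ideal.mul_mem_right _ _ hpm)

/-- A character of `p`-power order is trivial at `-1` for odd `p`. -/
theorem neg_one_eq_one_of_pow {Λ : Type} [CommRing Λ] {p q : ℕ} (hp : Odd p)
    (ψ : (ZMod q)ˣ →* Λ) {k : ℕ} (h : ψ (-1) ^ p ^ k = 1) : ψ (-1) = 1 := by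
  have h2 : ψ (-1) ^ 2 = 1 := by rw [← map_pow, neg_one_sq, map_one]
  obtain ⟨t, ht⟩ : Odd (p ^ k) := hp.pow
  rwa [ht, pow_succ, pow_mul, h2, one_pow, one_mul] at h

section Shortcuts

variable {O : Type} [CommRing O] [IsLocalRing O] {Λ : Type} [CommRing Λ] [IsLocalRing Λ]
  [IsNoetherianRing Λ] [IsAdicComplete (maximalIdeal Λ) Λ] [Algebra O Λ]
  [IsLocalHom (algebraMap O Λ)] (hsΛ : Function.Surjective (residue Λ ∘ algebraMap O Λ))
  (S : Finset ℕ) (lam : ℕ → O) (ψ : ∀ q : ℕ, (ZMod q)ˣ →* Λ) (Q : Finset ℕ) {J : Type}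
  [Fintype J] (M : J → ℕ) [∀ j, NeZero (M j)]

/-- Shortcut for instance search on the algebra of a family. -/
instance commSemiring_twAlg : CommSemiring (TwAlg hsΛ S lam ψ Q M) :=
  (inferInstance : CommRing (TwAlg hsΛ S lam ψ Q M)).toCommSemiring

/-- Shortcut for instance search on the algebra of a family. -/
instance addGroup_twAlg : AddGroup (TwAlg hsΛ S lam ψ Q M) :=
  (inferInstance : CommRing (TwAlg hsΛ S lam ψ Q M)).toAddGroupWithOne.toAddGroup

end Shortcuts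

/-- The arithmetic of one level with auxiliary characters. -/
structure LevelArith {O : Type} [CommRing O] [IsLocalRing O] (p N₀ : ℕ) (L₀ : LevelData O)
    (S : Finset ℕ) (Q : Finset ℕ) (M : ℕ) {Λ : Type} [CommRing Λ]
    (ψ : ∀ q : ℕ, (ZMod q)ˣ →* Λ) : Prop where
  dvd : N₀ ∣ M * ∏ q ∈ Q, q
  p_not_dvd : ¬ p ∣ (M * ∏ q ∈ Q, q) / N₀
  aux : ∀ q ∈ Q, q.Prime ∧ q ∣ M ∧ ¬ q * q ∣ M
  sub : L₀.Sigma ⊆ S
  mem_S : ∀ ℓ : ℕ, ℓ.Prime → ℓ ∣ M * (∏ q ∈ Q, q) * p → ℓ ∈ S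
  smin : ∀ q ∈ L₀.Smin, ¬ q * q ∣ M * ∏ q ∈ Q, q
  pow_one : ∀ q ∈ Q, ∀ u, ∃ k : ℕ, ψ q u ^ p ^ k = 1

variable {p : ℕ} [Fact p.Prime] {O : Type} [CommRing O] [IsDomain O]
  [IsDiscreteValuationRing O] [IsAdicComplete (maximalIdeal O) O] [Finite (ResidueField O)]
  [CharZero O] {ι₀ : ℤ_[p] →+* O} {N₀ : ℕ} {lam : ℕ → O} {L₀ : LevelData O}
  (H : BaseSetting p ι₀ N₀ lam L₀)
  {Λ : Type} [CommRing Λ] [IsLocalRing Λ] [IsNoetherianRing Λ]
  [IsAdicComplete (maximalIdeal Λ) Λ] [Algebra O Λ] [IsLocalHom (algebraMap O Λ)]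
  [Module.Finite O Λ] [IsReduced Λ] [Module.IsTorsionFree ℤ Λ]
  (hsΛ : Function.Surjective (residue Λ ∘ algebraMap O Λ))
  {S Q : Finset ℕ} {M : ℕ} [NeZero M] {ψ : ∀ q : ℕ, (ZMod q)ˣ →* Λ}
  (hA : LevelArith p N₀ L₀ S Q M ψ)

include H hA

/-- `p` lies in the maximal ideal of the coefficient ring. -/
theorem BaseSetting.p_mem_Λ : (p : Λ) ∈ maximalIdeal Λ := by
  rw [← map_natCast (algebraMap O Λ)]
  exact fun h => H.p_mem ((inferInstance : IsLocalHom (algebraMap O Λ)).map_nonunit _ h)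

/-- The level is admissible at three. -/
theorem BaseSetting.three_level : ThreeOK p M :=
  (H.three.of_dvd hA.dvd).of_mul_prod fun q hq => ⟨(hA.aux q hq).1, (hA.aux q hq).2.1⟩

/-- The twist data of the family. -/
theorem BaseSetting.twistData :
    TwistData p S lam ψ Q (fun _ : Unit => M) (M * ∏ q ∈ Q, q) where
  three_le := H.three_le
  three _ := H.three_level hA
  p_mem := H.p_mem
  dvd_top _ := dvd_rfl
  aux _ := hA.aux
  odd q hq u := by
    obtain ⟨k, hk⟩ := hA.pow_one q hq u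
    exact ⟨p ^ k, ((Fact.out : p.Prime).odd_of_ne_two (by have := H.three_le; omega)).pow, hk⟩
  one q hq u := by
    obtain ⟨k, hk⟩ := hA.pow_one q hq u
    exact sub_one_mem_of_pow_eq_one Fact.out (H.p_mem_Λ hA) hk
  mem_S := hA.mem_S
  nonEisenstein := by
    have h0 : 0 < M * ∏ q ∈ Q, q := Nat.pos_of_ne_zero (mul_ne_zero (NeZero.ne M)
      (Finset.prod_ne_zero_iff.mpr fun q hq => (hA.aux q hq).1.ne_zero))
    exact H.exists_nonEisenstein S hA.sub h0

/-- The exactness hypothesis for the characters of the family. -/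
theorem BaseSetting.exactHyp_family :
    ExactHyp (awayMonoid (lamIdeal hsΛ S lam)) (charSq ψ Q M) :=
  H.exactHyp hsΛ hA.sub ψ Q M (H.three_level hA) fun q hq => by
    obtain ⟨k, hk⟩ := hA.pow_one q hq (-1)
    exact neg_one_eq_one_of_pow ((Fact.out : p.Prime).odd_of_ne_two (by have := H.three_le; omega))
      (ψ q) hk

/-- The algebra of the family has no torsion over the base ring. -/
theorem BaseSetting.twAlg_torsionFree (o : O) (x : TwAlg hsΛ S lam ψ Q (fun _ : Unit => M))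
    (ho : o ≠ 0) (hox : algebraMap O _ o * x = 0) : x = 0 := by
  have : Module.Finite Λ (CohChar (awayMonoid (lamIdeal hsΛ S lam)) (charSq ψ Q M) Λ) :=
    finite_cohLoc _ _ (maximalIdeal_le_lamIdeal hsΛ S lam)
  have : ∀ j : Unit, Module.Free Λ (LevelCoh hsΛ S lam ψ Q (fun _ : Unit => M) j) := fun _ =>
    free_cohChar (H.exactHyp_family hsΛ hA)
  refine Subtype.ext (funext fun j => LinearMap.ext fun u => ?_)
  have h1 : algebraMap O Λ o • (Subtype.val x) j u = 0 :=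
    congrArg (fun z : TwAlg hsΛ S lam ψ Q (fun _ : Unit => M) =>
      (Subtype.val z) j u) hox
  let b := Module.Free.chooseBasis Λ (LevelCoh hsΛ S lam ψ Q (fun _ : Unit => M) j)
  refine b.repr.injective (Finsupp.ext fun i => ?_)
  have h2 := congrArg (fun z => b.repr z i) h1
  simp only [map_smul, Finsupp.smul_apply, smul_eq_mul, map_zero, Finsupp.zero_apply] at h2
  simp only [ZeroMemClass.coe_zero, Pi.zero_apply, LinearMap.zero_apply, map_zero,
    Finsupp.zero_apply]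
  exact eq_zero_of_algebraMap_mul H.p_mem ho h2

/-- The residual traces are those of the residual system away from `S`. -/
theorem BaseSetting.trace_frob' (ℓ : ℕ) (hℓ : ℓ.Prime) (hℓS : ℓ ∉ S) (A : ValuationSubring Qbar)
    (hPl : A.LiesOverPrime ℓ) (σ : GQ) (hσ : A.IsFrobeniusAt σ ℓ) :
    (L₀.D.rbar σ).trace = residue O (lam ℓ) :=
  H.trace_frob ℓ hℓ (fun h => hℓS (hA.sub h)) A hPl σ hσ

/-- **The level ring acts on the family.** -/
theorem BaseSetting.exists_familyAction (hplace : TopPlaceHyp p ι₀ N₀ lam L₀)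
    [Nontrivial (TwAlg hsΛ S lam ψ Q (fun _ : Unit => M))] {Sig : Finset ℕ}
    (hSig : ∀ ℓ : ℕ, ℓ.Prime → ℓ ∣ M * (∏ q ∈ Q, q) * p → ℓ ∈ Sig)
    (P : (L₀.withSigma Sig).RepRing) :
    ∃ φ : P.R →ₐ[O] TwAlg hsΛ S lam ψ Q (fun _ : Unit => M),
      IsLocalHom (φ : P.R →+* TwAlg hsΛ S lam ψ Q (fun _ : Unit => M)) ∧
      (∀ (ℓ : ℕ) (hℓ : ℓ.Prime) (hℓS : ℓ ∉ (↑S : Set ℕ)), ∀ A : ValuationSubring Qbar,
        A.LiesOverPrime ℓ → ∀ σ : GQ, A.IsFrobeniusAt σ ℓ → φ (P.rep σ).trace =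
          twClass hsΛ S lam ψ Q (fun _ : Unit => M) (MvPolynomial.C (invChar ψ Q S ⟨⟨ℓ, hℓ⟩, hℓS⟩) *
            MvPolynomial.X ⟨⟨ℓ, hℓ⟩, hℓS⟩)) ∧
      (∀ (w : ℕ) (hw : w.Prime), ¬ w ∣ M * (∏ q ∈ Q, q) * p → ∀ A : ValuationSubring Qbar,
        A.LiesOverPrime w → (∀ σ ∈ A.inertiaSubgroupIn ℚ, (P.rep σ).map φ = 1) ∧
          ∀ σ : GQ, A.IsFrobeniusAt σ w → ∀ (j : Unit)
            (u : LevelCoh hsΛ S lam ψ Q (fun _ : Unit => M) j),
            (Subtype.val (φ (P.rep σ).trace)) j u =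
              (algebraMap Λ (HeckePoly Λ) (charProd (fun q => (ψ q).comp invMonoidHom) Q w) *
                MvPolynomial.X ⟨w, hw⟩) • u) ∧
      (∀ q : ℕ, q.Prime → q ≠ p → ¬ q * q ∣ M * ∏ q ∈ Q, q → ∀ A : ValuationSubring Qbar,
        A.LiesOverPrime q → ∀ σ ∈ A.inertiaSubgroupIn ℚ, φ (P.rep σ).trace = 2) ∧
      ∀ [NeZero (M * ∏ q ∈ Q, q)] (hes : EichlerShimuraRelations (M * ∏ q ∈ Q, q) p),
        ∃ F : TLoc (stdInputs hes) ((algebraMap O Λ).comp ι₀) S (lamIdeal hsΛ S lam) →ₐ[Λ]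
            TwAlg hsΛ S lam ψ Q (fun _ : Unit => M),
          ∀ g, φ (P.rep g).trace =
            F (tTrace (stdInputs hes) ((algebraMap O Λ).comp ι₀) S (lamIdeal hsΛ S lam) g) := by
  have hM0 : M * ∏ q ∈ Q, q ≠ 0 := mul_ne_zero (NeZero.ne M)
    (Finset.prod_ne_zero_iff.mpr fun q hq => (hA.aux q hq).1.ne_zero)
  have : NeZero (M * ∏ q ∈ Q, q) := ⟨hM0⟩
  have hes : EichlerShimuraRelations (M * ∏ q ∈ Q, q) p := SemistableRed.allRelations _ p
  have htf := H.twAlg_torsionFree hsΛ hA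
  obtain ⟨φ, hφl, h1, h2, h3, h5⟩ := (H.twistData hA).exists_twClassify hsΛ hes ι₀
    (L₀.withSigma Sig) P H.span H.cont (H.trace_frob' hA) H.det hSig
    (fun q hq => ⟨(H.smin q hq).1, (H.smin q hq).2.1, hA.smin q hq⟩)
    fun R hR F g => by
      have := isLocalHom_algebraMap_twAlg hsΛ S lam ψ Q (fun _ : Unit => M)
      exact hplace _ hes hA.dvd hA.p_not_dvd S hA.mem_S Λ hsΛ R hR _ htf F g
  refine ⟨φ, hφl, h1, h2, fun q hq hqp hq2 A hPl σ hσ => ?_, fun {_} hes' => ?_⟩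
  swap
  · obtain ⟨F, hF⟩ := (H.twistData hA).exists_tLocHom hsΛ hes' ι₀
    refine ⟨F, fun g => ?_⟩
    obtain ⟨X, hX⟩ := latHom_surjective (stdInputs hes') ((algebraMap O Λ).comp ι₀) S
      (latTrace (stdInputs hes') ((algebraMap O Λ).comp ι₀) S g)
    rw [h5 g X hX, tTrace, ← hX]
    exact (hF X).symm
  by_cases hqd : q ∣ M * ∏ q ∈ Q, q
  · exact h3 q hq hqp hqd hq2 A hPl σ hσ
  have hqp' : ¬ q ∣ M * (∏ q ∈ Q, q) * p := fun h => (hq.dvd_mul.mp h).elim hqd fun h' =>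
    hqp ((Nat.prime_dvd_prime_iff_eq hq Fact.out).mp h')
  have h := (h2 q hq hqp' A hPl).1 σ hσ
  rw [show φ (P.rep σ).trace = ((P.rep σ).map φ).trace from
    AddMonoidHom.map_trace φ.toRingHom.toAddMonoidHom _, h, Matrix.trace_one, Fintype.card_fin,
    Nat.cast_ofNat]

omit hA in
/-- The residue of a trace of the universal representation. -/
theorem toResidue_trace {Sig : Finset ℕ} (P : (L₀.withSigma Sig).RepRing) {C : Type} [CommRing C]
    [IsLocalRing C] [Algebra O C] (hl : IsLocalHom (algebraMap O C))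
    (hs : Function.Surjective (residue C ∘ algebraMap O C)) (φ : P.R →ₐ[O] C)
    (hφ : IsLocalHom (φ : P.R →+* C)) (σ : GQ) :
    toResidue hl hs (φ (P.rep σ).trace) = (L₀.D.rbar σ).trace := by
  have h : (L₀.withSigma Sig).D.Reduces hl hs (mapRep (φ : P.R →+* C) P.rep) :=
    P.isLift.reduces.map φ hφ
  rw [show L₀.D.rbar = mapRep (toResidue hl hs : C →+* ResidueField O)
    (mapRep (φ : P.R →+* C) P.rep) from h.symm, trace_mapRep, trace_mapRep]
  rfl

end Fermat.Agent.Engine
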