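import Fermat.Agent.Engine.Galois
import Fermat.Agent.FlatJ0.Elliptic

/-!
# The flat condition at `p`

The space of trace-zero cocycles at a place over `p` vanishing on some subgroup of inertia with
Fontaine's bound, as a condition for the framed tangent count.  It is not a closed condition on
lifts: it is satisfied by the first order points of the Hecke image on `p`-torsion.
-/

set_option autoImplicit false

noncomputable section

namespace Fermat.Agent.Engine

open Fermat.Agent.DefRing FlatJ0

local notation "Qbar" => AlgebraicClosure ℚ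

variable {k : Type} [Field k]

/-- The flat condition, from one kernel with the bound and the shape at `p`. -/
theorem exists_flat_condAtP (p : ℕ) [Fact p.Prime] (hp : 5 ≤ p) [CharP k p] (ρ : MRep k)
    (A : ValuationSubring Qbar) (hA : A.LiesOverPrime p) (hρ : IsFlatShape A p ρ)
    {N₀ : Subgroup GQ} (hN₀ : IsBoundKernel A p N₀ ρ) :
    ∃ L : CondAtP ρ p, L.place = A ∧ ∀ c : GQ → Matrix (Fin 2) (Fin 2) k, IsAdCocycle ρ c →
      ∀ N : Subgroup GQ, IsBoundKernel A p N ρ → (∀ σ ∈ N, c σ = 0) →
        (fun g : L.place.decompositionSubgroup ℚ => c g) ∈ L.cond := by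
  refine ⟨⟨A, hA, flatCond A p ρ, fun c hc => ?_, fun X hX => ?_, ?_⟩, rfl,
    fun c hc N hN hcN => ?_⟩
  · obtain ⟨N, -, h⟩ := (mem_flatCond_iff hN₀).1 hc
    exact ⟨h.1, h.2.1⟩
  · exact mem_flatCond hN₀ (adCoboundaries_le hN₀ ⟨X, hX, fun g => rfl⟩)
  · exact finrank_flatCond_le ⟨Fact.out, hA⟩ hp hρ
  · obtain ⟨hmul, htr, F, hF, hF0⟩ := hc
    refine mem_flatCond hN ⟨fun σ τ => hmul σ τ, fun σ => htr σ, fun σ hσ => hcN σ hσ, F, hF,
      fun σ hσ => hF0 σ fun a ha => ?_⟩
    exact (IntermediateField.mem_fixingSubgroup_iff F (σ : GQ)).1 hσ a ha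

end Fermat.Agent.Engine
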