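import Fermat.Agent.Engine.FlatLimit
import Mathlib.LinearAlgebra.Matrix.Charpoly.LinearMap
import Mathlib.LinearAlgebra.Matrix.Charpoly.Eigs
import Mathlib.RingTheory.Ideal.Maps

/-!
# Elements divisible by `p` at every point

`divIdeal O p C`: the elements of a finite `O`-algebra sent by every point to a multiple of `p`.
Elements acting into `p` on a faithful finite module lie in it, also after any map; when the traces
`N (σ g)` and `N g` agree modulo an ideal, so do `N σ` and `1`; and on deep levels the elements of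
`divIdeal` act, after a bounded power, into `p` and a given power of the maximal ideal.
-/

set_option autoImplicit false
set_option linter.unusedSectionVars false

noncomputable section

open IsLocalRing

namespace Fermat.Agent.Engine

variable (O : Type) [CommRing O] [IsDomain O] [CharZero O] (p : ℕ)

/-- The elements that every point sends to a multiple of `p`. -/
def divIdeal (C : Type) [CommRing C] [Algebra O C] [Algebra.IsIntegral O C] : Ideal C where
  carrier := {x | ∀ χ : C →ₐ[O] PointField O, ∃ y, IsIntegral O y ∧ χ x = p * y}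
  add_mem' {a b} ha hb χ := by
    obtain ⟨y, hy, e⟩ := ha χ
    obtain ⟨z, hz, e'⟩ := hb χ
    exact ⟨y + z, hy.add hz, by rw [map_add, e, e', mul_add]⟩
  zero_mem' χ := ⟨0, isIntegral_zero, by rw [map_zero, mul_zero]⟩
  smul_mem' c a ha χ := by
    obtain ⟨y, hy, e⟩ := ha χ
    exact ⟨χ c * y, ((Algebra.IsIntegral.isIntegral c).map χ).mul hy, by
      rw [smul_eq_mul, map_mul, e, mul_left_comm]⟩

variable {O} {p}

/-- An element acting into `p` on a faithful finite module maps into `divIdeal`. -/
theorem mem_divIdeal_of_smul_mem {C : Type} [CommRing C] [Algebra O C] [Algebra.IsIntegral O C]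
    (hp0 : p ≠ 0) {Λ : Type} [CommRing Λ] {T : Type} [CommRing T] [Algebra Λ T]
    {V : Type} [AddCommGroup V] [Module Λ V] [Module T V] [IsScalarTower Λ T V] [Module.Finite Λ V]
    (hfaith : ∀ x : T, (∀ v : V, x • v = 0) → x = 0) (F : T →+* C) {t : T}
    (ht : ∀ v : V, t • v ∈ Ideal.span {(p : Λ)} • (⊤ : Submodule Λ V)) :
    F t ∈ divIdeal O p C := by
  obtain ⟨P, hm, -, hcoef, heval⟩ :=
    LinearMap.exists_monic_and_natDegree_eq_and_coeff_mem_pow_and_aeval_eq_zero Λ
      (Algebra.lsmul Λ Λ V t) (Ideal.span {(p : Λ)}) (by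
        rintro _ ⟨v, rfl⟩
        exact ht v)
  have hzero : Polynomial.aeval t P = 0 := hfaith _ fun v => by
    rw [Polynomial.aeval_algHom_apply] at heval
    exact LinearMap.congr_fun heval v
  intro χ
  set f : Λ →+* PointField O := χ.toRingHom.comp (F.comp (algebraMap Λ T))
  have hf : ∀ c, IsIntegral O (f c) := fun c =>
    (Algebra.IsIntegral.isIntegral (F (algebraMap Λ T c))).map χ
  refine ⟨χ (F t) / p, ?_, by field_simp⟩
  set D := PointRing O
  choose c hc using fun i => Ideal.mem_span_singleton'.1
    ((Ideal.span_singleton_pow (p : Λ) (P.natDegree - i)) ▸ hcoef i)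
  let g : Λ → D := fun x => ⟨f x, hf x⟩
  let P' : Polynomial D := Polynomial.X ^ P.natDegree +
    ∑ i ∈ Finset.range P.natDegree, Polynomial.C (g (c i)) * Polynomial.X ^ i
  refine isIntegral_trans (A := D) _ ⟨P', ?_, ?_⟩
  · refine Polynomial.monic_X_pow_add ?_
    refine (Polynomial.degree_sum_le _ _).trans_lt ((Finset.sup_lt_iff (by simp)).2 fun i hi => ?_)
    exact (Polynomial.degree_C_mul_X_pow_le _ _).trans_lt
      (by exact_mod_cast Finset.mem_range.1 hi)
  · have h0 : χ (F (Polynomial.aeval t P)) = 0 := by rw [hzero, map_zero, map_zero]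
    rw [Polynomial.aeval_eq_sum_range, Finset.sum_range_succ, hm.coeff_natDegree, one_smul,
      map_add, map_add, map_sum, map_sum, map_pow, map_pow] at h0
    simp only [Algebra.smul_def, map_mul, map_pow] at h0
    have hcc : ∀ i, χ (F (algebraMap Λ T (P.coeff i))) =
        (g (c i) : PointField O) * (p : PointField O) ^ (P.natDegree - i) := fun i => by
      rw [← hc i]
      simp [g, f, map_mul, map_pow, map_natCast]
    simp only [hcc] at h0
    rw [← Polynomial.aeval_def]
    simp only [P', map_add, map_sum, map_pow, map_mul, Polynomial.aeval_X, Polynomial.aeval_C]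
    have hp' : (p : PointField O) ≠ 0 := Nat.cast_ne_zero.2 hp0
    refine mul_left_cancel₀ (pow_ne_zero P.natDegree hp') ?_
    rw [mul_zero, mul_add, Finset.mul_sum]
    refine Eq.trans ?_ h0
    rw [add_comm]
    refine congrArg₂ (· + ·) (Finset.sum_congr rfl fun i hi => ?_) (by rw [← mul_pow, mul_div_cancel₀ _ hp'])
    show (p : PointField O) ^ P.natDegree *
      ((g (c i) : PointField O) * (χ (F t) / p) ^ i) = _
    obtain ⟨l, hl⟩ := Nat.exists_eq_add_of_le (Finset.mem_range.1 hi).le
    rw [hl, Nat.add_sub_cancel_left, pow_add, div_pow]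
    field_simp

/-- Matrices with traces congruent against a residually spanning family are congruent. -/
theorem entries_mem_of_trace {A : Type*} [CommRing A] [IsLocalRing A] {G : Type*} [Monoid G]
    (N : G →* Matrix (Fin 2) (Fin 2) A)
    (hspan : Submodule.span (ResidueField A) (Set.range fun g => (N g).map (residue A)) = ⊤)
    (I : Ideal A) {σ : G} (h : ∀ g, (N (σ * g)).trace - (N g).trace ∈ I) (a b : Fin 2) :
    (N σ - 1) a b ∈ I := by
  set W := Submodule.span A (Set.range N)
  have hW : W = ⊤ := by
    refine top_le_iff.1 (Submodule.le_of_le_smul_of_le_jacobson_bot (I := maximalIdeal A)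
      (Module.Finite.fg_top) (IsLocalRing.maximalIdeal_le_jacobson _) fun X _ => ?_)
    have h1 : X.map (residue A) ∈ Submodule.span (ResidueField A)
        (Set.range fun g => (N g).map (residue A)) := hspan ▸ Submodule.mem_top
    rw [Finsupp.mem_span_range_iff_exists_finsupp] at h1
    obtain ⟨c, hc⟩ := h1
    choose l hl using residue_surjective (R := A)
    set Y := ∑ g ∈ c.support, l (c g) • N g
    refine Submodule.mem_sup.2 ⟨Y, Submodule.sum_mem _ fun g _ =>
      Submodule.smul_mem _ _ (Submodule.subset_span ⟨g, rfl⟩), X - Y, ?_, add_sub_cancel _ _⟩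
    rw [Matrix.matrix_eq_sum_single (X - Y)]
    refine Submodule.sum_mem _ fun i _ => Submodule.sum_mem _ fun j _ => ?_
    rw [show Matrix.single i j ((X - Y) i j) = (X - Y) i j • Matrix.single i j (1 : A) by
      rw [Matrix.smul_single, smul_eq_mul, mul_one]]
    refine Submodule.smul_mem_smul ?_ Submodule.mem_top
    rw [← residue_eq_zero_iff, Matrix.sub_apply, map_sub, ← Matrix.map_apply (f := residue A), ← hc]
    simp [Y, Finsupp.sum, Matrix.sum_apply, hl]
  have hY : ∀ Y ∈ W, ((N σ - 1) * Y).trace ∈ I := by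
    intro Y hY
    induction hY using Submodule.span_induction with
    | mem Y hY =>
      obtain ⟨g, rfl⟩ := hY
      rw [sub_mul, one_mul, Matrix.trace_sub, ← map_mul]
      exact h g
    | zero => simp
    | add Y Y' _ _ h₁ h₂ => rw [mul_add, Matrix.trace_add]; exact add_mem h₁ h₂
    | smul c Y _ h₁ => rw [Matrix.mul_smul, Matrix.trace_smul]; exact I.mul_mem_left c h₁
  have := hY (Matrix.single b a 1) (hW ▸ Submodule.mem_top)
  simpa [Matrix.trace_mul_single] using this

variable [IsDiscreteValuationRing O] [IsAdicComplete (maximalIdeal O) O] [Finite (ResidueField O)]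
  [Fact p.Prime] {r : ℕ}

/-- Eigenvalues at a point come from points of the algebra. -/
theorem exists_eq_of_isRoot {C : Type} [CommRing C] [Algebra O C] {d : ℕ}
    (Θ : C →ₐ[O] Matrix (Fin d) (Fin d) (PointField O)) {x : C} {μ : PointField O}
    (hμ : (Θ x).charpoly.IsRoot μ) : ∃ χ : C →ₐ[O] PointField O, χ x = μ := by
  let S : Subalgebra (PointField O) (Matrix (Fin d) (Fin d) (PointField O)) :=
    Algebra.adjoin (PointField O) (Set.range Θ)
  have hS : IsMulCommutative S := Algebra.isMulCommutative_adjoin _ (by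
    rintro _ ⟨a, rfl⟩ _ ⟨b, rfl⟩
    rw [← map_mul, ← map_mul, mul_comm])
  let : CommRing S := { (inferInstance : Ring S) with
    mul_comm := fun a b => hS.is_comm.comm a b }
  let z : S := ⟨Θ x, Algebra.subset_adjoin ⟨x, rfl⟩⟩ - algebraMap (PointField O) S μ
  have hz : Ideal.span {z} ≠ ⊤ := fun h => by
    have hu := (Ideal.span_singleton_eq_top.1 h).map S.val
    have hdet := (Matrix.isUnit_iff_isUnit_det _).1 hu
    rw [show S.val z = -(Matrix.scalar (Fin d) μ - Θ x) by
      rw [neg_sub]; rfl, Matrix.det_neg] at hdet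
    refine (isUnit_of_mul_isUnit_right hdet).ne_zero ?_
    rw [← Matrix.eval_charpoly]
    exact hμ
  obtain ⟨M, hM, hzM⟩ := Ideal.exists_le_maximal _ hz
  let : Field (S ⧸ M) := Ideal.Quotient.field M
  have : Module.Finite (PointField O) (S ⧸ M) :=
    Module.Finite.of_surjective (Ideal.Quotient.mkₐ (PointField O) M).toLinearMap
      Ideal.Quotient.mk_surjective
  have hbij : Function.Bijective (algebraMap (PointField O) (S ⧸ M)) :=
    IsAlgClosed.algebraMap_bijective_of_isIntegral
  let e : PointField O ≃ₐ[PointField O] S ⧸ M :=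
    AlgEquiv.ofBijective (Algebra.ofId _ _) hbij
  let π : S →ₐ[PointField O] PointField O :=
    e.symm.toAlgHom.comp (Ideal.Quotient.mkₐ (PointField O) M)
  let j : C →ₐ[O] S := Θ.codRestrict (S.restrictScalars O) fun c =>
    (Subalgebra.mem_restrictScalars O).2 (Algebra.subset_adjoin (Set.mem_range_self c))
  refine ⟨(π.restrictScalars O).comp j, ?_⟩
  have h1 : π z = 0 := by
    show e.symm (Ideal.Quotient.mk M z) = 0
    rw [Ideal.Quotient.eq_zero_iff_mem.2 (hzM (Ideal.mem_span_singleton_self z)), map_zero]
  rw [map_sub, AlgHom.commutes, Algebra.algebraMap_self, RingHom.id_apply, sub_eq_zero] at h1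
  exact h1

/-- **On deep levels elements of `divIdeal` act, after a bounded power, into `p`.** -/
theorem exists_pow_entries_mem (hp : (p : O) ∈ maximalIdeal O) (d : ℕ) :
    ∃ N, ∀ j, ∃ n₀, ∀ n, n₀ ≤ n → ∀ (C : Type) [CommRing C] [Algebra O C]
      [Algebra.IsIntegral O C] (f : C →ₐ[O] Matrix (Fin d) (Fin d) (TwQuot O p r n)),
      ∀ x ∈ divIdeal O p C, ∀ a b,
        f (x ^ N) a b ∈ Ideal.span {(p : TwQuot O p r n)} ⊔ twMax O p r n ^ j := by
  classical
  obtain ⟨ϖ, hϖ⟩ := IsDiscreteValuationRing.exists_irreducible O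
  obtain ⟨e, u, hu⟩ := IsDiscreteValuationRing.eq_unit_mul_pow_irreducible
    (Nat.cast_ne_zero.2 (Fact.out : p.Prime).ne_zero : (p : O) ≠ 0) hϖ
  refine ⟨d * e, fun j => ?_⟩
  obtain ⟨n₀, hn₀⟩ := exists_bound_of_divisible_points (O := O) hp r j
  refine ⟨n₀, fun n hn C _ _ _ f x hx a b => ?_⟩
  set J := (maximalIdeal O).map (twConst O p r n) ⊔ twMax O p r n ^ j
  have hcoef : ∀ i, i < d → (f x).charpoly.coeff i ∈ J := fun i hi => hn₀ n hn _ fun θ => by
    set Θ : C →ₐ[O] Matrix (Fin d) (Fin d) (PointField O) := θ.mapMatrix.comp f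
    have hroot : ∀ μ ∈ (Θ x).charpoly.roots, ∃ y : PointRing O, μ = p * y := fun μ hμ => by
      obtain ⟨χ, hχ⟩ := exists_eq_of_isRoot Θ (Polynomial.isRoot_of_mem_roots hμ)
      obtain ⟨y, hy, e'⟩ := hx χ
      exact ⟨⟨y, hy⟩, hχ ▸ e'⟩
    choose! y hy using hroot
    set Q : Polynomial (PointRing O) := ((Θ x).charpoly.roots.map fun μ =>
      Polynomial.X - Polynomial.C ((p : PointRing O) * y μ)).prod
    have hQ : Q.map (PointRing O).val.toRingHom = (Θ x).charpoly := by
      rw [(IsAlgClosed.splits (Θ x).charpoly).eq_prod_roots, (Θ x).charpoly_monic.leadingCoeff,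
        map_one, one_mul, ← Polynomial.coe_mapRingHom, map_multiset_prod, Multiset.map_map]
      refine congrArg Multiset.prod (Multiset.map_congr rfl fun μ hμ => ?_)
      simp only [Function.comp_apply, Polynomial.coe_mapRingHom, Polynomial.map_sub, Polynomial.map_X, Polynomial.map_C]
      have hμy : (PointRing O).val.toRingHom ((p : PointRing O) * y μ) = μ :=
        Eq.trans (by simp) (hy μ hμ).symm
      rw [hμy]
    have hQ' : Q.map (Ideal.Quotient.mk (Ideal.span {(p : PointRing O)})) =
        Polynomial.X ^ Multiset.card (Θ x).charpoly.roots := by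
      rw [← Polynomial.coe_mapRingHom, map_multiset_prod, Multiset.map_map]
      refine Eq.trans (congrArg Multiset.prod (Multiset.map_congr rfl (g := fun _ => Polynomial.X)
        fun μ hμ => ?_)) (by rw [Multiset.map_const', Multiset.prod_replicate])
      simp only [Function.comp_apply, Polynomial.coe_mapRingHom, Polynomial.map_sub,
        Polynomial.map_X, Polynomial.map_C]
      rw [show Ideal.Quotient.mk (Ideal.span {(p : PointRing O)}) ((p : PointRing O) * y μ) = 0 from
        Ideal.Quotient.eq_zero_iff_mem.2 (Ideal.mul_mem_right _ _ (Ideal.mem_span_singleton_self _)),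
        Polynomial.C_0, sub_zero]
    have hcard : Multiset.card (Θ x).charpoly.roots = d := by
      rw [(IsAlgClosed.splits (Θ x).charpoly).natDegree_eq_card_roots.symm,
        Matrix.charpoly_natDegree_eq_dim, Fintype.card_fin]
    have h0 : Q.coeff i ∈ Ideal.span {(p : PointRing O)} := by
      rw [← Ideal.Quotient.eq_zero_iff_mem, ← Polynomial.coeff_map, hQ', Polynomial.coeff_X_pow,
        if_neg (by omega)]
    obtain ⟨z, hz⟩ := Ideal.mem_span_singleton'.1 h0
    refine ⟨z, z.2, ?_⟩
    have h1 : θ ((f x).charpoly.coeff i) = (Q.coeff i : PointField O) := by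
      rw [show θ ((f x).charpoly.coeff i) =
        ((f x).charpoly.map θ.toRingHom).coeff i from (Polynomial.coeff_map _ _).symm,
        ← Matrix.charpoly_map, show (f x).map θ.toRingHom = Θ x from rfl, ← hQ, Polynomial.coeff_map]
      rfl
    rw [h1, ← hz]
    push_cast
    ring
  have hmk : ∀ i, i < d → Ideal.Quotient.mk J ((f x).charpoly.coeff i) = 0 := fun i hi =>
    (Ideal.Quotient.eq_zero_iff_mem (I := J)).2 (hcoef i hi)
  have hJmk : (Ideal.Quotient.mk J).mapMatrix (f (x ^ d)) = 0 := by
    have h := congrArg (Ideal.Quotient.mk J).mapMatrix (Matrix.aeval_self_charpoly (f x))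
    rw [map_zero, Polynomial.aeval_eq_sum_range, Matrix.charpoly_natDegree_eq_dim, Fintype.card_fin,
      Finset.sum_range_succ] at h
    have htop : (f x).charpoly.coeff d = 1 := by
      have := (f x).charpoly_monic.coeff_natDegree
      rwa [Matrix.charpoly_natDegree_eq_dim, Fintype.card_fin] at this
    rw [htop, one_smul, map_add, map_sum, Finset.sum_eq_zero fun i hi => ?_, zero_add,
      ← map_pow f] at h
    · exact h
    · ext a b
      rw [RingHom.mapMatrix_apply, Matrix.map_apply, Matrix.smul_apply, smul_eq_mul, map_mul,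
        hmk i (Finset.mem_range.1 hi), zero_mul]
      rfl
  have hJe : J ^ e ≤ Ideal.span {(p : TwQuot O p r n)} ⊔ twMax O p r n ^ j := by
    rcases Nat.eq_zero_or_pos e with he | he
    · refine le_sup_of_le_left (le_top.trans_eq (Eq.symm ?_))
      rw [Ideal.span_singleton_eq_top, ← map_natCast (twConst O p r n)]
      refine IsUnit.map _ ?_
      rw [hu, he, pow_zero, mul_one]
      exact u.isUnit
    · have key : J ^ e ≤ ((maximalIdeal O).map (twConst O p r n)) ^ e ⊔ twMax O p r n ^ j := by
        have h' : ∀ (I K : Ideal (TwQuot O p r n)) (m : ℕ), (I ⊔ K) ^ m ≤ I ^ m ⊔ K := fun I K m => by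
          induction m with
          | zero => simp
          | succ m ih =>
            refine (le_of_eq_of_le (Submodule.pow_succ (I ⊔ K)) (Ideal.mul_mono ih le_rfl)).trans ?_
            rw [Ideal.sup_mul, Ideal.mul_sup, ← Submodule.pow_succ]
            refine sup_le (sup_le_sup le_rfl (Ideal.mul_le.2 fun a _ b hb => Ideal.mul_mem_left _ a hb))
              (le_trans (Ideal.mul_le.2 fun a ha b _ => Ideal.mul_mem_right b _ ha) le_sup_right)
        exact h' _ _ e
      refine key.trans (sup_le_sup ?_ le_rfl)
      rw [← Ideal.map_pow, hϖ.maximalIdeal_eq, Ideal.span_singleton_pow, Ideal.map_span,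
        Set.image_singleton, Ideal.span_singleton_le_span_singleton, ← map_natCast (twConst O p r n),
        hu, map_mul]
      exact (u.isUnit.map _).mul_left_dvd.2 dvd_rfl
  -- raise to the power `e`
  have hc : ∀ a b, f (x ^ d) a b ∈ J := fun a b =>
    Ideal.Quotient.eq_zero_iff_mem.1 (congr($hJmk a b))
  refine hJe ?_
  clear_value J
  clear hu hJe
  induction e generalizing a b with
  | zero => simp
  | succ m ih =>
    rw [Nat.mul_succ, pow_add, map_mul, Matrix.mul_apply]
    refine Submodule.sum_mem _ fun l _ => ?_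
    refine le_of_eq (Submodule.pow_succ J).symm ?_
    exact Ideal.mul_mem_mul (ih a l) (hc l b)

end Fermat.Agent.Engine
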