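import Fermat.Agent.Engine.LocalType.Primality
import Mathlib.RingTheory.MvPowerSeries.Basic

/-!
# The ring of local coordinates and its two types of components

At each prime `r` in the finite index set `T` the coordinates are the entries of a Frobenius `Φ` and
a tame generator `σ`; there are `g` global variables.  A type assigns to each prime either
`unramified` or `steinberg γ` (definitions in `LocalType/Defs`).  The type ideals are prime of
relative dimension at most `3 |T| + g`.

Primality: the quotient maps to power series in chart coordinates; modulo the maximal ideal of `O`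
the map is monomial on generators of the maximal ideal, and monomials with equal image are congruent
(`MonomialKernel`, `Binomial`), so it is injective modulo `ϖ`, hence injective.
-/

set_option autoImplicit false

noncomputable section

namespace Fermat.Agent.Engine

open IsLocalRing LocalType Matrix

variable {O : Type} [CommRing O] {T : Type} {g : ℕ}
variable [IsDomain O] [IsDiscreteValuationRing O] [IsAdicComplete (maximalIdeal O) O]
  [Finite T]

/-- The type ideals are prime. -/
theorem typeIdeal_isPrime (qv : T → ℕ)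
    (Φ₀ : T → Matrix (Fin 2) (Fin 2) O) (τ : T → CompType)
    (hc : ∀ r, Compatible (qv r) (Φ₀ r) (τ r)) :
    (typeIdeal (g := g) qv Φ₀ τ).IsPrime := by
  choose P P' K hP hK hgood using fun r => exists_kind (hc r)
  obtain ⟨ϖ, hϖ⟩ := IsDiscreteValuationRing.exists_irreducible O
  exact isPrime_of_kinds hP hK hgood hϖ.ne_zero hϖ.maximalIdeal_eq

/-- The parameters of a normal form. -/
private def par (K : Kind) {B : Type} [CommRing B] (X N : Matrix (Fin 2) (Fin 2) B) :
    Fin 3 → B
  | 0 => wOf K X N true 0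
  | 1 => wOf K X N false 2
  | 2 => match K with
    | .cone _ => wOf K X N true 2 - wOf K X N false 0
    | _ => wOf K X N true 1

omit [IsAdicComplete (maximalIdeal O) O] in
/-- A set meeting every prime of the quotient only at the maximal ideal bounds the dimension. -/
private theorem not_dimGE_of_vanishing {J : Ideal (LocRing O T g)} (s : Finset (LocRing O T g))
    (hs : ∀ x ∈ s, x ∈ maximalIdeal (LocRing O T g))
    (h : ∀ Q : Ideal (LocRing O T g), Q.IsPrime → J ≤ Q → (∀ x ∈ s, x ∈ Q) →
      maximalIdeal (LocRing O T g) ≤ Q) {n : ℕ} (hn : s.card < n) :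
    ¬ Patch.DimGE (LocRing O T g ⧸ J) n := by
  intro hd
  obtain ⟨P, hP, hJP, hd'⟩ := Patch.exists_prime_dimGE hd
  exact Patch.not_dimGE_of_params s hs (fun Q hQ hPQ hsQ => le_antisymm
    (le_maximalIdeal hQ.ne_top) (h Q hQ (hJP.trans hPQ) hsQ)) hn hd'

omit [IsDomain O] [IsDiscreteValuationRing O] [IsAdicComplete (maximalIdeal O) O] [Finite T] in
private theorem par_mem {I : Ideal (LocRing O T g)} (K : Kind)
    {X N : Matrix (Fin 2) (Fin 2) (LocRing O T g)} (hX : ∀ i j, X i j ∈ I)
    (hN : ∀ i j, N i j ∈ I) (k : Fin 3) : par K X N k ∈ I := by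
  fin_cases k
  · exact wOf_mem K hX hN true 0
  · exact wOf_mem K hX hN false 2
  · cases K with
    | cone γ => exact sub_mem (wOf_mem _ hX hN true 2) (wOf_mem _ hX hN false 0)
    | unr => exact wOf_mem Kind.unr hX hN true 1
    | smooth γ => exact wOf_mem (Kind.smooth γ) hX hN true 1

omit [IsAdicComplete (maximalIdeal O) O] in
/-- Their dimension is at most `3 |T| + g + 1`. -/
theorem not_dimGE_typeIdeal (qv : T → ℕ)
    (Φ₀ : T → Matrix (Fin 2) (Fin 2) O) (τ : T → CompType)
    (hc : ∀ r, Compatible (qv r) (Φ₀ r) (τ r)) :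
    ¬ Patch.DimGE (LocRing O T g ⧸ typeIdeal qv Φ₀ τ) (3 * Nat.card T + g + 2) := by
  classical
  let := Fintype.ofFinite T
  choose P P' K hP hK hgood using fun r => exists_kind (hc r)
  obtain ⟨ϖ, hϖ⟩ := IsDiscreteValuationRing.exists_irreducible O
  let v : (T × Fin 3) ⊕ Fin g → LocRing O T g := Sum.elim
    (fun p => par (K p.1) (conjC (P p.1) (P' p.1) (locX p.1))
      (conjC (P p.1) (P' p.1) (locMono p.1)) p.2)
    (fun l => MvPowerSeries.X (Sum.inr (Sum.inr l)))
  refine not_dimGE_of_vanishing (insert (MvPowerSeries.C ϖ) (Finset.univ.image v)) ?_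
    (fun Q hQ hJQ hsQ => ?_) ?_
  · intro x hx
    rcases Finset.mem_insert.1 hx with rfl | hx
    · rw [DefRing.mem_maximalIdeal_iff_constantCoeff, MvPowerSeries.constantCoeff_C,
        hϖ.maximalIdeal_eq]
      exact Ideal.mem_span_singleton_self ϖ
    obtain ⟨p, -, rfl⟩ := Finset.mem_image.1 hx
    rcases p with ⟨r, k⟩ | l
    · exact par_mem _ (conjC_mem fun i j => DefRing.X_mem_maximalIdeal _)
        (conjC_mem fun i j => DefRing.X_mem_maximalIdeal _) k
    · exact DefRing.X_mem_maximalIdeal _
  · have := hQ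
    have hC : ∀ o ∈ maximalIdeal O, MvPowerSeries.C o ∈ Q := by
      intro o ho
      rw [hϖ.maximalIdeal_eq, Ideal.mem_span_singleton'] at ho
      obtain ⟨c, rfl⟩ := ho
      rw [map_mul]
      exact Q.mul_mem_left _ (hsQ _ (Finset.mem_insert_self _ _))
    have hv : ∀ p, Ideal.Quotient.mk Q (v p) = 0 := fun p => Ideal.Quotient.eq_zero_iff_mem.2
      (hsQ _ (Finset.mem_insert_of_mem (Finset.mem_image_of_mem v (Finset.mem_univ p))))
    refine maximalIdeal_le_of_coords hC P P' hP (fun r => ?_)
      fun l => Ideal.Quotient.eq_zero_iff_mem.1 (hv (Sum.inr l))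
    have hφ : ∀ o ∈ maximalIdeal O,
        ((Ideal.Quotient.mk Q).comp (MvPowerSeries.C : O →+* LocRing O T g)) o = 0 := fun o ho =>
      Ideal.Quotient.eq_zero_iff_mem.2 (hC o ho)
    have hJQ' : typeIdeal qv Φ₀ τ ≤ RingHom.ker (Ideal.Quotient.mk Q) := by
      rw [Ideal.mk_ker]; exact hJQ
    have h0 := hv (Sum.inl (r, 0))
    have h1 := hv (Sum.inl (r, 1))
    have h3 := hv (Sum.inl (r, 2))
    simp only [v, Sum.elim_inl, par] at h0 h1 h3
    refine eq_zero_of_params ((Ideal.Quotient.mk Q).comp (MvPowerSeries.C : O →+* LocRing O T g))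
      hφ (K r) (hgood r) (sat_conj _ hJQ' r (hP r) (hK r)) ?_ ?_ ?_
    · rw [← map_wOf]; exact h0
    · rw [← map_wOf]; exact h1
    · generalize hKr : K r = K' at h3 ⊢
      cases K' <;> simpa [map_wOf] using h3
  · have h1 := Finset.card_insert_le (MvPowerSeries.C ϖ : LocRing O T g) (Finset.univ.image v)
    have h3 := Finset.card_image_le (s := (Finset.univ : Finset ((T × Fin 3) ⊕ Fin g))) (f := v)
    simp [Nat.card_eq_fintype_card] at h3 ⊢
    omega

/-- The starting point of level raising at `v`: a characteristic zero prime of the component with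
`tr Φ_v = γ (q + 1)` at which the other Steinberg primes stay ramified. -/
theorem exists_raising_prime (qv : T → ℕ)
    (Φ₀ : T → Matrix (Fin 2) (Fin 2) O) (τ : T → CompType)
    (hc : ∀ r, Compatible (qv r) (Φ₀ r) (τ r)) (v : T) (γ : ℤˣ)
    (hv : τ v = .unramified) (hvγ : Compatible (qv v) (Φ₀ v) (.steinberg γ))
    (hq1 : 1 < qv v) :
    ∃ P : Ideal (LocRing O T g), P.IsPrime ∧ typeIdeal qv Φ₀ τ ≤ P ∧
      (locFrob (g := g) Φ₀ v).trace - signCast γ * ((qv v : LocRing O T g) + 1) ∈ P ∧
      (∀ o : O, MvPowerSeries.C o ∈ P → o = 0) ∧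
      ∀ r γ', τ r = .steinberg γ' → ∃ i j, locMono (g := g) (O := O) r i j ∉ P := by
  classical
  let τ' := Function.update τ v (.steinberg γ)
  have hc' : ∀ r, Compatible (qv r) (Φ₀ r) (τ' r) := by
    intro r
    rcases eq_or_ne r v with rfl | hr
    · simpa [τ'] using hvγ
    · simpa [τ', hr] using hc r
  choose P P' K hP hK hgood using fun r => exists_kind (hc' r)
  let D := MvPowerSeries ((T × Fin 3) ⊕ Fin g) O
  have : IsAdicComplete (maximalIdeal D) D := DefRing.isAdicComplete_mvPowerSeries
  have : IsLocalHom (algebraMap O D) := ⟨fun a ha => by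
    simpa [D, MvPowerSeries.algebraMap_apply, MvPowerSeries.isUnit_iff_constantCoeff] using ha⟩
  have : IsDomain D := NoZeroDivisors.to_isDomain _
  obtain ⟨θ, -, hJ, -, -, hst⟩ := exists_chart_point (g := g) (D := D) qv Φ₀ τ' P P' K hP hK hgood
    (fun r j => if r = v ∧ j = 2 then 0 else MvPowerSeries.X (Sum.inl (r, j)))
    (fun r j => by split_ifs; exacts [zero_mem _, DefRing.X_mem_maximalIdeal _])
    (fun l => MvPowerSeries.X (Sum.inr l)) (fun l => DefRing.X_mem_maximalIdeal _)
  have hsat := (typeIdeal_le_ker_iff (θ : LocRing O T g →+* D) qv Φ₀ τ').1 hJ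
  have hv' := hsat v
  simp only [τ', Function.update_self, Sat] at hv'
  have hN0 := (hst v γ (by simp [τ'])).2 (by simp)
  refine ⟨RingHom.ker (θ : LocRing O T g →+* D), RingHom.ker_isPrime _,
    (typeIdeal_le_ker_iff _ qv Φ₀ τ).2 fun r => ?_, ?_, fun o ho => ?_, fun r γ' hr => ?_⟩
  · rcases eq_or_ne r v with rfl | hr
    · rw [hv]; exact ⟨hv'.1, hN0⟩
    · simpa [τ', hr] using hsat r
  · have h := hv'.2.1
    rw [RingHom.mem_ker, map_sub, map_mul, map_add, map_natCast, map_one, map_signCast,
      sub_eq_zero, ← h]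
    simp [Matrix.trace]
  · have h : algebraMap O D o = 0 := (θ.commutes o).symm.trans ho
    simpa [D, MvPowerSeries.algebraMap_apply] using congrArg MvPowerSeries.constantCoeff h
  · have hrv : r ≠ v := fun h => by rw [h, hv] at hr; cases hr
    have h1 := (hst r γ' (by simp [τ', hrv, hr])).1
    by_contra hall
    push Not at hall
    have h0 : conjC (P r) (P' r) (locMono r) 0 1 ∈ RingHom.ker (θ : LocRing O T g →+* D) :=
      conjC_mem hall 0 1
    rw [RingHom.mem_ker] at h0
    have hX := h1.symm.trans h0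
    rw [if_neg (fun h => hrv h.1)] at hX
    have := congrArg (MvPowerSeries.coeff (Finsupp.single (Sum.inl (r, (2 : Fin 3))) 1)) hX
    simp [MvPowerSeries.coeff_X] at this

omit [IsAdicComplete (maximalIdeal O) O] in
/-- On the unramified type at `v` the Steinberg trace condition cuts the dimension. -/
theorem not_dimGE_unramified_cut (qv : T → ℕ)
    (Φ₀ : T → Matrix (Fin 2) (Fin 2) O) (τ : T → CompType)
    (hc : ∀ r, Compatible (qv r) (Φ₀ r) (τ r)) (v : T) (hv : τ v = .unramified) (hq1 : 1 < qv v)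
    {Q : Ideal (LocRing O T g)} [Q.IsPrime] (hQ : typeIdeal qv Φ₀ τ ≤ Q)
    (he : (locFrob (g := g) Φ₀ v).trace ^ 2 - ((qv v : LocRing O T g) + 1) ^ 2 ∈ Q) :
    ¬ Patch.DimGE (LocRing O T g ⧸ Q) (3 * Nat.card T + g + 1) := by
  classical
  let := Fintype.ofFinite T
  -- the sign
  obtain ⟨γ, hγ⟩ : ∃ γ : ℤˣ,
      (locFrob (g := g) Φ₀ v).trace - signCast γ * ((qv v : LocRing O T g) + 1) ∈ Q := by
    rw [sq_sub_sq] at he
    rcases Ideal.IsPrime.mem_or_mem ‹_› he with h | h
    · refine ⟨-1, ?_⟩
      convert h using 1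
      simp [signCast]
      ring
    · exact ⟨1, by simpa [signCast] using h⟩
  have hvγ : Compatible (qv v) (Φ₀ v) (.steinberg γ) := by
    have h := hc v
    rw [hv] at h
    refine ⟨h.1, h.2, ?_⟩
    have h1 := le_maximalIdeal (Ideal.IsPrime.ne_top ‹_›) hγ
    rw [DefRing.mem_maximalIdeal_iff_constantCoeff] at h1
    simpa [Matrix.trace_fin_two, locFrob, map_signCast] using h1
  let τ' := Function.update τ v (.steinberg γ)
  have hc' : ∀ r, Compatible (qv r) (Φ₀ r) (τ' r) := by
    intro r
    rcases eq_or_ne r v with rfl | hr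
    · simpa [τ'] using hvγ
    · simpa [τ', hr] using hc r
  choose P P' K hP hK hgood using fun r => exists_kind (hc' r)
  have hQ' : typeIdeal qv Φ₀ τ' ≤ RingHom.ker (Ideal.Quotient.mk Q) := by
    have h := (typeIdeal_le_ker_iff (Ideal.Quotient.mk Q) qv Φ₀ τ).1 (by rwa [Ideal.mk_ker])
    refine (typeIdeal_le_ker_iff _ qv Φ₀ τ').2 fun r => ?_
    rcases eq_or_ne r v with rfl | hr
    · have h' := h r
      rw [hv] at h'
      obtain ⟨h1, h3⟩ := h'
      simp only [τ', Function.update_self, Sat, h1, h3]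
      refine ⟨trivial, ?_, by simp, by simp, by simp, by simp⟩
      rw [← Ideal.Quotient.eq_zero_iff_mem, map_sub, map_mul, map_add, map_natCast, map_one,
        map_signCast, sub_eq_zero] at hγ
      rw [← hγ]
      simp [Matrix.trace]
    · simpa [τ', hr] using h r
  obtain ⟨ϖ, hϖ⟩ := IsDiscreteValuationRing.exists_irreducible O
  let cut : Fin 3 → LocRing O T g := ![conjC (P v) (P' v) (locX v) 0 1,
    match K v with
    | .cone _ => conjC (P v) (P' v) (locX v) 1 0
    | _ => conjC (P v) (P' v) (locX v) 0 0,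
    MvPowerSeries.C ϖ]
  let w : (T × Fin 3) ⊕ Fin g → LocRing O T g := Sum.elim
    (fun p => if p.1 = v then cut p.2 else par (K p.1) (conjC (P p.1) (P' p.1) (locX p.1))
      (conjC (P p.1) (P' p.1) (locMono p.1)) p.2)
    (fun l => MvPowerSeries.X (Sum.inr (Sum.inr l)))
  have hϖm : MvPowerSeries.C ϖ ∈ maximalIdeal (LocRing O T g) := by
    rw [DefRing.mem_maximalIdeal_iff_constantCoeff, MvPowerSeries.constantCoeff_C,
      hϖ.maximalIdeal_eq]
    exact Ideal.mem_span_singleton_self ϖ
  have hwm : ∀ p, w p ∈ maximalIdeal (LocRing O T g) := by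
    have hX : ∀ r i j, conjC (P r) (P' r) (locX r) i j ∈ maximalIdeal (LocRing O T g) :=
      fun r => conjC_mem fun i j => DefRing.X_mem_maximalIdeal _
    rintro (⟨r, k⟩ | l)
    · simp only [w, Sum.elim_inl]
      split_ifs
      · fin_cases k
        · exact hX _ _ _
        · show (match K v with
            | .cone _ => conjC (P v) (P' v) (locX v) 1 0
            | _ => conjC (P v) (P' v) (locX v) 0 0) ∈ _
          cases K v <;> exact hX _ _ _
        · exact hϖm
      · exact par_mem _ (conjC_mem fun i j => DefRing.X_mem_maximalIdeal _)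
          (conjC_mem fun i j => DefRing.X_mem_maximalIdeal _) k
    · exact DefRing.X_mem_maximalIdeal _
  refine not_dimGE_of_vanishing (Finset.univ.image w)
    (fun x hx => by obtain ⟨p, -, rfl⟩ := Finset.mem_image.1 hx; exact hwm p)
    (fun Q' hQ'' hle hsQ => ?_) ?_
  · have := hQ''
    have hw0 : ∀ p, Ideal.Quotient.mk Q' (w p) = 0 := fun p =>
      Ideal.Quotient.eq_zero_iff_mem.2 (hsQ _ (Finset.mem_image_of_mem w (Finset.mem_univ p)))
    have hC : ∀ o ∈ maximalIdeal O, MvPowerSeries.C o ∈ Q' := by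
      intro o ho
      rw [hϖ.maximalIdeal_eq, Ideal.mem_span_singleton'] at ho
      obtain ⟨c, rfl⟩ := ho
      rw [map_mul]
      refine Q'.mul_mem_left _ (Ideal.Quotient.eq_zero_iff_mem.1 ?_)
      simpa [w, cut] using hw0 (Sum.inl (v, 2))
    have hJ' : typeIdeal qv Φ₀ τ' ≤ RingHom.ker (Ideal.Quotient.mk Q') := by
      rw [Ideal.mk_ker] at hQ' ⊢; exact hQ'.trans hle
    refine maximalIdeal_le_of_coords hC P P' hP (fun r => ?_)
      fun l => Ideal.Quotient.eq_zero_iff_mem.1 (hw0 (Sum.inr l))
    have hφ : ∀ o ∈ maximalIdeal O,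
        ((Ideal.Quotient.mk Q').comp (MvPowerSeries.C : O →+* LocRing O T g)) o = 0 := fun o ho =>
      Ideal.Quotient.eq_zero_iff_mem.2 (hC o ho)
    rcases eq_or_ne r v with rfl | hr
    · have hN : (Ideal.Quotient.mk Q').mapMatrix (conjC (P r) (P' r) (locMono r)) = 0 := by
        ext i j
        refine Ideal.Quotient.eq_zero_iff_mem.2 (conjC_mem (fun i j => ?_) i j)
        have h := (typeIdeal_le_ker_iff (Ideal.Quotient.mk Q) qv Φ₀ τ).1 (by rwa [Ideal.mk_ker]) r
        rw [hv] at h
        exact hle (Ideal.Quotient.eq_zero_iff_mem.1 (congrFun₂ h.2 i j))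
      refine ⟨eq_zero_of_cut_params
        ((Ideal.Quotient.mk Q').comp (MvPowerSeries.C : O →+* LocRing O T g)) hφ (K r) (hgood r)
        (γ := γ) (by rw [hK r]; simp [τ'])
        (sat_conj _ hJ' r (hP r) (hK r)) hN ?_ ?_, hN⟩
      · simpa [w, cut] using hw0 (Sum.inl (r, 0))
      · have h := hw0 (Sum.inl (r, 1))
        simp [w, cut] at h
        generalize hKr : K r = K' at h ⊢
        cases K' <;> simpa using h
    · refine eq_zero_of_params
        ((Ideal.Quotient.mk Q').comp (MvPowerSeries.C : O →+* LocRing O T g)) hφ (K r) (hgood r)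
        (sat_conj _ hJ' r (hP r) (hK r)) ?_ ?_ ?_
      · rw [← map_wOf]; simpa [w, hr, par] using hw0 (Sum.inl (r, 0))
      · rw [← map_wOf]; simpa [w, hr, par] using hw0 (Sum.inl (r, 1))
      · have h := hw0 (Sum.inl (r, 2))
        simp [w, hr, par] at h
        generalize hKr : K r = K' at h ⊢
        cases K' <;> simpa [map_wOf] using h
  · have h3 := Finset.card_image_le (s := (Finset.univ : Finset ((T × Fin 3) ⊕ Fin g))) (f := w)
    simp [Nat.card_eq_fintype_card] at h3 ⊢
    omega

end Fermat.Agent.Engine
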