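import Fermat.Agent.Engine.LevelRing
import Fermat.Agent.Engine.LocalTypes

/-!
# Taylor–Wiles levels: what the Hecke modules have to supply

`TwQuot O p r n` is the group ring of `r` cyclic groups of order `p ^ (n + 1)`.  `AuxLevels` is the
Galois part of the auxiliary levels; its `nExtra` variables are for what local coordinates miss when
the condition at `p` is not a closed one (flatness; none is allowed for lifting).  `LiftingLevels`
and `LoweringLevels` add, for each level, an
action of the deformation ring by matrices over `TwQuot O p r n` with its degeneracy or congruence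
data.  Frames are added afterwards, generically.
-/

set_option autoImplicit false

noncomputable section

open IsLocalRing Fermat.Agent.DefRing Fermat.Agent.Deform

namespace Fermat.Agent.Engine

local notation "Qbar" => AlgebraicClosure ℚ

variable (O : Type) [CommRing O]

/-- The relations `(1 + S i) ^ (p ^ (n + 1)) = 1`. -/
def twIdeal (p r n : ℕ) : Ideal (MvPowerSeries (Fin r) O) :=
  Ideal.span (Set.range fun i => (1 + MvPowerSeries.X i) ^ p ^ (n + 1) - 1)

/-- The coefficient ring of the auxiliary level `n`. -/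
abbrev TwQuot (p r n : ℕ) : Type := MvPowerSeries (Fin r) O ⧸ twIdeal O p r n

/-- The level ideal lies in the kernel of the constant coefficient. -/
theorem twIdeal_le_ker (p r n : ℕ) :
    twIdeal O p r n ≤ RingHom.ker (MvPowerSeries.constantCoeff (σ := Fin r) (R := O)) := by
  refine Ideal.span_le.2 ?_
  rintro _ ⟨i, rfl⟩
  simp

/-- The augmentation. -/
def twAug (p r n : ℕ) : TwQuot O p r n →+* O :=
  Ideal.Quotient.lift _ (MvPowerSeries.constantCoeff (σ := Fin r) (R := O))
    fun _ h => RingHom.mem_ker.1 (twIdeal_le_ker O p r n h)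

/-- The variable `S i`. -/
def twVar (p r n : ℕ) (i : Fin r) : TwQuot O p r n := Ideal.Quotient.mk _ (MvPowerSeries.X i)

/-- The constants. -/
def twConst (p r n : ℕ) : O →+* TwQuot O p r n := (Ideal.Quotient.mk _).comp MvPowerSeries.C

variable {O} [IsLocalRing O]

/-- The framed primes: Frobenius, tame generator, and no residual ramification. -/
structure FramedPrimes (p : ℕ) (L₀ : LevelData O) {T : Type} (qv : T → ℕ) (frob tame : T → GQ) :
    Prop where
  prime : ∀ r, (qv r).Prime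
  ne_p : ∀ r, qv r ≠ p
  place : ∀ r, ∃ Pl : ValuationSubring Qbar, Pl.LiesOverPrime (qv r) ∧
    Pl.IsFrobeniusAt (frob r) (qv r) ∧ tame r ∈ Pl.inertiaSubgroupIn ℚ ∧
      ∃ x : Qbar, x ^ p = (qv r : ℕ) ∧ tame r x ≠ x
  residual : ∀ r, ∀ Pl : ValuationSubring Qbar, Pl.LiesOverPrime (qv r) →
    ∀ σ ∈ Pl.inertiaSubgroupIn ℚ, L₀.D.rbar σ = 1
  det_frob : ∀ r, L₀.detChar (frob r) = (qv r : O)
  det_tame : ∀ r, L₀.detChar (tame r) = 1

/-- The Galois side of the auxiliary levels over the base level `L₀`. -/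
structure AuxLevels (r : ℕ) {T : Type} [Fintype T] (r₀ : T)
    (frob tame : T → GQ) (Φ₀ : T → Matrix (Fin 2) (Fin 2) O)
    (L₀ : LevelData O) (PB : L₀.RepRing) where
  /-- the number of global variables -/
  g : ℕ
  g_eq : g + 1 = r + Fintype.card T
  Sigma : ℕ → Finset ℕ
  P : ∀ n, (L₀.withSigma (Sigma n)).RepRing
  θ : ∀ n, LocRing O T g →ₐ[O] (P n).Framed r₀
  θ_isLocalHom : ∀ n, IsLocalHom (θ n : LocRing O T g →+* (P n).Framed r₀)
  /-- the number of further generators -/
  nExtra : ℕ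
  extra : ∀ n, Fin nExtra → (P n).R
  extra_mem : ∀ n i, extra n i ∈ maximalIdeal (P n).R
  /-- the local coordinates and the further generators generate -/
  generates : ∀ n, ∃ Φ : MvPowerSeries (Fin nExtra) (LocRing O T g) →+* (P n).Framed r₀,
    Function.Surjective Φ ∧ (∀ x, Φ (MvPowerSeries.C x) = θ n x) ∧
      ∀ i, Φ (MvPowerSeries.X i) = MvPowerSeries.C (extra n i)
  θ_spec : ∀ n v, (locFrob (g := g) Φ₀ v).map (θ n) = framedRep r₀ (P n).R (P n).rep v (frob v) ∧
    (locMono (g := g) (O := O) v).map (θ n) = framedRep r₀ (P n).R (P n).rep v (tame v) - 1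
  toBase : ∀ n, (P n).R →ₐ[O] PB.R
  toBase_isLocalHom : ∀ n, IsLocalHom (toBase n : (P n).R →+* PB.R)
  toBase_surjective : ∀ n, Function.Surjective (toBase n)
  toBase_rep : ∀ n σ, ((P n).rep σ).map (toBase n) = PB.rep σ
  /-- tame generators at the auxiliary primes -/
  tw : ℕ → Fin r → GQ
  tw_base : ∀ n i, (PB.rep (tw n i)).trace = 2

variable (p : ℕ) {r : ℕ} {T : Type} [Fintype T] {r₀ : T} {frob tame : T → GQ}
  {Φ₀ : T → Matrix (Fin 2) (Fin 2) O} {L₀ : LevelData O} {PB : L₀.RepRing}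

/-- The Hecke side for lifting: one action for each set `L` of primes put in the level. -/
structure LiftingLevels (qv : T → ℕ) (X : AuxLevels r r₀ frob tame Φ₀ L₀ PB) where
  rank : Finset T → ℕ
  rank_ne_zero : rank ∅ ≠ 0
  act : ∀ L n, (X.P n).R →+* Matrix (Fin (rank L)) (Fin (rank L)) (TwQuot O p r n)
  act₀ : ∀ L, PB.R →+* Matrix (Fin (rank L)) (Fin (rank L)) O
  act_const : ∀ L n (o : O), act L n (algebraMap O (X.P n).R o) = twConst O p r n o • 1
  act_base : ∀ L n x, (act L n x).map (twAug O p r n) = act₀ L (X.toBase n x)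
  /-- trace of inertia at the auxiliary primes -/
  square : ∀ L, ∃ k : ℕ, ∀ n i, (twVar O p r n i ^ 2 •
      (1 : Matrix (Fin (rank L)) (Fin (rank L)) (TwQuot O p r n)) -
    (1 + twVar O p r n i) • act L n (((X.P n).rep (X.tw n i)).trace - 2)) ^ k = 0
  unramified : ∀ L n v, v ∉ L → ∀ i j, act L n (((X.P n).rep (tame v) - 1) i j) = 0
  unipotent : ∀ L n, ∀ v ∈ L, act L n (((X.P n).rep (tame v)).trace - 2) = 0
  up₁ : ∀ L L' n, Matrix (Fin (rank L')) (Fin (rank L)) (TwQuot O p r n)
  up₂ : ∀ L L' n, Matrix (Fin (rank L')) (Fin (rank L)) (TwQuot O p r n)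
  down : ∀ L L' (ε : ℤˣ) n, Matrix (Fin (rank L)) (Fin (rank L')) (TwQuot O p r n)
  up₁_comm : ∀ L L' n x, act L' n x * up₁ L L' n = up₁ L L' n * act L n x
  up₂_comm : ∀ L L' n x, act L' n x * up₂ L L' n = up₂ L L' n * act L n x
  down_comm : ∀ L L' ε n x, act L n x * down L L' ε n = down L L' ε n * act L' n x
  split : ∀ L v L', v ∉ L → (∀ w, w ∈ L' ↔ w = v ∨ w ∈ L) →
    ∀ n, ∃ l₁ l₂ : Matrix (Fin (rank L)) (Fin (rank L')) (TwQuot O p r n),
      l₁ * up₁ L L' n = 1 ∧ l₁ * up₂ L L' n = 0 ∧ l₂ * up₁ L L' n = 0 ∧ l₂ * up₂ L L' n = 1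
  down_section : ∀ L v L' ε, v ∉ L → (∀ w, w ∈ L' ↔ w = v ∨ w ∈ L) →
    ∀ n, ∃ s : Matrix (Fin (rank L')) (Fin (rank L)) (TwQuot O p r n), down L L' ε n * s = 1
  down_up : ∀ L v L' ε, v ∉ L → (∀ w, w ∈ L' ↔ w = v ∨ w ∈ L) → ∀ n,
    down L L' ε n * up₁ L L' n = act L n ((qv v : (X.P n).R) + 1 +
        signCast ε * ((X.P n).rep (frob v)).trace) ∧
    down L L' ε n * up₂ L L' n = act L n (signCast ε * ((qv v : (X.P n).R) + 1 +
        signCast ε * ((X.P n).rep (frob v)).trace))
  new_part : ∀ L v L', v ∉ L → (∀ w, w ∈ L' ↔ w = v ∨ w ∈ L) → ∃ k : ℕ, ∀ n,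
    ∃ k₁ k₂ : Matrix (Fin (rank L)) (Fin (rank L')) (TwQuot O p r n),
      act L' n ((((X.P n).rep (frob v)).trace ^ 2 - ((qv v : (X.P n).R) + 1) ^ 2) ^ k) =
        up₁ L L' n * k₁ + up₂ L L' n * k₂

/-- The Hecke side for lowering: the levels with and without the character of order `p` at `v`. -/
structure LoweringLevels (X : AuxLevels r r₀ frob tame Φ₀ L₀ PB) (v : T) (ζ ζ' : O) where
  rank : ℕ
  rank_ne_zero : rank ≠ 0
  act : ∀ n, (X.P n).R →+* Matrix (Fin rank) (Fin rank) (TwQuot O p r n)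
  act' : ∀ n, (X.P n).R →+* Matrix (Fin rank) (Fin rank) (TwQuot O p r n)
  act₀' : PB.R →+* Matrix (Fin rank) (Fin rank) O
  act_const : ∀ n (o : O), act n (algebraMap O (X.P n).R o) = twConst O p r n o • 1
  act'_const : ∀ n (o : O), act' n (algebraMap O (X.P n).R o) = twConst O p r n o • 1
  act'_base : ∀ n x, (act' n x).map (twAug O p r n) = act₀' (X.toBase n x)
  congr : ∀ n x i j, act n x i j - act' n x i j ∈ Ideal.span {twConst O p r n (ζ - 1)}
  square : ∃ k : ℕ, ∀ n i, (twVar O p r n i ^ 2 •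
      (1 : Matrix (Fin rank) (Fin rank) (TwQuot O p r n)) -
    (1 + twVar O p r n i) • act n (((X.P n).rep (X.tw n i)).trace - 2)) ^ k = 0
  square' : ∃ k : ℕ, ∀ n i, (twVar O p r n i ^ 2 •
      (1 : Matrix (Fin rank) (Fin rank) (TwQuot O p r n)) -
    (1 + twVar O p r n i) • act' n (((X.P n).rep (X.tw n i)).trace - 2)) ^ k = 0
  /-- trace of inertia at `v` -/
  trace_v : ∃ k : ℕ, ∀ n, (act n (((X.P n).rep (tame v)).trace) -
    twConst O p r n (ζ + ζ') • (1 : Matrix (Fin rank) (Fin rank) (TwQuot O p r n))) ^ k = 0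
  /-- powers of the further generators are, on deep levels and modulo a given power of the maximal
  ideal of the coefficients, in the extended maximal ideal -/
  extra_nil : ∀ i, ∃ k : ℕ, ∀ j : ℕ, ∃ n₀ : ℕ, ∀ n, n₀ ≤ n →
    (MvPowerSeries.C (X.extra n i) : (X.P n).Framed r₀) ^ k ∈
      Ideal.span (Set.image (X.θ n)
          {x : LocRing O T X.g | MvPowerSeries.constantCoeff x ∈ maximalIdeal O}) ⊔
        (RingHom.ker ((Ideal.Quotient.mk ((maximalIdeal O).comap (twAug O p r n) ^ j)).mapMatrix.comp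
            (act n)) ⊓
          RingHom.ker ((Ideal.Quotient.mk ((maximalIdeal O).comap (twAug O p r n) ^ j)).mapMatrix.comp
            (act' n))).map MvPowerSeries.C
  unipotent : ∀ n w, w ≠ v → act n (((X.P n).rep (tame w)).trace - 2) = 0
  unipotent' : ∀ n w, act' n (((X.P n).rep (tame w)).trace - 2) = 0

end Fermat.Agent.Engine
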