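import Fermat.Agent.Engine.FlatCoords
import Fermat.Agent.Engine.FlatDiv
import Fermat.Agent.Engine.FlatAtP
import Fermat.Agent.Engine.Levels

/-!
# Auxiliary levels for the flat condition

`flatIdeal ψ` : the elements of a level ring sent to elements divisible by `p` at every point of a
Hecke ring.  It contains the entries of `rep σ - 1` for the elements of a kernel with Fontaine's
bound (`entries_mem_flatIdeal`), so the first order points killing it are flat and
`exists_flat_coords` gives local coordinates and further generators; `extra_nil_of_flat` is the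
field `LoweringLevels.extra_nil`.
-/

set_option autoImplicit false
set_option linter.unusedSectionVars false

noncomputable section

open IsLocalRing GaloisRep Fermat.Agent.DefRing Fermat.Agent.Deform

namespace Fermat.Agent.Engine

variable {O : Type} [CommRing O] [IsDomain O] [IsLocalRing O] [CharZero O] {p : ℕ}

/-- The elements of the maximal ideal mapped to elements divisible by `p` at every point. -/
def flatIdeal (p : ℕ) {R : Type} [CommRing R] [IsLocalRing R] [Algebra O R] {C : Type} [CommRing C]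
    [Algebra O C] [Algebra.IsIntegral O C] (ψ : R →ₐ[O] C) : Ideal R :=
  (divIdeal O p C).comap (ψ : R →+* C) ⊓ maximalIdeal R

namespace LevelData

variable {L : LevelData O} (P : L.RepRing)

/-- Residual spanning over the residue field of a level ring. -/
theorem RepRing.span_residue_eq_top
    (hspan : Submodule.span (ResidueField O) (Set.range L.D.rbar) = ⊤) :
    Submodule.span (ResidueField P.R)
      (Set.range fun g => (P.rep g).map (residue P.R)) = ⊤ := by
  set e := IsLocalRing.ResidueField.map (algebraMap O P.R)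
  have he : Function.Surjective e := fun z => by
    obtain ⟨o, ho⟩ := P.residue_surjective z
    exact ⟨residue O o, by rw [← ho]; rfl⟩
  have hred : ∀ g, (P.rep g).map (residue P.R) = (L.D.rbar g).map e := fun g => by
    ext a b
    have h : toResidue P.instIsLocalHom P.residue_surjective (P.rep g a b) = L.D.rbar g a b :=
      congrFun (congrFun (DFunLike.congr_fun P.isLift.reduces g) a) b
    obtain ⟨o, ho⟩ := P.residue_surjective (residue P.R (P.rep g a b))
    obtain ⟨o', ho'⟩ := IsLocalRing.residue_surjective (L.D.rbar g a b)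
    have hd : o - o' ∈ maximalIdeal O := by
      rw [← residue_eq_zero_iff, map_sub, ho', ← h, sub_eq_zero]
      refine ((toResidue P.instIsLocalHom P.residue_surjective).commutes o).symm.trans ?_
      rw [← sub_eq_zero, ← map_sub, toResidue_eq_zero_iff, ← residue_eq_zero_iff, map_sub]
      exact sub_eq_zero.2 ho
    show residue P.R (P.rep g a b) = e (L.D.rbar g a b)
    rw [← ho', ← ho]
    show residue P.R (algebraMap O P.R o) = residue P.R (algebraMap O P.R o')
    rw [← sub_eq_zero, ← map_sub, ← map_sub, residue_eq_zero_iff]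
    exact map_nonunit _ _ hd
  refine top_le_iff.1 fun X _ => ?_
  choose c hc using fun a b => he (X a b)
  have h1 : (Matrix.of c : Matrix (Fin 2) (Fin 2) (ResidueField O)) ∈
      Submodule.span (ResidueField O) (Set.range L.D.rbar) := hspan ▸ Submodule.mem_top
  rw [show X = (Matrix.of c).map e from Matrix.ext fun a b => (hc a b).symm]
  clear_value e
  clear hc
  generalize (Matrix.of c : Matrix (Fin 2) (Fin 2) (ResidueField O)) = Y at h1 ⊢
  induction h1 using Submodule.span_induction with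
  | mem Y hY =>
    obtain ⟨g, rfl⟩ := hY
    exact Submodule.subset_span ⟨g, hred g⟩
  | zero => rw [Matrix.map_zero _ (map_zero e)]; exact zero_mem _
  | add Y Y' _ _ h₁ h₂ => rw [Matrix.map_add _ (map_add e)]; exact add_mem h₁ h₂
  | smul a Y _ h₁ =>
    rw [show (a • Y).map e = e a • Y.map e from Matrix.ext fun i j => by simp]
    exact Submodule.smul_mem _ _ h₁

/-- **Trivially acting inertia with divisible change of trace has entries in `flatIdeal`.** -/
theorem RepRing.entries_mem_flatIdeal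
    (hspan : Submodule.span (ResidueField O) (Set.range L.D.rbar) = ⊤) {C : Type} [CommRing C]
    [Algebra O C] [Algebra.IsIntegral O C] (ψ : P.R →ₐ[O] C) {σ : GQ} (hσ : L.D.rbar σ = 1)
    (htr : ∀ g, ψ (P.rep (σ * g)).trace - ψ (P.rep g).trace ∈ divIdeal O p C) (a b : Fin 2) :
    (P.rep σ - 1) a b ∈ flatIdeal p ψ := by
  refine ⟨entries_mem_of_trace P.rep (P.span_residue_eq_top hspan) _ (fun g => ?_) a b, ?_⟩
  · rw [Ideal.mem_comap, map_sub]
    exact htr g
  · show (P.rep σ - 1) a b ∈ maximalIdeal P.R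
    rw [← toResidue_eq_zero_iff P.instIsLocalHom P.residue_surjective, Matrix.sub_apply, map_sub,
      show toResidue P.instIsLocalHom P.residue_surjective (P.rep σ a b) = L.D.rbar σ a b from
        congrFun (congrFun (DFunLike.congr_fun P.isLift.reduces σ) a) b, hσ]
    rw [Matrix.one_apply, Matrix.one_apply]
    split_ifs <;> simp

/-- The cocycle of a first order point killing the entries of `rep σ - 1` on a kernel with the bound
is flat. -/
theorem RepRing.cocOf_mem_cond [IsNoetherianRing O] {atP : CondAtP L.D.rbar p}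
    (hatP : ∀ c : GQ → Matrix (Fin 2) (Fin 2) (ResidueField O), IsAdCocycle L.D.rbar c →
      ∀ N : Subgroup GQ, FlatJ0.IsBoundKernel atP.place p N L.D.rbar → (∀ σ ∈ N, c σ = 0) →
        (fun g : atP.place.decompositionSubgroup ℚ => c g) ∈ atP.cond)
    {N : Subgroup GQ} (hN : FlatJ0.IsBoundKernel atP.place p N L.D.rbar) (K : Ideal P.R)
    (hK : ∀ σ ∈ N, ∀ a b, (P.rep σ - 1) a b ∈ K) :
    letI := dualAlgebra (𝒪 := O)
    ∀ φ : P.R →ₐ[O] DualNumber (ResidueField O), (∀ x ∈ K, φ x = 0) →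
      (∀ σ, (mapRep (φ : P.R →+* DualNumber (ResidueField O)) P.rep σ).map TrivSqZeroExt.fst =
        L.D.rbar σ) →
      (∀ σ, (cocOf L.D.rbar (mapRep (φ : P.R →+* DualNumber (ResidueField O)) P.rep) σ).trace = 0) →
      (fun σ : atP.place.decompositionSubgroup ℚ =>
        cocOf L.D.rbar (mapRep (φ : P.R →+* DualNumber (ResidueField O)) P.rep) (σ : GQ)) ∈
          atP.cond := by
  let := dualAlgebra (𝒪 := O)
  intro φ hφ hfst htr
  set M := mapRep (φ : P.R →+* DualNumber (ResidueField O)) P.rep with hM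
  have hone : ∀ σ, M σ = 1 → cocOf L.D.rbar M σ = 0 := fun σ hσ => by
    have h0 : (1 : Matrix (Fin 2) (Fin 2) (DualNumber (ResidueField O))).map TrivSqZeroExt.snd = 0 :=
      Matrix.ext fun a b => by
        rw [Matrix.map_apply, Matrix.one_apply, Matrix.zero_apply]
        split_ifs <;> simp
    rw [cocOf, hσ, h0, zero_mul]
  have hm : ∀ x ∈ maximalIdeal P.R, (φ x).fst = 0 := by
    intro x hx
    set f : P.R →+* ResidueField O :=
      (TrivSqZeroExt.fstHom (ResidueField O) (ResidueField O) (ResidueField O)).toRingHom.comp φ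
    have hf : Function.Surjective f := fun z => by
      obtain ⟨o, rfl⟩ := IsLocalRing.residue_surjective z
      exact ⟨algebraMap O P.R o, by
        show (φ (algebraMap O P.R o)).fst = _
        rw [φ.commutes, dual_algebraMap, TrivSqZeroExt.fst_inl]⟩
    have := (RingHom.ker_isMaximal_of_surjective f hf)
    rw [← IsLocalRing.eq_maximalIdeal this] at hx
    exact hx
  obtain ⟨F, hF, hcont⟩ := P.isLift.cont 2
  have hsq : ∀ x ∈ maximalIdeal P.R ^ 2, φ x = 0 := by
    intro x hx
    rw [pow_two] at hx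
    induction hx using Submodule.mul_induction_on' with
    | mem_mul_mem a ha b hb =>
      rw [map_mul]
      refine TrivSqZeroExt.ext ?_ ?_
      · simp [hm a ha]
      · simp [hm a ha, hm b hb]
    | add a _ b _ h₁ h₂ => rw [map_add, h₁, h₂, add_zero]
  have hcoc : IsAdCocycle L.D.rbar (cocOf L.D.rbar M) := by
    refine ⟨fun g h => ?_, htr, F, hF, fun σ hσ => hone σ ?_⟩
    · rw [cocOf_mul hfst, adRep_apply, add_comm]
    · refine sub_eq_zero.1 (Matrix.ext fun a b => ?_)
      have h1 := hsq _ (hcont σ hσ a b)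
      rw [Matrix.sub_apply, map_sub] at h1
      rw [Matrix.zero_apply, Matrix.sub_apply, ← h1]
      congr 1
      rw [Matrix.one_apply, Matrix.one_apply]
      split_ifs <;> simp
  refine hatP _ hcoc N hN fun σ hσ => hone σ (sub_eq_zero.1 (Matrix.ext fun a b => ?_))
  have h1 := hφ _ (hK σ hσ a b)
  rw [Matrix.sub_apply, map_sub] at h1
  rw [Matrix.zero_apply, Matrix.sub_apply, ← h1]
  congr 1
  rw [Matrix.one_apply, Matrix.one_apply]
  split_ifs <;> simp

end LevelData

/-- **Coordinates and further generators at an auxiliary level, flat condition.**  Here `nil` is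
what `extra_nil_of_flat` consumes. -/
theorem exists_flat_coords [Finite (ResidueField O)] [IsNoetherianRing O]
    [IsAdicComplete (maximalIdeal O) O] [Fact p.Prime] [CharP (ResidueField O) p]
    (h2 : (2 : ResidueField O) ≠ 0) (L₀ : LevelData O) (h₀ : L₀.IsResidual) (PB : L₀.RepRing)
    (G : Finset PB.R) (hG : Ideal.span (G : Set PB.R) = maximalIdeal PB.R)
    (atP : CondAtP L₀.D.rbar p)
    (hatP : ∀ c : GQ → Matrix (Fin 2) (Fin 2) (ResidueField O), IsAdCocycle L₀.D.rbar c →
      ∀ N : Subgroup GQ, FlatJ0.IsBoundKernel atP.place p N L₀.D.rbar → (∀ σ ∈ N, c σ = 0) →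
        (fun g : atP.place.decompositionSubgroup ℚ => c g) ∈ atP.cond)
    (T : Finset ℕ) (C : LocalChoices T) (r₀ : T) (htame : ∀ v, L₀.D.rbar (C.tame v) = 1)
    (Φ₀ : T → Matrix (Fin 2) (Fin 2) O)
    (hΦ₀ : ∀ v, (Φ₀ v).map (residue O) = L₀.D.rbar (C.frob v))
    {r : ℕ} (Q : Fin r → ℕ) (hQ : ∀ i, (Q i).Prime) (hQp : ∀ i, Q i ≠ p)
    (hQmem : ∀ i, Q i ∉ L₀.Sigma)
    (hbound : ∀ W : Submodule (ResidueField O) (TangentPair (ResidueField O) T),
      (∀ x ∈ W,
        IsTangentPair L₀.D.rbar L₀.Smin (L₀.Sigma ∪ Finset.univ.image Q) T C atP x) →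
      FiniteDimensional (ResidueField O) W ∧
        Module.finrank (ResidueField O) W ≤ r + T.card + 3)
    (P : (L₀.withSigma (L₀.Sigma ∪ Finset.univ.image Q)).RepRing)
    (K : Ideal P.R) (hKm : K ≤ maximalIdeal P.R)
    {N : Subgroup GQ} (hN : FlatJ0.IsBoundKernel atP.place p N L₀.D.rbar)
    (hK : ∀ σ ∈ N, ∀ a b, (P.rep σ - 1) a b ∈ K) :
    ∃ (extra : Fin (G.card + r * 4) → P.R)
      (θ : LocRing O T (r + T.card - 1) →ₐ[O] P.Framed r₀),
      (∀ i, extra i ∈ maximalIdeal P.R) ∧
      IsLocalHom (θ : LocRing O T (r + T.card - 1) →+* P.Framed r₀) ∧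
      (∃ Φ : MvPowerSeries (Fin (G.card + r * 4)) (LocRing O T (r + T.card - 1)) →+* P.Framed r₀,
        Function.Surjective Φ ∧ (∀ x, Φ (MvPowerSeries.C x) = θ x) ∧
          ∀ i, Φ (MvPowerSeries.X i) = MvPowerSeries.C (extra i)) ∧
      (∀ v, (locFrob (g := r + T.card - 1) Φ₀ v).map θ = framedRep r₀ P.R P.rep v (C.frob v) ∧
        (locMono (g := r + T.card - 1) (O := O) v).map θ =
          framedRep r₀ P.R P.rep v (C.tame v) - 1) ∧
      ∀ {M : ℕ} (J : Ideal P.R), (∀ x ∈ K, x ^ M ∈ Ideal.span {(p : P.R)} ⊔ J) → ∀ i,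
        (MvPowerSeries.C (extra i) : P.Framed r₀) ^ (1 + ((G.card + r * 4) * M + 1)) ∈
          Ideal.span (Set.image θ {x : LocRing O T (r + T.card - 1) |
              MvPowerSeries.constantCoeff x ∈ maximalIdeal O}) ⊔
            J.map MvPowerSeries.C := by
  have hT : 0 < T.card := Finset.card_pos.2 ⟨_, r₀.2⟩
  obtain ⟨θ, hθl, hθ, hθm⟩ := LevelData.RepRing.exists_coords_mod P h2
    ⟨h₀.cont, ⟨h₀.eqs.det, fun q hq hqS => h₀.eqs.unram q hq fun hm =>
      hqS (Finset.mem_union_left _ hm), h₀.eqs.unipotent⟩, h₀.atPlace⟩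
    atP K hKm (LevelData.RepRing.cocOf_mem_cond P hatP hN K hK) T C r₀ (g := r + T.card - 1)
    (fun W hW => by
      obtain ⟨h1, h3⟩ := hbound W hW
      exact ⟨h1, by omega⟩) htame Φ₀ hΦ₀
  obtain ⟨extra, hext, hspan⟩ :=
    LevelData.RepRing.exists_further_generators p L₀ h₀ PB G hG Q hQ hQp hQmem P
  obtain ⟨hgen, hnil⟩ := LevelData.RepRing.extra_spec P r₀ hθl extra hext hspan hKm hθm
  exact ⟨extra, θ, hext, hθl, hgen, hθ, fun {M} J hJ => hnil (p := p) (N := M)
    (by rw [← residue_eq_zero_iff, map_natCast, CharP.cast_eq_zero]) J hJ⟩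

section Levels

variable {O : Type} [CommRing O] [IsDomain O] [IsDiscreteValuationRing O] [CharZero O] {p : ℕ}
  [IsAdicComplete (maximalIdeal O) O] [Finite (ResidueField O)] [Fact p.Prime]


/-- Entries in `p` up to an ideal give a power in `p` up to the kernel modulo that ideal. -/
theorem pow_mem_span_sup_ker_mod {Λ R : Type} [CommRing Λ] [CommRing R] [Algebra O R] {r : ℕ}
    (q : ℕ) (cst : O →+* Λ) (var : Fin r → Λ)
    (hpoly : ∀ c : Λ, ∃ f : MvPolynomial (Fin r) O, MvPolynomial.eval₂ cst var f = c) {d : ℕ}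
    (act : R →+* Matrix (Fin d) (Fin d) Λ)
    (hconst : ∀ o : O, act (algebraMap O R o) = cst o • 1) {k : ℕ} (t : Fin r → R)
    (hsq : ∀ i, (var i ^ 2 • (1 : Matrix (Fin d) (Fin d) Λ) -
      (1 + var i) • act (t i)) ^ k = 0) (J : Ideal Λ)
    {x : R} (hx : ∀ a b, act x a b ∈ Ideal.span {(q : Λ)} ⊔ J) :
    x ^ (d * d * (2 * (k + 1)) ^ r) ∈ Ideal.span {(q : R)} ⊔
      RingHom.ker ((Ideal.Quotient.mk J).mapMatrix.comp act) := by
  set mk := Ideal.Quotient.mk J
  have hsmul : ∀ (a : Λ) (X : Matrix (Fin d) (Fin d) Λ),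
      mk.mapMatrix (a • X) = mk a • mk.mapMatrix X := fun a X => Matrix.ext fun i j => by
    simp only [RingHom.mapMatrix_apply, Matrix.map_apply, Matrix.smul_apply, smul_eq_mul, map_mul]
  refine pow_mem_span_sup_ker_of_gen (O := O) (R := R) (k := k) (r := r) (d := d) q (mk.comp cst)
    (fun i => mk (var i)) (fun c => ?_) (mk.mapMatrix.comp act) (fun o => ?_) t (fun i => ?_)
    (x := x) fun a b => ?_
  · obtain ⟨c, rfl⟩ := Ideal.Quotient.mk_surjective c
    obtain ⟨f, rfl⟩ := hpoly c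
    exact ⟨f, (MvPolynomial.eval₂_comp_left mk _ _ f).symm⟩
  · rw [RingHom.comp_apply, RingHom.comp_apply, hconst, hsmul, map_one]
  · have h := congrArg mk.mapMatrix (hsq i)
    rw [map_zero, map_pow, map_sub, hsmul, hsmul, map_one, map_pow, map_add, map_one] at h
    exact h
  · obtain ⟨u, hu, v, hv, e⟩ := Submodule.mem_sup.1 (hx a b)
    show mk (act x a b) ∈ _
    rw [← e, map_add, show mk v = 0 from Ideal.Quotient.eq_zero_iff_mem.2 hv, add_zero]
    have h := Ideal.mem_map_of_mem mk hu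
    rwa [Ideal.map_span, Set.image_singleton, map_natCast] at h

/-- **Powers of the further generators, on deep levels.** -/
theorem extra_nil_of_flat (hp : (p : O) ∈ maximalIdeal O) {r : ℕ} {T : Type} [Fintype T] {r₀ : T}
    {frob tame : T → GQ} {Φ₀ : T → Matrix (Fin 2) (Fin 2) O} {L₀ : LevelData O} {PB : L₀.RepRing}
    (X : AuxLevels r r₀ frob tame Φ₀ L₀ PB) {C C' : ℕ → Type} [∀ n, CommRing (C n)]
    [∀ n, Algebra O (C n)] [∀ n, Algebra.IsIntegral O (C n)] [∀ n, CommRing (C' n)]
    [∀ n, Algebra O (C' n)] [∀ n, Algebra.IsIntegral O (C' n)]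
    (ψ : ∀ n, (X.P n).R →ₐ[O] C n) (ψ' : ∀ n, (X.P n).R →ₐ[O] C' n) {d : ℕ}
    (π : ∀ n, C n →ₐ[O] Matrix (Fin d) (Fin d) (TwQuot O p r n))
    (π' : ∀ n, C' n →ₐ[O] Matrix (Fin d) (Fin d) (TwQuot O p r n))
    (act act' : ∀ n, (X.P n).R →+* Matrix (Fin d) (Fin d) (TwQuot O p r n))
    (hact : ∀ n x, act n x = π n (ψ n x)) (hact' : ∀ n x, act' n x = π' n (ψ' n x))
    (hsq : ∃ k : ℕ, ∀ n i, (twVar O p r n i ^ 2 •
        (1 : Matrix (Fin d) (Fin d) (TwQuot O p r n)) -
      (1 + twVar O p r n i) • act n (((X.P n).rep (X.tw n i)).trace - 2)) ^ k = 0)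
    (hsq' : ∃ k : ℕ, ∀ n i, (twVar O p r n i ^ 2 •
        (1 : Matrix (Fin d) (Fin d) (TwQuot O p r n)) -
      (1 + twVar O p r n i) • act' n (((X.P n).rep (X.tw n i)).trace - 2)) ^ k = 0)
    (hnil : ∀ n {M : ℕ} (J : Ideal (X.P n).R),
      (∀ x ∈ flatIdeal p (ψ n) ⊓ flatIdeal p (ψ' n), x ^ M ∈ Ideal.span {((p : ℕ) : (X.P n).R)} ⊔ J) →
      ∀ i, (MvPowerSeries.C (X.extra n i) : (X.P n).Framed r₀) ^ (1 + (X.nExtra * M + 1)) ∈
        Ideal.span (Set.image (X.θ n)
            {x : LocRing O T X.g | MvPowerSeries.constantCoeff x ∈ maximalIdeal O}) ⊔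
          J.map MvPowerSeries.C) :
    ∀ i, ∃ k : ℕ, ∀ j : ℕ, ∃ n₀ : ℕ, ∀ n, n₀ ≤ n →
      (MvPowerSeries.C (X.extra n i) : (X.P n).Framed r₀) ^ k ∈
        Ideal.span (Set.image (X.θ n)
            {x : LocRing O T X.g | MvPowerSeries.constantCoeff x ∈ maximalIdeal O}) ⊔
          (RingHom.ker ((Ideal.Quotient.mk ((maximalIdeal O).comap (twAug O p r n) ^ j)).mapMatrix.comp
              (act n)) ⊓
            RingHom.ker ((Ideal.Quotient.mk ((maximalIdeal O).comap (twAug O p r n) ^ j)).mapMatrix.comp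
              (act' n))).map MvPowerSeries.C := by
  obtain ⟨k, hk⟩ := hsq
  obtain ⟨k', hk'⟩ := hsq'
  obtain ⟨N₁, hN₁⟩ := exists_pow_entries_mem (O := O) (r := r) hp d
  set E := d * d * (2 * (k + 1)) ^ r
  set E' := d * d * (2 * (k' + 1)) ^ r
  intro i
  refine ⟨1 + (X.nExtra * (N₁ * E + N₁ * E') + 1), fun j => ?_⟩
  obtain ⟨n₀, hn₀⟩ := hN₁ j
  refine ⟨n₀, fun n hn => hnil n _ (fun x hx => ?_) i⟩
  have hconst : ∀ o : O, act n (algebraMap O (X.P n).R o) = twConst O p r n o • 1 := fun o => by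
    rw [hact, AlgHom.commutes, AlgHom.commutes, Algebra.algebraMap_eq_smul_one,
      ← algebraMap_smul (TwQuot O p r n) o (1 : Matrix (Fin d) (Fin d) (TwQuot O p r n))]
    rfl
  have hconst' : ∀ o : O, act' n (algebraMap O (X.P n).R o) = twConst O p r n o • 1 := fun o => by
    rw [hact', AlgHom.commutes, AlgHom.commutes, Algebra.algebraMap_eq_smul_one,
      ← algebraMap_smul (TwQuot O p r n) o (1 : Matrix (Fin d) (Fin d) (TwQuot O p r n))]
    rfl
  have h1 := pow_mem_span_sup_ker_mod (O := O) (k := k) (x := x ^ N₁) p (twConst O p r n)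
    (twVar O p r n) (twQuot_eq_eval₂ hp) (act n) hconst
    (fun i => ((X.P n).rep (X.tw n i)).trace - 2) (hk n) (twMax O p r n ^ j) fun a b => by
      rw [hact, map_pow (ψ n)]
      exact hn₀ n hn _ (π n) (ψ n x) hx.1.1 a b
  have h2 := pow_mem_span_sup_ker_mod (O := O) (k := k') (x := x ^ N₁) p (twConst O p r n)
    (twVar O p r n) (twQuot_eq_eval₂ hp) (act' n) hconst'
    (fun i => ((X.P n).rep (X.tw n i)).trace - 2) (hk' n) (twMax O p r n ^ j) fun a b => by
      rw [hact', map_pow (ψ' n)]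
      exact hn₀ n hn _ (π' n) (ψ' n x) hx.2.1 a b
  rw [← pow_mul] at h1 h2
  rw [pow_add]
  refine (?_ : (_ : Ideal (X.P n).R) ≤ _) (Ideal.mul_mem_mul h1 h2)
  rw [Ideal.sup_mul, Ideal.mul_sup, Ideal.mul_sup]
  refine sup_le (sup_le ?_ ?_) (sup_le ?_ ?_)
  · exact le_sup_of_le_left (Ideal.mul_le.2 fun a ha b _ => Ideal.mul_mem_right b _ ha)
  · exact le_sup_of_le_left (Ideal.mul_le.2 fun a ha b _ => Ideal.mul_mem_right b _ ha)
  · exact le_sup_of_le_left (Ideal.mul_le.2 fun a _ b hb => Ideal.mul_mem_left _ a hb)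
  · exact le_sup_of_le_right (le_inf (Ideal.mul_le.2 fun a ha b _ => Ideal.mul_mem_right b _ ha)
      (Ideal.mul_le.2 fun a _ b hb => Ideal.mul_mem_left _ a hb))

end Levels

end Fermat.Agent.Engine
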