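import Fermat.Agent.Route.Main
import Fermat.Agent.BigImage.Frey
import Fermat.Agent.MultRed.Frey
import Fermat.Prelude.Def_FLTPrelim_ModularRep
import Fermat.Prelude.Def_WeierstrassCurve_ConductorLevel

/-!
# The outputs of the odd-`p` engine, and what they give

`MazurPrinciple` is the output of the semistable reduction theory at `q ≢ 1 (mod p)`;
`LoweringAtOneModP` and `LiftingAtFive` are the outputs of the patching.  This file derives the
consumer statements (`RemoveAwayFromP` = S43, `ConductorModularity` = S06) from them.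
-/

set_option autoImplicit false

open WeierstrassCurve WeierstrassCurve.Affine WeierstrassCurve.Affine.Point

namespace Fermat.Agent.Engine

local notation "Qbar" => AlgebraicClosure ℚ
local notation "GQ" => AlgebraicClosure ℚ ≃ₐ[ℚ] AlgebraicClosure ℚ

/-- `W[p]` is absolutely irreducible on every index two subgroup. -/
def IndexTwoIrreducible (W : WeierstrassCurve ℤ) (p : ℕ) [Fact p.Prime] : Prop :=
  ∀ (hcard : Nat.card (Submodule.torsionBy ℤ
      ((W.map (Int.castRingHom ℚ))⁄Qbar).Point p) = p ^ 2)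
    (hker : GaloisFactorsThroughFiniteLevel
      (galoisRepModuleEnd (K := Qbar) ℚ (W.map (Int.castRingHom ℚ)) p))
    (K : Type) [Field K] [Algebra (ZMod p) K] (G : Subgroup GQ), G.index = 2 →
    ∀ V : Submodule K
      (((W.map (Int.castRingHom ℚ)).residualGaloisRepOf p hcard hker).baseChange K).V,
      (∀ σ ∈ G, ∀ x ∈ V,
        (((W.map (Int.castRingHom ℚ)).residualGaloisRepOf p hcard hker).baseChange K).ρ σ x ∈ V) →
      V = ⊥ ∨ V = ⊤

/-- The hypotheses on the residual representation used throughout. -/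
structure Residual (W : WeierstrassCurve ℤ) (p : ℕ) [Fact p.Prime] : Prop where
  five_le : 5 ≤ p
  delta_ne_zero : W.Δ ≠ 0
  semistable : W.IsSemistableModel
  irreducible : W.ModRepIsIrreducible p
  indexTwo : IndexTwoIrreducible W p

/-- The residual hypotheses without the bound `5 ≤ p`. -/
structure OddResidual (W : WeierstrassCurve ℤ) (p : ℕ) [Fact p.Prime] : Prop where
  ne_two : p ≠ 2
  delta_ne_zero : W.Δ ≠ 0
  semistable : W.IsSemistableModel
  irreducible : W.ModRepIsIrreducible p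
  indexTwo : IndexTwoIrreducible W p

/-- The residual hypotheses at `p ≥ 5` give those for odd `p`. -/
theorem Residual.toOdd {W : WeierstrassCurve ℤ} {p : ℕ} [Fact p.Prime] (h : Residual W p) :
    OddResidual W p :=
  ⟨by have := h.five_le; omega, h.delta_ne_zero, h.semistable, h.irreducible, h.indexTwo⟩

/-- The residual hypotheses at `p ≥ 5` as those for odd `p`. -/
instance {W : WeierstrassCurve ℤ} {p : ℕ} [Fact p.Prime] :
    Coe (Residual W p) (OddResidual W p) := ⟨Residual.toOdd⟩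

/-- `W[p]` is unramified at `q`. -/
def Unramified (W : WeierstrassCurve ℤ) (p q : ℕ) : Prop :=
  GaloisRepUnramifiedAt (K := Qbar) ℚ (W.map (Int.castRingHom ℚ)) p q

/-- If `p` is in the level, `W` is multiplicative at `p`, or good ordinary with `a_p² ≢ 1`. -/
def OrdinaryIfInLevel (W : WeierstrassCurve ℤ) (p M : ℕ) : Prop :=
  p ∣ M → ¬ W.IsGoodPrimeFor p ∨
    (¬ (p : ℤ) ∣ W.apOfModel p ∧ ¬ (p : ℤ) ∣ W.apOfModel p ^ 2 - 1)

/-- Mazur's principle: a prime `q ≢ 1 (mod p)` (possibly `2`) leaves a squarefree level. -/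
def MazurPrinciple : Prop :=
  ∀ (p : ℕ) [Fact p.Prime] (W : WeierstrassCurve ℤ) (M q : ℕ), Residual W p → q.Prime → q ≠ p →
    q ∣ M → Squarefree M → ¬ p ∣ q - 1 → Unramified W p q →
    W.IsResiduallyModularOfLevel p M → W.IsResiduallyModularOfLevel p (M / q)

/-- Taylor's trick: a prime `q ≡ 1 (mod p)` leaves the level, if every other superfluous prime
of the level is also `≡ 1 (mod p)`. -/
def LoweringAtOneModP : Prop :=
  ∀ (p : ℕ) [Fact p.Prime] (W : WeierstrassCurve ℤ) (M q : ℕ), Residual W p → q.Prime → q ≠ p →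
    q ∣ M → Squarefree M → p ∣ q - 1 → Unramified W p q → OrdinaryIfInLevel W p M →
    (∀ r : ℕ, r.Prime → r ∣ M → r ≠ p → Unramified W p r → p ∣ r - 1) →
    W.IsResiduallyModularOfLevel p M → W.IsResiduallyModularOfLevel p (M / q)

/-- Lifting at `5` to a level with the bad primes of the curve as support. -/
def LiftingAtFive : Prop :=
  ∀ (W : WeierstrassCurve ℤ) [Fact (Nat.Prime 5)], Residual W 5 →
    (¬ W.IsGoodPrimeFor 5 ∨
      (¬ (5 : ℤ) ∣ W.apOfModel 5 ∧ ¬ (5 : ℤ) ∣ W.apOfModel 5 ^ 2 - 1)) →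
    (∃ M : ℕ, Squarefree M ∧ W.IsResiduallyModularOfLevel 5 M) →
    ∃ N : ℕ, 0 < N ∧ Squarefree N ∧ (∀ q : ℕ, q.Prime → q ∣ N → (q : ℤ) ∣ W.Δ) ∧
      W.IsModularModelOfLevel N

/-- Residual modularity of an integral model passes to the standard model of the Frey curve. -/
def ResidualModelIndependent : Prop :=
  ∀ (P : FreyPackage) (N : ℕ) (W : WeierstrassCurve ℤ), W.IsIntegralModelOf P.freyCurve →
    W.IsResiduallyModularOfLevel P.p N → P.freyCurveInt.IsResiduallyModularOfLevel P.p N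

/-- Removing a prime from a squarefree level. -/
lemma div_prime_facts {M q : ℕ} (hq : q.Prime) (hqM : q ∣ M) (hM : Squarefree M) :
    M / q ∣ M ∧ Squarefree (M / q) ∧ ¬ q ∣ M / q ∧ M / q < M := by
  have hd : M / q ∣ M := Nat.div_dvd_of_dvd hqM
  refine ⟨hd, hM.squarefree_of_dvd hd, fun h => ?_,
    Nat.div_lt_self (Nat.pos_of_ne_zero hM.ne_zero) hq.one_lt⟩
  obtain ⟨c, hc⟩ := h
  refine Nat.squarefree_iff_prime_squarefree.1 hM q hq ⟨c, ?_⟩
  calc M = q * (M / q) := (Nat.mul_div_cancel' hqM).symm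
    _ = q * q * c := by rw [hc, mul_assoc]

/-- Level lowering away from `p`, at any prime. -/
theorem exists_level_without (hMazur : MazurPrinciple) (hOne : LoweringAtOneModP)
    (p : ℕ) [Fact p.Prime] (W : WeierstrassCurve ℤ) (hres : Residual W p) (q : ℕ) (hq : q.Prime)
    (hqp : q ≠ p) (hunr : Unramified W p q) (M : ℕ) (hqM : q ∣ M) (hM : Squarefree M)
    (hord : OrdinaryIfInLevel W p M) (hmod : W.IsResiduallyModularOfLevel p M) :
    ∃ M' : ℕ, M' ∣ M ∧ ¬ q ∣ M' ∧ W.IsResiduallyModularOfLevel p M' := by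
  induction M using Nat.strong_induction_on with
  | _ M ih =>
    obtain ⟨hd, hsq, hnd, -⟩ := div_prime_facts hq hqM hM
    by_cases hq1 : p ∣ q - 1
    · by_cases hall : ∀ r : ℕ, r.Prime → r ∣ M → r ≠ p → Unramified W p r → p ∣ r - 1
      · exact ⟨M / q, hd, hnd, hOne p W M q hres hq hqp hqM hM hq1 hunr hord hall hmod⟩
      · push Not at hall
        obtain ⟨r, hr, hrM, hrp, hru, hr1⟩ := hall
        obtain ⟨hd', hsq', -, hlt⟩ := div_prime_facts hr hrM hM
        have hqr : q ≠ r := fun h => hr1 (h ▸ hq1)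
        have hqM' : q ∣ M / r := by
          have h := hqM
          rw [← Nat.mul_div_cancel' hrM] at h
          exact ((Nat.Prime.dvd_mul hq).1 h).resolve_left fun h' =>
            hqr ((Nat.prime_dvd_prime_iff_eq hq hr).1 h')
        obtain ⟨M', hM', hqM'', hmod'⟩ := ih (M / r) hlt hqM' hsq'
          (fun h => hord (h.trans hd'))
          (hMazur p W M r hres hr hrp hrM hM hr1 hru hmod)
        exact ⟨M', hM'.trans hd', hqM'', hmod'⟩
    · exact ⟨M / q, hd, hnd, hMazur p W M q hres hq hqp hqM hM hq1 hunr hmod⟩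

/-- An irreducible Frey curve representation satisfies the residual hypotheses. -/
theorem frey_residual (P : FreyPackage) [Fact P.p.Prime]
    (hirr : GaloisRepIsIrreducible (K := Qbar) ℚ P.freyCurve P.p) :
    Residual P.freyCurveInt P.p where
  five_le := P.hp5
  delta_ne_zero := MultRed.freyCurveInt_Δ_ne_zero P
  semistable := fun q hq hΔ => MultRed.not_dvd_freyCurveInt_c₄ P hq hΔ
  irreducible := by
    unfold WeierstrassCurve.ModRepIsIrreducible
    rw [MultRed.freyCurveInt_map]
    exact hirr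
  indexTwo := by
    intro hcard hker K _ _ G hG V hV
    exact BigImage.residual_irreducible_index_two rfl Nat.prime_two
      (MultRed.freyCurveInt_Δ_ne_zero P) (MultRed.two_dvd_freyCurveInt_Δ P)
      (MultRed.not_dvd_freyCurveInt_c₄ P Nat.prime_two (MultRed.two_dvd_freyCurveInt_Δ P))
      (by have := P.hp5; omega) (BigImage.not_dvd_padicValInt_two_freyCurveInt_Δ P)
      (by have := P.hp5; omega) (by rw [MultRed.freyCurveInt_map]; exact hirr)
      K G hG V hV

/-- S43 from Mazur's principle and Taylor's trick. -/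
theorem removeAwayFromP_of (hMazur : MazurPrinciple) (hOne : LoweringAtOneModP)
    (hModel : ResidualModelIndependent) : Route.RemoveAwayFromP := by
  intro P N q hN hq _ hqp hqN hirr hmod hunr
  have : Fact P.p.Prime := ⟨P.pp⟩
  obtain ⟨f, W, 𝔪, hf, hW, h𝔪, hp𝔪, hcong⟩ := hmod
  have hres : P.freyCurveInt.IsResiduallyModularOfLevel P.p N :=
    hModel P N W hW ⟨f, 𝔪, hf, h𝔪, hp𝔪, hcong⟩
  have hord : OrdinaryIfInLevel P.freyCurveInt P.p N := fun hpN => Or.inl fun hgood => by
    refine hgood ((MultRed.dvd_freyCurveInt_Δ_iff P P.pp (by have := P.hp5; omega)).2 ?_)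
    exact hN.support P.p P.pp hpN
  have hu : Unramified P.freyCurveInt P.p q := by
    unfold Unramified
    rw [MultRed.freyCurveInt_map]
    exact hunr
  obtain ⟨M, hMN, hqM, f', 𝔪', hf', h𝔪', hp𝔪', hcong'⟩ := exists_level_without hMazur hOne
    P.p P.freyCurveInt (frey_residual P hirr) q hq hqp hu N hqN hN.squarefree hord hres
  exact ⟨M, hMN, hqM, f', P.freyCurveInt, 𝔪', hf',
    ⟨1, by rw [one_smul, MultRed.freyCurveInt_map]⟩, h𝔪', hp𝔪', hcong'⟩

/-- S06 at one package from modularity of the standard model. -/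
theorem conductorModularity_at (P : FreyPackage) {N : ℕ} (hN : 0 < N) (hsq : Squarefree N)
    (hsupp : ∀ q : ℕ, q.Prime → q ∣ N → (q : ℤ) ∣ P.a * P.b * P.c)
    (hint : ∀ (f : CuspForm (CongruenceSubgroup.Gamma0 N) 2), f.IsNormalizedEigenform →
      ∀ ℓ : ℕ, IsIntegral ℤ (ModularFormClass.qCoeff f ℓ))
    (hmod : P.freyCurveInt.IsModularModelOfLevel N) :
    ∃ N : ℕ, P.IsConductorLevel N ∧ P.ModularRepOfLevel N := by
  obtain ⟨f, hf, hcoef⟩ := hmod
  obtain ⟨𝔪, h𝔪, hp𝔪⟩ := FLTPrelim.exists_maximalIdeal_natCast_prime_mem P.pp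
  refine ⟨N, ⟨hN, hsq, hsupp⟩, f, P.freyCurveInt, 𝔪, hf,
    ⟨1, by rw [one_smul, MultRed.freyCurveInt_map]⟩, h𝔪, hp𝔪, fun ℓ hℓ hgood hN' _ => ?_⟩
  refine ⟨⟨ModularFormClass.qCoeff f ℓ, hint f hf ℓ⟩, rfl, ?_⟩
  convert 𝔪.zero_mem using 1
  rw [sub_eq_zero]
  exact Subtype.ext (by simpa using hcoef ℓ hℓ hgood hN')

end Fermat.Agent.Engine
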