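import Fermat.Agent.Engine.LiftingFraming

/-!
# Lifting through one raising at `p`

One further generator `z` and one global coordinate `w` with `z (z - w) = 0` on all modules; `H` and
`H'` are the families without and with `p` in the level and `e = w - z` kills the new part.
`ker_le_of_raising`: a point with `e = 0` comes from the level with `p`.  `ker_le_of_new`: the same
when `e` is nilpotent on all of `H'`.
-/

set_option autoImplicit false

noncomputable section

namespace Fermat.Agent.Engine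

open IsLocalRing Filter Patch Fermat.Agent.Deform Fermat.Agent.DefRing

section Substitution

variable {O : Type} [CommRing O] {T : Type} {g : ℕ} (κ : LocRing O T g →+* LocRing O T g)
  (hκC : ∀ o, κ (MvPowerSeries.C o) = MvPowerSeries.C o)
  (hκ₁ : ∀ y, κ (MvPowerSeries.X (Sum.inl y)) = MvPowerSeries.X (Sum.inl y))
  (hκ₂ : ∀ y, κ (MvPowerSeries.X (Sum.inr (Sum.inl y))) = MvPowerSeries.X (Sum.inr (Sum.inl y)))

include hκC hκ₁ hκ₂ in
/-- Type ideals are insensitive to substitutions of the global variables. -/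
theorem typeIdeal_le_comap_iff (qv : T → ℕ) (Φ₀ : T → Matrix (Fin 2) (Fin 2) O)
    (τ : T → CompType) (I : Ideal (LocRing O T g)) :
    typeIdeal qv Φ₀ τ ≤ I.comap κ ↔ typeIdeal qv Φ₀ τ ≤ I := by
  have key : ∀ r, (∀ y ∈ typeRels (qv r) (locFrob (g := g) Φ₀ r) (locMono r) (τ r),
      ((Ideal.Quotient.mk I).comp κ) y = 0) ↔
      ∀ y ∈ typeRels (qv r) (locFrob (g := g) Φ₀ r) (locMono r) (τ r),
        Ideal.Quotient.mk I y = 0 := fun r => by
    rw [typeRels_map_eq_zero_iff, typeRels_map_eq_zero_iff]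
    have h1 : ((Ideal.Quotient.mk I).comp κ).mapMatrix (locFrob (g := g) Φ₀ r) =
        (Ideal.Quotient.mk I).mapMatrix (locFrob (g := g) Φ₀ r) := by
      ext i j
      simp [locFrob, hκC, hκ₁]
    have h2 : ((Ideal.Quotient.mk I).comp κ).mapMatrix (locMono (g := g) (O := O) r) =
        (Ideal.Quotient.mk I).mapMatrix (locMono (g := g) (O := O) r) := by
      ext i j
      simp [locMono, hκ₂]
    rw [h1, h2]
  constructor <;> intro h <;> refine Ideal.span_le.2 (Set.iUnion_subset fun r => fun y hy => ?_)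
  · exact Ideal.Quotient.eq_zero_iff_mem.1 ((key r).1 (fun y hy => by
      rw [RingHom.comp_apply, Ideal.Quotient.eq_zero_iff_mem]
      exact h (Ideal.subset_span (Set.mem_iUnion.2 ⟨r, hy⟩))) y hy)
  · exact Ideal.mem_comap.2 <| Ideal.Quotient.eq_zero_iff_mem.1 ((key r).2 (fun y hy => by
      rw [Ideal.Quotient.eq_zero_iff_mem]
      exact h (Ideal.subset_span (Set.mem_iUnion.2 ⟨r, hy⟩))) y hy)

end Substitution

open Classical in
/-- A prime over the type ideal through which the global coordinate vanishes. -/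
theorem exists_pinned_prime {O : Type} [CommRing O] [IsDomain O] [IsDiscreteValuationRing O]
    [IsAdicComplete (maximalIdeal O) O] {T : Type} [Fintype T] {g : ℕ} (l : Fin g) (h2 : IsUnit (2 : O))
    (Φ₀ : T → Matrix (Fin 2) (Fin 2) O) (qv : T → ℕ) (τ : T → CompType)
    (hc : ∀ v, Compatible (qv v) (Φ₀ v) (τ v)) :
    ∃ J : Ideal (LocRing O T g), J.IsPrime ∧ typeIdeal qv Φ₀ τ ≤ J ∧
      MvPowerSeries.X (Sum.inr (Sum.inr l)) ∈ J ∧
      ∀ τ' : T → CompType, typeIdeal (g := g) qv Φ₀ τ' ≤ J →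
        typeIdeal (g := g) qv Φ₀ τ' ≤ typeIdeal qv Φ₀ τ := by
  have : IsAdicComplete (maximalIdeal (LocRing O T g)) (LocRing O T g) :=
    DefRing.isAdicComplete_mvPowerSeries
  obtain ⟨κ, hκC, hκX⟩ := exists_eval (J := maximalIdeal (LocRing O T g))
    (MvPowerSeries.C : O →+* LocRing O T g)
    (fun y : LocVar T g => if y = Sum.inr (Sum.inr l) then (0 : LocRing O T g)
      else MvPowerSeries.X y) (fun y => by
      show (if y = Sum.inr (Sum.inr l) then (0 : LocRing O T g) else MvPowerSeries.X y) ∈ _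
      split_ifs
      · exact zero_mem _
      · exact DefRing.X_mem_maximalIdeal _)
  have h₁ : ∀ y, κ (MvPowerSeries.X (Sum.inl y)) = MvPowerSeries.X (Sum.inl y) := fun y => by
    rw [hκX, if_neg (by simp)]
  have h₂ : ∀ y, κ (MvPowerSeries.X (Sum.inr (Sum.inl y))) =
      MvPowerSeries.X (Sum.inr (Sum.inl y)) := fun y => by rw [hκX, if_neg (by simp)]
  have := typeIdeal_isPrime (g := g) qv Φ₀ τ hc
  exact ⟨_, Ideal.IsPrime.comap κ,
    (typeIdeal_le_comap_iff κ hκC h₁ h₂ qv Φ₀ τ _).2 le_rfl,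
    Ideal.mem_comap.2 (by rw [hκX, if_pos rfl]; exact zero_mem _),
    fun τ' h => (typeIdeal_le_comap_iff κ hκC h₁ h₂ qv Φ₀ τ' _).1 h⟩

section Limit

variable {R : Type} [CommRing R] [IsLocalRing R] [IsNoetherianRing R] [Finite (ResidueField R)]
  [IsAdicComplete (maximalIdeal R) R]

/-- A limit of elements of an ideal is in the ideal. -/
theorem ulim_mem_ideal (I : Ideal R) {f : ℕ → R} (hf : ∀ n, f n ∈ I) : ulim f ∈ I := by
  have h := ulim_sub_mem (J := I) (f := f) (g := fun _ => (0 : R)) (I := fun _ => (⊥ : Ideal R))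
    (fun _ => Eventually.of_forall fun _ => bot_le)
    (Eventually.of_forall fun n => Ideal.mem_sup_left (by simpa using hf n))
  simpa [ulim_const] using h

end Limit

namespace LiftingSystem

variable {O : Type} [CommRing O] {T : Type} {g : ℕ}
  {Λ : Type} [CommRing Λ] [IsDomain Λ] [IsLocalRing Λ] [IsNoetherianRing Λ]
  [Finite (ResidueField Λ)] [IsAdicComplete (maximalIdeal Λ) Λ]
  {RB : Type} [CommRing RB] {R : Type} [CommRing R] [IsLocalRing R] [IsNoetherianRing R]
  [Finite (ResidueField R)] [IsAdicComplete (maximalIdeal R) R] {ι : LocRing O T g →+* R}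
  {qv : T → ℕ} {Φ₀ : T → Matrix (Fin 2) (Fin 2) O}
  [IsLocalRing (LocRing O T g)] [IsNoetherianRing (LocRing O T g)]
  [Finite (ResidueField (LocRing O T g))]
  [IsAdicComplete (maximalIdeal (LocRing O T g)) (LocRing O T g)] [IsLocalHom ι]
  [IsLocalRing RB] [IsNoetherianRing RB] [Finite (ResidueField RB)]
  [IsAdicComplete (maximalIdeal RB) RB]
  (S : LiftingSystem O T g Λ RB R ι qv Φ₀) {L : Finset T}

/-- A second family, receiving two copies of the modules of `S` with traces back divisible by `E`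
and new part killed by a power of `E`, has a component through every prime of the support at which
`E` vanishes. -/
theorem exists_component_of_raising {d' : ℕ} {N' : ℕ → Type} [∀ n, AddCommGroup (N' n)]
    [∀ n, Module R (N' n)] [∀ n, Module Λ (N' n)] [∀ n, SMulCommClass R Λ (N' n)]
    {ε' : ∀ n, Fin d' → N' n} (hε' : ∀ n, IsModBasis (S.I n) (ε' n))
    (hsc' : ∀ n (a : Λ), ∃ r : R, ∀ x : N' n, r • x = a • x)
    (F₁ F₂ : ∀ n, S.M L n →ₗ[Λ] N' n) (hF₁ : ∀ n (r : R) x, F₁ n (r • x) = r • F₁ n x)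
    (hF₂ : ∀ n (r : R) x, F₂ n (r • x) = r • F₂ n x)
    (G : ∀ n, N' n →ₗ[Λ] S.M L n) (hG : ∀ n (r : R) x, G n (r • x) = r • G n x)
    (hsplit : ∃ l₁ l₂ : ∀ n, N' n →ₗ[Λ] S.M L n, ∀ n,
      (l₁ n).comp (F₁ n) = LinearMap.id ∧ (l₁ n).comp (F₂ n) = 0 ∧
      (l₂ n).comp (F₁ n) = 0 ∧ (l₂ n).comp (F₂ n) = LinearMap.id)
    (hsec : ∃ s : ∀ n, S.M L n →ₗ[Λ] N' n, ∀ n, (G n).comp (s n) = LinearMap.id) (E : R)
    (hdown_up : ∃ K₁ K₂ : ∀ n, S.M L n →ₗ[Λ] S.M L n, ∀ n x,
      G n (F₁ n x) = E • K₁ n x ∧ G n (F₂ n x) = E • K₂ n x)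
    (hnew : ∃ (k : ℕ) (J₁ J₂ : ∀ n, N' n →ₗ[Λ] S.M L n), ∀ n (x : N' n),
      E ^ k • x = F₁ n (J₁ n x) + F₂ n (J₂ n x))
    {P : Ideal R} [P.IsPrime] (hP : Module.annihilator R (Acted (S.act L)) ≤ P) (hE : E ∈ P) :
    ∃ P₁ : Ideal R, P₁.IsPrime ∧ P₁ ≤ P ∧
      Module.annihilator R (Acted (patchAction (R := R) hε' S.tendsToZero)) ≤ P₁ ∧ E ∈ P₁ ∧
      DimGE (R ⧸ P₁) (3 * Nat.card T + g + 1) := by
  classical
  set ρ' := patchAction (R := R) hε' S.tendsToZero
  have hρ' : ScalarsIn ρ' := scalarsIn_patchAction hε' S.tendsToZero fun n a => by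
    obtain ⟨r, hr⟩ := hsc' n a
    exact ⟨r, fun j => hr _⟩
  let f₁ : Acted (S.act L) →ₗ[R] Acted ρ' :=
    { toFun := fun x => patchMap (S.isBasis L) hε' F₁ x
      map_add' := fun x y => map_add _ _ _
      map_smul' := fun r x => patchMap_equivariant (S.isBasis L) hε' S.tendsToZero F₁ hF₁ r x }
  let f₂ : Acted (S.act L) →ₗ[R] Acted ρ' :=
    { toFun := fun x => patchMap (S.isBasis L) hε' F₂ x
      map_add' := fun x y => map_add _ _ _
      map_smul' := fun r x => patchMap_equivariant (S.isBasis L) hε' S.tendsToZero F₂ hF₂ r x }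
  let f : Acted ρ' →ₗ[R] Acted (S.act L) :=
    { toFun := fun x => patchMap hε' (S.isBasis L) G x
      map_add' := fun x y => map_add _ _ _
      map_smul' := fun r x => patchMap_equivariant hε' (S.isBasis L) S.tendsToZero G hG r x }
  let pm := fun (F : ∀ n, N' n →ₗ[Λ] S.M L n) => patchMap hε' (S.isBasis L) F
  have hc : ∀ (F : ∀ n, S.M L n →ₗ[Λ] N' n) (G' : ∀ n, N' n →ₗ[Λ] S.M L n),
      (pm G').comp (patchMap (S.isBasis L) hε' F) =
        patchMap (S.isBasis L) (S.isBasis L) fun n => (G' n).comp (F n) := fun F G' =>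
    (patchMap_comp (S.isBasis L) hε' (S.isBasis L) S.tendsToZero F G').symm
  obtain ⟨l₁, l₂, hl⟩ := hsplit
  have h11 : (pm l₁).comp (patchMap (S.isBasis L) hε' F₁) = LinearMap.id := by
    rw [hc]; simp only [(hl _).1]; exact patchMap_id _ S.tendsToZero
  have h12 : (pm l₁).comp (patchMap (S.isBasis L) hε' F₂) = 0 := by
    rw [hc]; simp only [(hl _).2.1]; exact patchMap_zero _ _ S.tendsToZero
  have h21 : (pm l₂).comp (patchMap (S.isBasis L) hε' F₁) = 0 := by
    rw [hc]; simp only [(hl _).2.2.1]; exact patchMap_zero _ _ S.tendsToZero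
  have h22 : (pm l₂).comp (patchMap (S.isBasis L) hε' F₂) = LinearMap.id := by
    rw [hc]; simp only [(hl _).2.2.2]; exact patchMap_id _ S.tendsToZero
  obtain ⟨sec, hs⟩ := hsec
  have hf : Function.Surjective f := fun x => by
    refine ⟨patchMap (S.isBasis L) hε' sec x, ?_⟩
    have h := hc sec G
    simp only [hs, patchMap_id _ S.tendsToZero] at h
    exact LinearMap.congr_fun h x
  obtain ⟨K₁, K₂, hK⟩ := hdown_up
  have hgf : ∀ (F : ∀ n, S.M L n →ₗ[Λ] N' n) (K : ∀ n, S.M L n →ₗ[Λ] S.M L n),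
      (∀ n x, G n (F n x) = E • K n x) → ∀ y : Acted (S.act L),
        pm G (patchMap (S.isBasis L) hε' F y) =
          E • (show Acted (S.act L) from patchMap (S.isBasis L) (S.isBasis L) K y) := by
    intro F K h y
    let μ : ∀ n, S.M L n →ₗ[Λ] S.M L n := fun n =>
      { toFun := fun x => E • x
        map_add' := smul_add E
        map_smul' := fun a x => smul_comm E a x }
    have h1 := hc F G
    rw [show (fun n => (G n).comp (F n)) = fun n => (μ n).comp (K n) from
      funext fun n => LinearMap.ext fun x => h n x,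
      patchMap_comp (S.isBasis L) (S.isBasis L) (S.isBasis L) S.tendsToZero K μ] at h1
    exact (LinearMap.congr_fun h1 y).trans (S.lim_smul_eq E μ (fun n x => rfl) _)
  obtain ⟨k, J₁, J₂, hJ⟩ := hnew
  have : Module.Finite R (Acted (S.act L)) := finite_acted _ (S.scalarsIn_act L)
  obtain ⟨P₁, hP₁, hle, hann, hEk, hdim, -⟩ := exists_new_component (f₁.coprod f₂)
    (show Acted (S.act L) × Acted (S.act L) →ₗ[Λ] Acted ρ' from
      (patchMap (S.isBasis L) hε' F₁).coprod (patchMap (S.isBasis L) hε' F₂)) (fun a => rfl)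
    (show Acted ρ' →ₗ[Λ] Acted (S.act L) × Acted (S.act L) from (pm l₁).prod (pm l₂))
    (LinearMap.ext fun z => by
      obtain ⟨x, y⟩ := z
      exact Prod.ext
        ((map_add (pm l₁) _ _).trans ((congrArg₂ (· + ·) (LinearMap.congr_fun h11 x)
          (LinearMap.congr_fun h12 y)).trans (add_zero _)))
        ((map_add (pm l₂) _ _).trans ((congrArg₂ (· + ·) (LinearMap.congr_fun h21 x)
          (LinearMap.congr_fun h22 y)).trans (zero_add _))))
    (scalars_acted ρ' hρ') S.dim hP f hf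
    (fun a => by
      obtain ⟨x, y⟩ := a
      rw [show f ((f₁.coprod f₂) (x, y)) = f (f₁ x) + f (f₂ y) from map_add f _ _,
        show f (f₁ x) = E • (show Acted (S.act L) from patchMap (S.isBasis L) (S.isBasis L) K₁ x) from
          hgf F₁ K₁ (fun n x => (hK n x).1) x,
        show f (f₂ y) = E • (show Acted (S.act L) from patchMap (S.isBasis L) (S.isBasis L) K₂ y) from
          hgf F₂ K₂ (fun n x => (hK n x).2) y]
      exact add_mem (Submodule.smul_mem_smul hE Submodule.mem_top)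
        (Submodule.smul_mem_smul hE Submodule.mem_top))
    (e := E ^ k)
    (fun b => ⟨((show Acted (S.act L) from pm J₁ b), (show Acted (S.act L) from pm J₂ b)), by
      let μ : ∀ n, N' n →ₗ[Λ] N' n := fun n =>
        { toFun := fun x => E ^ k • x
          map_add' := smul_add (E ^ k)
          map_smul' := fun a x => smul_comm (E ^ k) a x }
      have h1 := LinearMap.congr_fun (patchMap_smul (R := R) hε' S.tendsToZero (E ^ k) μ
        fun n x => rfl) b
      rw [show μ = fun n => (F₁ n).comp (J₁ n) + (F₂ n).comp (J₂ n) from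
        funext fun n => LinearMap.ext fun x => hJ n x,
        patchMap_add hε' hε' S.tendsToZero,
        patchMap_comp hε' (S.isBasis L) hε' S.tendsToZero J₁,
        patchMap_comp hε' (S.isBasis L) hε' S.tendsToZero J₂] at h1
      exact h1.trans (Matrix.toLin'_apply _ _)⟩)
    1 (fun Q hQ _ _ h => absurd ((Ideal.eq_top_iff_one Q).2 (by simpa using h 0 0)) hQ.ne_top)
  exact ⟨P₁, hP₁, hle, hann, hP₁.mem_of_pow_mem k hEk, hdim⟩

end LiftingSystem

variable {O : Type} [CommRing O] [IsDomain O] [IsDiscreteValuationRing O]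
  [IsAdicComplete (maximalIdeal O) O] [Finite (ResidueField O)] {p : ℕ} [Fact p.Prime]
  [CharP (ResidueField O) p] {r : ℕ} {T : Type} [Fintype T] {r₀ : T}
  {frob tame : T → GQ} {Φ₀ : T → Matrix (Fin 2) (Fin 2) O} {L₀ : LevelData O} {PB : L₀.RepRing}
  {qv : T → ℕ} {X : AuxLevels r r₀ frob tame Φ₀ L₀ PB}

namespace LiftingLevels

/-- The data raising the level at `p` for one set `L`. -/
structure RaisingData (H H' : LiftingLevels p qv X) (L : Finset T) (e : ∀ n, (X.P n).R) where
  up₁ : ∀ n, Matrix (Fin (H'.rank L)) (Fin (H.rank L)) (TwQuot O p r n)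
  up₂ : ∀ n, Matrix (Fin (H'.rank L)) (Fin (H.rank L)) (TwQuot O p r n)
  down : ∀ n, Matrix (Fin (H.rank L)) (Fin (H'.rank L)) (TwQuot O p r n)
  up₁_comm : ∀ n b, H'.act L n b * up₁ n = up₁ n * H.act L n b
  up₂_comm : ∀ n b, H'.act L n b * up₂ n = up₂ n * H.act L n b
  down_comm : ∀ n b, H.act L n b * down n = down n * H'.act L n b
  split : ∀ n, ∃ l₁ l₂ : Matrix (Fin (H.rank L)) (Fin (H'.rank L)) (TwQuot O p r n),
    l₁ * up₁ n = 1 ∧ l₁ * up₂ n = 0 ∧ l₂ * up₁ n = 0 ∧ l₂ * up₂ n = 1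
  down_section : ∀ n, ∃ s : Matrix (Fin (H'.rank L)) (Fin (H.rank L)) (TwQuot O p r n),
    down n * s = 1
  down_up : ∀ n, ∃ K₁ K₂ : Matrix (Fin (H.rank L)) (Fin (H.rank L)) (TwQuot O p r n),
    down n * up₁ n = H.act L n (e n) * K₁ ∧ down n * up₂ n = H.act L n (e n) * K₂
  /-- `e` kills the new part, up to nilpotents -/
  new_part : ∃ k : ℕ, ∀ n, ∃ J₁ J₂ : Matrix (Fin (H.rank L)) (Fin (H'.rank L)) (TwQuot O p r n),
    H'.act L n (e n ^ k) = up₁ n * J₁ + up₂ n * J₂

variable (H : LiftingLevels p qv X) (hnE : X.nExtra = 1) (l : Fin X.g) (w : ∀ n, (X.P n).R)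
  (hl : ∀ n, X.θ n (MvPowerSeries.X (Sum.inr (Sum.inr l))) = MvPowerSeries.C (w n))

/-- The control by a pinned coordinate. -/
def ExtraControl.ofPinned
    (hquad : ∀ L n, H.act L n
      (X.extra n ⟨0, hnE ▸ one_pos⟩ * (X.extra n ⟨0, hnE ▸ one_pos⟩ - w n)) = 0) :
    H.ExtraControl where
  a _ := MvPowerSeries.X (Sum.inr (Sum.inr l))
  a_mem _ := DefRing.X_mem_maximalIdeal _
  eq L n k := by
    obtain rfl : k = ⟨0, hnE ▸ one_pos⟩ := Fin.ext (by have := k.2; omega)
    rw [map_mul, map_sub, X.fullAct_inr, X.fullAct_C, hl, X.framedAct_C,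
      ← RingHom.mapMatrix_apply, ← RingHom.mapMatrix_apply, ← map_sub, ← map_mul, ← map_sub,
      ← map_mul, hquad, map_zero]

open Classical in
/-- The element `e = w - z` in the extended ring. -/
def pinnedE : ExtRing O T r X.nExtra X.g :=
  MvPowerSeries.C (MvPowerSeries.X (Sum.inr (Sum.inr l))) -
    MvPowerSeries.X (Sum.inr ⟨0, hnE ▸ one_pos⟩)

omit [Finite (ResidueField O)] [Fact (Nat.Prime p)] [CharP (ResidueField O) p] in
include hl in
/-- The action of the pinned element. -/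
theorem fullAct_pinnedE {d : ℕ} (n : ℕ)
    (act : (X.P n).R →+* Matrix (Fin d) (Fin d) (TwQuot O p r n)) :
    X.fullAct n p act (pinnedE hnE l) =
      (act (w n - X.extra n ⟨0, hnE ▸ one_pos⟩)).map (AuxLevels.twEmbed (r₀ := r₀) n p) := by
  rw [pinnedE, map_sub, X.fullAct_C, hl, X.framedAct_C, X.fullAct_inr, map_sub,
    ← RingHom.mapMatrix_apply, ← RingHom.mapMatrix_apply, ← RingHom.mapMatrix_apply, ← map_sub]

omit [Finite (ResidueField O)] in
include hl in
/-- The image of the pinned element in the base ring. -/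
theorem baseMap_pinnedE (n : ℕ) : X.baseMap n (pinnedE hnE l) =
    X.toBase n (w n - X.extra n ⟨0, hnE ▸ one_pos⟩) := by
  rw [AuxLevels.baseMap, RingHom.comp_apply, RingHom.comp_apply, pinnedE, map_sub, map_sub,
    X.extMap_C, X.extMap_inr, hl, MvPowerSeries.constantCoeff_C, MvPowerSeries.constantCoeff_C,
    ← map_sub, AuxLevels.framedBase, RingHom.comp_apply, MvPowerSeries.constantCoeff_C]
  rfl

omit [Finite (ResidueField O)] [Fact (Nat.Prime p)] [CharP (ResidueField O) p] in
include hl in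
/-- Powers of the pinned element on the level modules. -/
theorem smul_pinned (L : Finset T) (n k : ℕ)
    (U : Matrix (Fin (H.rank L)) (Fin (H.rank L)) (TwQuot O p r n))
    (z : LevelMod (X.fullAct n p (H.act L n))) :
    pinnedE hnE l ^ k • X.modMap n p (H.act L n) (H.act L n) U z =
      X.modMap n p (H.act L n) (H.act L n)
        (H.act L n (w n - X.extra n ⟨0, hnE ▸ one_pos⟩) ^ k * U) z := by
  rw [← X.modMap_modMap n p _ (H.act L n)]
  refine (levelMod_smul _ _ _).trans ?_
  rw [map_pow, fullAct_pinnedE hnE l w hl, ← RingHom.mapMatrix_apply, ← map_pow]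
  rfl

omit [Finite (ResidueField O)] [Fact (Nat.Prime p)] [CharP (ResidueField O) p] in
include hl in
/-- A power of the pinned element factors through a pair of maps when its matrix does. -/
theorem smul_pinned' (L : Finset T) (n k : ℕ) {d : ℕ}
    (act : (X.P n).R →+* Matrix (Fin d) (Fin d) (TwQuot O p r n))
    (U₁ U₂ : Matrix (Fin (H.rank L)) (Fin d) (TwQuot O p r n))
    (J₁ J₂ : Matrix (Fin d) (Fin (H.rank L)) (TwQuot O p r n))
    (h : H.act L n ((w n - X.extra n ⟨0, hnE ▸ one_pos⟩) ^ k) = U₁ * J₁ + U₂ * J₂)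
    (z : LevelMod (X.fullAct n p (H.act L n))) :
    pinnedE hnE l ^ k • z =
      X.modMap n p act (H.act L n) U₁ (X.modMap n p (H.act L n) act J₁ z) +
        X.modMap n p act (H.act L n) U₂ (X.modMap n p (H.act L n) act J₂ z) := by
  rw [X.modMap_modMap, X.modMap_modMap]
  refine (levelMod_smul _ _ _).trans ?_
  rw [map_pow, fullAct_pinnedE hnE l w hl, ← RingHom.mapMatrix_apply, ← map_pow, ← map_pow, h]
  show ((U₁ * J₁ + U₂ * J₂).map _).mulVec _ = _
  rw [Matrix.map_add _ (map_add _), Matrix.add_mulVec]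
  rfl

open Classical in
include hl in
/-- **Lifting, raising at `p`.** -/
theorem ker_le_of_raising (H' : LiftingLevels p qv X)
    (hquad : ∀ L n, H.act L n
      (X.extra n ⟨0, hnE ▸ one_pos⟩ * (X.extra n ⟨0, hnE ▸ one_pos⟩ - w n)) = 0)
    (hquad' : ∀ L n, H'.act L n
      (X.extra n ⟨0, hnE ▸ one_pos⟩ * (X.extra n ⟨0, hnE ▸ one_pos⟩ - w n)) = 0)
    (hF : FramedPrimes p L₀ qv frob tame) (h2 : IsUnit (2 : O)) [CharZero O]
    {K : Type} [CommRing K] [IsDomain K] (x : PB.R →+* K)
    (hx : ∀ v, x ((PB.rep (tame v)).trace) = 2)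
    (hxe : ∀ n, x (X.toBase n (w n - X.extra n ⟨0, hnE ▸ one_pos⟩)) = 0)
    (D : RaisingData H H' (Finset.univ.filter fun v => ∃ i j, x ((PB.rep (tame v) - 1) i j) ≠ 0)
      fun n => w n - X.extra n ⟨0, hnE ▸ one_pos⟩) :
    RingHom.ker (H'.act₀ (Finset.univ.filter fun v => ∃ i j, x ((PB.rep (tame v) - 1) i j) ≠ 0)) ≤
      RingHom.ker x := by
  have : IsAdicComplete (maximalIdeal (CoeffRing O r T r₀)) (CoeffRing O r T r₀) :=
    DefRing.isAdicComplete_mvPowerSeries
  have : Finite (ResidueField (CoeffRing O r T r₀)) := finite_residueField_series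
  have : IsAdicComplete (maximalIdeal (LocRing O T X.g)) (LocRing O T X.g) :=
    DefRing.isAdicComplete_mvPowerSeries
  have : Finite (ResidueField (LocRing O T X.g)) := finite_residueField_series
  have : IsAdicComplete (maximalIdeal (ExtRing O T r X.nExtra X.g))
      (ExtRing O T r X.nExtra X.g) := DefRing.isAdicComplete_mvPowerSeries
  have : Finite (ResidueField (ExtRing O T r X.nExtra X.g)) := finite_residueField_series
  have : Finite (ResidueField PB.R) :=
    (residue_facts (p := p) PB.instIsLocalHom PB.residue_surjective).1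
  have : IsLocalHom (MvPowerSeries.C : LocRing O T X.g →+* ExtRing O T r X.nExtra X.g) :=
    ⟨fun a ha => by simpa [MvPowerSeries.isUnit_iff_constantCoeff] using ha⟩
  set L := Finset.univ.filter fun v => ∃ i j, x ((PB.rep (tame v) - 1) i j) ≠ 0
  set e := fun n => w n - X.extra n ⟨0, hnE ▸ one_pos⟩
  set S := H.toSystem (ExtraControl.ofPinned H hnE l w hl hquad) hF
  set S' := H'.toSystem (ExtraControl.ofPinned H' hnE l w hl hquad') hF
  set E := pinnedE (X := X) hnE l
  obtain ⟨τ, hc, hτ, hker⟩ := exists_type_of_point X hF x hx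
  obtain ⟨P₀, hP₀, hann₀, hcomap₀⟩ := support_all_types S.family h2
    (fun v => ⟨isUnit_qv hF v, (hF.prime v).one_lt⟩) inferInstance L τ hc hτ
  obtain ⟨J, hJ, hτJ, hlJ, hJτ⟩ := exists_pinned_prime l h2 Φ₀ qv τ hc
  obtain ⟨P, hP, hP₀P, hPJ⟩ := exists_prime_over_comap (MvPowerSeries.C : LocRing O T X.g →+* ExtRing O T r X.nExtra X.g) (S.integral_act L) hann₀
    (hcomap₀.le.trans hτJ)
  have hW : (MvPowerSeries.C : LocRing O T X.g →+* ExtRing O T r X.nExtra X.g) (MvPowerSeries.X (Sum.inr (Sum.inr l))) ∈ P := by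
    rw [← Ideal.mem_comap, hPJ]; exact hlJ
  have hE : E ∈ P := by
    set Z : ExtRing O T r X.nExtra X.g := MvPowerSeries.X (Sum.inr ⟨0, hnE ▸ one_pos⟩) with hZ
    have hann : Z * (Z - (MvPowerSeries.C : LocRing O T X.g →+* ExtRing O T r X.nExtra X.g) (MvPowerSeries.X (Sum.inr (Sum.inr l)))) ∈
        Module.annihilator _ (Acted (S.act L)) :=
      S.mem_annihilator fun n (y : LevelMod (X.fullAct n p (H.act L n))) => by
        have h0 := smul_eq_zero_of_eq_zero _
          ((ExtraControl.ofPinned H hnE l w hl hquad).eq L n ⟨0, hnE ▸ one_pos⟩) y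
        exact h0
    have hZP : Z ∈ P := by
      rcases hP.mem_or_mem (hP₀P (hann₀ hann)) with h | h
      · exact h
      · have := add_mem h hW
        rwa [sub_add_cancel] at this
    exact sub_mem hW hZP
  obtain ⟨k, hk⟩ := D.new_part
  choose J₁ J₂ hJ₁₂ using hk
  choose l₁ l₂ hl₁₂ using D.split
  choose sec hsec using D.down_section
  choose K₁ K₂ hK using D.down_up
  obtain ⟨P₁, hP₁, hP₁P, hann₁, hE₁', hdim⟩ := S.exists_component_of_raising (L := L)
    (N' := fun n => LevelMod (X.fullAct n p (H'.act L n))) (hε' := S'.isBasis L)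
    (S'.scalars L)
    (fun n => X.modMap n p (H.act L n) (H'.act L n) (D.up₁ n))
    (fun n => X.modMap n p (H.act L n) (H'.act L n) (D.up₂ n))
    (fun n t z => X.modMap_smul n p (D.up₁_comm n) t z)
    (fun n t z => X.modMap_smul n p (D.up₂_comm n) t z)
    (fun n => X.modMap n p (H'.act L n) (H.act L n) (D.down n))
    (fun n t z => X.modMap_smul n p (D.down_comm n) t z)
    ⟨fun n => X.modMap n p (H'.act L n) (H.act L n) (l₁ n),
      fun n => X.modMap n p (H'.act L n) (H.act L n) (l₂ n), fun n =>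
      ⟨LinearMap.ext fun z => (X.modMap_modMap n p _ _ _ _ _ z).trans
          (by rw [(hl₁₂ n).1]; exact X.modMap_one n p _ z),
        LinearMap.ext fun z => (X.modMap_modMap n p _ _ _ _ _ z).trans
          (by rw [(hl₁₂ n).2.1]; exact X.modMap_zero n p _ _ z),
        LinearMap.ext fun z => (X.modMap_modMap n p _ _ _ _ _ z).trans
          (by rw [(hl₁₂ n).2.2.1]; exact X.modMap_zero n p _ _ z),
        LinearMap.ext fun z => (X.modMap_modMap n p _ _ _ _ _ z).trans
          (by rw [(hl₁₂ n).2.2.2]; exact X.modMap_one n p _ z)⟩⟩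
    ⟨fun n => X.modMap n p (H.act L n) (H'.act L n) (sec n), fun n =>
      LinearMap.ext fun z => (X.modMap_modMap n p _ _ _ _ _ z).trans
        (by rw [hsec n]; exact X.modMap_one n p _ z)⟩
    E
    ⟨fun n => X.modMap n p (H.act L n) (H.act L n) (K₁ n),
      fun n => X.modMap n p (H.act L n) (H.act L n) (K₂ n), fun n z =>
      ⟨(X.modMap_modMap n p _ _ _ _ _ z).trans (by
          rw [(hK n).1, ← pow_one (H.act L n (e n))]; exact (smul_pinned H hnE l w hl L n 1 _ z).symm.trans (by rw [pow_one]; rfl)),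
        (X.modMap_modMap n p _ _ _ _ _ z).trans (by
          rw [(hK n).2, ← pow_one (H.act L n (e n))]; exact (smul_pinned H hnE l w hl L n 1 _ z).symm.trans (by rw [pow_one]; rfl))⟩⟩
    ⟨k, fun n => X.modMap n p (H'.act L n) (H.act L n) (J₁ n),
      fun n => X.modMap n p (H'.act L n) (H.act L n) (J₂ n), fun n z =>
      (smul_pinned' H' hnE l w hl L n k (H.act L n) (D.up₁ n) (D.up₂ n) (J₁ n) (J₂ n)
        (hJ₁₂ n) z)⟩
    (hann₀.trans hP₀P) hE
  have : (P₁.comap (MvPowerSeries.C : LocRing O T X.g →+* ExtRing O T r X.nExtra X.g)).IsPrime := Ideal.IsPrime.comap _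
  obtain ⟨τ₁, hle₁, -, hτ₁⟩ := exists_type_le S'.family L (fun v => isUnit_qv hF v)
    (P := P₁.comap (MvPowerSeries.C : LocRing O T X.g →+* ExtRing O T r X.nExtra X.g)) (Ideal.comap_mono hann₁)
  have := typeIdeal_isPrime (g := X.g) qv Φ₀ τ₁ fun v => (hτ₁ v).1
  have heq := eq_of_le_of_dimGE hle₁ (not_dimGE_typeIdeal qv Φ₀ τ₁ fun v => (hτ₁ v).1)
    (dimGE_comap (MvPowerSeries.C : LocRing O T X.g →+* ExtRing O T r X.nExtra X.g) (S'.integral_act L) hann₁ hdim)
  have hφ : P₁.comap (MvPowerSeries.C : LocRing O T X.g →+* ExtRing O T r X.nExtra X.g) ≤ RingHom.ker ((x.comp (limitHom S'.ψ)).comp (MvPowerSeries.C : LocRing O T X.g →+* ExtRing O T r X.nExtra X.g)) :=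
    heq.le.trans ((hJτ τ₁ (hle₁.trans ((Ideal.comap_mono hP₁P).trans hPJ.le))).trans hker)
  have hquad_eq : ∀ q ∈ S'.quad, q = -E := fun q hq => by
    obtain ⟨j, -, rfl⟩ := Finset.mem_image.1 hq
    obtain rfl : j = ⟨0, hnE ▸ one_pos⟩ := Fin.ext (by have := j.2; omega)
    exact (neg_sub _ _).symm
  intro b hb
  exact S'.annihilator_le_ker_of_type X.surjective_baseMap hann₁ x hφ
    (fun q hq => hquad_eq q hq ▸ neg_mem hE₁')
    (fun q hq => by
      rw [hquad_eq q hq, map_neg, map_neg, neg_eq_zero]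
      exact ulim_mem_ideal (RingHom.ker x) fun n => by
        show x (X.baseMap n E) = 0
        rw [baseMap_pinnedE hnE l w hl n]
        exact hxe n)
    (AuxLevels.mem_annihilator_baseAct (RingHom.mem_ker.1 hb))

open Classical in
include hl in
/-- **Lifting when nothing is old at `p`.** -/
theorem ker_le_of_new
    (hquad : ∀ L n, H.act L n
      (X.extra n ⟨0, hnE ▸ one_pos⟩ * (X.extra n ⟨0, hnE ▸ one_pos⟩ - w n)) = 0)
    (hF : FramedPrimes p L₀ qv frob tame) (h2 : IsUnit (2 : O)) [CharZero O]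
    {K : Type} [CommRing K] [IsDomain K] (x : PB.R →+* K)
    (hx : ∀ v, x ((PB.rep (tame v)).trace) = 2)
    (hxe : ∀ n, x (X.toBase n (w n - X.extra n ⟨0, hnE ▸ one_pos⟩)) = 0)
    (hnew : ∃ k : ℕ, ∀ n,
      H.act (Finset.univ.filter fun v => ∃ i j, x ((PB.rep (tame v) - 1) i j) ≠ 0) n
        ((w n - X.extra n ⟨0, hnE ▸ one_pos⟩) ^ k) = 0) :
    RingHom.ker (H.act₀ (Finset.univ.filter fun v => ∃ i j, x ((PB.rep (tame v) - 1) i j) ≠ 0)) ≤
      RingHom.ker x := by
  have : IsAdicComplete (maximalIdeal (CoeffRing O r T r₀)) (CoeffRing O r T r₀) :=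
    DefRing.isAdicComplete_mvPowerSeries
  have : Finite (ResidueField (CoeffRing O r T r₀)) := finite_residueField_series
  have : IsAdicComplete (maximalIdeal (LocRing O T X.g)) (LocRing O T X.g) :=
    DefRing.isAdicComplete_mvPowerSeries
  have : Finite (ResidueField (LocRing O T X.g)) := finite_residueField_series
  have : IsAdicComplete (maximalIdeal (ExtRing O T r X.nExtra X.g))
      (ExtRing O T r X.nExtra X.g) := DefRing.isAdicComplete_mvPowerSeries
  have : Finite (ResidueField (ExtRing O T r X.nExtra X.g)) := finite_residueField_series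
  have : Finite (ResidueField PB.R) :=
    (residue_facts (p := p) PB.instIsLocalHom PB.residue_surjective).1
  have : IsLocalHom (MvPowerSeries.C : LocRing O T X.g →+* ExtRing O T r X.nExtra X.g) :=
    ⟨fun a ha => by simpa [MvPowerSeries.isUnit_iff_constantCoeff] using ha⟩
  set L := Finset.univ.filter fun v => ∃ i j, x ((PB.rep (tame v) - 1) i j) ≠ 0
  set S := H.toSystem (ExtraControl.ofPinned H hnE l w hl hquad) hF
  set E := pinnedE (X := X) hnE l
  obtain ⟨τ, hc, hτ, hker⟩ := exists_type_of_point X hF x hx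
  obtain ⟨P, hP, hann, hcomap⟩ := support_all_types S.family h2
    (fun v => ⟨isUnit_qv hF v, (hF.prime v).one_lt⟩) inferInstance L τ hc hτ
  obtain ⟨k, hk⟩ := hnew
  have hE : E ∈ P := hP.mem_of_pow_mem k (hann (S.mem_annihilator fun n z =>
    smul_eq_zero_of_eq_zero _ (by
      rw [map_pow, fullAct_pinnedE hnE l w hl n, ← RingHom.mapMatrix_apply, ← map_pow, ← map_pow,
        hk, map_zero]) z))
  have hquad_eq : ∀ q ∈ S.quad, q = -E := fun q hq => by
    obtain ⟨j, -, rfl⟩ := Finset.mem_image.1 hq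
    obtain rfl : j = ⟨0, hnE ▸ one_pos⟩ := Fin.ext (by have := j.2; omega)
    exact (neg_sub _ _).symm
  intro b hb
  exact S.annihilator_le_ker_of_type X.surjective_baseMap hann x (hcomap.le.trans hker)
    (fun q hq => hquad_eq q hq ▸ neg_mem hE)
    (fun q hq => by
      rw [hquad_eq q hq, map_neg, map_neg, neg_eq_zero]
      exact ulim_mem_ideal (RingHom.ker x) fun n => by
        show x (X.baseMap n E) = 0
        rw [baseMap_pinnedE hnE l w hl n]
        exact hxe n)
    (AuxLevels.mem_annihilator_baseAct (RingHom.mem_ker.1 hb))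

end LiftingLevels

end Fermat.Agent.Engine
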