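import Fermat.Agent.Engine.FramingTools
import Mathlib.RingTheory.MvPowerSeries.NoZeroDivisors

/-!
# Lifting from the modules of auxiliary levels

`LiftingLevels.ker_le`: a point of the base ring at which inertia at the framed primes is unipotent
factors through the base module of the level formed by the primes where it ramifies.  The finite
level data are built for any number of further generators, each the root of a quadratic equation
over the local coordinates (`ExtraControl`).
-/

set_option autoImplicit false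

noncomputable section

namespace Fermat.Agent.Engine

open IsLocalRing Filter Patch Fermat.Agent.Deform Fermat.Agent.DefRing

variable {O : Type} [CommRing O] [IsDomain O] [IsDiscreteValuationRing O]
  [IsAdicComplete (maximalIdeal O) O] [Finite (ResidueField O)] {p : ℕ} [Fact p.Prime]
  [CharP (ResidueField O) p] {r : ℕ} {T : Type} [Fintype T] {r₀ : T}
  {frob tame : T → GQ} {Φ₀ : T → Matrix (Fin 2) (Fin 2) O} {L₀ : LevelData O} {PB : L₀.RepRing}
  {qv : T → ℕ}

/-- Power series over `O` form a domain. -/
instance {σ : Type} : IsDomain (MvPowerSeries σ O) := NoZeroDivisors.to_isDomain _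

omit [IsAdicComplete (maximalIdeal O) O] [Finite (ResidueField O)] [Fact (Nat.Prime p)] in
/-- `p` lies in the maximal ideal of `O`. -/
theorem p_mem_maximalIdeal : (p : O) ∈ maximalIdeal O := by
  rw [← residue_eq_zero_iff, map_natCast]
  exact CharP.cast_eq_zero _ p

omit [IsAdicComplete (maximalIdeal O) O] [Finite (ResidueField O)] [Fintype T] in
/-- The framed primes are units in `O`. -/
theorem isUnit_qv (hF : FramedPrimes p L₀ qv frob tame) (v : T) : IsUnit (qv v : O) := by
  by_contra h
  have h1 : (qv v : ResidueField O) = 0 := by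
    rw [← map_natCast (residue O)]
    exact (residue_eq_zero_iff _).2 h
  exact hF.ne_p v ((Nat.prime_dvd_prime_iff_eq Fact.out (hF.prime v)).1
    ((CharP.cast_eq_zero_iff (ResidueField O) p _).1 h1)).symm

/-- With the variables congruent to constants, series are congruent to constants. -/
theorem sub_C_mem_of_vars {B : Type} [CommRing B] [IsLocalRing B] [IsNoetherianRing B]
    [IsAdicComplete (maximalIdeal B) B] {σ : Type} [Finite σ] (a : σ → B)
    (ha : ∀ i, a i ∈ maximalIdeal B) {J : Ideal (MvPowerSeries σ B)}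
    (h : ∀ i, MvPowerSeries.X i - MvPowerSeries.C (a i) ∈ J) (f : MvPowerSeries σ B) :
    ∃ b, f - MvPowerSeries.C b ∈ J := by
  by_cases hJ : J = ⊤
  · exact ⟨0, hJ ▸ Submodule.mem_top⟩
  obtain ⟨ev, hC, hX⟩ := exists_eval (J := maximalIdeal B) (RingHom.id B) a ha
  have : Nontrivial (MvPowerSeries σ B ⧸ J) := Ideal.Quotient.nontrivial_iff.2 hJ
  have : IsLocalRing (MvPowerSeries σ B ⧸ J) := .of_surjective' _ Ideal.Quotient.mk_surjective
  have : IsLocalHom (Ideal.Quotient.mk J) :=
    IsLocalHom.of_surjective _ Ideal.Quotient.mk_surjective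
  refine ⟨ev f, Ideal.Quotient.eq.1 (RingHom.congr_fun (eval_unique
    (J := maximalIdeal (MvPowerSeries σ B ⧸ J)) (Φ := Ideal.Quotient.mk J)
    (Ψ := ((Ideal.Quotient.mk J).comp MvPowerSeries.C).comp ev) (fun i => ?_) (fun b => ?_)
    fun i => ?_) f)⟩
  · exact map_nonunit (Ideal.Quotient.mk J) _ (DefRing.X_mem_maximalIdeal i)
  · rw [RingHom.comp_apply, RingHom.comp_apply, hC]
    rfl
  · rw [RingHom.comp_apply, RingHom.comp_apply, hX]
    exact Ideal.Quotient.eq.2 (h i)

omit [Finite (ResidueField O)] in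
/-- Lifts of framed elements, constant up to the further variables minus given coordinates. -/
theorem AuxLevels.exists_lift (X : AuxLevels r r₀ frob tame Φ₀ L₀ PB)
    (a : Fin X.nExtra → LocRing O T X.g) (ha : ∀ k, a k ∈ maximalIdeal (LocRing O T X.g)) (n : ℕ)
    (f : (X.P n).Framed r₀) : ∃ (t : ExtRing O T r X.nExtra X.g) (s : LocRing O T X.g),
      X.extMap n t = MvPowerSeries.C f ∧ t - MvPowerSeries.C s ∈
        Ideal.span (Set.range fun k => MvPowerSeries.X (Sum.inr k) - MvPowerSeries.C (a k)) := by
  obtain ⟨Φ, hsurj, hC, hX⟩ := X.generates n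
  obtain ⟨t₀, rfl⟩ := hsurj f
  have : IsAdicComplete (maximalIdeal (LocRing O T X.g)) (LocRing O T X.g) :=
    DefRing.isAdicComplete_mvPowerSeries
  have : IsAdicComplete (maximalIdeal (ExtRing O T r X.nExtra X.g))
      (ExtRing O T r X.nExtra X.g) := DefRing.isAdicComplete_mvPowerSeries
  obtain ⟨ι', hιC, hιX⟩ := exists_eval (J := maximalIdeal (ExtRing O T r X.nExtra X.g))
    (MvPowerSeries.C : LocRing O T X.g →+* ExtRing O T r X.nExtra X.g)
    (fun k : Fin X.nExtra => MvPowerSeries.X (Sum.inr k))
    fun k => DefRing.X_mem_maximalIdeal _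
  have : IsAdicComplete (maximalIdeal ((X.P n).Framed r₀)) ((X.P n).Framed r₀) :=
    (X.P n).isAdicComplete_framed r₀
  have : IsAdicComplete (maximalIdeal (MvPowerSeries (Fin r) ((X.P n).Framed r₀)))
      (MvPowerSeries (Fin r) ((X.P n).Framed r₀)) := DefRing.isAdicComplete_mvPowerSeries
  obtain ⟨s, hs⟩ := sub_C_mem_of_vars a ha
    (J := Ideal.span (Set.range fun k =>
      (MvPowerSeries.X k : MvPowerSeries (Fin X.nExtra) (LocRing O T X.g)) -
        MvPowerSeries.C (a k)))
    (fun k => Ideal.subset_span ⟨k, rfl⟩) t₀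
  refine ⟨ι' t₀, s, RingHom.congr_fun (eval_unique
    (J := maximalIdeal (MvPowerSeries (Fin r) ((X.P n).Framed r₀)))
    (Φ := (X.extMap n).comp ι') (Ψ := (MvPowerSeries.C : (X.P n).Framed r₀ →+* _).comp Φ)
    (fun k => ?_) (fun b => ?_) fun k => ?_) t₀, ?_⟩
  · rw [RingHom.comp_apply, hιX, extMap_inr, DefRing.mem_maximalIdeal_iff_constantCoeff,
      MvPowerSeries.constantCoeff_C, DefRing.mem_maximalIdeal_iff_constantCoeff,
      MvPowerSeries.constantCoeff_C]
    exact X.extra_mem n k
  · rw [RingHom.comp_apply, RingHom.comp_apply, hιC, extMap_C, hC]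
  · rw [RingHom.comp_apply, RingHom.comp_apply, hιX, extMap_inr, hX]
  · have h := Ideal.mem_map_of_mem ι' hs
    rw [map_sub, hιC, Ideal.map_span, ← Set.range_comp] at h
    convert h using 4
    funext k
    rw [Function.comp_apply, map_sub, hιX, hιC]

namespace LiftingLevels

variable {X : AuxLevels r r₀ frob tame Φ₀ L₀ PB} (H : LiftingLevels p qv X)

/-- Each further generator is, on all the modules, the root `0` or `a k`. -/
structure ExtraControl where
  a : Fin X.nExtra → LocRing O T X.g
  a_mem : ∀ k, a k ∈ maximalIdeal (LocRing O T X.g)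
  eq : ∀ L n k, X.fullAct n p (H.act L n)
    (MvPowerSeries.X (Sum.inr k) * (MvPowerSeries.X (Sum.inr k) - MvPowerSeries.C (a k))) = 0

/-- Without further generators there is nothing to control. -/
def ExtraControl.ofNone (hnE : X.nExtra = 0) : H.ExtraControl where
  a k := absurd k.2 (by simp [hnE])
  a_mem k := absurd k.2 (by simp [hnE])
  eq _ _ k := absurd k.2 (by simp [hnE])

omit [Finite (ResidueField O)] [Fact (Nat.Prime p)] [CharP (ResidueField O) p] in
/-- The quadratic relation of a variable, moved to the coefficient ring of the framed level. -/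
theorem mul_twEmbed_map {d : ℕ} (n : ℕ) (act : (X.P n).R →+* Matrix (Fin d) (Fin d) (TwQuot O p r n))
    (i : Fin r) (a : (X.P n).R) :
    Ideal.Quotient.mk (levelIdeal O p r r₀ n) (MvPowerSeries.X (Sum.inl i)) •
        (Ideal.Quotient.mk (levelIdeal O p r r₀ n) (MvPowerSeries.X (Sum.inl i)) •
          (1 : Matrix (Fin d) (Fin d) (AuxLevels.Coeff (O := O) (r := r) (r₀ := r₀) n p))) -
      (1 + Ideal.Quotient.mk (levelIdeal O p r r₀ n) (MvPowerSeries.X (Sum.inl i))) •
        (act a).map (AuxLevels.twEmbed (r₀ := r₀) n p) =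
      (twVar O p r n i ^ 2 • (1 : Matrix (Fin d) (Fin d) (TwQuot O p r n)) -
        (1 + twVar O p r n i) • act a).map (AuxLevels.twEmbed (r₀ := r₀) n p) := by
  ext a b
  simp only [Matrix.sub_apply, Matrix.smul_apply, Matrix.map_apply, smul_eq_mul, map_sub, map_mul,
    map_add, map_one, map_pow, AuxLevels.twEmbed_var, Matrix.one_apply]
  split_ifs <;> simp <;> ring

/-- The finite level data for patching. -/
def toSystem (C : H.ExtraControl) (hF : FramedPrimes p L₀ qv frob tame) :
    LiftingSystem O T X.g (CoeffRing O r T r₀) PB.R (ExtRing O T r X.nExtra X.g)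
      MvPowerSeries.C qv Φ₀ where
  I := levelIdeal O p r r₀
  tendsToZero := tendsToZero_levelIdeal O p r r₀ p_mem_maximalIdeal
  aug := Set.range MvPowerSeries.X
  I_le n := levelIdeal_le_augIdeal O p r r₀ n
  dim := (dimGE_coeffRing O r r₀).mono (by
    have := X.g_eq
    rw [Nat.card_eq_fintype_card]
    omega)
  ψ := X.baseMap
  isLocalHom_ψ := X.isLocalHom_baseMap
  extra := by
    classical exact Finset.univ.image fun i : Fin r => MvPowerSeries.X (Sum.inl i)
  quad := by
    classical exact Finset.univ.image fun k : Fin X.nExtra =>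
      MvPowerSeries.X (Sum.inr k) - MvPowerSeries.C (C.a k)
  quad_mem e he := by
    classical
    simp only [Finset.mem_image, Finset.mem_univ, true_and] at he
    obtain ⟨k, rfl⟩ := he
    refine (DefRing.mem_maximalIdeal_iff_constantCoeff _).2 ?_
    rw [map_sub, MvPowerSeries.constantCoeff_X, MvPowerSeries.constantCoeff_C, zero_sub]
    exact neg_mem (C.a_mem k)
  quad_eq e he := by
    classical
    simp only [Finset.mem_image, Finset.mem_univ, true_and] at he
    obtain ⟨k, rfl⟩ := he
    refine ⟨-C.a k, neg_mem (C.a_mem k), fun L n => smul_eq_zero_of_eq_zero _ ?_⟩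
    rw [map_neg, sub_neg_eq_add, sub_add_cancel, mul_comm]
    exact C.eq L n k
  generated f := by
    classical
    have : IsAdicComplete (maximalIdeal (LocRing O T X.g)) (LocRing O T X.g) :=
      DefRing.isAdicComplete_mvPowerSeries
    exact sub_C_mem_of_vars (Sum.elim (fun _ => 0) C.a) (by
      rintro (i | k)
      exacts [zero_mem _, C.a_mem k]) (by
      rintro (i | k)
      · refine Ideal.mem_sup_left (Ideal.subset_span ?_)
        simp
      · refine Ideal.mem_sup_right (Ideal.subset_span ?_)
        simp) f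
  ψ_extra n z hz := by
    classical
    simp only [Finset.mem_image, Finset.mem_univ, true_and] at hz
    obtain ⟨i, rfl⟩ := hz
    exact X.baseMap_inl n i
  rank := H.rank
  rank_ne_zero := H.rank_ne_zero
  M L n := LevelMod (X.fullAct n p (H.act L n))
  e L n := levelBasis (X.fullAct n p (H.act L n))
  isBasis L n := isModBasis_levelBasis _
  M₀ L := AuxLevels.BaseMod r r₀ (H.act₀ L)
  e₀ L := levelBasis (AuxLevels.baseAct (O := O) (PB := PB) (d := H.rank L) r r₀ (H.act₀ L))
  isBasis₀ L := isModBasis_levelBasis _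
  π L n := X.levelProj n p (H.act L n) (H.act₀ L)
  π_smul L n t x := X.levelProj_smul n p _ _ (H.act_base L n) t x
  π_e L n j := AuxLevels.base_ext fun i => X.levelProj_basis n p _ _ j i
  scalars L n l := by
    obtain ⟨ℓ, -, hℓ⟩ := X.exists_scalarLift n p
    exact ⟨ℓ l, smul_eq_of_eq_scalar _ (hℓ _ (H.act_const L n) l)⟩
  aug_lift n l hl := by
    obtain ⟨i, rfl⟩ := hl
    obtain ⟨ℓ, hℓ0, hℓ⟩ := X.exists_scalarLift n p
    exact ⟨ℓ (MvPowerSeries.X i), hℓ0 i, fun L =>
      smul_eq_of_eq_scalar _ (hℓ _ (H.act_const L n) _)⟩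
  square L z hz := by
    classical
    simp only [Finset.mem_image, Finset.mem_univ, true_and] at hz
    obtain ⟨i, rfl⟩ := hz
    obtain ⟨k, hk⟩ := H.square L
    choose t s ht hts using fun n => X.exists_lift C.a C.a_mem n
      (MvPowerSeries.C (((X.P n).rep (X.tw n i)).trace - 2))
    refine ⟨k, 1 + MvPowerSeries.X (Sum.inl i), s, t,
      fun n => ⟨?_, ?_, smul_eq_zero_of_eq_zero _ ?_⟩⟩
    · rw [AuxLevels.baseMap, RingHom.comp_apply, RingHom.comp_apply, ht,
        MvPowerSeries.constantCoeff_C, AuxLevels.framedBase, RingHom.comp_apply,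
        MvPowerSeries.constantCoeff_C]
      show (X.toBase n : (X.P n).R →+* PB.R) (((X.P n).rep (X.tw n i)).trace - 2) = 0
      rw [map_sub, map_ofNat, ← trace_mapMatrix, RingHom.mapMatrix_apply]
      show (((X.P n).rep (X.tw n i)).map (X.toBase n)).trace - 2 = 0
      rw [X.toBase_rep, X.tw_base, sub_self]
    · refine Ideal.span_mono ?_ (hts n)
      rintro _ ⟨k, rfl⟩
      simp
    · have h0 : (MvPowerSeries.X (Sum.inl i) : ExtRing O T r X.nExtra X.g) ^ 2 =
          MvPowerSeries.X (Sum.inl i) * MvPowerSeries.X (Sum.inl i) := sq _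
      rw [map_pow, h0, map_sub, map_mul, map_mul, map_add, map_one, X.fullAct_inl,
        X.fullAct_of_extMap n p _ (ht n), X.framedAct_C]
      have h1 := mul_twEmbed_map n (H.act L n) i (((X.P n).rep (X.tw n i)).trace - 2)
      have e : ∀ (a : AuxLevels.Coeff (O := O) (r := r) (r₀ := r₀) n p)
          (M : Matrix (Fin (H.rank L)) (Fin (H.rank L))
            (AuxLevels.Coeff (O := O) (r := r) (r₀ := r₀) n p)), (a • 1) * M = a • M := fun a M => by
        rw [Matrix.smul_one_eq_diagonal, ← Matrix.smul_eq_diagonal_mul]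
      rw [e, add_mul, one_mul, e]
      rw [add_smul, one_smul] at h1
      rw [h1, ← RingHom.mapMatrix_apply, ← map_pow, hk n i, map_zero]
  det_frob L n v x := X.smul_C_eq_zero n p _ (by rw [X.θ_det_frob n hF, map_zero]) x
  unramified L n v hv i j x := X.smul_C_eq_zero n p _ (by
    have h := congrFun (congrFun (X.θ_mono n v) i) j
    rw [Matrix.map_apply] at h
    rw [h]
    have h' := X.framed_entries n p (H.act L n) v (δ := 0) (k := 1) (by simp)
      ((X.P n).rep (tame v) - 1)
      (fun a b => Ideal.mem_sup_left (RingHom.mem_ker.2 (H.unramified L n v hv a b))) i j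
    rw [pow_one] at h'
    exact h') x
  unipotent L n v hv x := ⟨
    X.smul_C_eq_zero n p _ (by
      rw [X.θ_trace_mono, X.framedAct_C_eq_zero n p _ (H.unipotent L n v hv)]) x,
    X.smul_C_eq_zero n p _ (by
      rw [X.θ_det_mono n hF, map_neg, X.framedAct_C_eq_zero n p _ (H.unipotent L n v hv),
        neg_zero]) x⟩
  tame L n v hv i j x :=
    X.smul_C_eq_zero n p _ (X.framedAct_tame n p _ hF v (H.unipotent L n v hv) i j) x
  up₁ L L' n := X.modMap n p (H.act L n) (H.act L' n) (H.up₁ L L' n)
  up₂ L L' n := X.modMap n p (H.act L n) (H.act L' n) (H.up₂ L L' n)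
  up₁_smul L L' n t x := X.modMap_smul n p (H.up₁_comm L L' n) t x
  up₂_smul L L' n t x := X.modMap_smul n p (H.up₂_comm L L' n) t x
  down L L' ε n := X.modMap n p (H.act L' n) (H.act L n) (H.down L L' ε n)
  down_smul L L' ε n t x := X.modMap_smul n p (H.down_comm L L' ε n) t x
  split L v L' hv hL' := by
    choose l₁ l₂ hl using fun n => H.split L v L' hv hL' n
    refine ⟨fun n => X.modMap n p (H.act L' n) (H.act L n) (l₁ n),
      fun n => X.modMap n p (H.act L' n) (H.act L n) (l₂ n), fun n =>
        ⟨LinearMap.ext fun x => ?_, LinearMap.ext fun x => ?_, LinearMap.ext fun x => ?_,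
          LinearMap.ext fun x => ?_⟩⟩
    all_goals rw [LinearMap.comp_apply, X.modMap_modMap]
    · rw [(hl n).1, X.modMap_one]; rfl
    · rw [(hl n).2.1, X.modMap_zero]; rfl
    · rw [(hl n).2.2.1, X.modMap_zero]; rfl
    · rw [(hl n).2.2.2, X.modMap_one]; rfl
  down_section L v L' ε hv hL' := by
    choose s hs using fun n => H.down_section L v L' ε hv hL' n
    refine ⟨fun n => X.modMap n p (H.act L n) (H.act L' n) (s n), fun n => LinearMap.ext fun x => ?_⟩
    rw [LinearMap.comp_apply, X.modMap_modMap, hs n, X.modMap_one]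
    rfl
  down_up L v L' ε hv hL' n x := by
    have hc : X.θ n ((qv v : LocRing O T X.g) + 1 + signCast ε * (locFrob (g := X.g) Φ₀ v).trace) =
        MvPowerSeries.C ((qv v : (X.P n).R) + 1 + signCast ε * ((X.P n).rep (frob v)).trace) := by
      simp only [map_add, map_one, map_natCast, map_mul, X.θ_trace_frob, signCast, map_intCast]
    constructor
    · rw [X.modMap_modMap, (H.down_up L v L' ε hv hL' n).1, X.smul_C_eq n p _ hc]
    · rw [X.modMap_modMap, (H.down_up L v L' ε hv hL' n).2, X.smul_C_eq n p _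
        (b := signCast ε * ((qv v : (X.P n).R) + 1 +
          signCast ε * ((X.P n).rep (frob v)).trace))
        (by rw [map_mul, hc, map_mul]; simp [signCast])]
  new_part L v L' hv hL' := by
    obtain ⟨k, hk⟩ := H.new_part L v L' hv hL'
    choose k₁ k₂ hk₁₂ using hk
    refine ⟨k, fun n => X.modMap n p (H.act L' n) (H.act L n) (k₁ n),
      fun n => X.modMap n p (H.act L' n) (H.act L n) (k₂ n), fun n x => ?_⟩
    rw [X.modMap_modMap, X.modMap_modMap, X.smul_C_eq n p _
      (b := ((((X.P n).rep (frob v)).trace ^ 2 - ((qv v : (X.P n).R) + 1) ^ 2) ^ k))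
      (by simp only [map_pow, map_sub, map_add, map_one, map_natCast, X.θ_trace_frob]), hk₁₂ n]
    show ((H.up₁ L L' n * k₁ n + H.up₂ L L' n * k₂ n).map _).mulVec _ = _
    rw [Matrix.map_add _ (map_add _), Matrix.add_mulVec]
    rfl

open Classical in
/-- The type of a point with unipotent inertia at the framed primes. -/
theorem exists_type_of_point (X : AuxLevels r r₀ frob tame Φ₀ L₀ PB)
    (hF : FramedPrimes p L₀ qv frob tame) [Finite (ResidueField PB.R)] {K : Type} [CommRing K] [IsDomain K] (x : PB.R →+* K)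
    (hx : ∀ v, x ((PB.rep (tame v)).trace) = 2) :
    ∃ τ : T → CompType, (∀ v, Compatible (qv v) (Φ₀ v) (τ v)) ∧
      (∀ v, τ v = .unramified ↔
        v ∉ Finset.univ.filter fun v => ∃ i j, x ((PB.rep (tame v) - 1) i j) ≠ 0) ∧
      typeIdeal qv Φ₀ τ ≤ RingHom.ker ((x.comp (limitHom X.baseMap)).comp
        (MvPowerSeries.C : LocRing O T X.g →+* ExtRing O T r X.nExtra X.g)) := by
  have : IsAdicComplete (maximalIdeal (CoeffRing O r T r₀)) (CoeffRing O r T r₀) :=
    DefRing.isAdicComplete_mvPowerSeries
  have : Finite (ResidueField (CoeffRing O r T r₀)) := finite_residueField_series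
  have : IsAdicComplete (maximalIdeal (LocRing O T X.g)) (LocRing O T X.g) :=
    DefRing.isAdicComplete_mvPowerSeries
  have : Finite (ResidueField (LocRing O T X.g)) := finite_residueField_series
  have : IsAdicComplete (maximalIdeal (ExtRing O T r X.nExtra X.g))
      (ExtRing O T r X.nExtra X.g) := DefRing.isAdicComplete_mvPowerSeries
  have : Finite (ResidueField (ExtRing O T r X.nExtra X.g)) := finite_residueField_series
  have : Finite (ResidueField PB.R) :=
    (residue_facts (p := p) PB.instIsLocalHom PB.residue_surjective).1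
  have : IsLocalHom (MvPowerSeries.C : LocRing O T X.g →+* ExtRing O T r X.nExtra X.g) :=
    ⟨fun a ha => by simpa [MvPowerSeries.isUnit_iff_constantCoeff] using ha⟩
  set L := Finset.univ.filter fun v => ∃ i j, x ((PB.rep (tame v) - 1) i j) ≠ 0
  set φ : LocRing O T X.g →+* K := (x.comp (limitHom X.baseMap)).comp MvPowerSeries.C with hφ
  have hΦ : ∀ v, φ.mapMatrix (locFrob (g := X.g) Φ₀ v) = x.mapMatrix (PB.rep (frob v)) := fun v =>
    Matrix.ext fun i j => congrArg x (limitHom_eq_of_forall X.baseMap fun n => by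
      exact congrFun (congrFun (X.baseMap_frob n v) i) j)
  have hN : ∀ v, φ.mapMatrix (locMono (g := X.g) (O := O) v) =
      x.mapMatrix (PB.rep (tame v) - 1) := fun v =>
    Matrix.ext fun i j => congrArg x (limitHom_eq_of_forall X.baseMap fun n => by
      exact congrFun (congrFun (X.baseMap_mono n v) i) j)
  have hdetF : ∀ v, (x.mapMatrix (PB.rep (frob v))).det = (qv v : K) := fun v => by
    rw [← RingHom.map_det, PB.isLift.eqs.det]
    show x (algebraMap O PB.R (L₀.detChar (frob v))) = _
    rw [hF.det_frob, map_natCast, map_natCast]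
  have hqK : ∀ v, (qv v : K) ≠ 0 := fun v h => by
    have h1 := ((isUnit_qv hF v).map (algebraMap O PB.R)).map x
    rw [map_natCast, map_natCast, h] at h1
    exact not_isUnit_zero h1
  have htrN : ∀ v, (x.mapMatrix (PB.rep (tame v) - 1)).trace = 0 := fun v => by
    rw [trace_mapMatrix, Matrix.trace_sub, Matrix.trace_one, map_sub, hx, Fintype.card_fin,
      map_natCast, Nat.cast_ofNat, sub_self]
  have hdetN : ∀ v, (x.mapMatrix (PB.rep (tame v) - 1)).det = 0 := fun v => by
    have hd : x (PB.rep (tame v)).det = 1 := by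
      rw [PB.isLift.eqs.det]
      show x (algebraMap O PB.R (L₀.detChar (tame v))) = 1
      rw [hF.det_tame, map_one, map_one]
    have ht := hx v
    rw [Matrix.trace_fin_two, map_add] at ht
    rw [Matrix.det_fin_two, map_sub, map_mul, map_mul] at hd
    simp [Matrix.det_fin_two]
    linear_combination hd - ht
  have hrel : ∀ v, x.mapMatrix (PB.rep (frob v)) * x.mapMatrix (PB.rep (tame v) - 1) =
      (qv v : K) • (x.mapMatrix (PB.rep (tame v) - 1) * x.mapMatrix (PB.rep (frob v))) := fun v => by
    have h := congrArg (fun A => x.mapMatrix (A.map (X.toBase 0))) (X.act_tame 0 p hF v)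
    simp only [← AlgHom.mapMatrix_apply, map_mul, map_pow] at h
    simp only [AlgHom.mapMatrix_apply, X.toBase_rep] at h
    rw [show PB.rep (tame v) = 1 + (PB.rep (tame v) - 1) from (add_sub_cancel _ _).symm,
      map_add, map_one] at h
    rw [tame_of_relation (htrN v) (hdetN v) h, Nat.cast_smul_eq_nsmul]
  have hmemL : ∀ v, v ∈ L ↔ x.mapMatrix (PB.rep (tame v) - 1) ≠ 0 := fun v => by
    simp only [L, Finset.mem_filter, Finset.mem_univ, true_and, ne_eq, ← Matrix.ext_iff,
      RingHom.mapMatrix_apply, Matrix.map_apply, Matrix.zero_apply, not_forall]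
  have key : ∀ v, ∃ τ : CompType, Sat (qv v) (φ.mapMatrix (locFrob (g := X.g) Φ₀ v))
      (φ.mapMatrix (locMono (g := X.g) (O := O) v)) τ ∧ (τ = .unramified ↔ v ∉ L) := by
    intro v
    rw [hΦ, hN]
    by_cases h0 : x.mapMatrix (PB.rep (tame v) - 1) = 0
    · exact ⟨.unramified, ⟨hdetF v, h0⟩, iff_of_true rfl fun h => (hmemL v).1 h h0⟩
    · obtain ⟨γ, h1, h2, h3⟩ := exists_sign (hqK v) _ _ (hdetF v) (htrN v) (hdetN v) (hrel v) h0
      exact ⟨.steinberg γ, ⟨hdetF v, h1, htrN v, hdetN v, h2, h3⟩,
        iff_of_false (fun h => nomatch h) fun h => h ((hmemL v).2 h0)⟩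
  choose τ hτ using key
  have hker : typeIdeal qv Φ₀ τ ≤ RingHom.ker φ :=
    Ideal.span_le.2 (Set.iUnion_subset fun v y hy =>
      RingHom.mem_ker.2 ((typeRels_map_eq_zero_iff φ _ _ _ _).2 (hτ v).1 y hy))
  have hne : RingHom.ker φ ≠ ⊤ := RingHom.ker_ne_top φ
  have hc : ∀ v, Compatible (qv v) (Φ₀ v) (τ v) := fun v => by
    have hmem : ∀ y ∈ typeRels (qv v) (locFrob (g := X.g) Φ₀ v) (locMono v) (τ v),
        MvPowerSeries.constantCoeff y ∈ maximalIdeal O := fun y hy =>
      constantCoeff_mem hne (hker (Ideal.subset_span (Set.mem_iUnion.2 ⟨v, hy⟩)))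
    have hd : ∀ y : LocRing O T X.g, y = (locFrob (g := X.g) Φ₀ v).det - (qv v : LocRing O T X.g) →
        MvPowerSeries.constantCoeff y = (Φ₀ v).det - (qv v : O) := by
      rintro y rfl
      rw [map_sub, map_natCast, RingHom.map_det, RingHom.mapMatrix_apply, constantCoeff_locFrob]
    cases hτv : τ v with
    | unramified =>
      rw [hτv] at hmem
      exact ⟨isUnit_qv hF v, hd _ rfl ▸ hmem _ (Or.inl rfl)⟩
    | steinberg γ =>
      rw [hτv] at hmem
      refine ⟨isUnit_qv hF v, hd _ rfl ▸ hmem _ (by simp [typeRels]), ?_⟩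
      have := hmem ((locFrob (g := X.g) Φ₀ v).trace -
        signCast γ * ((qv v : LocRing O T X.g) + 1)) (by simp [typeRels])
      rw [map_sub, ← trace_mapMatrix, RingHom.mapMatrix_apply, constantCoeff_locFrob] at this
      simpa [signCast] using this
  exact ⟨τ, hc, fun v => (hτ v).2, hker⟩

open Classical in
/-- **Lifting.** A point with unipotent inertia at the framed primes comes from the base module of
the level of its ramified primes. -/
theorem ker_le (hnE : X.nExtra = 0) (hF : FramedPrimes p L₀ qv frob tame) (h2 : IsUnit (2 : O))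
    [CharZero O] {K : Type} [CommRing K] [IsDomain K] (x : PB.R →+* K)
    (hx : ∀ v, x ((PB.rep (tame v)).trace) = 2) :
    RingHom.ker (H.act₀ (Finset.univ.filter fun v => ∃ i j, x ((PB.rep (tame v) - 1) i j) ≠ 0)) ≤
      RingHom.ker x := by
  have : IsAdicComplete (maximalIdeal (CoeffRing O r T r₀)) (CoeffRing O r T r₀) :=
    DefRing.isAdicComplete_mvPowerSeries
  have : Finite (ResidueField (CoeffRing O r T r₀)) := finite_residueField_series
  have : IsAdicComplete (maximalIdeal (LocRing O T X.g)) (LocRing O T X.g) :=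
    DefRing.isAdicComplete_mvPowerSeries
  have : Finite (ResidueField (LocRing O T X.g)) := finite_residueField_series
  have : IsAdicComplete (maximalIdeal (ExtRing O T r X.nExtra X.g))
      (ExtRing O T r X.nExtra X.g) := DefRing.isAdicComplete_mvPowerSeries
  have : Finite (ResidueField (ExtRing O T r X.nExtra X.g)) := finite_residueField_series
  have : Finite (ResidueField PB.R) :=
    (residue_facts (p := p) PB.instIsLocalHom PB.residue_surjective).1
  have : IsLocalHom (MvPowerSeries.C : LocRing O T X.g →+* ExtRing O T r X.nExtra X.g) :=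
    ⟨fun a ha => by simpa [MvPowerSeries.isUnit_iff_constantCoeff] using ha⟩
  set S := H.toSystem (ExtraControl.ofNone H hnE) hF
  obtain ⟨τ, hc, hτ, hker⟩ := exists_type_of_point X hF x hx
  obtain ⟨P, hP, hann, hcomap⟩ := support_all_types S.family h2
    (fun v => ⟨isUnit_qv hF v, (hF.prime v).one_lt⟩) inferInstance _ τ hc hτ
  have hq : ∀ e, e ∉ S.quad := fun e he => by
    obtain ⟨k, -, -⟩ := Finset.mem_image.1 he
    exact absurd k.2 (by simp [hnE])
  intro b hb
  exact S.annihilator_le_ker_of_type X.surjective_baseMap hann x (hcomap.le.trans hker)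
    (fun e he => absurd he (hq e)) (fun e he => absurd he (hq e))
    (AuxLevels.mem_annihilator_baseAct (RingHom.mem_ker.1 hb))

end LiftingLevels

end Fermat.Agent.Engine
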