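import Fermat.Agent.Patch.Dimension
import Mathlib.RingTheory.AdicCompletion.Noetherian

/-!
# Integrality modulo an ideal

Dimension and primes through a ring map which is integral modulo an ideal, and a criterion for
integrality over a complete local ring.
-/

set_option autoImplicit false

noncomputable section

namespace Fermat.Agent.Engine

open Patch

variable {A : Type*} [CommRing A] {R : Type*} [CommRing R] (ι : A →+* R) {I : Ideal R}

/-- Integrality of a quotient passes to smaller quotients. -/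
theorem isIntegral_quotient_of_le (hint : ((Ideal.Quotient.mk I).comp ι).IsIntegral)
    {P : Ideal R} (hIP : I ≤ P) : ((Ideal.Quotient.mk P).comp ι).IsIntegral := by
  intro x
  obtain ⟨y, rfl⟩ := Ideal.Quotient.mk_surjective x
  obtain ⟨f, hf, hroot⟩ := hint (Ideal.Quotient.mk I y)
  refine ⟨f, hf, ?_⟩
  have h := congrArg (Ideal.Quotient.factor hIP) hroot
  rw [map_zero, Polynomial.hom_eval₂] at h
  simpa [← RingHom.comp_assoc] using h

/-- Integral extensions do not raise the dimension of a quotient by a prime. -/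
theorem dimGE_comap (hint : ((Ideal.Quotient.mk I).comp ι).IsIntegral) {P : Ideal R}
    (hIP : I ≤ P) {n : ℕ} (h : DimGE (R ⧸ P) n) : DimGE (A ⧸ P.comap ι) n := by
  rw [DimGE, ringKrullDim_quotient] at h ⊢
  obtain ⟨l, hl⟩ := Order.le_krullDim_iff.1 h
  let e : PrimeSpectrum.zeroLocus (R := R) P → PrimeSpectrum.zeroLocus (R := A) (P.comap ι) :=
    fun q => ⟨PrimeSpectrum.comap ι q.1, fun x hx => q.2 hx⟩
  have he : StrictMono e := by
    rintro ⟨a, ha⟩ ⟨b, hb⟩ hab
    show a.asIdeal.comap ι < b.asIdeal.comap ι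
    have hlt : a.asIdeal < b.asIdeal := hab
    obtain ⟨x, hxb, hxa⟩ := SetLike.exists_of_lt hlt
    obtain ⟨f, hf, hroot⟩ := hint (Ideal.Quotient.mk I x)
    rw [← Polynomial.hom_eval₂, Ideal.Quotient.eq_zero_iff_mem] at hroot
    have := a.2
    refine Ideal.comap_lt_comap_of_root_mem_sdiff hlt.le ⟨hxb, hxa⟩ ?_ (ha (hIP hroot))
    exact (hf.map _).ne_zero
  exact Order.le_krullDim_iff.2 ⟨⟨l.length, fun i => e (l i), fun i => he (l.step i)⟩, hl⟩

/-- Going up. -/
theorem exists_prime_over_comap (hint : ((Ideal.Quotient.mk I).comp ι).IsIntegral) {P : Ideal R}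
    [P.IsPrime] (hIP : I ≤ P) {P' : Ideal A} [P'.IsPrime] (hP' : P.comap ι ≤ P') :
    ∃ Q : Ideal R, Q.IsPrime ∧ P ≤ Q ∧ Q.comap ι = P' := by
  let : Algebra A (R ⧸ P) := ((Ideal.Quotient.mk P).comp ι).toAlgebra
  have : Algebra.IsIntegral A (R ⧸ P) := ⟨isIntegral_quotient_of_le ι hint hIP⟩
  obtain ⟨Q, -, hQ, hQP'⟩ := Ideal.exists_ideal_over_prime_of_isIntegral P' (⊥ : Ideal (R ⧸ P))
    (le_trans (fun x hx => by
      rw [Ideal.mem_comap, Ideal.mem_bot] at hx
      exact Ideal.mem_comap.2 ((Ideal.Quotient.eq_zero_iff_mem (I := P)).1 hx)) hP')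
  refine ⟨Q.comap (Ideal.Quotient.mk P), Ideal.IsPrime.comap _, fun x hx => ?_, hQP'⟩
  rw [Ideal.mem_comap, Ideal.Quotient.eq_zero_iff_mem.2 hx]
  exact Q.zero_mem

open IsLocalRing
open scoped Pointwise

/-- A separated module spanned by a finite set modulo the maximal ideal of a complete ring is
finite. -/
theorem finite_of_span_mod {I : Ideal A} [IsPrecomplete I A] {N : Type*} [AddCommGroup N]
    [Module A N] [IsHausdorff I N] (P : Finset N)
    (h : ∀ x : N, ∃ w ∈ Submodule.span A (P : Set N), x - w ∈ I • (⊤ : Submodule A N)) :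
    Module.Finite A N := by
  classical
  have hpre : IsPrecomplete I (P → A) := ⟨fun f hf => by
    have hc : ∀ i, ∀ {m n}, m ≤ n →
        f m i ≡ f n i [SMOD (I ^ m • ⊤ : Submodule A A)] := fun i m n hmn => by
      rw [SModEq.sub_mem]
      have h1 := SModEq.sub_mem.1 (hf hmn)
      have h2 := Submodule.mem_map_of_mem (f := LinearMap.proj (R := A) (φ := fun _ : P => A) i) h1
      rw [Submodule.map_smul''] at h2
      exact Submodule.smul_mono le_rfl le_top h2
    choose L hL using fun i => IsPrecomplete.prec (inferInstance : IsPrecomplete I A) (hc i)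
    refine ⟨L, fun n => ?_⟩
    rw [SModEq.sub_mem, ← (Pi.basisFun A P).sum_repr (f n - L)]
    refine Submodule.sum_mem _ fun i _ => Submodule.smul_mem_smul ?_ Submodule.mem_top
    have h3 := SModEq.sub_mem.1 (hL i n)
    rwa [smul_eq_mul, Ideal.mul_top] at h3⟩
  refine Module.Finite.of_surjective (Fintype.linearCombination A (Subtype.val : P → N))
    (surjective_of_mkQ_comp_surjective (I := I) fun y => ?_)
  obtain ⟨x, rfl⟩ := Submodule.mkQ_surjective _ y
  obtain ⟨w, hw, hxw⟩ := h x
  obtain ⟨c, hc⟩ := Submodule.mem_span_finset'.1 hw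
  refine ⟨c, ?_⟩
  show Submodule.mkQ (I • ⊤ : Submodule A N) (Fintype.linearCombination A Subtype.val c) = _
  rw [Fintype.linearCombination_apply]
  refine (Submodule.Quotient.eq _).2 ?_
  rw [show (∑ i : P, c i • (i : N)) = w from hc]
  simpa using neg_mem hxw

variable [IsLocalRing A] [IsAdicComplete (maximalIdeal A) A]
  [IsLocalRing R] [IsNoetherianRing R]

/-- If `R` is generated over `A` by finitely many elements nilpotent modulo `m_A R + I`, then
`R / I` is integral over `A`. -/
theorem isIntegral_of_nilpotent_gens [IsLocalHom ι] (Z : Finset R)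
    (hgen : ∀ r : R, ∃ s : A, r - ι s ∈ Ideal.span (Z : Set R))
    (hnil : ∀ z ∈ Z, ∃ m : ℕ, z ^ m ∈ I ⊔ (maximalIdeal A).map ι) :
    ((Ideal.Quotient.mk I).comp ι).IsIntegral := by
  classical
  by_cases hI : I = ⊤
  · subst hI
    have := Ideal.Quotient.subsingleton_iff.2 (rfl : (⊤ : Ideal R) = ⊤)
    exact fun x => ⟨Polynomial.X, Polynomial.monic_X, Subsingleton.elim _ _⟩
  let : Algebra A R := ι.toAlgebra
  set J := I ⊔ (maximalIdeal A).map ι
  -- a power of the ideal of the generators
  obtain ⟨N, hN⟩ : ∃ N, Ideal.span (Z : Set R) ^ N ≤ J := by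
    refine Ideal.exists_pow_le_of_le_radical_of_fg (Ideal.span_le.2 fun z hz => ?_)
      (IsNoetherian.noetherian _)
    exact hnil z hz
  -- words in the generators
  set P : ℕ → Set R := fun j => ((insert 1 Z : Finset R) : Set R) ^ j
  have hP : ∀ j : ℕ, ∀ r : R, ∃ w ∈ Submodule.span A (P j), r - w ∈ Ideal.span (Z : Set R) ^ j := by
    intro j
    induction j with
    | zero => exact fun r => ⟨0, zero_mem _, by simp⟩
    | succ j ih =>
      intro r
      obtain ⟨s, hs⟩ := hgen r
      obtain ⟨c, hc⟩ := Submodule.mem_span_finset'.1 hs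
      choose w hw hwr using fun z : Z => ih (c z)
      refine ⟨ι s + ∑ z : Z, (z : R) * w z, add_mem ?_ (Submodule.sum_mem _ fun z _ => ?_), ?_⟩
      · have h1 : (1 : R) ∈ P (j + 1) := Set.one_mem_pow (by simp)
        have := Submodule.smul_mem _ s (Submodule.subset_span (R := A) h1)
        rwa [Algebra.smul_def, mul_one] at this
      · have := Submodule.mem_map_of_mem (f := LinearMap.mulLeft A (z : R)) (hw z)
        rw [Submodule.map_span] at this
        refine Submodule.span_mono ?_ this
        rintro _ ⟨p, hp, rfl⟩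
        show (z : R) * p ∈ P (j + 1)
        rw [show P (j + 1) = ↑(insert 1 Z : Finset R) * P j from pow_succ' _ _]
        exact Set.mul_mem_mul (Finset.mem_coe.2 (Finset.mem_insert_of_mem z.2)) hp
      · have e : r - (ι s + ∑ z : Z, (z : R) * w z) = ∑ z : Z, (z : R) * (c z - w z) := by
          rw [show r - (ι s + ∑ z : Z, (z : R) * w z) = (r - ι s) - ∑ z : Z, (z : R) * w z by ring,
            ← hc, ← Finset.sum_sub_distrib]
          exact Finset.sum_congr rfl fun z _ => by rw [smul_eq_mul]; ring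
        rw [e]
        refine Submodule.sum_mem _ fun z _ => ?_
        rw [pow_succ']
        exact Ideal.mul_mem_mul (Ideal.subset_span z.2) (hwr z)
  have : IsHausdorff (maximalIdeal A) (R ⧸ I) := ⟨fun x hx => by
    have : Nontrivial (R ⧸ I) := Ideal.Quotient.nontrivial_iff.2 hI
    have : IsLocalRing (R ⧸ I) := .of_surjective' _ Ideal.Quotient.mk_surjective
    have : IsLocalHom (Ideal.Quotient.mk I) :=
      IsLocalHom.of_surjective _ Ideal.Quotient.mk_surjective
    refine IsHausdorff.haus (inferInstance : IsHausdorff (maximalIdeal (R ⧸ I)) (R ⧸ I)) x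
      fun n => ?_
    rw [SModEq.zero, smul_eq_mul, Ideal.mul_top]
    have h1 := hx n
    rw [SModEq.zero, Ideal.smul_top_eq_map, Submodule.restrictScalars_mem, Ideal.map_pow] at h1
    refine Ideal.pow_right_mono (Ideal.map_le_iff_le_comap.2 fun a ha => ?_) n h1
    exact map_nonunit (Ideal.Quotient.mk I) _ (map_nonunit ι a ha)⟩
  have : Module.Finite A (R ⧸ I) := by
    refine finite_of_span_mod (I := maximalIdeal A)
      (((insert 1 Z : Finset R) ^ N).image (Ideal.Quotient.mk I)) fun x => ?_
    obtain ⟨r, rfl⟩ := Ideal.Quotient.mk_surjective x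
    obtain ⟨w, hw, hwr⟩ := hP N r
    refine ⟨Ideal.Quotient.mk I w, ?_, ?_⟩
    · have := Submodule.mem_map_of_mem (f := (Ideal.Quotient.mkₐ A I).toLinearMap) hw
      rw [Submodule.map_span] at this
      simpa [P] using this
    · rw [← map_sub, Ideal.smul_top_eq_map, Submodule.restrictScalars_mem]
      obtain ⟨a, ha, b, hb, hab⟩ := Submodule.mem_sup.1 (hN hwr)
      rw [← hab, map_add, Ideal.Quotient.eq_zero_iff_mem.2 ha, zero_add]
      have := Ideal.mem_map_of_mem (Ideal.Quotient.mk I) hb
      rw [Ideal.map_map] at this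
      exact this
  exact fun x => Algebra.IsIntegral.isIntegral (R := A) x

end Fermat.Agent.Engine

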