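import Fermat.Agent.DefRing.PowerSeriesLocal
import Fermat.Agent.Engine.Integral
import Mathlib.RingTheory.AdicCompletion.RingHom
import Mathlib.RingTheory.AdicCompletion.AsTensorProduct

/-!
# Evaluation of power series in complete rings

`exists_eval`: a ring map on the coefficients extends to power series once the values of the
variables lie in an ideal for which the target is complete; `eval_unique`.
`isAdicComplete_of_finite`: finite algebras over complete noetherian local rings are complete.
-/

set_option autoImplicit false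

noncomputable section

namespace Fermat.Agent.Engine

open IsLocalRing

variable {B : Type} [CommRing B] [IsLocalRing B] {σ : Type} [Finite σ] {C : Type} [CommRing C]
  {J : Ideal C}

omit [IsLocalRing B] in
/-- Two maps agreeing on constants and variables agree. -/
theorem eval_unique [IsHausdorff J C] {Φ Ψ : MvPowerSeries σ B →+* C}
    (hJ : ∀ i, Φ (MvPowerSeries.X i) ∈ J)
    (hC : ∀ b, Φ (MvPowerSeries.C b) = Ψ (MvPowerSeries.C b))
    (hX : ∀ i, Φ (MvPowerSeries.X i) = Ψ (MvPowerSeries.X i)) : Φ = Ψ := by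
  refine RingHom.ext fun f => sub_eq_zero.1 (IsHausdorff.haus ‹IsHausdorff J C› _ fun n => ?_)
  rw [SModEq.zero, smul_eq_mul, Ideal.mul_top]
  have htail : ∀ Θ : MvPowerSeries σ B →+* C, (∀ i, Θ (MvPowerSeries.X i) ∈ J) →
      Θ (f - (MvPowerSeries.truncTotal n f : MvPolynomial σ B)) ∈ J ^ n := by
    intro Θ hΘ
    have := Ideal.mem_map_of_mem Θ (DefRing.sub_truncTotal_mem_span_pow f n)
    rw [Ideal.map_pow, Ideal.map_span] at this
    refine Ideal.pow_right_mono (Ideal.span_le.2 ?_) n this
    rintro _ ⟨_, ⟨i, rfl⟩, rfl⟩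
    exact hΘ i
  have hpol : ∀ q : MvPolynomial σ B, Φ (q : MvPowerSeries σ B) = Ψ q := fun q =>
    RingHom.congr_fun (show Φ.comp MvPolynomial.coeToMvPowerSeries.ringHom =
        Ψ.comp MvPolynomial.coeToMvPowerSeries.ringHom from
      MvPolynomial.ringHom_ext (fun b => by simpa using hC b) fun i => by simpa using hX i) q
  have h1 := sub_mem (htail Φ hJ) (htail Ψ fun i => hX i ▸ hJ i)
  rw [map_sub, map_sub, hpol] at h1
  simpa using h1

omit [IsLocalRing B] in
/-- Evaluation. -/
theorem exists_eval [IsAdicComplete J C] (f : B →+* C) (x : σ → C) (hx : ∀ i, x i ∈ J) :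
    ∃ Φ : MvPowerSeries σ B →+* C, (∀ b, Φ (MvPowerSeries.C b) = f b) ∧
      ∀ i, Φ (MvPowerSeries.X i) = x i := by
  let : Algebra B C := f.toAlgebra
  have key : ∀ n, ∃ φ : MvPowerSeries σ B →ₐ[B] C ⧸ J ^ n,
      ∀ i, φ (MvPowerSeries.X i) = Ideal.Quotient.mk _ (x i) := fun n =>
    DefRing.exists_algHom_X_eq (I := J.map (Ideal.Quotient.mk (J ^ n)))
      ⟨n, by rw [← Ideal.map_pow, Ideal.map_quotient_self, Ideal.zero_eq_bot]⟩ _
      fun i => Ideal.mem_map_of_mem _ (hx i)
  choose φ hφ using key
  have hC : ∀ n b, φ n (MvPowerSeries.C b) = Ideal.Quotient.mk (J ^ n) (f b) := fun n b =>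
    (φ n).commutes b
  have hcompat : ∀ {m n : ℕ} (h : m ≤ n),
      (Ideal.Quotient.factorPow J h).comp (φ n : MvPowerSeries σ B →+* C ⧸ J ^ n) =
        (φ m : MvPowerSeries σ B →+* C ⧸ J ^ m) := by
    intro m n h
    have : IsHausdorff (J.map (Ideal.Quotient.mk (J ^ m))) (C ⧸ J ^ m) := ⟨fun y hy => by
      have := hy m
      rwa [SModEq.zero, smul_eq_mul, Ideal.mul_top, ← Ideal.map_pow, Ideal.map_quotient_self,
        Ideal.mem_bot] at this⟩
    refine eval_unique (J := J.map (Ideal.Quotient.mk (J ^ m))) (fun i => ?_) (fun b => ?_)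
      fun i => ?_
    · simp only [RingHom.coe_comp, Function.comp_apply, RingHom.coe_coe, hφ]
      exact Ideal.mem_map_of_mem _ (hx i)
    · simp only [RingHom.coe_comp, Function.comp_apply, RingHom.coe_coe, hC]
      rfl
    · simp only [RingHom.coe_comp, Function.comp_apply, RingHom.coe_coe, hφ]
      rfl
  refine ⟨IsAdicComplete.liftRingHom J (fun n => (φ n : MvPowerSeries σ B →+* C ⧸ J ^ n)) hcompat,
    fun b => ?_, fun i => ?_⟩ <;>
  refine sub_eq_zero.1 (IsHausdorff.haus (inferInstance : IsHausdorff J C) _ fun n => ?_) <;>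
  rw [SModEq.zero, smul_eq_mul, Ideal.mul_top, ← Ideal.Quotient.eq_zero_iff_mem, map_sub,
    IsAdicComplete.mk_liftRingHom, sub_eq_zero]
  · exact hC n b
  · exact hφ n i

omit [IsLocalRing B] in
/-- Finite algebras over complete noetherian local rings are complete for the extended ideal. -/
theorem isAdicComplete_of_finite (A : Type) [CommRing A] [IsLocalRing A] [IsNoetherianRing A]
    [IsAdicComplete (maximalIdeal A) A] [Algebra A C] [Module.Finite A C] :
    IsAdicComplete ((maximalIdeal A).map (algebraMap A C)) C := by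
  have hhaus : IsHausdorff (maximalIdeal A) C := inferInstance
  have hpre : IsPrecomplete (maximalIdeal A) C := by
    rw [← AdicCompletion.of_surjective_iff]
    intro x
    obtain ⟨t, rfl⟩ := AdicCompletion.ofTensorProduct_surjective_of_finite (maximalIdeal A) C x
    induction t with
    | zero => exact ⟨0, by rw [map_zero, map_zero]⟩
    | tmul r m =>
      obtain ⟨a, rfl⟩ := AdicCompletion.of_surjective (maximalIdeal A) A r
      refine ⟨a • m, ?_⟩
      rw [AdicCompletion.ofTensorProduct_tmul, map_smul]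
      ext n
      exact (AdicCompletion.val_smul_apply _ _ _).trans rfl
    | add y z hy hz =>
      obtain ⟨u, hu⟩ := hy
      obtain ⟨w, hw⟩ := hz
      exact ⟨u + w, by rw [map_add, map_add, hu, hw]⟩
  exact { (IsHausdorff.map_algebraMap_iff (I := maximalIdeal A) (S := C) (M := C)).2 hhaus,
      (IsPrecomplete.map_algebraMap_iff (I := maximalIdeal A) (S := C) (M := C)).2 hpre with }

end Fermat.Agent.Engine
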