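import Fermat.Agent.Engine.TwRing
import Fermat.Agent.Deform.TWInertia
import Fermat.Agent.TameInertia.Presentation

/-!
# The universal character at an auxiliary prime

For `q ≡ 1 (mod p ^ (n + 1))` and a tame generator `τ` at `q`, the class of `c τ` (`c` the
cyclotomic character modulo `q`) generates `(ℤ/q)ˣ` modulo `p ^ (n + 1)`-th powers, so there is a
character to `TwQuot` sending it to `1 + S_i`.
-/

set_option autoImplicit false
set_option linter.unusedSectionVars false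

noncomputable section

namespace Fermat.Agent.Engine

open Fermat.Agent.Deform

local notation "Qbar" => AlgebraicClosure ℚ
local notation "GQ" => AlgebraicClosure ℚ ≃ₐ[ℚ] AlgebraicClosure ℚ

/-- Every class modulo `q` is a power of that of a tame generator times a `p ^ k`-th power. -/
theorem exists_zpow_mul_pow {p q : ℕ} (hp : p.Prime) (hq : q.Prime) (hpq : p ≠ q)
    {c : GQ →* (ZMod q)ˣ} (hc : IsCycloMod q c) {A : ValuationSubring Qbar}
    (hA : A.LiesOverPrime q) {τ : GQ} (hτ : TameInertia.IsTameGenerator A p q τ) (k : ℕ)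
    (u : (ZMod q)ˣ) : ∃ (j : ℕ) (w : (ZMod q)ˣ), u = c τ ^ j * w ^ p ^ k := by
  have : NeZero q := ⟨hq.ne_zero⟩
  have : NeZero (q : Qbar) := ⟨Nat.cast_ne_zero.mpr hq.ne_zero⟩
  have : Algebra.IsAlgebraic ℚ Qbar := AlgebraicClosure.isAlgebraic ℚ
  obtain ⟨ζ, hζ⟩ := HasEnoughRootsOfUnity.exists_primitiveRoot Qbar q
  let R : Subgroup (ZMod q)ˣ := (powMonoidHom (p ^ k) : (ZMod q)ˣ →* (ZMod q)ˣ).range
  let ρ : GQ →* (ZMod q)ˣ ⧸ R := (QuotientGroup.mk' R).comp c
  obtain ⟨σ, hσ, hσu⟩ := exists_inertia_cyclo_eq hq hc hA u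
  obtain ⟨j, hj⟩ := TameInertia.exists_eq_pow_tameGenerator (k := k) hp hq hpq hA
    (MonoidHom.id GQ) (ρ := ρ)
    ⟨IntermediateField.adjoin ℚ {ζ},
      IntermediateField.adjoin.finiteDimensional (Algebra.IsIntegral.isIntegral ζ), fun g hg => by
        rw [MonoidHom.mem_ker]
        show QuotientGroup.mk' R (c g) = 1
        rw [(hc.eq_one_iff hζ g).mpr ((IntermediateField.mem_fixingSubgroup_iff _ g).mp hg ζ
          (IntermediateField.mem_adjoin_simple_self ℚ ζ)), map_one]⟩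
    (fun d _ => by
      show QuotientGroup.mk' R (c d) ^ p ^ k = 1
      rw [← map_pow, QuotientGroup.mk'_apply, QuotientGroup.eq_one_iff]
      exact ⟨c d, rfl⟩)
    (d₀ := τ) hτ (d := σ) hσ
  have hmem : (c τ ^ j)⁻¹ * c σ ∈ R := by
    rw [← QuotientGroup.eq]
    show QuotientGroup.mk' R (c τ ^ j) = QuotientGroup.mk' R (c σ)
    rw [map_pow]
    exact hj.symm
  obtain ⟨w, hw⟩ := hmem
  refine ⟨j, w, ?_⟩
  rw [← hσu, show w ^ p ^ k = (c τ ^ j)⁻¹ * c σ from hw, mul_inv_cancel_left]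

/-- A tame generator class goes to any element killed by `p ^ k ∣ q - 1`. -/
theorem exists_char_tame {p q : ℕ} (hp : p.Prime) (hq : q.Prime) (hpq : p ≠ q) {k : ℕ}
    (hdvd : p ^ k ∣ q - 1)
    {c : GQ →* (ZMod q)ˣ} (hc : IsCycloMod q c) {A : ValuationSubring Qbar}
    (hA : A.LiesOverPrime q) {τ : GQ} (hτ : TameInertia.IsTameGenerator A p q τ)
    {M : Type*} [CommMonoid M] (x : M) (hx : x ^ p ^ k = 1) :
    ∃ ψ : (ZMod q)ˣ →* M, ψ (c τ) = x ∧ ∀ u, ψ u ^ p ^ k = 1 := by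
  have : Fact q.Prime := ⟨hq⟩
  let R : Subgroup (ZMod q)ˣ := (powMonoidHom (p ^ k) : (ZMod q)ˣ →* (ZMod q)ˣ).range
  let g : (ZMod q)ˣ ⧸ R := QuotientGroup.mk' R (c τ)
  have hg : ∀ y, y ∈ Subgroup.zpowers g := by
    intro y
    obtain ⟨u, rfl⟩ := QuotientGroup.mk'_surjective R y
    obtain ⟨j, w, rfl⟩ := exists_zpow_mul_pow hp hq hpq hc hA hτ k u
    refine ⟨j, ?_⟩
    show g ^ (j : ℤ) = _
    rw [map_mul, map_pow, zpow_natCast, show QuotientGroup.mk' R (w ^ p ^ k) = 1 from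
      (QuotientGroup.eq_one_iff _).mpr ⟨w, rfl⟩, mul_one]
  have hord : orderOf g = p ^ k := by
    rw [orderOf_eq_card_of_forall_mem_zpowers hg, ← Subgroup.index_eq_card,
      IsCyclic.index_powMonoidHom_range, Nat.card_eq_fintype_card, ZMod.card_units_eq_totient,
      Nat.totient_prime hq]
    exact Nat.gcd_eq_right hdvd
  let y : Mˣ := Units.ofPowEqOne x (p ^ k) hx (pow_pos hp.pos k).ne'
  have hy : y ^ p ^ k = 1 := Units.ext (by rw [Units.val_pow_eq_pow_val]; exact hx)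
  let h := monoidHomOfForallMemZpowers hg (g' := y) (by rw [hord]; exact orderOf_dvd_of_pow_eq_one hy)
  refine ⟨(Units.coeHom M).comp (h.comp (QuotientGroup.mk' R)), ?_, fun u => ?_⟩
  · show ((h g : Mˣ) : M) = x
    rw [monoidHomOfForallMemZpowers_apply_gen]
    rfl
  · show ((h (QuotientGroup.mk' R u) : Mˣ) : M) ^ p ^ k = 1
    rw [← Units.val_pow_eq_pow_val, ← map_pow, ← map_pow,
      show QuotientGroup.mk' R (u ^ p ^ k) = 1 from (QuotientGroup.eq_one_iff _).mpr ⟨u, rfl⟩,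
      map_one, Units.val_one]

/-- The universal characters at the auxiliary primes of one level. -/
theorem exists_twChar (O : Type) [CommRing O] {p r : ℕ} (hp : p.Prime) (n : ℕ) {q : ℕ}
    (hq : q.Prime) (hpq : p ≠ q) (hdvd : p ^ (n + 1) ∣ q - 1)
    {c : GQ →* (ZMod q)ˣ} (hc : IsCycloMod q c) {A : ValuationSubring Qbar}
    (hA : A.LiesOverPrime q) {τ : GQ} (hτ : TameInertia.IsTameGenerator A p q τ) (i : Fin r) :
    ∃ ψ : (ZMod q)ˣ →* TwQuot O p r n,
      ψ (c τ) = 1 + twVar O p r n i ∧ ∀ u, ψ u ^ p ^ (n + 1) = 1 :=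
  exists_char_tame hp hq hpq hdvd hc hA hτ _ (one_add_twVar_pow O p r n i)

/-- An element congruent to one of `p`-power order maps to one in the augmentation. -/
theorem twAug_one_add (O : Type) [CommRing O] (p r n : ℕ) (i : Fin r) :
    twAug O p r n (1 + twVar O p r n i) = 1 := by
  rw [map_add, map_one, twVar]
  simp [twAug]

end Fermat.Agent.Engine
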