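import Fermat.Agent.Patch.System
import Fermat.Agent.Patch.EigenFibre

/-!
# Maps between patched systems, limits of base maps, points of the base

`limitHom` is the limit of ring maps, `Acted` the patched module and `patchMap` the limit of maps
between finite levels, with its functorial properties.  `annihilator_le_of_point`: a prime of the
support over the augmentation contains the annihilator of the base module.
-/

set_option autoImplicit false

noncomputable section

namespace Fermat.Agent.Engine

open IsLocalRing Filter Patch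

/-! ### Limits of ring maps into a complete local ring -/

section Limit

variable {R : Type*} [CommRing R] {S : Type*} [CommRing S] [IsLocalRing S] [IsNoetherianRing S]
  [Finite (ResidueField S)] [IsAdicComplete (maximalIdeal S) S]

/-- The ultralimit of a sequence of ring maps. -/
def limitHom (ψ : ℕ → R →+* S) : R →+* S :=
  RingHom.mk'
    { toFun := fun x => ulim fun n => ψ n x
      map_one' := by simp only [map_one, ulim_const]
      map_mul' := fun x y => by simp only [map_mul, ulim_mul] }
    fun x y => by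
      show ulim (fun n => ψ n (x + y)) = _
      simp only [map_add, ulim_add]
      rfl

/-- The limit homomorphism is congruent to the finite ones along the filter. -/
theorem limitHom_spec (ψ : ℕ → R →+* S) (x : R) (k : ℕ) :
    ∀ᶠ n in (patchFilter : Filter ℕ), ψ n x - limitHom ψ x ∈ maximalIdeal S ^ k :=
  ulim_spec (fun n => ψ n x) k

/-- The limit of a constant value. -/
theorem limitHom_eq_of_forall (ψ : ℕ → R →+* S) {x : R} {s : S} (h : ∀ n, ψ n x = s) :
    limitHom ψ x = s := by
  show ulim (fun n => ψ n x) = s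
  simp only [h, ulim_const]

/-- The limit at the limit of elements with a common image. -/
theorem limitHom_ulim [IsLocalRing R] [IsNoetherianRing R] [Finite (ResidueField R)]
    [IsAdicComplete (maximalIdeal R) R] (ψ : ℕ → R →+* S)
    (hψ : ∀ n, IsLocalHom (ψ n)) (r : ℕ → R) {s : S} (h : ∀ n, ψ n (r n) = s) :
    limitHom ψ (ulim r) = s := by
  rw [← sub_eq_zero]
  refine IsHausdorff.haus (inferInstance : IsHausdorff (maximalIdeal S) S) _ fun k => ?_
  rw [SModEq.zero, smul_eq_mul, Ideal.mul_top]
  obtain ⟨n, hn, hrn⟩ := ((limitHom_spec ψ (ulim r) k).and (ulim_spec r k)).exists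
  have h1 : ψ n (r n - ulim r) ∈ maximalIdeal S ^ k := by
    have := hψ n
    have hle : (maximalIdeal R).map (ψ n) ≤ maximalIdeal S :=
      Ideal.map_le_iff_le_comap.2 fun x hx => map_nonunit (ψ n) x hx
    exact Ideal.pow_right_mono hle k (Ideal.map_pow (ψ n) _ k ▸ Ideal.mem_map_of_mem _ hrn)
  rw [map_sub, h n] at h1
  have := neg_mem (add_mem h1 hn)
  convert this using 1
  ring

end Limit

/-! ### The patched module -/

section Acted

variable {R : Type} [CommRing R] {Λ : Type} [CommRing Λ] {d : ℕ}

/-- `Λ^d` with the action given by matrices. -/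
def Acted (_ρ : R →+* Matrix (Fin d) (Fin d) Λ) : Type := Fin d → Λ

variable (ρ : R →+* Matrix (Fin d) (Fin d) Λ)

/-- The group of a patched module. -/
instance : AddCommGroup (Acted ρ) := inferInstanceAs (AddCommGroup (Fin d → Λ))
/-- The coefficient action on a patched module. -/
instance : Module Λ (Acted ρ) := inferInstanceAs (Module Λ (Fin d → Λ))
/-- A patched module is free. -/
instance : Module.Free Λ (Acted ρ) := inferInstanceAs (Module.Free Λ (Fin d → Λ))
/-- A patched module is finite. -/
instance : Module.Finite Λ (Acted ρ) := inferInstanceAs (Module.Finite Λ (Fin d → Λ))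
/-- The matrices as endomorphisms. -/
def actHom : R →+* Module.End Λ (Fin d → Λ) :=
  (Matrix.toLinAlgEquiv' (R := Λ) (n := Fin d)).toRingEquiv.toRingHom.comp ρ

/-- The ring acts on a patched module through the matrices. -/
instance : Module R (Acted ρ) := Module.compHom (Fin d → Λ) (actHom ρ)

/-- The action on a patched module in coordinates. -/
theorem acted_smul (r : R) (x : Acted ρ) :
    r • x = (show Fin d → Λ from (ρ r).mulVec (show Fin d → Λ from x)) := rfl

/-- The two actions on a patched module commute. -/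
instance : SMulCommClass R Λ (Acted ρ) := ⟨fun r l x => by
  rw [acted_smul, acted_smul]
  exact Matrix.mulVec_smul (ρ r) l (show Fin d → Λ from x)⟩

/-- The annihilator of a patched module is the kernel of the action. -/
theorem annihilator_acted : Module.annihilator R (Acted ρ) = RingHom.ker ρ := by
  ext r
  rw [Module.mem_annihilator, RingHom.mem_ker]
  refine ⟨fun h => Matrix.ext fun i j => ?_, fun h x => ?_⟩
  · have := congrFun (h (show Acted ρ from Pi.single j 1)) i
    rw [acted_smul] at this
    simp [Matrix.mulVec_single] at this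
    exact this
  · rw [acted_smul, h, Matrix.zero_mulVec]
    rfl

/-- Scalars are realised by ring elements when the action contains them. -/
theorem scalars_acted (hsc : ScalarsIn ρ) (l : Λ) : ∃ r : R, ∀ x : Acted ρ, r • x = l • x := by
  obtain ⟨r, hr⟩ := hsc l
  refine ⟨r, fun x => ?_⟩
  rw [acted_smul, hr, Matrix.smul_mulVec, Matrix.one_mulVec]
  rfl

/-- A patched module is finite over the ring when the action contains the scalars. -/
theorem finite_acted (hsc : ScalarsIn ρ) : Module.Finite R (Acted ρ) :=
  finite_of_scalarsAct (R := R) (O := Λ) (scalars_acted ρ hsc)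

/-- A patched module of positive rank is nontrivial. -/
theorem nontrivial_acted [Nontrivial Λ] (hd : d ≠ 0) : Nontrivial (Acted ρ) := by
  have : Nonempty (Fin d) := ⟨⟨0, Nat.pos_of_ne_zero hd⟩⟩
  exact inferInstanceAs (Nontrivial (Fin d → Λ))

end Acted

/-! ### Maps between patched systems -/

section Maps

variable {R : Type} [CommRing R] {Λ : Type} [CommRing Λ] [IsLocalRing Λ] [IsNoetherianRing Λ]
  [Finite (ResidueField Λ)] [IsAdicComplete (maximalIdeal Λ) Λ] {d d' d'' : ℕ}
  {I : ℕ → Ideal Λ}

/-- Limit of rectangular matrices. -/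
def ulimRect (A : ℕ → Matrix (Fin d') (Fin d) Λ) : Matrix (Fin d') (Fin d) Λ :=
  fun i j => ulim fun n => A n i j

/-- Limits of rectangular matrices respect products. -/
theorem ulimRect_mul (A : ℕ → Matrix (Fin d'') (Fin d') Λ) (B : ℕ → Matrix (Fin d') (Fin d) Λ) :
    ulimRect (fun n => A n * B n) = ulimRect A * ulimRect B := by
  ext i j
  simp only [ulimRect, Matrix.mul_apply]
  rw [ulim_sum Finset.univ fun x n => A n i x * B n x j]
  exact Finset.sum_congr rfl fun x _ => ulim_mul (fun n => A n i x) (fun n => B n x j)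

/-- Congruent sequences of matrices have the same limit. -/
theorem ulimRect_congr (hI : TendsToZero I) {A B : ℕ → Matrix (Fin d') (Fin d) Λ}
    (h : ∀ n i j, A n i j - B n i j ∈ I n) : ulimRect A = ulimRect B :=
  Matrix.ext fun i j => ulim_congr hI (Eventually.of_forall fun n => h n i j)

variable {d₁ d₂ : ℕ} {N N' : ℕ → Type} [∀ n, AddCommGroup (N n)] [∀ n, Module Λ (N n)]
  [∀ n, AddCommGroup (N' n)] [∀ n, Module Λ (N' n)]
  {ε : ∀ n, Fin d₁ → N n} {ε' : ∀ n, Fin d₂ → N' n}

/-- The matrices of a sequence of linear maps. -/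
def mapMatrices (_hε : ∀ n, IsModBasis (I n) (ε n)) (hε' : ∀ n, IsModBasis (I n) (ε' n))
    (F : ∀ n, N n →ₗ[Λ] N' n) (n : ℕ) : Matrix (Fin d₂) (Fin d₁) Λ :=
  fun i j => ((hε' n).exists_coeff (F n (ε n j))).choose i

omit [IsLocalRing Λ] [IsNoetherianRing Λ] [Finite (ResidueField Λ)]
  [IsAdicComplete (maximalIdeal Λ) Λ] in
/-- The matrices of a sequence of maps. -/
theorem mapMatrices_spec (hε : ∀ n, IsModBasis (I n) (ε n))
    (hε' : ∀ n, IsModBasis (I n) (ε' n)) (F : ∀ n, N n →ₗ[Λ] N' n) (n : ℕ) (j : Fin d₁) :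
    ∑ i, mapMatrices hε hε' F n i j • ε' n i = F n (ε n j) :=
  ((hε' n).exists_coeff (F n (ε n j))).choose_spec

/-- The patched map. -/
def patchMap (hε : ∀ n, IsModBasis (I n) (ε n)) (hε' : ∀ n, IsModBasis (I n) (ε' n))
    (F : ∀ n, N n →ₗ[Λ] N' n) : (Fin d₁ → Λ) →ₗ[Λ] (Fin d₂ → Λ) :=
  Matrix.toLin' (ulimRect (mapMatrices hε hε' F))

/-- Patched maps compose. -/
theorem patchMap_comp {d₃ : ℕ} {N'' : ℕ → Type} [∀ n, AddCommGroup (N'' n)]
    [∀ n, Module Λ (N'' n)] {ε'' : ∀ n, Fin d₃ → N'' n} (hε : ∀ n, IsModBasis (I n) (ε n))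
    (hε' : ∀ n, IsModBasis (I n) (ε' n)) (hε'' : ∀ n, IsModBasis (I n) (ε'' n))
    (hI : TendsToZero I) (F : ∀ n, N n →ₗ[Λ] N' n) (G : ∀ n, N' n →ₗ[Λ] N'' n) :
    patchMap hε hε'' (fun n => (G n).comp (F n))
      = (patchMap hε' hε'' G).comp (patchMap hε hε' F) := by
  rw [patchMap, patchMap, patchMap, ← Matrix.toLin'_mul, ← ulimRect_mul]
  refine congrArg Matrix.toLin' (ulimRect_congr hI fun n i j => (hε'' n).congr_coeff
    (c := fun i => mapMatrices hε hε'' (fun n => (G n).comp (F n)) n i j) (c' := fun i =>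
      (mapMatrices hε' hε'' G n * mapMatrices hε hε' F n) i j) ?_ i)
  rw [mapMatrices_spec]
  simp only [LinearMap.comp_apply, Matrix.mul_apply, Finset.sum_smul]
  rw [← mapMatrices_spec hε hε' F n j, map_sum, Finset.sum_comm]
  refine Finset.sum_congr rfl fun k _ => ?_
  rw [map_smul, ← mapMatrices_spec hε' hε'' G n k, Finset.smul_sum]
  exact Finset.sum_congr rfl fun i _ => by rw [smul_smul, mul_comm]

/-- The patched identity. -/
theorem patchMap_id (hε : ∀ n, IsModBasis (I n) (ε n)) (hI : TendsToZero I) :
    patchMap hε hε (fun n => (LinearMap.id : N n →ₗ[Λ] N n)) = LinearMap.id := by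
  have h : ulimRect (mapMatrices hε hε fun n => (LinearMap.id : N n →ₗ[Λ] N n)) = 1 := by
    refine (ulimRect_congr hI (B := fun _ => 1) fun n i j => ?_).trans
      (Matrix.ext fun i j => ulim_const _)
    exact (hε n).congr_coeff (c := fun i => mapMatrices hε hε (fun n => LinearMap.id) n i j)
      (c' := fun i => (1 : Matrix (Fin d₁) (Fin d₁) Λ) i j) (by
        rw [mapMatrices_spec]; simp [Matrix.one_apply, ite_smul]) i
  rw [patchMap, h, Matrix.toLin'_one]

/-- Patched maps add. -/
theorem patchMap_add (hε : ∀ n, IsModBasis (I n) (ε n)) (hε' : ∀ n, IsModBasis (I n) (ε' n))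
    (hI : TendsToZero I) (F G : ∀ n, N n →ₗ[Λ] N' n) :
    patchMap hε hε' (fun n => F n + G n) = patchMap hε hε' F + patchMap hε hε' G := by
  have h : ulimRect (mapMatrices hε hε' fun n => F n + G n)
      = ulimRect (mapMatrices hε hε' F) + ulimRect (mapMatrices hε hε' G) := by
    refine (ulimRect_congr hI (B := fun n => mapMatrices hε hε' F n + mapMatrices hε hε' G n)
      fun n i j => ?_).trans (Matrix.ext fun i j => ?_)
    · exact (hε' n).congr_coeff (c := fun i => mapMatrices hε hε' (fun n => F n + G n) n i j)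
        (c' := fun i => (mapMatrices hε hε' F n + mapMatrices hε hε' G n) i j) (by
          rw [mapMatrices_spec]
          simp [add_smul, Finset.sum_add_distrib, mapMatrices_spec]) i
    · exact ulim_add (fun n => mapMatrices hε hε' F n i j) (fun n => mapMatrices hε hε' G n i j)
  rw [patchMap, h, map_add]
  rfl

/-- The patched zero map. -/
theorem patchMap_zero (hε : ∀ n, IsModBasis (I n) (ε n)) (hε' : ∀ n, IsModBasis (I n) (ε' n))
    (hI : TendsToZero I) :
    patchMap hε hε' (fun n => (0 : N n →ₗ[Λ] N' n)) = 0 := by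
  have h : ulimRect (mapMatrices hε hε' fun n => (0 : N n →ₗ[Λ] N' n)) = 0 := by
    refine (ulimRect_congr hI (B := fun _ => 0) fun n i j => ?_).trans
      (Matrix.ext fun i j => ulim_const _)
    exact (hε' n).congr_coeff (c := fun i => mapMatrices hε hε' (fun n => (0 : N n →ₗ[Λ] N' n)) n i j)
      (c' := fun i => (0 : Matrix (Fin d₂) (Fin d₁) Λ) i j) (by
        rw [mapMatrices_spec]; simp) i
  rw [patchMap, h, map_zero]

/-- The patched map of equivariant maps is equivariant. -/
theorem patchMap_equivariant [∀ n, Module R (N n)] [∀ n, SMulCommClass R Λ (N n)]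
    [∀ n, Module R (N' n)] [∀ n, SMulCommClass R Λ (N' n)]
    (hε : ∀ n, IsModBasis (I n) (ε n)) (hε' : ∀ n, IsModBasis (I n) (ε' n))
    (hI : TendsToZero I) (F : ∀ n, N n →ₗ[Λ] N' n)
    (hF : ∀ n (r : R) x, F n (r • x) = r • F n x) (r : R) (x : Fin d₁ → Λ) :
    patchMap hε hε' F ((patchAction (R := R) hε hI r).mulVec x) =
      (patchAction (R := R) hε' hI r).mulVec (patchMap hε hε' F x) := by
  have key : ulimRect (fun n => mapMatrices hε hε' F n * (hε n).matrix r) =
      ulimRect (fun n => (hε' n).matrix r * mapMatrices hε hε' F n) := by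
    refine ulimRect_congr hI fun n i j => (hε' n).congr_coeff (c := fun i =>
      (mapMatrices hε hε' F n * (hε n).matrix r) i j) (c' := fun i =>
      ((hε' n).matrix r * mapMatrices hε hε' F n) i j) ?_ i
    simp only [Matrix.mul_apply, Finset.sum_smul]
    rw [Finset.sum_comm, Finset.sum_comm (γ := Fin d₂)]
    calc ∑ k, ∑ i, (mapMatrices hε hε' F n i k * (hε n).matrix r k j) • ε' n i
        = F n (r • ε n j) := by
          rw [← (hε n).matrix_spec r j, map_sum]
          refine Finset.sum_congr rfl fun k _ => ?_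
          rw [map_smul, ← mapMatrices_spec hε hε' F n k, Finset.smul_sum]
          exact Finset.sum_congr rfl fun i _ => by rw [smul_smul, mul_comm]
      _ = _ := by
          rw [hF, ← mapMatrices_spec hε hε' F n j, Finset.smul_sum]
          refine Finset.sum_congr rfl fun k _ => ?_
          rw [smul_comm, ← (hε' n).matrix_spec r k, Finset.smul_sum]
          exact Finset.sum_congr rfl fun i _ => by rw [smul_smul, mul_comm]
  rw [ulimRect_mul, ulimRect_mul] at key
  rw [patchMap, Matrix.toLin'_apply, Matrix.toLin'_apply, Matrix.mulVec_mulVec,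
    Matrix.mulVec_mulVec]
  exact congrArg (fun X : Matrix (Fin d₂) (Fin d₁) Λ => X.mulVec x) key

/-- What kills every stage kills the limit. -/
theorem patchAction_eq_zero [∀ n, Module R (N n)] [∀ n, SMulCommClass R Λ (N n)]
    (hε : ∀ n, IsModBasis (I n) (ε n)) (hI : TendsToZero I) {r : R}
    (h : ∀ n (x : N n), r • x = 0) : patchAction (R := R) hε hI r = 0 := by
  rw [patchAction_eq, ← ulimMat_const (0 : Matrix (Fin d₁) (Fin d₁) Λ)]
  exact ulimMat_congr hI fun n => (hε n).matrix_unique fun j => by simp [h]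

/-- The limit of multiplication by `r` is the patched action of `r`. -/
theorem patchMap_smul [∀ n, Module R (N n)] [∀ n, SMulCommClass R Λ (N n)]
    (hε : ∀ n, IsModBasis (I n) (ε n)) (hI : TendsToZero I) (r : R)
    (μ : ∀ n, N n →ₗ[Λ] N n) (hμ : ∀ n x, μ n x = r • x) :
    patchMap hε hε μ = Matrix.toLin' (patchAction (R := R) hε hI r) := by
  rw [patchMap]
  refine congrArg Matrix.toLin' (ulimRect_congr hI fun n i j => ?_)
  exact (hε n).congr_coeff (c := fun i => mapMatrices hε hε μ n i j)
    (c' := fun i => (hε n).matrix r i j) (by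
      rw [mapMatrices_spec, (hε n).matrix_spec, hμ]) i

end Maps

/-! ### Points of the base -/

section Point

variable {R : Type} [CommRing R] {Λ : Type} [CommRing Λ] [IsDomain Λ] {d : ℕ}
  {M₀ : Type} [AddCommGroup M₀] [Module R M₀] [Module Λ M₀] [SMulCommClass R Λ M₀]
  {e₀ : Fin d → M₀} {a : Ideal Λ} {ρ : R →+* Matrix (Fin d) (Fin d) Λ}

omit [IsDomain Λ] in
/-- A prime of the support containing lifts of the augmentation contains the annihilator of the
base module. -/
theorem annihilator_le_of_point [NeZero d] (he₀ : IsModBasis a e₀)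
    (hρ : ∀ (r : R) j, ∑ i, ρ r i j • e₀ i = r • e₀ j) (hsc : ScalarsIn ρ)
    {Q : Ideal R} [Q.IsPrime] (hQ : RingHom.ker ρ ≤ Q) {S : Set Λ} (hS : Ideal.span S = a)
    (hQS : ∀ l ∈ S, ∃ x ∈ Q, ρ x = l • (1 : Matrix (Fin d) (Fin d) Λ)) :
    Module.annihilator R M₀ ≤ Q := by
  intro r hr
  refine mem_of_vanishesMod hsc hQ ?_ ((mem_annihilator_iff_vanishesMod he₀ hρ).1 hr)
  intro x l hl hx
  subst hS
  induction hl using Submodule.span_induction generalizing x with
  | mem l hl =>
    obtain ⟨y, hy, hyl⟩ := hQS l hl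
    have : x - y ∈ Q := hQ (by rw [RingHom.mem_ker, map_sub, hx, hyl, sub_self])
    simpa using add_mem this hy
  | zero => exact hQ (by rw [RingHom.mem_ker, hx, zero_smul])
  | add l m _ _ ihl ihm =>
    obtain ⟨y, hy⟩ := hsc l
    have h2 : ρ (x - y) = m • 1 := by rw [map_sub, hx, hy, add_smul, add_sub_cancel_left]
    simpa using add_mem (ihm (x - y) h2) (ihl y hy)
  | smul c l _ ih =>
    obtain ⟨y, hy⟩ := hsc l
    obtain ⟨z, hz⟩ := hsc c
    have h2 : x - z * y ∈ Q := hQ (by
      rw [RingHom.mem_ker, map_sub, map_mul, hx, hy, hz, smul_mul_smul_comm, one_mul, smul_eq_mul,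
        sub_self])
    simpa using add_mem h2 (Q.mul_mem_left z (ih y hy))

end Point

end Fermat.Agent.Engine
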