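import Fermat.Agent.Engine.Evaluation
import Fermat.Agent.Engine.PatchMaps

/-!
# Modules given by matrices over a quotient of the coefficient ring

`LevelMod ρ` is `(Λ ⧸ I) ^ d` with `R` acting through the matrices `ρ`.  `exists_matEval` extends a
commuting family of matrices to power series, `matEval_unique` is the uniqueness.
-/

set_option autoImplicit false

noncomputable section

namespace Fermat.Agent.Engine

open IsLocalRing Patch

section Module

variable {R : Type} [CommRing R] {Λ : Type} [CommRing Λ] {I : Ideal Λ} {d : ℕ}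

/-- `(Λ ⧸ I) ^ d` with the action through matrices. -/
def LevelMod (_ρ : R →+* Matrix (Fin d) (Fin d) (Λ ⧸ I)) : Type := Fin d → Λ ⧸ I

variable (ρ : R →+* Matrix (Fin d) (Fin d) (Λ ⧸ I))

/-- The group of a level module. -/
instance : AddCommGroup (LevelMod ρ) := inferInstanceAs (AddCommGroup (Fin d → Λ ⧸ I))
/-- The coefficient action on a level module. -/
instance : Module Λ (LevelMod ρ) := inferInstanceAs (Module Λ (Fin d → Λ ⧸ I))
/-- The ring acts on a level module through the matrices. -/
instance : Module R (LevelMod ρ) := Module.compHom (Fin d → Λ ⧸ I) (actHom ρ)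

/-- The underlying vector. -/
def LevelMod.vec (x : LevelMod ρ) : Fin d → Λ ⧸ I := x

/-- A vector as an element. -/
def LevelMod.of (x : Fin d → Λ ⧸ I) : LevelMod ρ := x

/-- The action on a level module in coordinates. -/
theorem levelMod_smul (r : R) (x : LevelMod ρ) :
    r • x = LevelMod.of ρ ((ρ r).mulVec (LevelMod.vec ρ x)) := rfl

/-- The two actions on a level module commute. -/
instance : SMulCommClass R Λ (LevelMod ρ) := ⟨fun r l x =>
  show (ρ r).mulVec (l • LevelMod.vec ρ x) = l • (ρ r).mulVec (LevelMod.vec ρ x) from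
    Matrix.mulVec_smul (ρ r) l (LevelMod.vec ρ x)⟩

/-- The standard basis. -/
def levelBasis (j : Fin d) : LevelMod ρ := LevelMod.of ρ (Pi.single j 1)

/-- Combinations of the basis in coordinates. -/
theorem sum_levelBasis (c : Fin d → Λ) :
    LevelMod.vec ρ (∑ i, c i • levelBasis ρ i) = fun i => Ideal.Quotient.mk I (c i) := by
  funext k
  refine (Finset.sum_apply k _ _).trans ((Finset.sum_eq_single k (fun i _ hik => ?_)
    (fun h => absurd (Finset.mem_univ k) h)).trans ?_)
  · show c i • (Pi.single i 1 : Fin d → Λ ⧸ I) k = 0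
    rw [Pi.single_eq_of_ne (Ne.symm hik), smul_zero]
  · show c k • (Pi.single k 1 : Fin d → Λ ⧸ I) k = _
    rw [Pi.single_eq_same, Algebra.smul_def, mul_one]
    rfl

/-- The standard vectors form a basis modulo the ideal. -/
theorem isModBasis_levelBasis : IsModBasis I (levelBasis ρ) := by
  refine ⟨eq_top_iff.2 fun x _ => ?_, fun c => ?_⟩
  · rw [Submodule.mem_span_range_iff_exists_fun]
    choose c hc using fun i => Ideal.Quotient.mk_surjective (LevelMod.vec ρ x i)
    exact ⟨c, (sum_levelBasis ρ c).trans (funext hc)⟩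
  · constructor
    · intro h i
      rw [← Ideal.Quotient.eq_zero_iff_mem, ← congrFun (sum_levelBasis ρ c) i, h]
      rfl
    · intro h
      exact (sum_levelBasis ρ c).trans (funext fun i => Ideal.Quotient.eq_zero_iff_mem.2 (h i))

/-- The matrix of the action in the standard basis. -/
theorem smul_levelBasis (r : R) (i j : Fin d) :
    LevelMod.vec ρ (r • levelBasis ρ j) i = ρ r i j :=
  congrFun (Matrix.mulVec_single_one (ρ r) j) i

/-- The matrix in the standard basis. -/
theorem mk_matrix (r : R) (i j : Fin d) :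
    Ideal.Quotient.mk I ((isModBasis_levelBasis ρ).matrix r i j) = ρ r i j := by
  rw [← smul_levelBasis ρ r i j, ← (isModBasis_levelBasis ρ).matrix_spec r j, sum_levelBasis]

/-- An element acting by the zero matrix acts as zero. -/
theorem smul_eq_zero_of_eq_zero {r : R} (h : ρ r = 0) (x : LevelMod ρ) : r • x = 0 := by
  rw [levelMod_smul, h, Matrix.zero_mulVec]
  rfl

/-- An element acting by a scalar matrix acts as that scalar. -/
theorem smul_eq_of_eq_scalar {r : R} {l : Λ}
    (h : ρ r = Ideal.Quotient.mk I l • (1 : Matrix (Fin d) (Fin d) (Λ ⧸ I))) (x : LevelMod ρ) :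
    r • x = l • x := by
  rw [levelMod_smul, h, Matrix.smul_mulVec, Matrix.one_mulVec]
  rfl

/-- A map given by a matrix. -/
def levelMap {d' : ℕ} (ρ' : R →+* Matrix (Fin d') (Fin d') (Λ ⧸ I))
    (U : Matrix (Fin d') (Fin d) (Λ ⧸ I)) : LevelMod ρ →ₗ[Λ] LevelMod ρ' where
  toFun x := LevelMod.of ρ' (U.mulVec (LevelMod.vec ρ x))
  map_add' x y := Matrix.mulVec_add U _ _
  map_smul' l x := Matrix.mulVec_smul U l (LevelMod.vec ρ x)

/-- An intertwining matrix gives an equivariant map. -/
theorem levelMap_equivariant {d' : ℕ} (ρ' : R →+* Matrix (Fin d') (Fin d') (Λ ⧸ I))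
    (U : Matrix (Fin d') (Fin d) (Λ ⧸ I)) (hU : ∀ r, ρ' r * U = U * ρ r) (r : R)
    (x : LevelMod ρ) : levelMap ρ ρ' U (r • x) = r • levelMap ρ ρ' U x := by
  show U.mulVec ((ρ r).mulVec _) = (ρ' r).mulVec (U.mulVec _)
  rw [Matrix.mulVec_mulVec, Matrix.mulVec_mulVec, hU]
  rfl

end Module

section Eval

variable {B : Type} [CommRing B] {σ : Type} [Finite σ] {A : Type} [CommRing A] [IsLocalRing A]
  [IsNoetherianRing A] {d : ℕ}

/-- Uniqueness of evaluation in matrices. -/
theorem matEval_unique {Φ Ψ : MvPowerSeries σ B →+* Matrix (Fin d) (Fin d) A} (c : σ → A)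
    (hc : ∀ i, c i ∈ maximalIdeal A)
    (hΦ : ∀ i, Φ (MvPowerSeries.X i) = c i • (1 : Matrix (Fin d) (Fin d) A))
    (hΨ : ∀ i, Ψ (MvPowerSeries.X i) = c i • (1 : Matrix (Fin d) (Fin d) A))
    (hC : ∀ b, Φ (MvPowerSeries.C b) = Ψ (MvPowerSeries.C b)) : Φ = Ψ := by
  classical
  let K : (MvPowerSeries σ B →+* Matrix (Fin d) (Fin d) A) → ℕ → Ideal (MvPowerSeries σ B) :=
    fun Θ n =>
    { carrier := {f | ∀ i j, Θ f i j ∈ maximalIdeal A ^ n}
      zero_mem' := fun i j => by rw [map_zero, Matrix.zero_apply]; exact zero_mem _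
      add_mem' := fun hf hg i j => by rw [map_add, Matrix.add_apply]; exact add_mem (hf i j) (hg i j)
      smul_mem' := fun a f hf i j => by
        rw [smul_eq_mul, map_mul, Matrix.mul_apply]
        exact Submodule.sum_mem _ fun k _ => Ideal.mul_mem_left _ _ (hf k j) }
  have hK : ∀ (Θ : MvPowerSeries σ B →+* Matrix (Fin d) (Fin d) A),
      (∀ i, Θ (MvPowerSeries.X i) = c i • (1 : Matrix (Fin d) (Fin d) A)) →
      ∀ n, Ideal.span (Set.range MvPowerSeries.X) ^ n ≤ K Θ n := by
    intro Θ hΘ n
    induction n with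
    | zero => exact fun f _ i j => by rw [pow_zero, Ideal.one_eq_top]; trivial
    | succ n ih =>
      rw [pow_succ, Ideal.mul_le]
      intro f hf g hg
      induction hg using Submodule.span_induction with
      | mem g hg =>
        obtain ⟨k, rfl⟩ := hg
        intro i j
        rw [map_mul, hΘ, Matrix.mul_smul, mul_one, Matrix.smul_apply, smul_eq_mul, pow_succ']
        exact Ideal.mul_mem_mul (hc k) (ih hf i j)
      | zero => rw [mul_zero]; exact (K Θ (n + 1)).zero_mem
      | add g g' _ _ h h' => rw [mul_add]; exact add_mem h h'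
      | smul a g _ h =>
        rw [smul_eq_mul, mul_left_comm]
        exact Ideal.mul_mem_left _ a h
  refine RingHom.ext fun f => Matrix.ext fun i j => sub_eq_zero.1
    (IsHausdorff.haus (inferInstance : IsHausdorff (maximalIdeal A) A) _ fun n => ?_)
  rw [SModEq.zero, smul_eq_mul, Ideal.mul_top]
  have hpol : ∀ q : MvPolynomial σ B, Φ (q : MvPowerSeries σ B) = Ψ q := fun q =>
    RingHom.congr_fun (show Φ.comp MvPolynomial.coeToMvPowerSeries.ringHom =
        Ψ.comp MvPolynomial.coeToMvPowerSeries.ringHom from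
      MvPolynomial.ringHom_ext (fun b => by simpa using hC b)
        fun k => by simp [hΦ, hΨ]) q
  have h1 := hK Φ hΦ n (DefRing.sub_truncTotal_mem_span_pow f n) i j
  have h2 := hK Ψ hΨ n (DefRing.sub_truncTotal_mem_span_pow f n) i j
  rw [map_sub, Matrix.sub_apply] at h1 h2
  rw [hpol] at h1
  have := sub_mem h1 h2
  rwa [sub_sub_sub_cancel_right] at this

/-- Evaluation in matrices: a commuting family with the variables going to scalars. -/
theorem exists_matEval [IsAdicComplete (maximalIdeal A) A] [IsLocalRing B]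
    (f : B →+* Matrix (Fin d) (Fin d) A) (c : σ → A) (hc : ∀ i, c i ∈ maximalIdeal A) :
    ∃ Φ : MvPowerSeries σ B →+* Matrix (Fin d) (Fin d) A,
      (∀ b, Φ (MvPowerSeries.C b) = f b) ∧
      ∀ i, Φ (MvPowerSeries.X i) = c i • (1 : Matrix (Fin d) (Fin d) A) := by
  let S : Subalgebra A (Matrix (Fin d) (Fin d) A) := Algebra.adjoin A (Set.range f)
  have hS : IsMulCommutative S := Algebra.isMulCommutative_adjoin A (by
    rintro _ ⟨a, rfl⟩ _ ⟨b, rfl⟩
    rw [← map_mul, ← map_mul, mul_comm])
  let : CommRing S := { (inferInstance : Ring S) with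
    mul_comm := fun a b => hS.is_comm.comm a b }
  have : Module.Finite A S := Module.Finite.of_injective S.val.toLinearMap Subtype.val_injective
  have := isAdicComplete_of_finite (C := S) A
  obtain ⟨Φ, hΦC, hΦX⟩ := exists_eval (J := (maximalIdeal A).map (algebraMap A S))
    (f.codRestrict S.toSubring fun b => Algebra.subset_adjoin ⟨b, rfl⟩ : B →+* S)
    (fun i => algebraMap A S (c i)) fun i => Ideal.mem_map_of_mem _ (hc i)
  refine ⟨(S.val : S →+* Matrix (Fin d) (Fin d) A).comp Φ, fun b => ?_, fun i => ?_⟩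
  · show ((Φ (MvPowerSeries.C b) : S) : Matrix (Fin d) (Fin d) A) = f b
    rw [hΦC]
    rfl
  · show ((Φ (MvPowerSeries.X i) : S) : Matrix (Fin d) (Fin d) A) = _
    rw [hΦX, ← Algebra.algebraMap_eq_smul_one]
    rfl

end Eval

end Fermat.Agent.Engine
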