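import Fermat.Agent.Engine.Levels
import Fermat.Agent.Engine.MatrixModule
import Fermat.Agent.Patch.PowerSeries

/-!
# The coefficient rings of patching

`CoeffRing O r T r₀ = O[[S, y]]`, its ideals `levelIdeal n`, and the map from `TwQuot O p r n`.
-/

set_option autoImplicit false

noncomputable section

namespace Fermat.Agent.Engine

open IsLocalRing Filter Patch Fermat.Agent.Deform

variable (O : Type) [CommRing O]

/-- `O[[S, y]]`. -/
abbrev CoeffRing (r : ℕ) (T : Type) (r₀ : T) : Type :=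
  MvPowerSeries (Fin r ⊕ FrameVar T r₀) O

/-- The ring of the extended coordinates. -/
abbrev ExtRing (T : Type) (r m g : ℕ) : Type :=
  MvPowerSeries (Fin r ⊕ Fin m) (LocRing O T g)

variable (p : ℕ) (r : ℕ) {T : Type} (r₀ : T)

/-- The relations of level `n`: `(1 + S) ^ (p ^ (n + 1)) = 1` and `y ^ (n + 1) = 0`. -/
def levelIdeal (n : ℕ) : Ideal (CoeffRing O r T r₀) :=
  Ideal.span (Set.range fun i : Fin r =>
      (1 + MvPowerSeries.X (Sum.inl i) : CoeffRing O r T r₀) ^ p ^ (n + 1) - 1) ⊔
    Ideal.span (Set.range fun y : FrameVar T r₀ =>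
      (MvPowerSeries.X (Sum.inr y) : CoeffRing O r T r₀)) ^ (n + 1)

/-- The augmentation ideal. -/
def augIdeal : Ideal (CoeffRing O r T r₀) := Ideal.span (Set.range MvPowerSeries.X)

/-- The augmentation ideal lies in the kernel of the constant coefficient. -/
theorem augIdeal_le_ker : augIdeal O r r₀ ≤
    RingHom.ker (MvPowerSeries.constantCoeff (σ := Fin r ⊕ FrameVar T r₀) (R := O)) := by
  refine Ideal.span_le.2 ?_
  rintro _ ⟨i, rfl⟩
  simp

/-- The level ideals lie in the augmentation ideal. -/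
theorem levelIdeal_le_augIdeal (n : ℕ) : levelIdeal O p r r₀ n ≤ augIdeal O r r₀ := by
  refine sup_le (Ideal.span_le.2 ?_) ((Ideal.pow_le_self n.succ_ne_zero).trans
    (Ideal.span_mono ?_))
  · rintro _ ⟨i, rfl⟩
    obtain ⟨c, hc⟩ := sub_dvd_pow_sub_pow (1 + MvPowerSeries.X (Sum.inl i) : CoeffRing O r T r₀)
      1 (p ^ (n + 1))
    rw [one_pow, add_sub_cancel_left] at hc
    show _ - 1 ∈ augIdeal O r r₀
    rw [hc]
    exact Ideal.mul_mem_right _ _ (Ideal.subset_span ⟨_, rfl⟩)
  · rintro _ ⟨y, rfl⟩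
    exact ⟨_, rfl⟩

/-- A constant in the augmentation ideal is zero. -/
theorem C_mem_augIdeal_iff {o : O} :
    (MvPowerSeries.C o : CoeffRing O r T r₀) ∈ augIdeal O r r₀ ↔ o = 0 :=
  ⟨fun h => by simpa using RingHom.mem_ker.1 (augIdeal_le_ker O r r₀ h),
    fun h => by rw [h, map_zero]; exact zero_mem _⟩

variable [IsDomain O] [IsDiscreteValuationRing O] [IsAdicComplete (maximalIdeal O) O]

omit [IsDiscreteValuationRing O] [IsAdicComplete (maximalIdeal O) O] in
/-- The augmentation ideal is prime. -/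
theorem isPrime_augIdeal [Finite T] : (augIdeal O r r₀).IsPrime := by
  classical
  have h : augIdeal O r r₀ =
      RingHom.ker (MvPowerSeries.constantCoeff (σ := Fin r ⊕ FrameVar T r₀) (R := O)) := by
    refine le_antisymm (augIdeal_le_ker O r r₀) fun f hf => ?_
    have h1 := DefRing.sub_truncTotal_mem_span_pow f 1
    rw [pow_one] at h1
    have h2 : (MvPowerSeries.truncTotal 1 f : MvPolynomial (Fin r ⊕ FrameVar T r₀) O) = 0 := by
      ext e
      rw [MvPowerSeries.coeff_truncTotal_eq_ite, MvPolynomial.coeff_zero]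
      rcases eq_or_ne e 0 with rfl | he
      · simpa [MvPowerSeries.coeff_zero_eq_constantCoeff] using RingHom.mem_ker.1 hf
      · rw [if_neg]
        have : Finsupp.degree e ≠ 0 := by simpa [Finsupp.degree_eq_zero_iff] using he
        omega
    rw [h2] at h1
    simpa [augIdeal] using h1
  rw [h]
  exact RingHom.ker_isPrime _

omit [IsAdicComplete (maximalIdeal O) O] in
/-- The variables lie in the maximal ideal. -/
theorem X_mem (i : Fin r ⊕ FrameVar T r₀) :
    (MvPowerSeries.X i : CoeffRing O r T r₀) ∈ maximalIdeal _ :=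
  DefRing.X_mem_maximalIdeal i

/-- A `p ^ n`-th power of a principal unit is congruent to `1` modulo the `n + 1`-st power. -/
theorem pow_sub_one_mem {A : Type} [CommRing A] [IsLocalRing A] (hp : (p : A) ∈ maximalIdeal A)
    {a : A} (ha : a - 1 ∈ maximalIdeal A) (n : ℕ) :
    a ^ p ^ n - 1 ∈ maximalIdeal A ^ (n + 1) := by
  induction n with
  | zero => simpa using ha
  | succ n ih =>
    rw [pow_succ p n, pow_mul, ← geom_sum_mul (a ^ p ^ n) p, pow_succ' (maximalIdeal A) (n + 1)]
    refine Ideal.mul_mem_mul ?_ ih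
    have h1 : ∀ i, (a ^ p ^ n) ^ i - 1 ∈ maximalIdeal A := fun i => by
      obtain ⟨c, hc⟩ := sub_dvd_pow_sub_pow (a ^ p ^ n) 1 i
      rw [one_pow] at hc
      rw [hc]
      exact Ideal.mul_mem_right _ _ (Ideal.pow_le_self (by omega) ih)
    have : ∑ i ∈ Finset.range p, (a ^ p ^ n) ^ i =
        ∑ i ∈ Finset.range p, ((a ^ p ^ n) ^ i - 1) + p := by simp
    rw [this]
    exact add_mem (Submodule.sum_mem _ fun i _ => h1 i) hp

omit [IsAdicComplete (maximalIdeal O) O] in
/-- The level ideals tend to zero. -/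
theorem tendsToZero_levelIdeal (hp : (p : O) ∈ maximalIdeal O) [Finite T] :
    TendsToZero (levelIdeal O p r r₀) := by
  intro k
  filter_upwards [eventually_ge k] with n hn
  have hpΛ : (p : CoeffRing O r T r₀) ∈ maximalIdeal _ := by
    rw [DefRing.mem_maximalIdeal_iff_constantCoeff, map_natCast]; exact hp
  refine sup_le (Ideal.span_le.2 ?_) ?_
  · rintro _ ⟨i, rfl⟩
    exact Ideal.pow_le_pow_right (by omega) (pow_sub_one_mem p hpΛ
      (by rw [add_sub_cancel_left]; exact X_mem O r r₀ _) (n + 1))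
  · refine (Ideal.pow_right_mono (Ideal.span_le.2 ?_) _).trans (Ideal.pow_le_pow_right (by omega))
    rintro _ ⟨y, rfl⟩
    exact X_mem O r r₀ _

omit [IsAdicComplete (maximalIdeal O) O] in
/-- The coefficient ring has dimension at least its number of variables. -/
theorem dimGE_coeffRing [Fintype T] :
    DimGE (CoeffRing O r T r₀) (r + 4 * Fintype.card T) := by
  classical
  have h1 := dimGE_mvPowerSeries (dimGE_one (O := O) (IsDiscreteValuationRing.not_a_field O))
    (Fintype.card (Fin r ⊕ FrameVar T r₀))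
  have hcard : 1 + Fintype.card (Fin r ⊕ FrameVar T r₀) = r + 4 * Fintype.card T := by
    have h2 : Fintype.card (FrameVar T r₀) + 1 = 4 * Fintype.card T := by
      rw [Fintype.card_subtype_compl, Fintype.card_subtype_eq, Fintype.card_prod,
        Fintype.card_prod, Fintype.card_fin]
      have : 0 < Fintype.card T := Fintype.card_pos_iff.2 ⟨r₀⟩
      omega
    rw [Fintype.card_sum, Fintype.card_fin]
    omega
  rw [hcard] at h1
  unfold DimGE at h1 ⊢
  rwa [ringKrullDim_eq_of_ringEquiv (MvPowerSeries.renameEquiv O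
    (Fintype.equivFin (Fin r ⊕ FrameVar T r₀))).toRingEquiv]

/-- The coefficient ring of the auxiliary level maps to the level `n` ring. -/
theorem exists_twEmbed [Finite T] (n : ℕ) :
    ∃ j : TwQuot O p r n →+* CoeffRing O r T r₀ ⧸ levelIdeal O p r r₀ n,
      (∀ o, j (twConst O p r n o) = Ideal.Quotient.mk _ (MvPowerSeries.C o)) ∧
      ∀ i, j (twVar O p r n i) = Ideal.Quotient.mk _ (MvPowerSeries.X (Sum.inl i)) := by
  have : IsAdicComplete (maximalIdeal (CoeffRing O r T r₀)) (CoeffRing O r T r₀) :=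
    DefRing.isAdicComplete_mvPowerSeries
  obtain ⟨Φ, hC, hX⟩ := exists_eval (J := maximalIdeal (CoeffRing O r T r₀))
    (MvPowerSeries.C : O →+* CoeffRing O r T r₀)
    (fun i : Fin r => (MvPowerSeries.X (Sum.inl i) : CoeffRing O r T r₀))
    fun i => X_mem O r r₀ _
  refine ⟨Ideal.Quotient.lift _ ((Ideal.Quotient.mk (levelIdeal O p r r₀ n)).comp Φ) ?_,
    fun o => ?_, fun i => ?_⟩
  · intro f hf
    show ((Ideal.Quotient.mk (levelIdeal O p r r₀ n)).comp Φ) f = 0
    refine RingHom.mem_ker.1 ((Ideal.span_le.2 ?_) hf)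
    rintro _ ⟨i, rfl⟩
    rw [SetLike.mem_coe, RingHom.mem_ker, RingHom.comp_apply, Ideal.Quotient.eq_zero_iff_mem,
      map_sub, map_pow, map_add, map_one, hX]
    exact Ideal.mem_sup_left (Ideal.subset_span ⟨i, rfl⟩)
  · show Ideal.Quotient.mk _ (Φ (MvPowerSeries.C o)) = _
    rw [hC]
  · show Ideal.Quotient.mk _ (Φ (MvPowerSeries.X i)) = _
    rw [hX]

end Fermat.Agent.Engine
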