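import Fermat.Agent.Engine.PatchMaps

/-!
# The patched action at limits of elements, and its reduction to the base module

`patchAction_ulim` : if `r n` acts on level `n` by the matrix `A n` then the limit of the `r n` acts
by the limit of the `A n`.  `sum_patchAction_base` : the patched action reduces on the base module to
the action through the limit of the maps to the base ring.
-/

set_option autoImplicit false

noncomputable section

namespace Fermat.Agent.Engine

open IsLocalRing Filter Patch

/-- Local ring maps commute with limits. -/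
theorem map_ulim {A : Type} [CommRing A] [IsLocalRing A] [IsNoetherianRing A]
    [Finite (ResidueField A)] [IsAdicComplete (maximalIdeal A) A] {R : Type} [CommRing R]
    [IsLocalRing R] [IsNoetherianRing R] [Finite (ResidueField R)]
    [IsAdicComplete (maximalIdeal R) R] (ι : A →+* R) [IsLocalHom ι] (s : ℕ → A) :
    ι (ulim s) = ulim fun n => ι (s n) := by
  have hle : (maximalIdeal A).map ι ≤ maximalIdeal R :=
    Ideal.map_le_iff_le_comap.2 fun a ha => map_nonunit ι a ha
  refine (ulim_unique fun k => (ulim_spec s k).mono fun n hn => ?_).symm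
  rw [← map_sub]
  exact Ideal.pow_right_mono hle k (Ideal.map_pow ι _ k ▸ Ideal.mem_map_of_mem _ hn)

variable {R : Type} [CommRing R] [IsLocalRing R] [IsNoetherianRing R]
  {Λ : Type} [CommRing Λ] [IsLocalRing Λ] [IsNoetherianRing Λ] [Finite (ResidueField Λ)]
  [IsAdicComplete (maximalIdeal Λ) Λ]
  {d : ℕ} {I : ℕ → Ideal Λ} {M : ℕ → Type} [∀ n, AddCommGroup (M n)] [∀ n, Module R (M n)]
  [∀ n, Module Λ (M n)] [∀ n, SMulCommClass R Λ (M n)] {e : ∀ n, Fin d → M n}
  (he : ∀ n, IsModBasis (I n) (e n)) (hI : TendsToZero I)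

/-- Limits of elements act by limits of matrices. -/
theorem patchAction_ulim [Finite (ResidueField R)] [IsAdicComplete (maximalIdeal R) R]
    (r : ℕ → R) (A : ℕ → Matrix (Fin d) (Fin d) Λ)
    (hA : ∀ n, MatCong (I n) ((he n).matrix (r n)) (A n)) :
    patchAction (R := R) he hI (ulim r) = ulimMat A := by
  refine Matrix.ext fun i j => ulim_unique fun k => ?_
  have := finite_quot (Λ := Λ) k
  have : Finite (Matrix (Fin d) (Fin d) (Λ ⧸ maximalIdeal Λ ^ k)) := Finite.of_equiv _ Matrix.of
  filter_upwards [hI k, ulimMat_spec A k,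
    ulim_spec r (Nat.card (Set (Matrix (Fin d) (Fin d) (Λ ⧸ maximalIdeal Λ ^ k))))]
    with n hn hAn hrn
  let f : R →+* Matrix (Fin d) (Fin d) (Λ ⧸ maximalIdeal Λ ^ k) := RingHom.mk'
    { toFun := fun y => (Ideal.Quotient.mk _).mapMatrix ((he n).matrix y)
      map_one' := (matCong_iff.1 ((he n).matrix_one.mono hn)).trans (map_one _)
      map_mul' := fun y z =>
        (matCong_iff.1 (((he n).matrix_mul y z).mono hn)).trans (map_mul _ _ _) }
    fun y z => (matCong_iff.1 (((he n).matrix_add y z).mono hn)).trans (map_add _ _ _)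
  have h2 : MatCong (maximalIdeal Λ ^ k) ((he n).matrix (r n)) ((he n).matrix (ulim r)) := by
    rw [matCong_iff]
    show f (r n) = f (ulim r)
    rw [← sub_eq_zero, ← map_sub]
    exact map_pow_maximalIdeal_eq_zero f hrn
  have h3 : MatCong (maximalIdeal Λ ^ k) (A n) (ulimMat A) := hAn
  exact ((h2.symm.trans ((hA n).mono hn)).trans h3) i j

/-- Limits of elements acting as a scalar act as that scalar. -/
theorem patchAction_ulim_scalar [Finite (ResidueField R)] [IsAdicComplete (maximalIdeal R) R]
    (r : ℕ → R) (l : Λ) (hr : ∀ n (x : M n), r n • x = l • x) :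
    patchAction (R := R) he hI (ulim r) = l • (1 : Matrix (Fin d) (Fin d) Λ) := by
  rw [patchAction_ulim he hI r (fun _ => l • 1) fun n => (he n).matrix_unique fun j => by
    simp [Matrix.smul_apply, Matrix.one_apply, ite_smul, hr], ulimMat_const]

/-- Limits of elements killing the levels act as zero. -/
theorem patchAction_ulim_zero [Finite (ResidueField R)] [IsAdicComplete (maximalIdeal R) R]
    (r : ℕ → R) (hr : ∀ n (x : M n), r n • x = 0) : patchAction (R := R) he hI (ulim r) = 0 := by
  rw [patchAction_ulim_scalar he hI r 0 fun n x => by rw [hr, zero_smul], zero_smul]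

variable {RB : Type} [CommRing RB] [IsLocalRing RB] [IsNoetherianRing RB]
  [Finite (ResidueField RB)] [IsAdicComplete (maximalIdeal RB) RB]

omit [IsLocalRing R] [IsNoetherianRing R] in
/-- The reduction of the patched action is the action through the limit to the base ring. -/
theorem sum_patchAction_base (ψ : ℕ → R →+* RB) {a : Ideal Λ}
    {M₀ : Type} [AddCommGroup M₀] [Module RB M₀] [Module Λ M₀] [SMulCommClass RB Λ M₀]
    {e₀ : Fin d → M₀} (he₀ : IsModBasis a e₀) (π : ∀ n, M n →ₗ[Λ] M₀)
    (hπ : ∀ n (r : R) x, π n (r • x) = ψ n r • π n x) (hπe : ∀ n j, π n (e n j) = e₀ j) (r : R)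
    (j : Fin d) :
    ∑ i, patchAction (R := R) he hI r i j • e₀ i = limitHom ψ r • e₀ j := by
  have hc : ∀ i, patchAction (R := R) he hI r i j - he₀.matrix (limitHom ψ r) i j ∈ a := by
    intro i
    have hmem : ∀ k, patchAction (R := R) he hI r i j - he₀.matrix (limitHom ψ r) i j ∈
        a ⊔ maximalIdeal Λ ^ k := by
      intro k
      have := finite_quot (Λ := Λ) k
      have : Finite (Λ ⧸ (a ⊔ maximalIdeal Λ ^ k)) :=
        Finite.of_surjective _ (Ideal.Quotient.factor_surjective le_sup_right)
      have : Finite (Matrix (Fin d) (Fin d) (Λ ⧸ (a ⊔ maximalIdeal Λ ^ k))) :=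
        Finite.of_equiv _ Matrix.of
      let f : RB →+* Matrix (Fin d) (Fin d) (Λ ⧸ (a ⊔ maximalIdeal Λ ^ k)) := RingHom.mk'
        { toFun := fun y => (Ideal.Quotient.mk _).mapMatrix (he₀.matrix y)
          map_one' := (matCong_iff.1 (he₀.matrix_one.mono le_sup_left)).trans (map_one _)
          map_mul' := fun y z =>
            (matCong_iff.1 ((he₀.matrix_mul y z).mono le_sup_left)).trans (map_mul _ _ _) }
        fun y z => (matCong_iff.1 ((he₀.matrix_add y z).mono le_sup_left)).trans (map_add _ _ _)
      obtain ⟨n, hn, hact, hIn⟩ := ((limitHom_spec ψ r (Nat.card (Set (Matrix (Fin d) (Fin d)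
        (Λ ⧸ (a ⊔ maximalIdeal Λ ^ k)))))).and
        ((ulimMat_spec (fun n => (he n).matrix r) k).and (hI k))).exists
      have h1 : f (ψ n r) = f (limitHom ψ r) := by
        rw [← sub_eq_zero, ← map_sub]; exact map_pow_maximalIdeal_eq_zero f hn
      have h2 : MatCong a ((he n).matrix r) (he₀.matrix (ψ n r)) :=
        (IsModBasis.matrix_unique he₀ (r := ψ n r) (A := (he n).matrix r) fun j => by
          have := congrArg (π n) ((he n).matrix_spec r j)
          simpa [map_sum, map_smul, hπ, hπe] using this).symm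
      have h3 := (matCong_iff.2 h1 : MatCong (a ⊔ maximalIdeal Λ ^ k)
        (he₀.matrix (ψ n r)) (he₀.matrix (limitHom ψ r))) i j
      have h4 := sub_mem (add_mem h3 (Ideal.mem_sup_left (h2 i j)))
        (Ideal.mem_sup_right (hact i j))
      convert h4 using 1
      show ulim (fun n => (he n).matrix r i j) - _ = _
      simp only [ulimMat]
      ring
    have := Ideal.iInf_pow_smul_eq_bot_of_isLocalRing (R := Λ) (M := Λ ⧸ a)
      (maximalIdeal Λ) (maximalIdeal.isMaximal Λ).ne_top
    rw [← Ideal.Quotient.eq_zero_iff_mem, ← Submodule.mem_bot Λ, ← this, Submodule.mem_iInf]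
    intro k
    obtain ⟨u, hu, w, hw, huw⟩ := Submodule.mem_sup.1 (hmem k)
    rw [← huw, map_add, Ideal.Quotient.eq_zero_iff_mem.2 hu, zero_add]
    have := Submodule.smul_mem_smul hw (Submodule.mem_top (x := (1 : Λ ⧸ a)))
    rwa [Algebra.smul_def, mul_one] at this
  rw [← he₀.matrix_spec (limitHom ψ r) j, ← sub_eq_zero, ← Finset.sum_sub_distrib]
  simp_rw [← sub_smul]
  exact (he₀.rel _).2 hc

end Fermat.Agent.Engine
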