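import Fermat.Agent.Engine.Family
import Fermat.Agent.Engine.Limit

/-!
# From finite levels to the patched family, and back to the base

`LiftingSystem` collects what the modular and Galois sides supply at the auxiliary levels `n`;
`family` patches it, and `annihilator_le_ker_of_type` says that every point of the base ring
of a given type is an eigen system of the base module of the corresponding level.  The coefficient
ring `R` has, besides the local coordinates, variables `extra` for the diamond operators, whose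
squares are controlled by elements vanishing in the base ring, and elements `quad` satisfying
quadratic equations over the local coordinates.
-/

set_option autoImplicit false
set_option linter.unusedSectionVars false

noncomputable section

namespace Fermat.Agent.Engine

open IsLocalRing Filter Patch

variable (O : Type) [CommRing O] (T : Type) (g : ℕ)
  (Λ : Type) [CommRing Λ] [IsDomain Λ] [IsLocalRing Λ] [IsNoetherianRing Λ]
  (RB : Type) [CommRing RB] (R : Type) [CommRing R] (ι : LocRing O T g →+* R)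

/-- The finite level data. -/
structure LiftingSystem (qv : T → ℕ) (Φ₀ : T → Matrix (Fin 2) (Fin 2) O) where
  /-- relations of the level `n` coefficient ring -/
  I : ℕ → Ideal Λ
  tendsToZero : TendsToZero I
  /-- generators of the augmentation -/
  aug : Set Λ
  I_le : ∀ n, I n ≤ Ideal.span aug
  dim : DimGE Λ (3 * Nat.card T + g + 1)
  /-- the maps to the base ring -/
  ψ : ℕ → R →+* RB
  isLocalHom_ψ : ∀ n, IsLocalHom (ψ n)
  /-- the variables of the diamond operators -/
  extra : Finset R
  /-- further generators, with quadratic equations -/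
  quad : Finset R
  quad_mem : ∀ e ∈ quad, e ∈ nonunits R
  generated : ∀ r : R, ∃ s, r - ι s ∈ Ideal.span (extra : Set R) ⊔ Ideal.span (quad : Set R)
  ψ_extra : ∀ n, ∀ z ∈ extra, ψ n z = 0
  rank : Finset T → ℕ
  rank_ne_zero : rank ∅ ≠ 0
  M : Finset T → ℕ → Type
  [addCommGroup : ∀ L n, AddCommGroup (M L n)]
  [moduleR : ∀ L n, Module R (M L n)]
  [moduleΛ : ∀ L n, Module Λ (M L n)]
  [comm : ∀ L n, SMulCommClass R Λ (M L n)]
  e : ∀ L n, Fin (rank L) → M L n
  isBasis : ∀ L n, IsModBasis (I n) (e L n)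
  M₀ : Finset T → Type
  [addCommGroup₀ : ∀ L, AddCommGroup (M₀ L)]
  [moduleB : ∀ L, Module RB (M₀ L)]
  [moduleΛ₀ : ∀ L, Module Λ (M₀ L)]
  [comm₀ : ∀ L, SMulCommClass RB Λ (M₀ L)]
  e₀ : ∀ L, Fin (rank L) → M₀ L
  isBasis₀ : ∀ L, IsModBasis (Ideal.span aug) (e₀ L)
  π : ∀ L n, M L n →ₗ[Λ] M₀ L
  π_smul : ∀ L n (r : R) x, π L n (r • x) = ψ n r • π L n x
  π_e : ∀ L n j, π L n (e L n j) = e₀ L j
  scalars : ∀ L n (l : Λ), ∃ r : R, ∀ x : M L n, r • x = l • x
  /-- lifts of the augmentation killed by the base map -/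
  aug_lift : ∀ n, ∀ l ∈ aug, ∃ r : R, ψ n r = 0 ∧
    ∀ L, ∀ x : M L n, r • x = l • x
  /-- the trace of inertia at an auxiliary prime, minus `2`, is the square up to a unit -/
  square : ∀ L, ∀ z ∈ extra, ∃ (d : ℕ) (u : R) (s : ℕ → LocRing O T g) (t : ℕ → R), ∀ n,
    ψ n (t n) = 0 ∧ t n - ι (s n) ∈ Ideal.span (quad : Set R) ∧
    ∀ x : M L n, ((z ^ 2 - u * t n) ^ d) • x = 0
  /-- a further generator is killed by itself minus a coordinate -/
  quad_eq : ∀ e ∈ quad, ∃ w : LocRing O T g, ¬ IsUnit w ∧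
    ∀ L n (x : M L n), (e * (e - ι w)) • x = 0
  det_frob : ∀ L n r (x : M L n),
    ι ((locFrob (g := g) Φ₀ r).det - (qv r : LocRing O T g)) • x = 0
  unramified : ∀ L n r, r ∉ L → ∀ i j (x : M L n), ι (locMono (g := g) (O := O) r i j) • x = 0
  unipotent : ∀ L n, ∀ r ∈ L, ∀ x : M L n, ι (locMono (g := g) (O := O) r).trace • x = 0 ∧
    ι (locMono (g := g) (O := O) r).det • x = 0
  tame : ∀ L n, ∀ r ∈ L, ∀ i j, ∀ x : M L n, ι (((locFrob (g := g) Φ₀ r * locMono r -
      (qv r : LocRing O T g) • (locMono r * locFrob (g := g) Φ₀ r)) :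
        Matrix (Fin 2) (Fin 2) (LocRing O T g)) i j) • x = 0
  /-- the two degeneracy maps -/
  up₁ : ∀ (L L' : Finset T) n, M L n →ₗ[Λ] M L' n
  up₂ : ∀ (L L' : Finset T) n, M L n →ₗ[Λ] M L' n
  up₁_smul : ∀ L L' n (r : R) x, up₁ L L' n (r • x) = r • up₁ L L' n x
  up₂_smul : ∀ L L' n (r : R) x, up₂ L L' n (r • x) = r • up₂ L L' n x
  /-- the trace for a sign -/
  down : ∀ (L L' : Finset T) (ε : ℤˣ) n, M L' n →ₗ[Λ] M L n
  down_smul : ∀ L L' ε n (r : R) x, down L L' ε n (r • x) = r • down L L' ε n x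
  split : ∀ L v L', v ∉ L → (∀ r, r ∈ L' ↔ r = v ∨ r ∈ L) → ∃ l₁ l₂ : ∀ n, M L' n →ₗ[Λ] M L n,
    ∀ n, (l₁ n).comp (up₁ L L' n) = LinearMap.id ∧ (l₁ n).comp (up₂ L L' n) = 0 ∧
      (l₂ n).comp (up₁ L L' n) = 0 ∧ (l₂ n).comp (up₂ L L' n) = LinearMap.id
  down_section : ∀ L v L' ε, v ∉ L → (∀ r, r ∈ L' ↔ r = v ∨ r ∈ L) →
    ∃ s : ∀ n, M L n →ₗ[Λ] M L' n, ∀ n, (down L L' ε n).comp (s n) = LinearMap.id
  down_up : ∀ L v L' ε, v ∉ L → (∀ r, r ∈ L' ↔ r = v ∨ r ∈ L) → ∀ n (x : M L n),
    down L L' ε n (up₁ L L' n x) = ι ((qv v : LocRing O T g) + 1 +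
        signCast ε * (locFrob (g := g) Φ₀ v).trace) • x ∧
    down L L' ε n (up₂ L L' n x) = ι (signCast ε * ((qv v : LocRing O T g) + 1 +
        signCast ε * (locFrob (g := g) Φ₀ v).trace)) • x
  new_part : ∀ L v L', v ∉ L → (∀ r, r ∈ L' ↔ r = v ∨ r ∈ L) → ∃ k : ℕ,
    ∃ k₁ k₂ : ∀ n, M L' n →ₗ[Λ] M L n, ∀ n (x : M L' n),
      ι (((locFrob (g := g) Φ₀ v).trace ^ 2 - ((qv v : LocRing O T g) + 1) ^ 2) ^ k) • x =
        up₁ L L' n (k₁ n x) + up₂ L L' n (k₂ n x)

attribute [instance] LiftingSystem.addCommGroup LiftingSystem.moduleR LiftingSystem.moduleΛ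
  LiftingSystem.comm LiftingSystem.addCommGroup₀ LiftingSystem.moduleB LiftingSystem.moduleΛ₀
  LiftingSystem.comm₀

variable {O T g Λ RB R ι} {qv : T → ℕ} {Φ₀ : T → Matrix (Fin 2) (Fin 2) O}
  [Finite (ResidueField Λ)] [IsAdicComplete (maximalIdeal Λ) Λ]
  [IsLocalRing (LocRing O T g)] [IsNoetherianRing (LocRing O T g)]
  [Finite (ResidueField (LocRing O T g))]
  [IsAdicComplete (maximalIdeal (LocRing O T g)) (LocRing O T g)]
  [IsLocalRing R] [IsNoetherianRing R] [Finite (ResidueField R)]
  [IsAdicComplete (maximalIdeal R) R] [IsLocalHom ι]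
  [IsLocalRing RB] [IsNoetherianRing RB] [Finite (ResidueField RB)]
  [IsAdicComplete (maximalIdeal RB) RB]

namespace LiftingSystem

variable (S : LiftingSystem O T g Λ RB R ι qv Φ₀)

/-- The patched action at level `L`. -/
def act (L : Finset T) : R →+* Matrix (Fin (S.rank L)) (Fin (S.rank L)) Λ :=
  patchAction (S.isBasis L) S.tendsToZero

/-- The patched action on each module is by scalars on the coefficient ring. -/
theorem scalarsIn_act (L : Finset T) : ScalarsIn (S.act L) :=
  scalarsIn_patchAction (S.isBasis L) S.tendsToZero fun n l => by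
    obtain ⟨r, hr⟩ := S.scalars L n l
    exact ⟨r, fun j => hr _⟩

/-- The limit of a map, as a map of patched modules. -/
def lim {L L' : Finset T} (F : ∀ n, S.M L n →ₗ[Λ] S.M L' n)
    (hF : ∀ n (r : R) x, F n (r • x) = r • F n x) :
    Acted (S.act L) →ₗ[R] Acted (S.act L') where
  toFun x := patchMap (S.isBasis L) (S.isBasis L') F x
  map_add' x y := map_add _ _ _
  map_smul' r x := patchMap_equivariant (S.isBasis L) (S.isBasis L') S.tendsToZero F hF r x

/-- An element killing the finite levels kills the patched module. -/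
theorem mem_annihilator {L : Finset T} {r : R} (h : ∀ n (x : S.M L n), r • x = 0) :
    r ∈ Module.annihilator R (Acted (S.act L)) := by
  rw [annihilator_acted, RingHom.mem_ker]
  exact patchAction_eq_zero (S.isBasis L) S.tendsToZero h

/-- The patched map of multiplication by an element is multiplication by that element. -/
theorem lim_smul_eq {L : Finset T} (r : R) (F : ∀ n, S.M L n →ₗ[Λ] S.M L n)
    (hF : ∀ n x, F n x = r • x) (x : Acted (S.act L)) :
    patchMap (S.isBasis L) (S.isBasis L) F x = (r • x : Acted (S.act L)) :=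
  (LinearMap.congr_fun (patchMap_smul (S.isBasis L) S.tendsToZero r F hF)
    (show Fin (S.rank L) → Λ from x)).trans (Matrix.toLin'_apply _ _)

omit [IsDomain Λ] in
/-- The quadratic relations of the further generators pass to the patched module. -/
theorem square_limit (L : Finset T) : ∀ z ∈ S.extra, ∃ (d : ℕ) (u : R) (s : LocRing O T g)
    (t : R), (z ^ 2 - u * t) ^ d ∈ Module.annihilator R (Acted (S.act L)) ∧
      limitHom S.ψ t = 0 ∧ t - ι s ∈ Ideal.span (S.quad : Set R) := by
  intro z hz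
  obtain ⟨d, u, s, t, hs⟩ := S.square L z hz
  refine ⟨d, u, ulim s, ulim t, ?_, limitHom_ulim S.ψ S.isLocalHom_ψ _ fun n => (hs n).1, ?_⟩
  · rw [annihilator_acted, RingHom.mem_ker]
    have h := patchAction_ulim_zero (S.isBasis L) S.tendsToZero
      (fun n => (z ^ 2 - u * t n) ^ d) fun n => (hs n).2.2
    have e : ∀ k, ∀ᶠ n in (patchFilter : Filter ℕ),
        (z ^ 2 - u * t n) - (z ^ 2 - u * ulim t) ∈ maximalIdeal R ^ k := fun k =>
      (ulim_spec t k).mono fun n hn => by
        convert Ideal.mul_mem_left _ (-u) hn using 1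
        ring
    rw [ulim_unique (Λ := R) (x := (z ^ 2 - u * ulim t) ^ d)
      fun k => (e k).mono fun n hn => ?_] at h
    · exact h
    obtain ⟨c, hc⟩ := sub_dvd_pow_sub_pow (z ^ 2 - u * t n) (z ^ 2 - u * ulim t) d
    rw [hc]
    exact Ideal.mul_mem_right _ _ hn
  · rw [map_ulim ι s]
    exact ulim_sub_mem (I := fun _ => (⊥ : Ideal R))
      (fun _ => Eventually.of_forall fun _ => bot_le)
      (Eventually.of_forall fun n => Ideal.mem_sup_left (hs n).2.1)

/-- Each quadratic element splits on the patched module with a root from the local coordinates. -/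
theorem quad_annihilator {e : R} (he : e ∈ S.quad) (L : Finset T) :
    ∃ w ∈ maximalIdeal (LocRing O T g),
      e * (e - ι w) ∈ Module.annihilator R (Acted (S.act L)) := by
  obtain ⟨w, hw, h⟩ := S.quad_eq e he
  exact ⟨w, hw, S.mem_annihilator fun n x => h L n x⟩

/-- The patched action is integral over the local coordinates. -/
theorem integral_act (L : Finset T) :
    ((Ideal.Quotient.mk (Module.annihilator R (Acted (S.act L)))).comp ι).IsIntegral := by
  classical
  set J := Module.annihilator R (Acted (S.act L)) ⊔ (maximalIdeal (LocRing O T g)).map ι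
  have hJm : ∀ w ∈ maximalIdeal (LocRing O T g), ι w ∈ J := fun w hw =>
    Ideal.mem_sup_right (Ideal.mem_map_of_mem ι hw)
  have hquad : Ideal.span (S.quad : Set R) ≤ J.radical := Ideal.span_le.2 fun e he => by
    obtain ⟨w, hw, h⟩ := S.quad_annihilator he L
    refine ⟨2, ?_⟩
    have h' : e * (e - ι w) ∈ J := Ideal.mem_sup_left h
    have := add_mem h' (J.mul_mem_left e (hJm w hw))
    convert this using 1
    ring
  refine isIntegral_of_nilpotent_gens ι (S.extra ∪ S.quad) (fun r => ?_) fun z hz => ?_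
  · obtain ⟨s, hs⟩ := S.generated r
    exact ⟨s, by rwa [Finset.coe_union, Ideal.span_union]⟩
  show z ∈ J.radical
  rcases Finset.mem_union.1 hz with hz | hz
  swap
  · exact hquad (Ideal.subset_span hz)
  obtain ⟨d, u, s, t, hann, ht, hts⟩ := S.square_limit L z hz
  have hsm : s ∈ maximalIdeal (LocRing O T g) := fun hu => by
    have h1 : IsUnit t := by
      by_contra htu
      have h2 : ι s ∈ maximalIdeal R := by
        have := sub_mem (show t ∈ maximalIdeal R from htu)
          ((Ideal.span_le.2 fun e he => S.quad_mem e he :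
            Ideal.span (S.quad : Set R) ≤ maximalIdeal R) hts)
        rwa [sub_sub_cancel] at this
      exact h2 (hu.map ι)
    exact (h1.map (limitHom S.ψ)).ne_zero ht
  have ht' : t ∈ J.radical := by
    have := add_mem (hquad hts) (J.le_radical (hJm s hsm))
    rwa [sub_add_cancel] at this
  have h2 : z ^ 2 - u * t ∈ J.radical := ⟨d, Ideal.mem_sup_left hann⟩
  have h3 := add_mem h2 (J.radical.mul_mem_left u ht')
  rw [sub_add_cancel] at h3
  exact Ideal.mem_radical_of_pow_mem h3

/-- The patched family. -/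
def family : Family O T g Λ R ι qv Φ₀ where
  M L := Acted (S.act L)
  finiteR L := finite_acted _ (S.scalarsIn_act L)
  nontrivial := nontrivial_acted _ S.rank_ne_zero
  scalars L l := scalars_acted _ (S.scalarsIn_act L) l
  dim := S.dim
  integral L := S.integral_act L
  det_frob L r := Ideal.mem_comap.2 (S.mem_annihilator fun n x => S.det_frob L n r x)
  unramified L r hr i j :=
    Ideal.mem_comap.2 (S.mem_annihilator fun n x => S.unramified L n r hr i j x)
  unipotent L r hr := ⟨Ideal.mem_comap.2 (S.mem_annihilator fun n x => (S.unipotent L n r hr x).1),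
    Ideal.mem_comap.2 (S.mem_annihilator fun n x => (S.unipotent L n r hr x).2)⟩
  tame L r hr i j := Ideal.mem_comap.2 (S.mem_annihilator fun n x => S.tame L n r hr i j x)
  up L L' := (S.lim (S.up₁ L L') (S.up₁_smul L L')).coprod (S.lim (S.up₂ L L') (S.up₂_smul L L'))
  down L L' ε := S.lim (S.down L L' ε) (S.down_smul L L' ε)
  up_split L v L' hv hL' := by
    obtain ⟨l₁, l₂, hl⟩ := S.split L v L' hv hL'
    let pm := fun {A B : Finset T} (F : ∀ n, S.M A n →ₗ[Λ] S.M B n) =>
      patchMap (S.isBasis A) (S.isBasis B) F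
    refine ⟨(pm (S.up₁ L L')).coprod (pm (S.up₂ L L')), (pm l₁).prod (pm l₂), fun x => rfl, ?_⟩
    have hc : ∀ (F : ∀ n, S.M L n →ₗ[Λ] S.M L' n) (G : ∀ n, S.M L' n →ₗ[Λ] S.M L n),
        (pm G).comp (pm F) = pm fun n => (G n).comp (F n) := fun F G =>
      (patchMap_comp _ _ _ S.tendsToZero F G).symm
    have h11 : (pm l₁).comp (pm (S.up₁ L L')) = LinearMap.id := by
      rw [hc]; simp only [pm, (hl _).1]; exact patchMap_id _ S.tendsToZero
    have h12 : (pm l₁).comp (pm (S.up₂ L L')) = 0 := by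
      rw [hc]; simp only [pm, (hl _).2.1]; exact patchMap_zero _ _ S.tendsToZero
    have h21 : (pm l₂).comp (pm (S.up₁ L L')) = 0 := by
      rw [hc]; simp only [pm, (hl _).2.2.1]; exact patchMap_zero _ _ S.tendsToZero
    have h22 : (pm l₂).comp (pm (S.up₂ L L')) = LinearMap.id := by
      rw [hc]; simp only [pm, (hl _).2.2.2]; exact patchMap_id _ S.tendsToZero
    refine LinearMap.ext fun z => ?_
    obtain ⟨x, y⟩ := z
    have e1 : pm l₁ (pm (S.up₁ L L') x) = x := LinearMap.congr_fun h11 x
    have e2 : pm l₁ (pm (S.up₂ L L') y) = 0 := LinearMap.congr_fun h12 y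
    have e3 : pm l₂ (pm (S.up₁ L L') x) = 0 := LinearMap.congr_fun h21 x
    have e4 : pm l₂ (pm (S.up₂ L L') y) = y := LinearMap.congr_fun h22 y
    exact Prod.ext
      ((map_add (pm l₁) _ _).trans ((congrArg₂ (· + ·) e1 e2).trans (add_zero _)))
      ((map_add (pm l₂) _ _).trans ((congrArg₂ (· + ·) e3 e4).trans (zero_add _)))
  down_surjective L v L' ε hv hL' x := by
    obtain ⟨s, hs⟩ := S.down_section L v L' ε hv hL'
    refine ⟨patchMap (S.isBasis L) (S.isBasis L') s x, ?_⟩
    have h := patchMap_comp (S.isBasis L) (S.isBasis L') (S.isBasis L) S.tendsToZero s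
      (S.down L L' ε)
    simp only [hs, patchMap_id _ S.tendsToZero] at h
    exact (LinearMap.congr_fun h x).symm
  down_up L v L' ε hv hL' x := by
    set c : LocRing O T g := (qv v : LocRing O T g) + 1 +
      signCast ε * (locFrob (g := g) Φ₀ v).trace
    have h1 : ∀ y : Acted (S.act L), patchMap (S.isBasis L') (S.isBasis L) (S.down L L' ε)
        (patchMap (S.isBasis L) (S.isBasis L') (S.up₁ L L') y) =
          (ι c • y : Acted (S.act L)) := fun y =>
      (LinearMap.congr_fun (patchMap_comp (S.isBasis L) (S.isBasis L') (S.isBasis L) S.tendsToZero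
        (S.up₁ L L') (S.down L L' ε)) (show Fin (S.rank L) → Λ from y)).symm.trans
      (S.lim_smul_eq (ι c) (fun n => (S.down L L' ε n).comp (S.up₁ L L' n))
        (fun n z => (S.down_up L v L' ε hv hL' n z).1) y)
    have h2 : ∀ y : Acted (S.act L), patchMap (S.isBasis L') (S.isBasis L) (S.down L L' ε)
        (patchMap (S.isBasis L) (S.isBasis L') (S.up₂ L L') y) =
          (ι (signCast ε * c) • y : Acted (S.act L)) := fun y =>
      (LinearMap.congr_fun (patchMap_comp (S.isBasis L) (S.isBasis L') (S.isBasis L) S.tendsToZero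
        (S.up₂ L L') (S.down L L' ε)) (show Fin (S.rank L) → Λ from y)).symm.trans
      (S.lim_smul_eq (ι (signCast ε * c)) (fun n => (S.down L L' ε n).comp (S.up₂ L L' n))
        (fun n z => (S.down_up L v L' ε hv hL' n z).2) y)
    show patchMap (S.isBasis L') (S.isBasis L) (S.down L L' ε)
      (patchMap (S.isBasis L) (S.isBasis L') (S.up₁ L L') x.1 +
        patchMap (S.isBasis L) (S.isBasis L') (S.up₂ L L') x.2) = _
    rw [map_add, h1, h2, smul_add, smul_smul, map_mul, mul_comm,
      show ι (signCast ε : LocRing O T g) = (signCast ε : R) from map_intCast ι _]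
    rfl
  new_part L v L' hv hL' := by
    obtain ⟨k, k₁, k₂, hk⟩ := S.new_part L v L' hv hL'
    refine ⟨k, fun x => ⟨(patchMap (S.isBasis L') (S.isBasis L) k₁ x,
      patchMap (S.isBasis L') (S.isBasis L) k₂ x), ?_⟩⟩
    have h := S.lim_smul_eq _ (fun n => (S.up₁ L L' n).comp (k₁ n) + (S.up₂ L L' n).comp (k₂ n))
      (fun n z => (hk n z).symm) x
    rw [patchMap_add _ _ S.tendsToZero, patchMap_comp _ _ _ S.tendsToZero k₁,
      patchMap_comp _ _ _ S.tendsToZero k₂] at h
    exact h

/-- A point of the base ring of a type in the support is an eigen system of the base module. -/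
theorem annihilator_le_ker_of_type (hsurj : ∀ n, Function.Surjective (S.ψ n)) {L : Finset T}
    {P : Ideal R} [P.IsPrime] (hP : Module.annihilator R (Acted (S.act L)) ≤ P)
    {K : Type*} [CommRing K] [IsDomain K] (x : RB →+* K)
    (hx : P.comap ι ≤ RingHom.ker ((x.comp (limitHom S.ψ)).comp ι))
    (hquadP : ∀ e ∈ S.quad, e ∈ P) (hquadx : ∀ e ∈ S.quad, x (limitHom S.ψ e) = 0) :
    Module.annihilator RB (S.M₀ L) ≤ RingHom.ker x := by
  classical
  have : NeZero (S.rank L) := ⟨fun h => by
    refine Ideal.IsPrime.ne_top ‹P.IsPrime› (top_le_iff.1 (le_trans (fun r _ => ?_) hP))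
    rw [annihilator_acted, RingHom.mem_ker]
    ext i
    exact (Fin.isEmpty'.false (Fin.cast h i)).elim⟩
  set ψ := limitHom S.ψ
  let : Module R (S.M₀ L) := Module.compHom _ ψ
  have : SMulCommClass R Λ (S.M₀ L) := ⟨fun r l y => smul_comm (ψ r) l y⟩
  set Q := RingHom.ker (x.comp ψ)
  have : Q.IsPrime := RingHom.ker_isPrime _
  have : (RingHom.ker ((x.comp ψ).comp ι)).IsPrime := RingHom.ker_isPrime _
  obtain ⟨Q', hQ', hPQ', hcomap⟩ := exists_prime_over_comap ι (S.integral_act L) hP hx
  have hz0 : ∀ z ∈ S.extra, ψ z = 0 := fun z hz =>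
    limitHom_eq_of_forall S.ψ fun n => S.ψ_extra n z hz
  have hqQ' : Ideal.span (S.quad : Set R) ≤ Q' := Ideal.span_le.2 fun e he => hPQ' (hquadP e he)
  have hqQ : Ideal.span (S.quad : Set R) ≤ Q := Ideal.span_le.2 fun e he => hquadx e he
  have hzQ' : Ideal.span (S.extra : Set R) ≤ Q' := Ideal.span_le.2 fun z hz => by
    obtain ⟨d, u, s, t, hann, ht, hts⟩ := S.square_limit L z hz
    have h0 : ι s ∈ Q := by
      have := sub_mem (show t ∈ Q by
        rw [RingHom.mem_ker, RingHom.comp_apply, show ψ t = 0 from ht, map_zero]) (hqQ hts)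
      rwa [sub_sub_cancel] at this
    have h1 : t ∈ Q' := by
      have hs' : ι s ∈ Q' := by
        rw [← Ideal.mem_comap, hcomap]
        exact h0
      have := add_mem (hqQ' hts) hs'
      rwa [sub_add_cancel] at this
    have h2 := add_mem (hQ'.mem_of_pow_mem d (hPQ' (hP hann))) (Q'.mul_mem_left u h1)
    rw [sub_add_cancel] at h2
    exact hQ'.mem_of_pow_mem 2 h2
  have hker : RingHom.ker (S.act L) ≤ Q := by
    intro r hr
    rw [← annihilator_acted] at hr
    obtain ⟨s, hs⟩ := S.generated r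
    have h1 : s ∈ RingHom.ker ((x.comp ψ).comp ι) := by
      rw [← hcomap, Ideal.mem_comap]
      have := sub_mem (hPQ' (hP hr)) (sup_le hzQ' hqQ' hs)
      rwa [sub_sub_cancel] at this
    have h2 : r - ι s ∈ Q := sup_le (Ideal.span_le.2 fun z hz => (show x (ψ z) = 0 by
      rw [hz0 z hz, map_zero])) hqQ hs
    simpa using add_mem h2 (show ι s ∈ Q from h1)
  have hQS : ∀ l ∈ S.aug, ∃ y ∈ Q, S.act L y = l • (1 : Matrix _ _ Λ) := by
    intro l hl
    choose r hr0 hr using fun n => S.aug_lift n l hl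
    refine ⟨ulim r, ?_, patchAction_ulim_scalar (S.isBasis L) S.tendsToZero r l fun n => hr n L⟩
    show x (ψ (ulim r)) = 0
    rw [limitHom_ulim S.ψ S.isLocalHom_ψ r hr0, map_zero]
  have key := annihilator_le_of_point (S.isBasis₀ L)
    (sum_patchAction_base (S.isBasis L) S.tendsToZero S.ψ (S.isBasis₀ L) (S.π L) (S.π_smul L)
      (S.π_e L)) (S.scalarsIn_act L) hker rfl hQS
  intro b hb
  choose r hr using fun n => hsurj n b
  have h1 : ψ (ulim r) = b := limitHom_ulim S.ψ S.isLocalHom_ψ r hr
  have h2 := key (x := ulim r) (Module.mem_annihilator.2 fun y => by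
    show ψ (ulim r) • y = 0
    rw [h1]; exact Module.mem_annihilator.1 hb y)
  rwa [RingHom.mem_ker, RingHom.comp_apply, h1] at h2

end LiftingSystem

end Fermat.Agent.Engine
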