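import Fermat.Agent.Engine.Levels
import Fermat.Agent.Engine.Evaluation
import Mathlib.LinearAlgebra.Matrix.Charpoly.LinearMap

/-!
# Elements acting into `p` on a level are nilpotent modulo `p`, uniformly

`twQuot_eq_eval₂`: the coefficient ring of a level consists of polynomials in its variables.
`pow_mem_span_sup_ker_of_gen`: if an element acts by a matrix divisible by `p` on a level of rank
`d` whose variables are integral of degree `2 k` over the acting ring, then a power with exponent depending
only on `d`, `r`, `k` lies in the ideal of `p` and the kernel.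
-/

set_option autoImplicit false

noncomputable section

open IsLocalRing

namespace Fermat.Agent.Engine

section Generic

variable {R : Type*} [CommRing R] {A : Type*} [CommRing A] [Algebra R A] {r D : ℕ}

/-- Monomials with small exponents span the algebra generated by integral elements. -/
theorem aeval_mem_span_monomials (hD : 0 < D) (σ : Fin r → A)
    (hσ : ∀ i, σ i ^ D ∈ Submodule.span R (Set.range fun j : Fin D => σ i ^ (j : ℕ)))
    (q : MvPolynomial (Fin r) R) : MvPolynomial.aeval σ q ∈
      Submodule.span R (Set.range fun e : Fin r → Fin D => ∏ i, σ i ^ (e i : ℕ)) := by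
  classical
  set W := Submodule.span R (Set.range fun e : Fin r → Fin D => ∏ i, σ i ^ (e i : ℕ))
  have hstable : ∀ (i : Fin r) (w : A), w ∈ W → σ i * w ∈ W := by
    intro i w hw
    induction hw using Submodule.span_induction with
    | zero => rw [mul_zero]; exact zero_mem _
    | add x y _ _ hx hy => rw [mul_add]; exact add_mem hx hy
    | smul c x _ hx => rw [mul_smul_comm]; exact Submodule.smul_mem _ c hx
    | mem w hw =>
      obtain ⟨e, rfl⟩ := hw
      have hrest : ∀ j : Fin D,
          σ i ^ (j : ℕ) * ∏ l ∈ Finset.univ.erase i, σ l ^ (e l : ℕ) ∈ W := by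
        intro j
        refine Submodule.subset_span ⟨Function.update e i j, ?_⟩
        show ∏ l, σ l ^ (Function.update e i j l : ℕ) = _
        rw [← Finset.mul_prod_erase Finset.univ _ (Finset.mem_univ i), Function.update_self]
        congr 1
        refine Finset.prod_congr rfl fun l hl => ?_
        rw [Function.update_of_ne (Finset.ne_of_mem_erase hl)]
      show σ i * ∏ l, σ l ^ (e l : ℕ) ∈ W
      rw [← Finset.mul_prod_erase Finset.univ _ (Finset.mem_univ i), ← mul_assoc, ← pow_succ']
      by_cases hlt : (e i : ℕ) + 1 < D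
      · exact hrest ⟨_, hlt⟩
      · have hDe : (e i : ℕ) + 1 = D := by have := (e i).2; omega
        rw [hDe]
        generalize hP : ∏ l ∈ Finset.univ.erase i, σ l ^ (e l : ℕ) = P
        suffices h : ∀ y ∈ Submodule.span R (Set.range fun j : Fin D => σ i ^ (j : ℕ)),
            y * P ∈ W from h _ (hσ i)
        intro y h1
        induction h1 using Submodule.span_induction with
        | zero => rw [zero_mul]; exact zero_mem _
        | add x y _ _ hx hy => rw [add_mul]; exact add_mem hx hy
        | smul c x _ hx => rw [smul_mul_assoc]; exact Submodule.smul_mem _ c hx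
        | mem x hx =>
          obtain ⟨j, rfl⟩ := hx
          rw [← hP]
          exact hrest j
  induction q using MvPolynomial.induction_on with
  | C c =>
    rw [MvPolynomial.aeval_C, Algebra.algebraMap_eq_smul_one]
    exact Submodule.smul_mem _ c (Submodule.subset_span ⟨fun _ => ⟨0, hD⟩, by simp⟩)
  | add q q' hq hq' => rw [map_add]; exact add_mem hq hq'
  | mul_X q i hq => rw [map_mul, MvPolynomial.aeval_X, mul_comm]; exact hstable i _ hq

/-- A monic relation makes the top power a combination of lower ones. -/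
theorem pow_mem_span_of_monic {P : Polynomial R} (hP : P.Monic) {x : A}
    (hx : Polynomial.aeval x P = 0) :
    x ^ P.natDegree ∈ Submodule.span R (Set.range fun j : Fin P.natDegree => x ^ (j : ℕ)) := by
  rw [Polynomial.aeval_eq_sum_range, Finset.sum_range_succ, hP.coeff_natDegree, one_smul] at hx
  rw [eq_neg_of_add_eq_zero_right hx]
  refine neg_mem (Submodule.sum_mem _ fun j hj => Submodule.smul_mem _ _ (Submodule.subset_span ?_))
  exact ⟨⟨j, Finset.mem_range.1 hj⟩, rfl⟩

/-- **Determinant trick.** An element carrying every generator into `I M` has its `n`-th power,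
`n` the number of generators, in `I` up to the annihilator. -/
theorem pow_card_mem_sup_annihilator {M : Type*} [AddCommGroup M] [Module R M] {ι : Type*}
    [Fintype ι] (gen : ι → M) (hgen : Submodule.span R (Set.range gen) = ⊤) (I : Ideal R) (x : R)
    (hx : ∀ i, x • gen i ∈ I • (⊤ : Submodule R M)) :
    x ^ Fintype.card ι ∈ I ⊔ Module.annihilator R M := by
  have : Module.Finite R M := ⟨Submodule.fg_def.2 ⟨_, Set.finite_range gen, hgen⟩⟩
  have hrange : LinearMap.range (algebraMap R (Module.End R M) x) ≤ I • ⊤ := by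
    rw [LinearMap.range_eq_map]
    conv_lhs => rw [← hgen]
    rw [Submodule.map_span_le]
    rintro _ ⟨i, rfl⟩
    exact hx i
  obtain ⟨P, hm, hdeg, hcoef, heval⟩ :=
    LinearMap.exists_monic_and_natDegree_eq_and_coeff_mem_pow_and_aeval_eq_zero R
      (algebraMap R (Module.End R M) x) I hrange
  have hle : P.natDegree ≤ Fintype.card ι := by
    classical
    rw [hdeg, ← hgen]
    refine le_trans (Submodule.spanFinrank_span_le_ncard_of_finite (Set.finite_range gen)) ?_
    rw [← Set.image_univ]
    exact le_trans (Set.ncard_image_le Set.finite_univ) (by simp)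
  rw [Polynomial.aeval_algebraMap_apply] at heval
  have hann : Polynomial.aeval x P ∈ Module.annihilator R M :=
    Module.mem_annihilator.2 fun m => by simpa using LinearMap.congr_fun heval m
  have hx' : x ^ P.natDegree ∈ I ⊔ Module.annihilator R M := by
    rw [Polynomial.aeval_eq_sum_range, Finset.sum_range_succ, hm.coeff_natDegree, one_smul] at hann
    have h2 : ∑ j ∈ Finset.range P.natDegree, P.coeff j • x ^ j ∈ I :=
      Submodule.sum_mem _ fun j hj => by
        rw [smul_eq_mul]
        refine Ideal.mul_mem_right _ _ (Ideal.pow_le_self ?_ (hcoef j))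
        have := Finset.mem_range.1 hj
        omega
    have := sub_mem (Ideal.mem_sup_right (S := I) hann) (Ideal.mem_sup_left
      (T := Module.annihilator R M) h2)
    rwa [add_sub_cancel_left] at this
  obtain ⟨c, hc⟩ := Nat.exists_eq_add_of_le hle
  rw [hc, pow_add]
  exact Ideal.mul_mem_right _ _ hx'

end Generic

/-- A nilpotent quadratic relation on a scalar, in the form of a monic relation of degree two. -/
lemma quad_rel {Λ : Type*} [CommRing Λ] {d k : ℕ} (S : Λ) (M : Matrix (Fin d) (Fin d) Λ)
    (h : (S ^ 2 • (1 : Matrix (Fin d) (Fin d) Λ) - (1 + S) • M) ^ k = 0) :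
    ((S • (1 : Matrix (Fin d) (Fin d) Λ)) ^ 2 - M * (S • 1) - M) ^ (k + 1) = 0 := by
  rw [pow_two, Matrix.smul_mul, one_mul, smul_smul, Matrix.mul_smul, mul_one, sub_sub,
    show S • M + M = (1 + S) • M by rw [add_smul, one_smul, add_comm], ← pow_two, pow_succ, h,
    zero_mul]

/-- **Uniform nilpotence modulo `p`.** -/
theorem pow_mem_span_sup_ker_of_gen {O Λ R : Type} [CommRing O] [CommRing Λ] [CommRing R]
    [Algebra O R] {r : ℕ} (p : ℕ) (cst : O →+* Λ) (var : Fin r → Λ)
    (hpoly : ∀ c : Λ, ∃ q : MvPolynomial (Fin r) O, MvPolynomial.eval₂ cst var q = c) {d : ℕ}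
    (act : R →+* Matrix (Fin d) (Fin d) Λ)
    (hconst : ∀ o : O, act (algebraMap O R o) = cst o • 1) {k : ℕ} (t : Fin r → R)
    (hsq : ∀ i, (var i ^ 2 • (1 : Matrix (Fin d) (Fin d) Λ) -
      (1 + var i) • act (t i)) ^ k = 0)
    {x : R} (hx : ∀ a b, act x a b ∈ Ideal.span {(p : Λ)}) :
    x ^ (d * d * (2 * (k + 1)) ^ r) ∈ Ideal.span {(p : R)} ⊔ RingHom.ker act := by
  classical
  let S : Subalgebra Λ (Matrix (Fin d) (Fin d) Λ) := Algebra.adjoin Λ (Set.range act)
  have hS : IsMulCommutative S := Algebra.isMulCommutative_adjoin Λ (by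
    rintro _ ⟨a, rfl⟩ _ ⟨b, rfl⟩
    rw [← map_mul, ← map_mul, mul_comm])
  let : CommRing S := { (inferInstance : Ring S) with
    mul_comm := fun a b => hS.is_comm.comm a b }
  let φ : R →+* S := act.codRestrict S.toSubring fun b => Algebra.subset_adjoin ⟨b, rfl⟩
  let : Algebra R S := φ.toAlgebra
  let σ : Fin r → S := fun i => algebraMap Λ S (var i)
  set D := 2 * (k + 1) with hDdef
  have hσ : ∀ i, σ i ^ D ∈ Submodule.span R (Set.range fun j : Fin D => σ i ^ (j : ℕ)) := by
    intro i
    let P : Polynomial R :=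
      (Polynomial.X ^ 2 - Polynomial.C (t i) * Polynomial.X - Polynomial.C (t i)) ^ (k + 1)
    have hmon : (Polynomial.X ^ 2 - Polynomial.C (t i) * Polynomial.X -
        Polynomial.C (t i) : Polynomial R).Monic := by monicity!
    have hS0 : (σ i ^ 2 - φ (t i) * σ i - φ (t i)) ^ (k + 1) = 0 := by
      apply Subtype.ext
      refine Eq.trans ?_ (quad_rel (var i) (act (t i)) (hsq i))
      simp only [AddSubgroupClass.coe_sub, MulMemClass.coe_mul, SubmonoidClass.coe_pow,
        Algebra.algebraMap_eq_smul_one, SetLike.val_smul, OneMemClass.coe_one, σ]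
      rfl
    rcases subsingleton_or_nontrivial R with hR | hR
    · have : (1 : S) = 0 := by
        rw [← map_one φ, Subsingleton.elim (1 : R) 0, map_zero]
      rw [show σ i ^ D = 0 by rw [← one_mul (σ i ^ D), this, zero_mul]]
      exact zero_mem _
    have hdeg : P.natDegree = D := by
      rw [Polynomial.Monic.natDegree_pow hmon, hDdef, mul_comm]
      congr 1
      compute_degree!
    rw [← hdeg]
    refine pow_mem_span_of_monic (hmon.pow _) ?_
    rw [map_pow, map_sub, map_sub, map_pow, map_mul, Polynomial.aeval_X, Polynomial.aeval_C]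
    exact hS0
  let : Module R (Matrix (Fin d) (Fin d) Λ) := Module.compHom _ act
  have hsmul : ∀ (y : R) (Z : Matrix (Fin d) (Fin d) Λ), y • Z = act y * Z := fun _ _ => rfl
  let gen : (Fin r → Fin D) × Fin d × Fin d → Matrix (Fin d) (Fin d) Λ := fun z =>
    ((∏ i, σ i ^ (z.1 i : ℕ) : S) : Matrix (Fin d) (Fin d) Λ) * Matrix.single z.2.1 z.2.2 1
  have hgen : Submodule.span R (Set.range gen) = ⊤ := by
    refine top_le_iff.1 fun Z _ => ?_
    rw [Matrix.matrix_eq_sum_single Z]
    refine Submodule.sum_mem _ fun a _ => Submodule.sum_mem _ fun b _ => ?_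
    obtain ⟨q, hq⟩ := hpoly (Z a b)
    let L : S →ₗ[R] Matrix (Fin d) (Fin d) Λ :=
      { toFun := fun z => (z : Matrix (Fin d) (Fin d) Λ) * Matrix.single a b 1
        map_add' := fun z z' => add_mul _ _ _
        map_smul' := fun y z => by
          rw [RingHom.id_apply, hsmul, ← mul_assoc]
          rfl }
    have hmem := Submodule.mem_map_of_mem (f := L) (aeval_mem_span_monomials (A := S)
      (show 0 < D by omega) σ hσ (MvPolynomial.map (algebraMap O R) q))
    rw [Submodule.map_span, ← Set.range_comp] at hmem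
    have hz : MvPolynomial.aeval σ (MvPolynomial.map (algebraMap O R) q) =
        algebraMap Λ S (Z a b) := by
      rw [MvPolynomial.aeval_def, MvPolynomial.eval₂_map, ← hq, ← MvPolynomial.coe_eval₂Hom,
        ← MvPolynomial.coe_eval₂Hom, MvPolynomial.map_eval₂Hom]
      refine RingHom.congr_fun (MvPolynomial.ringHom_ext (fun o => ?_) fun i => ?_) q
      · apply Subtype.ext
        simp only [MvPolynomial.eval₂Hom_C, RingHom.comp_apply]
        exact (hconst o).trans (Algebra.algebraMap_eq_smul_one _).symm
      · simp [σ]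
    rw [hz] at hmem
    have hL : L (algebraMap Λ S (Z a b)) = Matrix.single a b (Z a b) := by
      show algebraMap Λ (Matrix (Fin d) (Fin d) Λ) (Z a b) * _ = _
      rw [Algebra.algebraMap_eq_smul_one, Matrix.smul_mul, one_mul, Matrix.smul_single,
        smul_eq_mul, mul_one]
    rw [hL] at hmem
    refine Submodule.span_mono ?_ hmem
    rintro _ ⟨e, rfl⟩
    exact ⟨(e, a, b), rfl⟩
  have hxgen : ∀ z, x • gen z ∈ Ideal.span {(p : R)} • (⊤ : Submodule R _) := by
    intro z
    choose c hc using fun a b => Ideal.mem_span_singleton'.1 (hx a b)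
    have hpz : x • gen z = (p : R) • (Matrix.of c * gen z) := by
      have hax : act x = (p : Matrix (Fin d) (Fin d) Λ) * Matrix.of c := by
        ext a b
        rw [← nsmul_eq_mul, Matrix.smul_apply, nsmul_eq_mul, Matrix.of_apply, ← hc a b, mul_comm]
      rw [hsmul, hsmul, map_natCast, hax, mul_assoc]
    rw [hpz]
    exact Submodule.smul_mem_smul (Ideal.mem_span_singleton_self _) Submodule.mem_top
  have h := pow_card_mem_sup_annihilator gen hgen _ x hxgen
  rw [Fintype.card_prod, Fintype.card_fun, Fintype.card_prod, Fintype.card_fin,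
    Fintype.card_fin, Fintype.card_fin, mul_comm] at h
  obtain ⟨u, hu, v, hv, e⟩ := Submodule.mem_sup.1 h
  refine Submodule.mem_sup.2 ⟨u, hu, v, ?_, e⟩
  rw [RingHom.mem_ker, ← mul_one (act v), ← hsmul]
  exact Module.mem_annihilator.1 hv 1

variable {O : Type} [CommRing O] [IsDomain O] [IsDiscreteValuationRing O]
  [IsAdicComplete (maximalIdeal O) O] {p r n : ℕ}

omit [IsAdicComplete (maximalIdeal O) O] in
/-- The level ideal of the Taylor–Wiles variables is proper. -/
theorem twIdeal_ne_top : twIdeal O p r n ≠ ⊤ := fun h =>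
  one_ne_zero (α := O) ((map_one _).symm.trans
    (RingHom.mem_ker.1 (twIdeal_le_ker O p r n (h ▸ Submodule.mem_top (x := 1)))))

/-- Every element of the coefficient ring of a level is a polynomial in its variables. -/
theorem twQuot_eq_eval₂ [Fact p.Prime] (hp : (p : O) ∈ maximalIdeal O) (c : TwQuot O p r n) :
    ∃ q : MvPolynomial (Fin r) O, MvPolynomial.eval₂ (twConst O p r n) (twVar O p r n) q = c := by
  classical
  set mk : MvPowerSeries (Fin r) O →+* (TwQuot O p r n) := Ideal.Quotient.mk (twIdeal O p r n)
  have : Nontrivial (TwQuot O p r n) := Ideal.Quotient.nontrivial_iff.2 twIdeal_ne_top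
  have : IsLocalRing (TwQuot O p r n) := .of_surjective' mk Ideal.Quotient.mk_surjective
  have hmk : IsLocalHom mk := IsLocalHom.of_surjective _ Ideal.Quotient.mk_surjective
  set J := (maximalIdeal O).map (algebraMap O (TwQuot O p r n))
  have hJ : ∀ (N : ℕ) (x : (TwQuot O p r n)), x ∈ (maximalIdeal O ^ N) • (⊤ : Submodule O (TwQuot O p r n)) →
      x ∈ maximalIdeal (TwQuot O p r n) ^ N := fun N x hx => by
    rw [Ideal.smul_top_eq_map, Submodule.restrictScalars_mem, Ideal.map_pow] at hx
    refine Ideal.pow_right_mono (Ideal.map_le_iff_le_comap.2 fun o ho => ?_) N hx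
    refine map_nonunit mk _ ?_
    rw [DefRing.mem_maximalIdeal_iff_constantCoeff, MvPowerSeries.algebraMap_apply,
      MvPowerSeries.constantCoeff_C]
    exact ho
  have : IsHausdorff (maximalIdeal O) (TwQuot O p r n) := ⟨fun x hx => by
    refine IsHausdorff.haus (inferInstance : IsHausdorff (maximalIdeal (TwQuot O p r n)) (TwQuot O p r n)) x fun N => ?_
    rw [SModEq.zero, smul_eq_mul, Ideal.mul_top]
    exact hJ N x (SModEq.zero.1 (hx N))⟩
  -- the variables are nilpotent modulo `m_O`
  have hnil : ∀ i, twVar O p r n i ^ p ^ (n + 1) ∈ J := fun i => by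
    obtain ⟨u, hu⟩ := exists_add_pow_prime_pow_eq (Fact.out : p.Prime) (1 : MvPowerSeries (Fin r) O)
      (MvPowerSeries.X i) (n + 1)
    have h0 : mk ((1 + MvPowerSeries.X i) ^ p ^ (n + 1) - 1) = 0 :=
      Ideal.Quotient.eq_zero_iff_mem.2 (Ideal.subset_span ⟨i, rfl⟩)
    have h1 : mk (MvPowerSeries.X i) ^ p ^ (n + 1) = (p : (TwQuot O p r n)) * -mk (MvPowerSeries.X i * u) := by
      rw [hu, one_pow, map_sub, map_add, map_add, map_one, map_mul, map_mul, map_mul, map_natCast,
        map_one, map_pow, mul_one] at h0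
      rw [map_mul]
      linear_combination h0
    show mk (MvPowerSeries.X i) ^ p ^ (n + 1) ∈ J
    rw [h1, ← map_natCast (algebraMap O (TwQuot O p r n))]
    exact Ideal.mul_mem_right _ _ (Ideal.mem_map_of_mem _ hp)
  obtain ⟨N, hN⟩ := Ideal.exists_pow_le_of_le_radical_of_fg
    (I := Ideal.span (Set.range (twVar O p r n))) (J := J) (Ideal.span_le.2 (by
      rintro _ ⟨i, rfl⟩
      exact ⟨_, hnil i⟩)) (Submodule.fg_span (Set.finite_range _))
  -- monomials of small degree span modulo `m_O`
  let mono : (Fin r → Fin N) → (TwQuot O p r n) := fun e => ∏ i, twVar O p r n i ^ (e i : ℕ)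
  set P := Finset.univ.image mono
  have hspan : ∀ x : (TwQuot O p r n), ∃ w ∈ Submodule.span O (P : Set (TwQuot O p r n)),
      x - w ∈ maximalIdeal O • (⊤ : Submodule O (TwQuot O p r n)) := by
    intro x
    obtain ⟨f, rfl⟩ := Ideal.Quotient.mk_surjective x
    set q := MvPowerSeries.truncTotal N f
    refine ⟨mk q, ?_, ?_⟩
    · have hev : mk q = MvPolynomial.eval₂ (twConst O p r n) (twVar O p r n) q :=
        RingHom.congr_fun (show mk.comp MvPolynomial.coeToMvPowerSeries.ringHom =
          MvPolynomial.eval₂Hom (twConst O p r n) (twVar O p r n) from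
          MvPolynomial.ringHom_ext (fun o => by simp [mk, twConst])
            fun i => by simp [mk, twVar]) q
      rw [hev, MvPolynomial.eval₂_eq']
      refine Submodule.sum_mem _ fun e he => ?_
      have hlt : ∀ i, e i < N := fun i => by
        have h1 : Finsupp.degree e < N := by
          by_contra hc
          exact MvPolynomial.mem_support_iff.1 he
            (MvPowerSeries.coeff_truncTotal_eq_zero _ (by omega))
        exact lt_of_le_of_lt (Finsupp.le_degree i e) h1
      have hconst : ∀ (o : O) (y : (TwQuot O p r n)), twConst O p r n o * y = o • y := fun o y =>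
        (Algebra.smul_def o y).symm
      rw [hconst]
      exact Submodule.smul_mem _ _ (Submodule.subset_span
        (Finset.mem_image.2 ⟨fun i => ⟨e i, hlt i⟩, Finset.mem_univ _, rfl⟩))
    · rw [Ideal.smul_top_eq_map, Submodule.restrictScalars_mem]
      refine hN ?_
      have h1 := Ideal.mem_map_of_mem mk (DefRing.sub_truncTotal_mem_span_pow f N)
      rw [Ideal.map_pow, Ideal.map_span, ← Set.range_comp] at h1
      rw [← map_sub]
      exact h1
  have : Module.Finite O (TwQuot O p r n) := finite_of_span_mod (I := maximalIdeal O) P hspan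
  have htop : Submodule.span O (P : Set (TwQuot O p r n)) = ⊤ := by
    refine top_le_iff.1 (Submodule.le_of_le_smul_of_le_jacobson_bot Module.Finite.fg_top
      (IsLocalRing.jacobson_eq_maximalIdeal ⊥ bot_ne_top).ge fun x _ => ?_)
    obtain ⟨w, hw, hxw⟩ := hspan x
    exact Submodule.mem_sup.2 ⟨w, hw, x - w, hxw, add_sub_cancel _ _⟩
  obtain ⟨a, ha⟩ := Submodule.mem_span_finset'.1 (htop ▸ Submodule.mem_top (x := c))
  have hev : ∀ y ∈ P, ∃ q : MvPolynomial (Fin r) O,
      MvPolynomial.eval₂ (twConst O p r n) (twVar O p r n) q = y := by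
    intro y hy
    obtain ⟨e, -, rfl⟩ := Finset.mem_image.1 hy
    exact ⟨∏ i, MvPolynomial.X i ^ (e i : ℕ), by simp [mono, MvPolynomial.eval₂_prod]⟩
  choose Q hQ using hev
  refine ⟨∑ y : P, MvPolynomial.C (a y) * Q y.1 y.2, ?_⟩
  rw [MvPolynomial.eval₂_sum]
  refine Eq.trans (Finset.sum_congr rfl fun y _ => ?_) ha
  rw [MvPolynomial.eval₂_mul, MvPolynomial.eval₂_C, hQ]
  exact (Algebra.smul_def (a y) (y : TwQuot O p r n)).symm

end Fermat.Agent.Engine
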