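import Fermat.Agent.Engine.Raise
import Fermat.Agent.Engine.LocalTypes
import Fermat.Agent.Engine.Integral

/-!
# Patched families of modules and the components they reach

`Family` is what patching delivers for lifting: one patched module for every set `L` of primes put
in the level, over a common ring `R` integral over the local coordinates on the supports (`R` has
extra variables for the diamond operators), with degeneracy maps.  `support_all_types` is the
modularity conclusion: every type is in the support.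
-/

set_option autoImplicit false

noncomputable section

namespace Fermat.Agent.Engine

open IsLocalRing Patch

variable (O : Type) [CommRing O] (T : Type) (g : ℕ)
  (Λ : Type) [CommRing Λ] [IsDomain Λ] [IsLocalRing Λ] [IsNoetherianRing Λ]
  (R : Type) [CommRing R] (ι : LocRing O T g →+* R)

/-- The patched modules, one for each level. -/
structure Family (qv : T → ℕ) (Φ₀ : T → Matrix (Fin 2) (Fin 2) O) where
  /-- the module of level `L` -/
  M : Finset T → Type
  [addCommGroup : ∀ L, AddCommGroup (M L)]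
  [moduleR : ∀ L, Module R (M L)]
  [moduleΛ : ∀ L, Module Λ (M L)]
  [comm : ∀ L, SMulCommClass R Λ (M L)]
  [free : ∀ L, Module.Free Λ (M L)]
  [finite : ∀ L, Module.Finite Λ (M L)]
  [finiteR : ∀ L, Module.Finite R (M L)]
  nontrivial : Nontrivial (M ∅)
  scalars : ∀ L (l : Λ), ∃ r : R, ∀ x : M L, r • x = l • x
  integral : ∀ L, ((Ideal.Quotient.mk (Module.annihilator R (M L))).comp ι).IsIntegral
  dim : DimGE Λ (3 * Nat.card T + g + 1)
  det_frob : ∀ L r, (locFrob (g := g) Φ₀ r).det - (qv r : LocRing O T g) ∈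
    (Module.annihilator R (M L)).comap ι
  unramified : ∀ L r, r ∉ L → ∀ i j, locMono (g := g) (O := O) r i j ∈
    (Module.annihilator R (M L)).comap ι
  unipotent : ∀ L, ∀ r ∈ L, (locMono (g := g) (O := O) r).trace ∈
      (Module.annihilator R (M L)).comap ι ∧
    (locMono (g := g) (O := O) r).det ∈ (Module.annihilator R (M L)).comap ι
  tame : ∀ L, ∀ r ∈ L, ∀ i j, ((locFrob (g := g) Φ₀ r * locMono r -
      (qv r : LocRing O T g) • (locMono r * locFrob (g := g) Φ₀ r)) :
        Matrix (Fin 2) (Fin 2) (LocRing O T g)) i j ∈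
    (Module.annihilator R (M L)).comap ι
  /-- degeneracy maps -/
  up : ∀ (L L' : Finset T), (M L × M L) →ₗ[R] M L'
  /-- the trace for a sign -/
  down : ∀ (L L' : Finset T) (ε : ℤˣ), M L' →ₗ[R] M L
  up_split : ∀ L v L', v ∉ L → (∀ r, r ∈ L' ↔ r = v ∨ r ∈ L) →
    ∃ (upΛ : (M L × M L) →ₗ[Λ] M L') (left : M L' →ₗ[Λ] M L × M L),
      (∀ x, upΛ x = up L L' x) ∧ left.comp upΛ = LinearMap.id
  down_surjective : ∀ L v L' ε, v ∉ L → (∀ r, r ∈ L' ↔ r = v ∨ r ∈ L) →
    Function.Surjective (down L L' ε)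
  /-- `(x + ε y) ∘ trace ∘ degeneracy = ((v + 1) + ε T_v) (x + ε y)` -/
  down_up : ∀ L v L' ε, v ∉ L → (∀ r, r ∈ L' ↔ r = v ∨ r ∈ L) → ∀ x : M L × M L,
    down L L' ε (up L L' x) =
      ι ((qv v : LocRing O T g) + 1 + signCast ε * (locFrob (g := g) Φ₀ v).trace) •
        (x.1 + (signCast ε : R) • x.2)
  /-- the new part satisfies `tr² = (v + 1)²` up to nilpotents -/
  new_part : ∀ L v L', v ∉ L → (∀ r, r ∈ L' ↔ r = v ∨ r ∈ L) → ∃ k : ℕ, ∀ x : M L',
    ι (((locFrob (g := g) Φ₀ v).trace ^ 2 - ((qv v : LocRing O T g) + 1) ^ 2) ^ k) • x ∈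
      LinearMap.range (up L L')

attribute [instance] Family.addCommGroup Family.moduleR Family.moduleΛ Family.comm Family.free
  Family.finite Family.finiteR

variable {O T g Λ}

/-- Over a field a ramified nilpotent monodromy forces Steinberg Frobenius. -/
theorem exists_multiplier {K : Type*} [Field K] {q : K} (hq : q ≠ 0)
    (Φ N : Matrix (Fin 2) (Fin 2) K) (hdet : Φ.det = q) (htr : N.trace = 0) (hN : N.det = 0)
    (hrel : Φ * N = q • (N * Φ)) (hne : N ≠ 0) :
    ∃ μ : K, μ ^ 2 = 1 ∧ Φ.trace = μ * (q + 1) ∧ N * Φ = μ • N ∧ Φ * N = (μ * q) • N := by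
  have e00 := congrFun (congrFun hrel 0) 0
  have e01 := congrFun (congrFun hrel 0) 1
  have e10 := congrFun (congrFun hrel 1) 0
  simp only [Matrix.mul_apply, Fin.sum_univ_two, Matrix.smul_apply, smul_eq_mul] at e00 e01 e10
  have hd : N 1 1 = -N 0 0 := by
    rw [Matrix.trace_fin_two] at htr; linear_combination htr
  rw [Matrix.det_fin_two] at hdet hN
  rw [hd] at e01 hN
  suffices h : ∃ μ : K, Φ 0 0 * Φ 1 1 - Φ 0 1 * Φ 1 0 = q * μ ^ 2 ∧
      Φ.trace = μ * (q + 1) ∧ N * Φ = μ • N by
    obtain ⟨μ, h1, h2, h3⟩ := h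
    refine ⟨μ, mul_left_cancel₀ hq (by rw [← h1, hdet, mul_one]), h2, h3, ?_⟩
    rw [hrel, h3, smul_smul, mul_comm]
  by_cases hb : N 0 1 = 0
  · have ha : N 0 0 = 0 := by
      have : N 0 0 ^ 2 = 0 := by rw [hb] at hN; linear_combination -hN
      exact pow_eq_zero_iff two_ne_zero |>.1 this
    have hc : N 1 0 ≠ 0 := fun hc => hne (by
      ext i j; fin_cases i <;> fin_cases j <;> simp [ha, hb, hc, hd])
    have hy : Φ 0 1 = 0 := (mul_eq_zero.1 (show Φ 0 1 * N 1 0 = 0 by
      rw [ha, hb] at e00; linear_combination e00)).resolve_right hc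
    have hw : Φ 1 1 = q * Φ 0 0 := mul_right_cancel₀ hc (by
      rw [ha, hd, ha] at e10; linear_combination e10)
    refine ⟨Φ 0 0, by rw [hy, hw]; ring, by rw [Matrix.trace_fin_two, hw]; ring, ?_⟩
    ext i j
    fin_cases i <;> fin_cases j <;>
      simp [Matrix.mul_apply, Fin.sum_univ_two, ha, hb, hd, hy, mul_comm]
  · obtain ⟨μ, hμ⟩ : ∃ μ, μ * N 0 1 = N 0 0 * Φ 0 1 + N 0 1 * Φ 1 1 :=
      ⟨_, div_mul_cancel₀ _ hb⟩
    have hrow : N 0 0 * Φ 0 0 + N 0 1 * Φ 1 0 = μ * N 0 0 := by
      refine mul_right_cancel₀ hb (mul_left_cancel₀ hq ?_)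
      linear_combination N 0 0 * e01 - N 0 1 * e00 - Φ 0 1 * hN - q * N 0 0 * hμ
    refine ⟨μ, ?_, ?_, ?_⟩
    · refine mul_right_cancel₀ (mul_ne_zero hb hb) ?_
      linear_combination (N 0 1 * μ) * e01 - (q * μ * N 0 1 + N 0 1 * Φ 0 0) * hμ
        - N 0 1 * Φ 0 1 * hrow
    · refine mul_right_cancel₀ hb ?_
      rw [Matrix.trace_fin_two]
      linear_combination e01 - (q + 1) * hμ
    · ext i j
      fin_cases i <;> fin_cases j <;> simp [Matrix.mul_apply, Fin.sum_univ_two, hd]
      · exact hrow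
      · linear_combination -hμ
      · refine mul_right_cancel₀ hb ?_
        linear_combination (-N 0 0) * hrow + (Φ 0 0 - μ) * (-hN)
      · refine mul_right_cancel₀ hb ?_
        linear_combination N 0 0 * hμ + Φ 0 1 * (-hN)

/-- The trace commutes with a ring homomorphism. -/
theorem trace_mapMatrix {K L : Type*} [CommRing K] [CommRing L] (f : K →+* L)
    (X : Matrix (Fin 2) (Fin 2) K) : (f.mapMatrix X).trace = f X.trace :=
  (AddMonoidHom.map_trace f.toAddMonoidHom X).symm

/-- Over a domain a ramified nilpotent monodromy forces Steinberg Frobenius. -/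
theorem exists_sign {K : Type*} [CommRing K] [IsDomain K] {q : ℕ} (hq : (q : K) ≠ 0)
    (Φ N : Matrix (Fin 2) (Fin 2) K) (hdet : Φ.det = (q : K)) (htr : N.trace = 0)
    (hN : N.det = 0) (hrel : Φ * N = (q : K) • (N * Φ)) (hne : N ≠ 0) :
    ∃ γ : ℤˣ, Φ.trace = ((γ : ℤ) : K) * ((q : K) + 1) ∧ N * Φ = ((γ : ℤ) : K) • N ∧
      Φ * N = (((γ : ℤ) : K) * (q : K)) • N := by
  set L := FractionRing K
  set i : K →+* L := algebraMap K L
  have hi : Function.Injective i := IsFractionRing.injective K L
  have hsm : ∀ (x : K) (X : Matrix (Fin 2) (Fin 2) K),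
      i.mapMatrix (x • X) = i x • i.mapMatrix X := fun x X => by ext; simp
  have hinj : Function.Injective (i.mapMatrix (m := Fin 2)) := Matrix.map_injective hi
  obtain ⟨μ, hμ, h1, h2, h3⟩ := exists_multiplier (q := i q)
    (by rw [← map_zero i]; exact fun h => hq (hi h)) (i.mapMatrix Φ) (i.mapMatrix N)
    (by rw [← RingHom.map_det, hdet])
    (by rw [trace_mapMatrix, htr, map_zero])
    (by rw [← RingHom.map_det, hN, map_zero])
    (by rw [← map_mul, ← map_mul, hrel, hsm])
    (fun h => hne (hinj (by rw [h, map_zero])))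
  have h1' : i Φ.trace = μ * (i q + 1) := by
    rw [← h1, trace_mapMatrix]
  rcases sq_eq_one_iff.1 hμ with rfl | rfl
  · refine ⟨1, hi ?_, hinj ?_, hinj ?_⟩
    · simpa using h1'
    · rw [map_mul, h2, hsm]; simp
    · rw [map_mul, h3, hsm]; simp
  · refine ⟨-1, hi ?_, hinj ?_, hinj ?_⟩
    · rw [h1']; simp; try ring
    · rw [map_mul, h2, hsm]; simp
    · rw [map_mul, h3, hsm]
      simp
      rw [neg_one_mul, neg_smul]

variable {qv : T → ℕ} {Φ₀ : T → Matrix (Fin 2) (Fin 2) O}
variable [IsDomain O] [IsDiscreteValuationRing O]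

/-- The constant coefficient of an element of a proper ideal is in the maximal ideal. -/
theorem constantCoeff_mem {P : Ideal (LocRing O T g)} (hP : P ≠ ⊤) {x : LocRing O T g}
    (hx : x ∈ P) : MvPowerSeries.constantCoeff x ∈ maximalIdeal O := by
  rw [mem_maximalIdeal, mem_nonunits_iff]
  exact fun h => hP (P.eq_top_of_isUnit_mem hx (MvPowerSeries.isUnit_iff_constantCoeff.2 h))

omit [IsDomain O] [IsDiscreteValuationRing O] in
/-- The constant term of the generic Frobenius is `Φ₀`. -/
theorem constantCoeff_locFrob (r : T) :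
    (locFrob (g := g) Φ₀ r).map MvPowerSeries.constantCoeff = Φ₀ r := by
  ext i j
  simp [locFrob]

variable {R : Type} [CommRing R] {ι : LocRing O T g →+* R}

omit [IsDomain Λ] [IsLocalRing Λ] [IsNoetherianRing Λ] in
/-- A prime of the support lies on some type with unramified primes outside the level. -/
theorem exists_type_le (F : Family O T g Λ R ι qv Φ₀) (L : Finset T)
    (hq : ∀ r, IsUnit (qv r : O)) {P : Ideal (LocRing O T g)} [P.IsPrime]
    (hP : (Module.annihilator R (F.M L)).comap ι ≤ P) :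
    ∃ τ : T → CompType, typeIdeal qv Φ₀ τ ≤ P ∧
      (∀ r, r ∉ L → τ r = .unramified) ∧ ∀ r, Compatible (qv r) (Φ₀ r) (τ r) ∧
        (τ r = .unramified ↔ ∀ i j, locMono (g := g) (O := O) r i j ∈ P) := by
  classical
  have key : ∀ r, ∃ t : CompType, typeRels (qv r) (locFrob (g := g) Φ₀ r) (locMono r) t ⊆ P ∧
      Compatible (qv r) (Φ₀ r) t ∧
      (t = .unramified ↔ ∀ i j, locMono (g := g) (O := O) r i j ∈ P) := by
    intro r
    have hdet := hP (F.det_frob L r)
    have hdet0 : (Φ₀ r).det - (qv r : O) ∈ maximalIdeal O := by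
      have := constantCoeff_mem Ideal.IsPrime.ne_top' hdet
      rwa [map_sub, map_natCast, RingHom.map_det, RingHom.mapMatrix_apply,
        constantCoeff_locFrob] at this
    by_cases hall : ∀ i j, locMono (g := g) (O := O) r i j ∈ P
    · refine ⟨.unramified, ?_, ⟨hq r, hdet0⟩, iff_of_true rfl hall⟩
      rintro x (rfl | ⟨⟨i, j⟩, rfl⟩)
      exacts [hdet, hall i j]
    · have hr : r ∈ L := by_contra fun h => hall fun i j => hP (F.unramified L r h i j)
      set f := Ideal.Quotient.mk P
      have hf : ∀ {x}, x ∈ P → f x = 0 := fun h => Ideal.Quotient.eq_zero_iff_mem.2 h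
      have hf' : ∀ {x}, f x = 0 → x ∈ P := fun h => Ideal.Quotient.eq_zero_iff_mem.1 h
      set Φ := locFrob (g := g) Φ₀ r
      set N := locMono (g := g) (O := O) r
      obtain ⟨γ, h1, h2, h3⟩ := exists_sign (q := qv r)
        (fun h => Ideal.IsPrime.ne_top' (P.eq_top_of_isUnit_mem
          (hf' (x := (qv r : LocRing O T g)) (by rw [map_natCast]; exact h))
          (by simpa using (hq r).map (MvPowerSeries.C (σ := LocVar T g)))))
        (f.mapMatrix Φ) (f.mapMatrix N)
        (by rw [← RingHom.map_det, ← sub_eq_zero, ← map_natCast f, ← map_sub]; exact hf hdet)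
        (by rw [trace_mapMatrix]; exact hf (hP (F.unipotent L r hr).1))
        (by rw [← RingHom.map_det]; exact hf (hP (F.unipotent L r hr).2))
        (by
          ext i j
          have := hf (hP (F.tame L r hr i j))
          rw [Matrix.sub_apply, map_sub, sub_eq_zero, Matrix.smul_apply, smul_eq_mul, map_mul f,
            map_natCast] at this
          rw [Matrix.smul_apply, ← map_mul, ← map_mul, smul_eq_mul]
          exact this)
        (fun h => hall fun i j => hf' (congrFun (congrFun h i) j))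
      have htr : f (Φ.trace - signCast γ * ((qv r : LocRing O T g) + 1)) = 0 := by
        rw [map_sub, ← trace_mapMatrix, h1]
        simp [signCast]
      refine ⟨.steinberg γ, ?_, ⟨hq r, hdet0, ?_⟩, iff_of_false (fun h => nomatch h) hall⟩
      · rintro x (((rfl | rfl | rfl | rfl) | ⟨⟨i, j⟩, rfl⟩) | ⟨⟨i, j⟩, rfl⟩)
        · exact hdet
        · exact hf' htr
        · exact hP (F.unipotent L r hr).1
        · exact hP (F.unipotent L r hr).2
        · refine hf' ?_
          have h := congrFun (congrFun h2 i) j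
          rw [← map_mul, Matrix.smul_apply, RingHom.mapMatrix_apply, RingHom.mapMatrix_apply,
            Matrix.map_apply, Matrix.map_apply, smul_eq_mul] at h
          show f ((N * Φ - (signCast γ : LocRing O T g) • N) i j) = 0
          rw [Matrix.sub_apply, map_sub, sub_eq_zero, h, Matrix.smul_apply, smul_eq_mul, map_mul,
            signCast, map_intCast]
        · refine hf' ?_
          have h := congrFun (congrFun h3 i) j
          rw [← map_mul, Matrix.smul_apply, RingHom.mapMatrix_apply, RingHom.mapMatrix_apply,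
            Matrix.map_apply, Matrix.map_apply, smul_eq_mul] at h
          show f ((Φ * N - (signCast γ * (qv r : LocRing O T g)) • N) i j) = 0
          rw [Matrix.sub_apply, map_sub, sub_eq_zero, h, Matrix.smul_apply, smul_eq_mul, map_mul,
            map_mul, signCast, map_intCast, map_natCast]
      · have := constantCoeff_mem Ideal.IsPrime.ne_top' (hf' htr)
        rw [map_sub, show MvPowerSeries.constantCoeff Φ.trace =
          (Φ.map MvPowerSeries.constantCoeff).trace from
          AddMonoidHom.map_trace (MvPowerSeries.constantCoeff (R := O)).toAddMonoidHom Φ,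
          constantCoeff_locFrob] at this
        simpa [signCast] using this
  choose τ hτ using key
  refine ⟨τ, Ideal.span_le.2 (Set.iUnion_subset fun r => (hτ r).1), fun r hr => ?_,
    fun r => (hτ r).2⟩
  exact (hτ r).2.2.2 fun i j => hP (F.unramified L r hr i j)

variable [IsAdicComplete (maximalIdeal O) O] [Finite T]

/-- Every type is in the support of the patched module of its level. -/
theorem support_all_types (F : Family O T g Λ R ι qv Φ₀) [IsNoetherianRing R]
    (h2 : IsUnit (2 : O)) (hq : ∀ r, IsUnit (qv r : O) ∧ 1 < qv r) (hchar : CharZero O)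
    (L : Finset T) :
    ∀ τ : T → CompType, (∀ r, Compatible (qv r) (Φ₀ r) (τ r)) →
      (∀ r, τ r = .unramified ↔ r ∉ L) →
      ∃ P : Ideal R, P.IsPrime ∧ Module.annihilator R (F.M L) ≤ P ∧
        P.comap ι = typeIdeal qv Φ₀ τ := by
  classical
  induction L using Finset.induction_on with
  | empty =>
    intro τ hc hτ
    obtain ⟨d, ρ, hsc, hker, hd⟩ := exists_matrixAction (F.scalars ∅)
    have : NeZero d := ⟨hd F.nontrivial⟩
    have hne : Module.annihilator R (F.M ∅) ≠ ⊤ := by
      intro h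
      have := F.nontrivial
      obtain ⟨x, hx⟩ := exists_ne (0 : F.M ∅)
      exact hx (by simpa using Module.mem_annihilator.1 ((Ideal.eq_top_iff_one _).1 h) x)
    obtain ⟨m, hm, hle⟩ := Ideal.exists_le_maximal _ hne
    have := hm.isPrime
    obtain ⟨P₁, hP₁, -⟩ := Ideal.exists_minimalPrimes_le hle
    have := hP₁.1.1
    have hdim := dimGE_of_mem_minimalPrimes hsc (by rw [hker]; exact hP₁) F.dim
    obtain ⟨τ₁, hle₁, hout, -⟩ := exists_type_le F ∅ (fun r => (hq r).1) (P := P₁.comap ι)
      (Ideal.comap_mono hP₁.1.2)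
    obtain rfl : τ₁ = τ := funext fun r => by
      rw [hout r (Finset.notMem_empty r), (hτ r).2 (Finset.notMem_empty r)]
    have := typeIdeal_isPrime (g := g) qv Φ₀ τ₁ hc
    exact ⟨P₁, hP₁.1.1, hP₁.1.2, eq_of_le_of_dimGE hle₁
      (not_dimGE_typeIdeal qv Φ₀ τ₁ hc) (dimGE_comap ι (F.integral ∅) hP₁.1.2 hdim)⟩
  | @insert v L hv ih =>
    intro τ hc hτ
    obtain ⟨γ, hγ⟩ : ∃ γ, τ v = .steinberg γ := by
      cases h : τ v with
      | unramified => exact absurd (Finset.mem_insert_self v L) ((hτ v).1 h)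
      | steinberg γ => exact ⟨γ, rfl⟩
    set τ₀ := Function.update τ v .unramified
    have hc₀ : ∀ r, Compatible (qv r) (Φ₀ r) (τ₀ r) := fun r => by
      rcases eq_or_ne r v with rfl | hr
      · rw [show τ₀ r = .unramified from Function.update_self ..]
        have := hc r
        rw [hγ] at this
        exact ⟨this.1, this.2.1⟩
      · rw [show τ₀ r = τ r from Function.update_of_ne hr ..]; exact hc r
    have hτ₀ : ∀ r, τ₀ r = .unramified ↔ r ∉ L := fun r => by
      rcases eq_or_ne r v with rfl | hr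
      · rw [show τ₀ r = .unramified from Function.update_self ..]; exact iff_of_true rfl hv
      · rw [show τ₀ r = τ r from Function.update_of_ne hr .., hτ r, Finset.mem_insert]
        simp [hr]
    have hγc : Compatible (qv v) (Φ₀ v) (.steinberg γ) := hγ ▸ hc v
    obtain ⟨P', hP', hJP, heP, hP0, hPN⟩ := exists_raising_prime (g := g) qv Φ₀ τ₀ hc₀ v γ
      (Function.update_self ..) hγc (hq v).2
    have hins : ∀ r, r ∈ insert v L ↔ r = v ∨ r ∈ L := fun r => Finset.mem_insert
    obtain ⟨upΛ, left, hupΛ, hleft⟩ := F.up_split L v _ hv hins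
    obtain ⟨k, hk⟩ := F.new_part L v _ hv hins
    set e := (locFrob (g := g) Φ₀ v).trace ^ 2 - ((qv v : LocRing O T g) + 1) ^ 2
    obtain ⟨P₀, hP₀, hBP₀, hP₀τ⟩ := ih τ₀ hc₀ hτ₀
    obtain ⟨P, hP, hP₀P, rfl⟩ :=
      exists_prime_over_comap ι (F.integral L) hBP₀ (hP₀τ ▸ hJP)
    obtain ⟨P₁, hP₁, hP₁P', hBP₁, -, hdimR, i, j, hN'⟩ := exists_new_component
      (F.up L (insert v L)) upΛ hupΛ left hleft (F.scalars _) F.dim
      (P := P) (hBP₀.trans hP₀P) (F.down L _ (-γ))
      (F.down_surjective L v _ _ hv hins) (fun a => by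
        rw [F.down_up L v _ _ hv hins]
        refine Submodule.smul_mem_smul (show _ ∈ P.comap ι from ?_) Submodule.mem_top
        convert (P.comap ι).mul_mem_left (-(signCast γ : LocRing O T g)) heP using 1
        have hsq : (signCast γ : LocRing O T g) * signCast γ = 1 := by
          simp [signCast, ← Int.cast_mul, ← Units.val_mul]
        simp only [signCast, Units.val_neg, Int.cast_neg] at hsq ⊢
        linear_combination -((qv v : LocRing O T g) + 1) * hsq)
      hk (ι.mapMatrix (locMono v)) (fun Q hQ hBQ heQ hNQ hdQ => by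
        have := hQ
        obtain ⟨τ', hle', -, hτ'⟩ := exists_type_le F (insert v L) (fun r => (hq r).1)
          (P := Q.comap ι) (Ideal.comap_mono hBQ)
        exact not_dimGE_unramified_cut qv Φ₀ τ' (fun r => (hτ' r).1) v ((hτ' v).2.2 hNQ)
          (hq v).2 hle' ((Ideal.IsPrime.comap (K := Q) ι).mem_of_pow_mem k heQ)
          (dimGE_comap ι (F.integral _) hBQ hdQ))
    have := hP₁
    have hdim := dimGE_comap ι (F.integral _) hBP₁ hdimR
    have hN : locMono (g := g) (O := O) v i j ∉ P₁.comap ι := hN'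
    have hP₁P : P₁.comap ι ≤ P.comap ι := Ideal.comap_mono hP₁P'
    obtain ⟨τ₁, hle₁, hout, hτ₁⟩ := exists_type_le F (insert v L) (fun r => (hq r).1)
      (P := P₁.comap ι) (Ideal.comap_mono hBP₁)
    have htr : ∀ {γ₁ γ₂ : ℤˣ} {r : T},
        (locFrob (g := g) Φ₀ r).trace - signCast γ₁ * ((qv r : LocRing O T g) + 1) ∈ P.comap ι →
        (locFrob (g := g) Φ₀ r).trace - signCast γ₂ * ((qv r : LocRing O T g) + 1) ∈ P.comap ι →
        γ₁ = γ₂ := by
      intro γ₁ γ₂ r h h'
      by_contra hne
      have hmem : (MvPowerSeries.C ((((γ₁ : ℤ) - γ₂ : ℤ) : O) * ((qv r : O) + 1)) :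
          LocRing O T g) ∈ P.comap ι := by
        convert sub_mem h' h using 1
        simp [signCast, map_add, map_sub, map_mul]
        ring
      rcases mul_eq_zero.1 (hP0 _ hmem) with h0 | h0
      · exact hne (Units.ext (sub_eq_zero.1 (Int.cast_eq_zero.1 h0)))
      · exact absurd h0 (by exact_mod_cast (qv r).succ_ne_zero)
    have hmemrel : ∀ {σ : T → CompType} {I : Ideal (LocRing O T g)} {r : T} {γ' : ℤˣ},
        typeIdeal qv Φ₀ σ ≤ I → σ r = .steinberg γ' →
        (locFrob (g := g) Φ₀ r).trace - signCast γ' * ((qv r : LocRing O T g) + 1) ∈ I := by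
      intro σ I r γ' hle h
      refine hle (Ideal.subset_span (Set.mem_iUnion.2 ⟨r, ?_⟩))
      rw [h]
      exact Or.inl (Or.inl (Or.inr (Or.inl rfl)))
    obtain rfl : τ₁ = τ := funext fun r => by
      by_cases hr : r ∈ insert v L
      swap
      · rw [hout r hr, (hτ r).2 hr]
      obtain ⟨γ', hγ'⟩ : ∃ γ', τ r = .steinberg γ' := by
        cases h : τ r with
        | unramified => exact absurd hr ((hτ r).1 h)
        | steinberg γ => exact ⟨γ, rfl⟩
      have hPγ' : (locFrob (g := g) Φ₀ r).trace - signCast γ' * ((qv r : LocRing O T g) + 1)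
          ∈ P.comap ι := by
        rcases eq_or_ne r v with rfl | hrv
        · rw [hγ] at hγ'; cases hγ'; exact heP
        · exact hmemrel hJP ((Function.update_of_ne hrv ..).trans hγ')
      have hnot : τ₁ r ≠ .unramified := fun h => by
        rcases eq_or_ne r v with rfl | hrv
        · exact hN ((hτ₁ r).2.1 h i j)
        · obtain ⟨i', j', hij⟩ := hPN r γ' ((Function.update_of_ne hrv ..).trans hγ')
          exact hij (hP₁P ((hτ₁ r).2.1 h i' j'))
      obtain ⟨γ₁, hγ₁⟩ : ∃ γ₁, τ₁ r = .steinberg γ₁ := by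
        cases h : τ₁ r with
        | unramified => exact absurd h hnot
        | steinberg γ => exact ⟨γ, rfl⟩
      rw [hγ', hγ₁, htr (hP₁P (hmemrel hle₁ hγ₁)) hPγ']
    have := typeIdeal_isPrime (g := g) qv Φ₀ τ₁ hc
    exact ⟨P₁, hP₁, hBP₁, eq_of_le_of_dimGE hle₁ (not_dimGE_typeIdeal qv Φ₀ τ₁ hc) hdim⟩

end Fermat.Agent.Engine
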