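import Fermat.Agent.Engine.LevelRing
import Fermat.Agent.Engine.Evaluation
import Fermat.Agent.Frobenius.Exists
import Mathlib.RingTheory.Ideal.Cotangent

/-!
# Local coordinates modulo an ideal, and the further generators

When the first order points killing an ideal `K` of a level ring satisfy the condition at `p`, the
local coordinates generate the framed ring modulo `K`; what they miss is spanned by finitely many
generators, as many at every auxiliary level, whose powers fall into the extended maximal ideal up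
to any ideal containing, up to `p`, powers of the elements of `K`.
-/

set_option autoImplicit false

noncomputable section

open IsLocalRing GaloisRep Fermat.Agent.DefRing Fermat.Agent.Deform

namespace Fermat.Agent.Engine

local notation "Qbar" => AlgebraicClosure ℚ

section Ring

variable {R : Type*} [CommRing R]

/-- An ideal generated by finitely many elements with powers in `J` has a power in `J`. -/
theorem span_pow_le {J : Ideal R} {N : ℕ} (s : Finset R) (h : ∀ a ∈ s, a ^ N ∈ J) :
    Ideal.span (s : Set R) ^ (s.card * N + 1) ≤ J := by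
  classical
  induction s using Finset.induction with
  | empty => simp
  | insert a s ha ih =>
    rw [Finset.coe_insert, Ideal.span_insert, Finset.card_insert_of_notMem ha,
      show (s.card + 1) * N + 1 = N + (s.card * N + 1) by ring]
    refine Ideal.sup_pow_add_le_pow_sup_pow.trans (sup_le ?_ ?_)
    · rw [Ideal.span_singleton_pow, Ideal.span_le]
      simpa using h a (Finset.mem_insert_self a s)
    · exact ih fun b hb => h b (Finset.mem_insert_of_mem hb)

/-- An ideal inside the maximal ideal is generated, modulo the square of the maximal ideal, by as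
many of its elements as the maximal ideal needs. -/
theorem exists_finset_le_sup_sq [IsLocalRing R] [IsNoetherianRing R] (G : Finset R)
    (hGm : ∀ g ∈ G, g ∈ maximalIdeal R) (hG : maximalIdeal R ≤ Ideal.span (G : Set R) ⊔ maximalIdeal R ^ 2) {K : Ideal R}
    (hK : K ≤ maximalIdeal R) :
    ∃ s : Finset R, (s : Set R) ⊆ K ∧ s.card ≤ G.card ∧
      K ≤ Ideal.span (s : Set R) ⊔ maximalIdeal R ^ 2 := by
  classical
  set m := maximalIdeal R
  have hdim : Module.finrank (ResidueField R) (CotangentSpace R) ≤ G.card := by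
    let G' : Finset R := G.filter (· ∈ m)
    let S : Set (CotangentSpace R) :=
      Set.range fun g : G' => m.toCotangent ⟨g, (Finset.mem_filter.1 g.2).2⟩
    have hS : Submodule.span (ResidueField R) S = ⊤ := by
      refine top_le_iff.1 fun z _ => ?_
      obtain ⟨x, rfl⟩ := m.toCotangent_surjective z
      obtain ⟨y, hy, w, hw, hxy⟩ := Submodule.mem_sup.1 (hG x.2)
      obtain ⟨c, hc⟩ := Submodule.mem_span_finset'.1 hy
      have hz : m.toCotangent x = m.toCotangent ⟨y, by
          have := sub_mem x.2 (Ideal.pow_le_self two_ne_zero hw)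
          rwa [← hxy, add_sub_cancel_right] at this⟩ :=
        (Ideal.toCotangent_eq m).2 (by show (x : R) - y ∈ m ^ 2; rw [← hxy, add_sub_cancel_left]; exact hw)
      rw [hz]
      have hall : ∀ g ∈ G, g ∈ m := hGm
      have hy' : (⟨y, by rw [← hc]; exact Submodule.sum_mem _ fun g _ =>
          Submodule.smul_mem _ _ (hall g g.2)⟩ : m) =
          ∑ g : G, c g • (⟨g, hall g g.2⟩ : m) := Subtype.ext (by simp [← hc])
      rw [hy', map_sum]
      refine Submodule.sum_mem _ fun g _ => ?_
      rw [map_smul, ← IsScalarTower.algebraMap_smul (ResidueField R) (c g)]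
      exact Submodule.smul_mem _ _ (Submodule.subset_span
        ⟨⟨g, Finset.mem_filter.2 ⟨g.2, hall g g.2⟩⟩, rfl⟩)
    rw [← finrank_top, ← hS]
    exact (finrank_range_le_card (R := ResidueField R) _).trans
      (le_of_le_of_eq (by rw [Fintype.card_coe]; exact Finset.card_filter_le G _) rfl)
  let SK : Set (CotangentSpace R) := Set.range fun a : K => m.toCotangent ⟨a, hK a.2⟩
  obtain ⟨b, hbS, hspan, hli⟩ := exists_linearIndependent (ResidueField R) SK
  have : FiniteDimensional (ResidueField R) (CotangentSpace R) := inferInstance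
  have hbfin : b.Finite := Set.finite_coe_iff.1 hli.finite
  have hbcard : hbfin.toFinset.card ≤ G.card := by
    have : Fintype b := hbfin.fintype
    rw [Set.Finite.card_toFinset]
    exact hli.fintype_card_le_finrank.trans hdim
  choose lift hlift using fun z : b => hbS z.2
  refine ⟨hbfin.toFinset.attach.image fun z => (lift ⟨z.1, hbfin.mem_toFinset.1 z.2⟩ : R),
    fun a ha => ?_, Finset.card_image_le.trans (by rwa [Finset.card_attach]), fun a ha => ?_⟩
  · obtain ⟨z, -, rfl⟩ := Finset.mem_image.1 ha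
    exact (lift _).2
  · set s := hbfin.toFinset.attach.image fun z => (lift ⟨z.1, hbfin.mem_toFinset.1 z.2⟩ : R)
    have h1 : m.toCotangent ⟨a, hK ha⟩ ∈ Submodule.span R b := by
      have h2 : m.toCotangent ⟨a, hK ha⟩ ∈ Submodule.span (ResidueField R) b :=
        hspan ▸ Submodule.subset_span ⟨⟨a, ha⟩, rfl⟩
      rwa [← Submodule.restrictScalars_span R (ResidueField R) residue_surjective] at *
    obtain ⟨y, hy, hyeq⟩ : ∃ y : m, (y : R) ∈ Ideal.span (s : Set R) ∧
        m.toCotangent y = m.toCotangent ⟨a, hK ha⟩ := by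
      generalize m.toCotangent ⟨a, hK ha⟩ = z at h1 ⊢
      induction h1 using Submodule.span_induction with
      | mem z hz =>
        refine ⟨⟨_, hK (lift ⟨z, hz⟩).2⟩, Ideal.subset_span ?_, hlift ⟨z, hz⟩⟩
        exact Finset.mem_coe.2 (Finset.mem_image.2
          ⟨⟨z, hbfin.mem_toFinset.2 hz⟩, Finset.mem_attach _ _, rfl⟩)
      | zero => exact ⟨0, zero_mem _, map_zero _⟩
      | add z z' _ _ h h' =>
        obtain ⟨y, hy, rfl⟩ := h
        obtain ⟨y', hy', rfl⟩ := h'
        exact ⟨y + y', add_mem hy hy', map_add _ _ _⟩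
      | smul c z _ h =>
        obtain ⟨y, hy, rfl⟩ := h
        exact ⟨c • y, Submodule.smul_mem _ c hy, map_smul _ _ _⟩
    exact Submodule.mem_sup.2 ⟨y, hy, a - y, (Ideal.toCotangent_eq m).1 hyeq.symm, add_sub_cancel _ _⟩

end Ring

variable {O : Type} [CommRing O] [IsLocalRing O]

namespace LevelData

variable {L : LevelData O}

/-- Modulo an ideal whose first order points satisfy the condition at `p`, the local coordinates
generate the framed ring. -/
theorem RepRing.exists_coords_mod [Finite (ResidueField O)] [IsNoetherianRing O]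
    [IsAdicComplete (maximalIdeal O) O] (P : L.RepRing) {p : ℕ}
    (h2 : (2 : ResidueField O) ≠ 0) (h : L.IsResidual) (atP : CondAtP L.D.rbar p)
    (K : Ideal P.R) (hK : K ≤ maximalIdeal P.R)
    (hfirst : letI := dualAlgebra (𝒪 := O); ∀ φ : P.R →ₐ[O] DualNumber (ResidueField O),
      (∀ x ∈ K, φ x = 0) →
      (∀ σ, (mapRep (φ : P.R →+* DualNumber (ResidueField O)) P.rep σ).map TrivSqZeroExt.fst =
        L.D.rbar σ) →
      (∀ σ, (cocOf L.D.rbar (mapRep (φ : P.R →+* DualNumber (ResidueField O)) P.rep) σ).trace = 0) →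
      (fun σ : atP.place.decompositionSubgroup ℚ =>
        cocOf L.D.rbar (mapRep (φ : P.R →+* DualNumber (ResidueField O)) P.rep) (σ : GQ)) ∈ atP.cond)
    (T : Finset ℕ) (C : LocalChoices T) (r₀ : T) {g : ℕ}
    (hbound : ∀ W : Submodule (ResidueField O) (TangentPair (ResidueField O) T),
      (∀ x ∈ W, IsTangentPair L.D.rbar L.Smin L.Sigma T C atP x) →
      FiniteDimensional (ResidueField O) W ∧ Module.finrank (ResidueField O) W ≤ g + 4)
    (htame : ∀ r, L.D.rbar (C.tame r) = 1) (Φ₀ : T → Matrix (Fin 2) (Fin 2) O)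
    (hΦ₀ : ∀ r, (Φ₀ r).map (residue O) = L.D.rbar (C.frob r)) :
    ∃ θ : LocRing O T g →ₐ[O] P.Framed r₀, IsLocalHom (θ : LocRing O T g →+* P.Framed r₀) ∧
      (∀ r, (locFrob (g := g) Φ₀ r).map θ = framedRep r₀ P.R P.rep r (C.frob r) ∧
        (locMono (g := g) (O := O) r).map θ = framedRep r₀ P.R P.rep r (C.tame r) - 1) ∧
      maximalIdeal (P.Framed r₀) ≤
        (maximalIdeal (LocRing O T g)).map (θ : LocRing O T g →+* P.Framed r₀) ⊔
          K.map MvPowerSeries.C ⊔ maximalIdeal (P.Framed r₀) ^ 2 := by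
  classical
  let := dualAlgebra (𝒪 := O)
  set R' := P.R ⧸ K
  set π : P.R →ₐ[O] R' := Ideal.Quotient.mkₐ O K
  have hπs : Function.Surjective π := Ideal.Quotient.mk_surjective
  have : Nontrivial R' := Ideal.Quotient.nontrivial_iff.2 fun e =>
    (maximalIdeal.isMaximal P.R).ne_top (top_le_iff.1 (e ▸ hK))
  have : IsLocalRing R' := .of_surjective' (π : P.R →+* R') hπs
  have hπl : IsLocalHom (π : P.R →+* R') := IsLocalHom.of_surjective _ hπs
  have : IsAdicComplete (maximalIdeal R') R' := by
    have h1 := isAdicComplete_of_finite (C := R') P.R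
    rwa [show (maximalIdeal P.R).map (algebraMap P.R R') = maximalIdeal R' from ?_] at h1
    refine le_antisymm (Ideal.map_le_iff_le_comap.2 fun x hx =>
      map_nonunit (π : P.R →+* R') x hx) fun y hy => ?_
    obtain ⟨x, rfl⟩ := hπs y
    exact Ideal.mem_map_of_mem _ fun hu => hy (hu.map π)
  have hl : IsLocalHom (algebraMap O R') := by
    rw [show algebraMap O R' = (π : P.R →+* R').comp (algebraMap O P.R) from π.comp_algebraMap.symm]
    exact RingHom.isLocalHom_comp _ _
  have hs : Function.Surjective (residue R' ∘ algebraMap O R') := fun z => by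
    obtain ⟨y, rfl⟩ := IsLocalRing.residue_surjective z
    obtain ⟨x, rfl⟩ := hπs y
    obtain ⟨o, ho⟩ := P.residue_surjective (residue P.R x)
    refine ⟨o, ?_⟩
    show residue R' (algebraMap O R' o) = _
    rw [← π.commutes, ← RingHom.sub_mem_ker_iff, IsLocalRing.ker_residue]
    rw [Function.comp_apply, ← RingHom.sub_mem_ker_iff, IsLocalRing.ker_residue] at ho
    rw [← map_sub]
    exact map_nonunit (π : P.R →+* R') _ ho
  obtain ⟨θ', hθ'l, hθ's, hθ'⟩ := exists_surjective_locRing_lift (L := L) hl hs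
    (mapRep (π : P.R →+* R') P.rep) (P.isLift.normal.map π) (P.isLift.reduces.map π hπl)
    (P.isLift.cont.map _ hπl)
    ⟨fun σ => by
        show (π.mapMatrix (P.rep σ)).det = _
        rw [← AlgHom.map_det, P.isLift.eqs.det, AlgHom.commutes],
      fun q hq hqS A hA σ hσ => by
        rw [mapRep_apply, P.isLift.eqs.unram q hq hqS A hA σ hσ,
          Matrix.map_one _ (map_zero _) (map_one _)],
      fun q hq A hA σ hσ => by
        have := congrArg (π : P.R →+* R').mapMatrix (P.isLift.eqs.unipotent q hq A hA σ hσ)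
        rw [map_mul, map_sub, map_one, map_zero] at this
        exact this⟩
    (fun x => by
      obtain ⟨x, rfl⟩ := hπs x
      obtain ⟨s, hs', hxs⟩ := P.topGen x 2
      have h1 : π s ∈ (Algebra.adjoin O (entries P.rep)).map π := ⟨s, hs', rfl⟩
      rw [AlgHom.map_adjoin] at h1
      refine ⟨π s, Algebra.adjoin_mono ?_ h1, ?_⟩
      · rintro _ ⟨_, ⟨i, rfl⟩, rfl⟩
        exact ⟨i, rfl⟩
      · rw [← map_sub]
        exact mem_pow_of_algHom (π : P.R →+* R') hπl hxs)
    h2 h atP
    (fun φ hfst htr => by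
      have hcomp : mapRep ((φ.comp π : P.R →ₐ[O] _) : P.R →+* DualNumber (ResidueField O)) P.rep =
          mapRep (φ : R' →+* DualNumber (ResidueField O)) (mapRep (π : P.R →+* R') P.rep) := by
        rw [mapRep_mapRep]; rfl
      rw [← hcomp] at hfst htr ⊢
      refine hfirst (φ.comp π) (fun x hx => ?_) hfst htr
      show φ (π x) = 0
      rw [show π x = 0 from Ideal.Quotient.eq_zero_iff_mem.2 hx, map_zero])
    T C r₀ hbound htame Φ₀ hΦ₀
  -- lift the coordinates
  let πF : P.Framed r₀ →+* MvPowerSeries (FrameVar T r₀) R' := MvPowerSeries.map (π : P.R →+* R')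
  have hπF : Function.Surjective πF := fun f => by
    choose c hc using fun e => hπs (MvPowerSeries.coeff e f)
    exact ⟨c, MvPowerSeries.ext fun e => (MvPowerSeries.coeff_map _ _ _).trans (hc e)⟩
  let x : LocVar T g → P.Framed r₀ := Sum.elim
    (fun p => framedRep r₀ P.R P.rep p.1 (C.frob p.1) p.2.1 p.2.2 -
      algebraMap O (P.Framed r₀) (Φ₀ p.1 p.2.1 p.2.2))
    (Sum.elim (fun p => (framedRep r₀ P.R P.rep p.1 (C.tame p.1) - 1) p.2.1 p.2.2)
      fun l => (hπF (θ' (MvPowerSeries.X (Sum.inr (Sum.inr l))))).choose)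
  have hC' : ∀ o : O, (MvPowerSeries.C o : LocRing O T g) = algebraMap O _ o := fun o => by
    rw [MvPowerSeries.algebraMap_apply, Algebra.algebraMap_self, RingHom.id_apply]
  have hπalg : ∀ o, πF (algebraMap O (P.Framed r₀) o) = algebraMap O _ o := fun o => by
    simp only [πF, MvPowerSeries.algebraMap_apply, MvPowerSeries.map_C, RingHom.coe_coe,
      AlgHom.commutes]
  have hframe : ∀ r σ, (framedRep r₀ P.R P.rep r σ).map πF =
      framedRep r₀ R' (mapRep (π : P.R →+* R') P.rep) r σ := fun r σ => by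
    have hg : (genericFrame r₀ P.R r).map πF = genericFrame r₀ R' r := by
      ext a b
      simp only [genericFrame, frameVarMat, Matrix.map_apply, Matrix.add_apply, Matrix.of_apply,
        map_add, Matrix.one_apply]
      split_ifs <;> simp [πF]
    have hinv : ((isUnit_genericFrame r₀ P.R r).unit⁻¹ : (Matrix _ _ _)ˣ).1.map πF =
        ((isUnit_genericFrame r₀ R' r).unit⁻¹ : (Matrix _ _ _)ˣ).1 := by
      refine (Units.inv_eq_of_mul_eq_one_left (u := (isUnit_genericFrame r₀ R' r).unit) ?_).symm
      rw [IsUnit.unit_spec, ← hg, ← Matrix.map_mul, IsUnit.val_inv_mul,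
        Matrix.map_one _ (map_zero πF) (map_one πF)]
    show (_ * _ * _ : Matrix (Fin 2) (Fin 2) (P.Framed r₀)).map πF = _
    rw [Matrix.map_mul, Matrix.map_mul, hg, hinv, Matrix.map_map]
    show _ = _ * (((P.rep σ).map π).map MvPowerSeries.C) * _
    rw [Matrix.map_map]
    congr 2
    ext a b
    simp [πF]
  have hx' : ∀ i, πF (x i) = θ' (MvPowerSeries.X i) := by
    rintro (⟨r, a, b⟩ | ⟨r, a, b⟩ | l)
    · have h1 := congrFun (congrFun (hθ' r).1 a) b
      simp only [locFrob, Matrix.map_apply, Matrix.of_apply, map_add, hC', AlgHom.commutes] at h1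
      show πF (framedRep r₀ P.R P.rep r (C.frob r) a b - algebraMap O _ (Φ₀ r a b)) = _
      rw [map_sub, hπalg, ← Matrix.map_apply (f := πF), hframe, ← h1, add_sub_cancel_left]
    · have h1 := congrFun (congrFun (hθ' r).2 a) b
      simp only [locMono, Matrix.map_apply, Matrix.of_apply] at h1
      show πF ((framedRep r₀ P.R P.rep r (C.tame r) - 1) a b) = _
      rw [h1, ← hframe, Matrix.sub_apply, Matrix.sub_apply, map_sub, Matrix.map_apply]
      congr 1
      rw [Matrix.one_apply, Matrix.one_apply]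
      split_ifs <;> simp
    · exact (hπF (θ' (MvPowerSeries.X (Sum.inr (Sum.inr l))))).choose_spec
  have hxm : ∀ i, x i ∈ maximalIdeal (P.Framed r₀) := fun i hu => by
    have h1 := hu.map πF
    rw [hx' i] at h1
    exact (X_mem_maximalIdeal (O := O) i) (hθ'l.map_nonunit _ h1)
  have : IsAdicComplete (maximalIdeal (P.Framed r₀)) (P.Framed r₀) := P.isAdicComplete_framed r₀
  have : IsLocalHom (algebraMap O (P.Framed r₀)) := P.isLocalHom_framed r₀
  obtain ⟨θ, hθl, hθX⟩ := exists_algHom_powerSeries (B := O) x hxm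
  refine ⟨θ, hθl, fun r => ⟨?_, ?_⟩, fun f hf => ?_⟩
  · ext a b
    simp only [locFrob, Matrix.map_apply, Matrix.of_apply, map_add, hC', AlgHom.commutes, hθX]
    simp [x]
  · ext a b
    simp only [locMono, Matrix.map_apply, Matrix.of_apply, hθX]
    simp [x]
  obtain ⟨z, hz⟩ := hθ's (πF f)
  have hzm : z ∈ maximalIdeal (LocRing O T g) := fun hu => by
    have h1 := hu.map θ'
    rw [hz] at h1
    exact hf ((IsLocalHom.of_surjective πF hπF).map_nonunit f h1)
  set J₀ := (maximalIdeal (LocRing O T g)).map (θ : LocRing O T g →+* P.Framed r₀)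
  have hmap : (maximalIdeal (LocRing O T g)).map (θ' : LocRing O T g →+* _) ≤ J₀.map πF := by
    refine (Ideal.map_mono maximalIdeal_mvPowerSeries_le).trans ?_
    rw [Ideal.map_sup, Ideal.map_map, Ideal.map_span]
    refine sup_le (Ideal.map_le_iff_le_comap.2 fun o ho => ?_) (Ideal.span_le.2 ?_)
    · rw [Ideal.mem_comap, RingHom.comp_apply, RingHom.coe_coe, hC', AlgHom.commutes, ← hπalg,
        ← θ.commutes o, ← hC']
      refine Ideal.mem_map_of_mem _ (Ideal.mem_map_of_mem _ ?_)
      rwa [mem_maximalIdeal_iff_constantCoeff, MvPowerSeries.constantCoeff_C]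
    · rintro _ ⟨_, ⟨i, rfl⟩, rfl⟩
      rw [SetLike.mem_coe, RingHom.coe_coe, ← hx', ← hθX]
      exact Ideal.mem_map_of_mem _ (Ideal.mem_map_of_mem _ (X_mem_maximalIdeal i))
  have h1 : πF f ∈ J₀.map πF := hz ▸ hmap (Ideal.mem_map_of_mem _ hzm)
  obtain ⟨j, hj, hjf⟩ := (Ideal.mem_map_iff_of_surjective πF hπF).1 h1
  -- the kernel of the reduction
  have hker : ∀ e : P.Framed r₀, πF e = 0 →
      e ∈ K.map MvPowerSeries.C ⊔ maximalIdeal (P.Framed r₀) ^ 2 := by
    intro e he
    have hcoef : ∀ d, MvPowerSeries.coeff d e ∈ K := fun d => by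
      refine Ideal.Quotient.eq_zero_iff_mem.1 ?_
      have := congrArg (MvPowerSeries.coeff d) he
      rwa [map_zero, MvPowerSeries.coeff_map] at this
    have h2 := Ideal.pow_right_mono span_X_le_maximalIdeal 2 (sub_truncTotal_mem_span_pow e 2)
    rw [← add_sub_cancel (MvPowerSeries.truncTotal 2 e : P.Framed r₀) e]
    refine add_mem ?_ (Ideal.mem_sup_right h2)
    refine Ideal.mem_sup_left ?_
    have hev : ((MvPowerSeries.truncTotal 2 e : MvPolynomial _ P.R) : P.Framed r₀) =
        MvPolynomial.eval₂ MvPowerSeries.C MvPowerSeries.X (MvPowerSeries.truncTotal 2 e) :=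
      RingHom.congr_fun (show (MvPolynomial.coeToMvPowerSeries.ringHom :
          MvPolynomial (FrameVar T r₀) P.R →+* P.Framed r₀) =
        MvPolynomial.eval₂Hom (MvPowerSeries.C : P.R →+* P.Framed r₀) MvPowerSeries.X from
        MvPolynomial.ringHom_ext (fun o => by simp) fun i => by simp) _
    rw [hev, MvPolynomial.eval₂_eq']
    refine Submodule.sum_mem _ fun d _ => Ideal.mul_mem_right _ _ (Ideal.mem_map_of_mem _ ?_)
    rw [MvPowerSeries.coeff_truncTotal_eq_ite]
    split_ifs
    · exact hcoef d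
    · exact zero_mem _
  rw [sup_assoc, ← add_sub_cancel j f]
  exact add_mem (Ideal.mem_sup_left hj)
    (Ideal.mem_sup_right (hker _ (by rw [map_sub, hjf, sub_self])))

/-- The further generators: lifts of generators of the base and the tame entries at the auxiliary
primes. -/
theorem RepRing.exists_further_generators [Finite (ResidueField O)] [IsNoetherianRing O]
    [IsAdicComplete (maximalIdeal O) O] (p : ℕ) [Fact p.Prime] [CharP (ResidueField O) p]
    (L₀ : LevelData O) (h₀ : L₀.IsResidual) (PB : L₀.RepRing) (G : Finset PB.R)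
    (hG : Ideal.span (G : Set PB.R) = maximalIdeal PB.R) {r : ℕ} (Q : Fin r → ℕ)
    (hQ : ∀ i, (Q i).Prime) (hQp : ∀ i, Q i ≠ p) (hQmem : ∀ i, Q i ∉ L₀.Sigma)
    (P : (L₀.withSigma (L₀.Sigma ∪ Finset.univ.image Q)).RepRing) :
    ∃ extra : Fin (G.card + r * 4) → P.R, (∀ i, extra i ∈ maximalIdeal P.R) ∧
      maximalIdeal P.R ≤ Ideal.span (Set.range extra) := by
  classical
  choose A hA using fun i => Frobenius.exists_liesOverPrime Qbar (hQ i)
  choose τ hτ using fun i =>
    TameInertia.exists_tameGenerator (p := p) (Fact.out) (hQ i) (Ne.symm (hQp i)) (hA i)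
  -- the map to the base
  obtain ⟨φ, ⟨hφl, hφ⟩, -⟩ := P.universal PB.R PB.instIsLocalHom PB.residue_surjective PB.rep
    (PB.isLift.mono (L := L₀.withSigma (L₀.Sigma ∪ Finset.univ.image Q))
      Finset.subset_union_left)
  have := hφl
  have hφs : Function.Surjective φ := by
    refine surjective_of_cotangent (φ : P.R →+* PB.R) (fun z => ?_) (fun x hx => ?_)
    · obtain ⟨o, ho⟩ := PB.residue_surjective z
      exact ⟨algebraMap O _ o, by rw [← ho]; exact congrArg (residue PB.R) (φ.commutes o)⟩
    · obtain ⟨s, hs, hxs⟩ := PB.topGen x 2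
      have hle : Algebra.adjoin O (entries PB.rep) ≤ φ.range := Algebra.adjoin_le (by
        rintro _ ⟨⟨σ, a, b⟩, rfl⟩
        exact ⟨P.rep σ a b, congrFun (congrFun (DFunLike.congr_fun hφ σ) a) b⟩)
      obtain ⟨t, rfl⟩ := hle hs
      have ht : t ∈ maximalIdeal P.R := fun hu => by
        have h1 : φ t ∈ maximalIdeal PB.R := by
          have := sub_mem hx (Ideal.pow_le_self two_ne_zero hxs)
          simpa using this
        exact h1 (hu.map φ)
      exact Submodule.mem_sup.mpr ⟨_, Ideal.mem_map_of_mem _ ht, _, hxs, by simp⟩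
  choose lift hlift using fun g : G => hφs g
  let ext₂ : Fin r × Fin 2 × Fin 2 → P.R := fun v => (P.rep (τ v.1) - 1) v.2.1 v.2.2
  let e : Fin (G.card + r * 4) ≃ G ⊕ Fin r × Fin 2 × Fin 2 :=
    finSumFinEquiv.symm.trans (Equiv.sumCongr G.equivFin.symm
      (Fintype.equivFinOfCardEq (by simp)).symm)
  let extra : Fin (G.card + r * 4) → P.R := fun i => Sum.elim lift ext₂ (e i)
  have hrange : Set.range extra = Set.range lift ∪ Set.range ext₂ := by
    rw [show extra = Sum.elim lift ext₂ ∘ e from rfl, Set.range_comp, e.surjective.range_eq,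
      Set.image_univ, Set.Sum.elim_range]
  have hres1 : ∀ i, ∀ Pl : ValuationSubring Qbar, Pl.LiesOverPrime (Q i) →
      ∀ σ ∈ Pl.inertiaSubgroupIn ℚ, ∀ a b, (P.rep σ - 1) a b ∈ maximalIdeal P.R := by
    intro i Pl hPl σ hσ a b
    rw [← toResidue_eq_zero_iff P.instIsLocalHom P.residue_surjective, Matrix.sub_apply, map_sub,
      show toResidue P.instIsLocalHom P.residue_surjective (P.rep σ a b) = L₀.D.rbar σ a b from
        congrFun (congrFun (DFunLike.congr_fun P.isLift.reduces σ) a) b,
      h₀.eqs.unram (Q i) (hQ i) (hQmem i) Pl hPl σ hσ, Matrix.one_apply, Matrix.one_apply]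
    split_ifs <;> simp
  refine ⟨extra, fun i => ?_, ?_⟩
  · show Sum.elim lift ext₂ (e i) ∈ maximalIdeal P.R
    rcases e i with g | v
    · intro hu
      have h1 : (g : PB.R) ∈ maximalIdeal PB.R := hG ▸ Ideal.subset_span g.2
      exact h1 (hlift g ▸ hu.map φ)
    · exact hres1 v.1 _ (hA v.1) _ (hτ v.1).1 _ _
  rw [hrange, Ideal.span_union]
  set I := Ideal.span (Set.range ext₂)
  have hIm : I ≤ maximalIdeal P.R :=
    Ideal.span_le.2 (by rintro _ ⟨v, rfl⟩; exact hres1 v.1 _ (hA v.1) _ (hτ v.1).1 _ _)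
  -- the kernel of the map to the base is generated by the tame entries
  set R' := P.R ⧸ I
  set π : P.R →ₐ[O] R' := Ideal.Quotient.mkₐ O I
  have hπs : Function.Surjective π := Ideal.Quotient.mk_surjective
  have : Nontrivial R' := Ideal.Quotient.nontrivial_iff.2 fun e' =>
    (maximalIdeal.isMaximal P.R).ne_top (top_le_iff.1 (e' ▸ hIm))
  have : IsLocalRing R' := .of_surjective' (π : P.R →+* R') hπs
  have hπl : IsLocalHom (π : P.R →+* R') := IsLocalHom.of_surjective _ hπs
  have : IsAdicComplete (maximalIdeal R') R' := by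
    have h1 := isAdicComplete_of_finite (C := R') P.R
    rwa [show (maximalIdeal P.R).map (algebraMap P.R R') = maximalIdeal R' from ?_] at h1
    refine le_antisymm (Ideal.map_le_iff_le_comap.2 fun x hx =>
      map_nonunit (π : P.R →+* R') x hx) fun y hy => ?_
    obtain ⟨x, rfl⟩ := hπs y
    exact Ideal.mem_map_of_mem _ fun hu => hy (hu.map π)
  have hl : IsLocalHom (algebraMap O R') := by
    rw [show algebraMap O R' = (π : P.R →+* R').comp (algebraMap O P.R) from π.comp_algebraMap.symm]
    exact RingHom.isLocalHom_comp _ _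
  have hs : Function.Surjective (residue R' ∘ algebraMap O R') := fun z => by
    obtain ⟨y, rfl⟩ := IsLocalRing.residue_surjective z
    obtain ⟨x, rfl⟩ := hπs y
    obtain ⟨o, ho⟩ := P.residue_surjective (residue P.R x)
    refine ⟨o, ?_⟩
    show residue R' (algebraMap O R' o) = _
    rw [← π.commutes, ← RingHom.sub_mem_ker_iff, IsLocalRing.ker_residue]
    rw [Function.comp_apply, ← RingHom.sub_mem_ker_iff, IsLocalRing.ker_residue] at ho
    rw [← map_sub]
    exact map_nonunit (π : P.R →+* R') _ ho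
  set N' := mapRep (π : P.R →+* R') P.rep
  have hN'cont : IsCont N' := P.isLift.cont.map _ hπl
  have hfinR' : Finite (ResidueField R') := Finite.of_surjective
    (fun z : ResidueField O => IsLocalRing.ResidueField.map (algebraMap O R') z) fun z => by
      obtain ⟨o, ho⟩ := hs z
      exact ⟨residue O o, ho⟩
  have hchar : CharP (ResidueField R') p := by
    have h1 : Function.Injective (IsLocalRing.ResidueField.map (algebraMap O R')) :=
      RingHom.injective _
    exact charP_of_injective_ringHom h1 p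
  have hlift' : L₀.IsRepLift hl hs N' := by
    refine ⟨P.isLift.normal.map π, P.isLift.reduces.map π hπl, hN'cont,
      ⟨fun σ => ?_, fun q hq hqS Pl hPl σ hσ => ?_, fun q hq Pl hPl σ hσ => ?_⟩, ?_⟩
    · show (π.mapMatrix (P.rep σ)).det = _
      rw [← AlgHom.map_det, P.isLift.eqs.det, AlgHom.commutes]
      rfl
    · by_cases hqQ : ∃ i, Q i = q
      · obtain ⟨i, rfl⟩ := hqQ
        obtain ⟨fr, hfr⟩ := Frobenius.exists_isFrobeniusAt_qbar (hQ i) (hA i)
        obtain ⟨y, hy⟩ := IsAlgClosed.exists_pow_nat_eq ((Q i : ℕ) : Qbar) (Fact.out : p.Prime).pos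
        refine (frob_tame_relation p N' hN'cont (hQ i) (hQp i) (A i) (hA i)
          (fun σ' hσ' a b => ?_) fr (τ i) hfr (hτ i).1 ⟨y, hy, (hτ i).2 y hy⟩).2 ?_ Pl hPl σ hσ
        · have h1 := map_nonunit (π : P.R →+* R') _ (hres1 i (A i) (hA i) σ' hσ' a b)
          show ((P.rep σ').map π - 1) a b ∈ _
          convert h1 using 1
          rw [RingHom.coe_coe, Matrix.sub_apply, Matrix.sub_apply, map_sub, Matrix.map_apply]
          congr 1
          rw [Matrix.one_apply, Matrix.one_apply]
          split_ifs <;> simp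
        · refine sub_eq_zero.1 (Matrix.ext fun a b => ?_)
          have h1 : π (ext₂ (i, a, b)) = 0 :=
            Ideal.Quotient.eq_zero_iff_mem.2 (Ideal.subset_span ⟨_, rfl⟩)
          refine Eq.trans ?_ h1
          show ((P.rep (τ i)).map π - 1) a b = π ((P.rep (τ i) - 1) a b)
          rw [Matrix.sub_apply, Matrix.sub_apply, map_sub, Matrix.map_apply]
          congr 1
          rw [Matrix.one_apply, Matrix.one_apply]
          split_ifs <;> simp
      · show (P.rep σ).map π = 1
        rw [P.isLift.eqs.unram q hq (fun hm => ?_) Pl hPl σ hσ,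
          Matrix.map_one _ (map_zero _) (map_one _)]
        rcases Finset.mem_union.1 hm with hm | hm
        · exact hqS hm
        · obtain ⟨i, -, hi⟩ := Finset.mem_image.1 hm
          exact hqQ ⟨i, hi⟩
    · have := congrArg (π : P.R →+* R').mapMatrix (P.isLift.eqs.unipotent q hq Pl hPl σ hσ)
      rw [map_mul, map_sub, map_one, map_zero] at this
      exact this
    · intro B _ _ _ hB q hq hqs
      exact P.isLift.atPlace hB (q.comp π)
        (have : IsLocalHom (q : R' →+* B) := hq
         RingHom.isLocalHom_comp (q : R' →+* B) (π : P.R →+* R')) (hqs.comp hπs)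
  obtain ⟨ψ, ⟨hψl, hψ⟩, -⟩ := PB.universal R' hl hs N' hlift'
  obtain ⟨u, -, huniq⟩ := P.universal R' hl hs N'
    (hlift'.mono (L := L₀.withSigma (L₀.Sigma ∪ Finset.univ.image Q)) Finset.subset_union_left)
  have hcomp : ψ.comp φ = π := by
    rw [huniq π ⟨hπl, rfl⟩]
    refine huniq (ψ.comp φ) ⟨?_, ?_⟩
    · exact RingHom.isLocalHom_comp (ψ : PB.R →+* R') (φ : P.R →+* PB.R)
    · rw [← hψ, ← hφ, mapRep_mapRep]
      rfl
  intro z hz
  have h1 : φ z ∈ maximalIdeal PB.R := map_nonunit (φ : P.R →+* PB.R) z hz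
  have h2' : (Ideal.span (Set.range lift)).map (φ : P.R →+* PB.R) = maximalIdeal PB.R := by
    rw [Ideal.map_span, ← Set.range_comp, ← hG]
    congr 1
    ext v
    simp [hlift]
  obtain ⟨y, hy, hyz⟩ := (Ideal.mem_map_iff_of_surjective (φ : P.R →+* PB.R) hφs).1 (h2' ▸ h1)
  rw [← add_sub_cancel y z]
  refine add_mem (Ideal.mem_sup_left hy) (Ideal.mem_sup_right ?_)
  refine Ideal.Quotient.eq_zero_iff_mem.1 ?_
  show π (z - y) = 0
  rw [← hcomp, AlgHom.comp_apply, map_sub φ, show φ y = φ z from hyz, sub_self, map_zero]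

/-- Generation and nilpotence of the further generators. -/
theorem RepRing.extra_spec [Finite (ResidueField O)] [IsNoetherianRing O]
    [IsAdicComplete (maximalIdeal O) O] (P : L.RepRing) {T : Type} [Finite T] (r₀ : T) {g : ℕ}
    {θ : LocRing O T g →ₐ[O] P.Framed r₀} (hθl : IsLocalHom (θ : LocRing O T g →+* P.Framed r₀))
    {c : ℕ} (extra : Fin c → P.R) (hext : ∀ i, extra i ∈ maximalIdeal P.R)
    (hm : maximalIdeal P.R ≤ Ideal.span (Set.range extra)) {K : Ideal P.R}
    (hK : K ≤ maximalIdeal P.R)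
    (hθ : maximalIdeal (P.Framed r₀) ≤
      (maximalIdeal (LocRing O T g)).map (θ : LocRing O T g →+* P.Framed r₀) ⊔
        K.map MvPowerSeries.C ⊔ maximalIdeal (P.Framed r₀) ^ 2) :
    (∃ Φ : MvPowerSeries (Fin c) (LocRing O T g) →+* P.Framed r₀, Function.Surjective Φ ∧
      (∀ x, Φ (MvPowerSeries.C x) = θ x) ∧
        ∀ i, Φ (MvPowerSeries.X i) = MvPowerSeries.C (extra i)) ∧
    ∀ {p N : ℕ}, (p : O) ∈ maximalIdeal O → ∀ J : Ideal P.R,
      (∀ x ∈ K, x ^ N ∈ Ideal.span {(p : P.R)} ⊔ J) → ∀ i,
        (MvPowerSeries.C (extra i) : P.Framed r₀) ^ (1 + (c * N + 1)) ∈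
          Ideal.span (Set.image θ
            {x : LocRing O T g | MvPowerSeries.constantCoeff x ∈ maximalIdeal O}) ⊔
          J.map MvPowerSeries.C := by
  classical
  set F := P.Framed r₀
  set m₁ := (maximalIdeal (LocRing O T g)).map (θ : LocRing O T g →+* F)
  have hCm : (maximalIdeal P.R).map (MvPowerSeries.C : P.R →+* F) ≤ maximalIdeal F :=
    Ideal.map_le_iff_le_comap.2 fun x hx => by
      rw [Ideal.mem_comap, mem_maximalIdeal_iff_constantCoeff, MvPowerSeries.constantCoeff_C]
      exact hx
  obtain ⟨s, hsK, hscard, hsle⟩ := exists_finset_le_sup_sq (Finset.univ.image extra)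
    (fun a ha => by
      obtain ⟨i, -, rfl⟩ := Finset.mem_image.1 ha
      exact hext i)
    (by rw [Finset.coe_image, Finset.coe_univ, Set.image_univ]; exact le_sup_of_le_left hm) hK
  have hscard' : s.card ≤ c := hscard.trans (Finset.card_image_le.trans (by simp))
  have hKC : K.map (MvPowerSeries.C : P.R →+* F) ≤
      (Ideal.span (s : Set P.R)).map MvPowerSeries.C ⊔ maximalIdeal F ^ 2 := by
    refine (Ideal.map_mono hsle).trans ?_
    rw [Ideal.map_sup, Ideal.map_pow]
    exact sup_le_sup le_rfl (Ideal.pow_right_mono hCm 2)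
  have hmain : maximalIdeal F ≤ m₁ ⊔ (Ideal.span (s : Set P.R)).map MvPowerSeries.C := by
    refine Submodule.le_of_le_smul_of_le_jacobson_bot (I := maximalIdeal F)
      (IsNoetherian.noetherian _) (IsLocalRing.maximalIdeal_le_jacobson _) ?_
    rw [smul_eq_mul, ← pow_two]
    refine hθ.trans (sup_le (sup_le ?_ ?_) le_sup_right)
    · exact le_sup_of_le_left le_sup_left
    · exact hKC.trans (sup_le (le_sup_of_le_left le_sup_right) le_sup_right)
  have : IsAdicComplete (maximalIdeal F) F := P.isAdicComplete_framed r₀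
  have hextF : ∀ i, (MvPowerSeries.C (extra i) : F) ∈ maximalIdeal F := fun i =>
    hCm (Ideal.mem_map_of_mem _ (hext i))
  refine ⟨?_, fun {p N} hp J hJ i => ?_⟩
  · obtain ⟨Φ, hC, hX⟩ := exists_eval (J := maximalIdeal F) (θ : LocRing O T g →+* F)
      (fun i => (MvPowerSeries.C (extra i) : F)) hextF
    have : IsAdicComplete (maximalIdeal (LocRing O T g)) (LocRing O T g) :=
      isAdicComplete_mvPowerSeries
    have : IsAdicComplete (maximalIdeal (MvPowerSeries (Fin c) (LocRing O T g)))
        (MvPowerSeries (Fin c) (LocRing O T g)) := isAdicComplete_mvPowerSeries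
    have hle : (maximalIdeal (MvPowerSeries (Fin c) (LocRing O T g))).map Φ ≤ maximalIdeal F := by
      refine (Ideal.map_mono maximalIdeal_mvPowerSeries_le).trans ?_
      rw [Ideal.map_sup, Ideal.map_map, Ideal.map_span]
      refine sup_le (Ideal.map_le_iff_le_comap.2 fun a ha => ?_) (Ideal.span_le.2 ?_)
      · rw [Ideal.mem_comap, RingHom.comp_apply, hC]
        exact map_nonunit (θ : LocRing O T g →+* F) a ha
      · rintro _ ⟨_, ⟨i, rfl⟩, rfl⟩
        rw [SetLike.mem_coe, hX]
        exact hextF i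
    have : IsLocalHom Φ := ⟨fun a ha => by
      by_contra hu
      exact hle (Ideal.mem_map_of_mem Φ hu) ha⟩
    refine ⟨Φ, surjective_of_cotangent Φ (fun z => ?_) (le_sup_of_le_left ?_), hC, hX⟩
    · obtain ⟨o, ho⟩ := P.residue_surjective_framed r₀ z
      refine ⟨MvPowerSeries.C (algebraMap O (LocRing O T g) o), ?_⟩
      rw [Function.comp_apply, hC, RingHom.coe_coe, AlgHom.commutes]
      exact ho
    · refine hmain.trans (sup_le ?_ ?_)
      · refine Ideal.map_le_iff_le_comap.2 fun a ha => ?_
        rw [Ideal.mem_comap, ← hC]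
        refine Ideal.mem_map_of_mem _ ?_
        rwa [mem_maximalIdeal_iff_constantCoeff, MvPowerSeries.constantCoeff_C]
      · refine le_trans (Ideal.map_mono ((Ideal.span_le.2 fun x hx => hK (hsK hx)).trans hm)) ?_
        rw [Ideal.map_span, Ideal.span_le]
        rintro _ ⟨_, ⟨i, rfl⟩, rfl⟩
        rw [SetLike.mem_coe, ← hX]
        exact Ideal.mem_map_of_mem _ (X_mem_maximalIdeal i)
  · have hset : Ideal.span (Set.image θ
        {x : LocRing O T g | MvPowerSeries.constantCoeff x ∈ maximalIdeal O}) = m₁ := by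
      rw [show m₁ = Ideal.span (Set.image θ (maximalIdeal (LocRing O T g) : Set (LocRing O T g)))
        from rfl]
      congr 2
      ext x
      exact (mem_maximalIdeal_iff_constantCoeff x).symm
    rw [hset]
    have h1 := Ideal.pow_mem_pow (hmain (hextF i)) (1 + (c * N + 1))
    refine Ideal.sup_pow_add_le_pow_sup_pow.trans ?_ h1
    rw [pow_one, ← Ideal.map_pow]
    have hpow : Ideal.span (s : Set P.R) ^ (c * N + 1) ≤ Ideal.span {(p : P.R)} ⊔ J :=
      le_trans (Ideal.pow_le_pow_right (by gcongr)) (span_pow_le s fun a ha => hJ a (hsK ha))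
    refine sup_le le_sup_left ((Ideal.map_mono hpow).trans ?_)
    rw [Ideal.map_sup, Ideal.map_span, Set.image_singleton, map_natCast]
    refine sup_le_sup (Ideal.span_le.2 ?_) le_rfl
    rw [Set.singleton_subset_iff, SetLike.mem_coe, ← map_natCast (θ : LocRing O T g →+* F)]
    refine Ideal.mem_map_of_mem _ ?_
    rw [mem_maximalIdeal_iff_constantCoeff, map_natCast]
    exact hp

end LevelData

end Fermat.Agent.Engine
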