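import Fermat.Agent.Engine.Levels
import Fermat.Agent.Engine.Evaluation
import Mathlib.RingTheory.IntegralClosure.Algebra.Basic
import Mathlib.RepresentationTheory.Maschke
import Mathlib.RingTheory.SimpleModule.Basic
import Mathlib.RingTheory.Filtration

/-!
# The coefficient ring `TwQuot` of an auxiliary level

`O[[S]] ⧸ ((1 + S_i) ^ N - 1)` for `N = p ^ (n + 1)` is the polynomial quotient, hence finite over
`O`, local and complete; it embeds in the group algebra of `(ℤ/N) ^ r`, hence is reduced and
without torsion.
-/

set_option autoImplicit false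
set_option linter.unusedSectionVars false

noncomputable section

namespace Fermat.Agent.Engine

open IsLocalRing

/-- Completeness only depends on the ideal up to powers. -/
theorem isAdicComplete_of_pow_le {C : Type*} [CommRing C] {I J : Ideal C} [IsAdicComplete I C]
    (h₁ : I ≤ J) {k : ℕ} (h₂ : J ^ k ≤ I) : IsAdicComplete J C := by
  have hIJ : ∀ n, I ^ n ≤ J ^ n := fun n => Ideal.pow_right_mono h₁ n
  have hJI : ∀ n, J ^ (k * n) ≤ I ^ n := fun n => by
    rw [pow_mul]; exact Ideal.pow_right_mono h₂ n
  have hJI' : ∀ n, J ^ ((k + 1) * n) ≤ I ^ n := fun n =>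
    (Ideal.pow_le_pow_right (Nat.mul_le_mul_right n k.le_succ)).trans (hJI n)
  refine { haus' := fun x hx => ?_, prec' := fun f hf => ?_ }
  · refine IsHausdorff.haus (inferInstance : IsHausdorff I C) x fun n => ?_
    have := hx (k * n)
    rw [SModEq.zero, smul_eq_mul, Ideal.mul_top] at this ⊢
    exact hJI n this
  · obtain ⟨L, hL⟩ := IsPrecomplete.prec (inferInstance : IsPrecomplete I C)
      (f := fun n => f ((k + 1) * n)) fun {a b} hab => by
        have := hf (Nat.mul_le_mul_left (k + 1) hab)
        rw [SModEq.sub_mem, smul_eq_mul, Ideal.mul_top] at this ⊢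
        exact hJI' a this
    refine ⟨L, fun n => ?_⟩
    have h1 := hL n
    have h2 := hf (show n ≤ (k + 1) * n from Nat.le_mul_of_pos_left n k.succ_pos)
    rw [SModEq.sub_mem, smul_eq_mul, Ideal.mul_top] at h1 h2 ⊢
    have := add_mem (hIJ n h1) h2
    simpa using this

variable (O : Type) [CommRing O] (p r n : ℕ)

/-- The relations among polynomials. -/
def twPolyIdeal : Ideal (MvPolynomial (Fin r) O) :=
  Ideal.span (Set.range fun i => (1 + MvPolynomial.X i) ^ p ^ (n + 1) - 1)

/-- The polynomial quotient. -/
abbrev TwPoly : Type := MvPolynomial (Fin r) O ⧸ twPolyIdeal O p r n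

/-- The variables in the polynomial quotient. -/
def twPolyVar (i : Fin r) : TwPoly O p r n := Ideal.Quotient.mk _ (MvPolynomial.X i)

/-- `1 + X` has order dividing `p ^ (n + 1)` in the polynomial quotient. -/
theorem one_add_twPolyVar_pow (i : Fin r) : (1 + twPolyVar O p r n i) ^ p ^ (n + 1) = 1 := by
  rw [← sub_eq_zero, twPolyVar, ← map_one (Ideal.Quotient.mk (twPolyIdeal O p r n)), ← map_add,
    ← map_pow, ← map_sub, Ideal.Quotient.eq_zero_iff_mem]
  exact Ideal.subset_span ⟨i, rfl⟩

/-- `1 + X` has order dividing `p ^ (n + 1)`. -/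
theorem one_add_twVar_pow (i : Fin r) : (1 + twVar O p r n i) ^ p ^ (n + 1) = 1 := by
  rw [← sub_eq_zero, twVar, ← map_one (Ideal.Quotient.mk (twIdeal O p r n)), ← map_add, ← map_pow,
    ← map_sub, Ideal.Quotient.eq_zero_iff_mem]
  exact Ideal.subset_span ⟨i, rfl⟩

/-- The polynomial quotient is finite. -/
theorem finite_twPoly [Fact p.Prime] : Module.Finite O (TwPoly O p r n) := by
  have : Algebra.FiniteType O (TwPoly O p r n) :=
    Algebra.FiniteType.of_surjective (Ideal.Quotient.mkₐ O _) (Ideal.Quotient.mkₐ_surjective O _)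
  have : Algebra.IsIntegral O (TwPoly O p r n) := ⟨fun x => by
    obtain ⟨f, rfl⟩ := Ideal.Quotient.mk_surjective x
    induction f using MvPolynomial.induction_on with
    | C a => exact isIntegral_algebraMap
    | add f g hf hg => rw [map_add]; exact hf.add hg
    | mul_X f i hf =>
      rw [map_mul]
      refine hf.mul ?_
      have h1 : IsIntegral O (1 + twPolyVar O p r n i) :=
        IsIntegral.of_pow (pow_pos (Fact.out : p.Prime).pos (n + 1))
          (by rw [one_add_twPolyVar_pow]; exact isIntegral_one)
      simpa [twPolyVar] using h1.sub isIntegral_one⟩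
  exact Algebra.IsIntegral.finite

variable [IsLocalRing O]

/-- The ideal of the closed point. -/
def twPolyMax : Ideal (TwPoly O p r n) :=
  (maximalIdeal O).map (algebraMap O (TwPoly O p r n)) ⊔ Ideal.span (Set.range (twPolyVar O p r n))

variable [Fact p.Prime] [hpO : Fact ((p : O) ∈ maximalIdeal O)] [IsNoetherianRing O]
  [IsAdicComplete (maximalIdeal O) O]

/-- A power of each variable lies in the extension of the maximal ideal. -/
theorem twPolyVar_pow_mem (i : Fin r) : twPolyVar O p r n i ^ p ^ (n + 1) ∈
    (maximalIdeal O).map (algebraMap O (TwPoly O p r n)) := by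
  obtain ⟨c, hc⟩ := exists_add_pow_prime_pow_eq (Fact.out : p.Prime) (1 : TwPoly O p r n)
    (twPolyVar O p r n i) (n + 1)
  rw [one_add_twPolyVar_pow, one_pow, mul_one] at hc
  have h : twPolyVar O p r n i ^ p ^ (n + 1) =
      (p : TwPoly O p r n) * -(twPolyVar O p r n i * c) := by
    linear_combination -hc
  rw [h]
  refine Ideal.mul_mem_right _ _ ?_
  rw [← map_natCast (algebraMap O (TwPoly O p r n))]
  exact Ideal.mem_map_of_mem _ hpO.out

/-- The polynomial quotient is complete. -/
theorem isAdicComplete_twPolyMax : IsAdicComplete (twPolyMax O p r n) (TwPoly O p r n) := by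
  have := finite_twPoly O p r n
  have := isAdicComplete_of_finite (C := TwPoly O p r n) O
  have : IsNoetherianRing (TwPoly O p r n) := IsNoetherianRing.of_finite O _
  have hs : Set.range (twPolyVar O p r n) ⊆
      ((maximalIdeal O).map (algebraMap O (TwPoly O p r n))).radical := by
    rintro _ ⟨i, rfl⟩
    exact ⟨_, twPolyVar_pow_mem O p r n i⟩
  obtain ⟨k, hk⟩ := Ideal.exists_pow_le_of_le_radical_of_fg
    (I := twPolyMax O p r n) (J := (maximalIdeal O).map (algebraMap O (TwPoly O p r n)))
    (sup_le Ideal.le_radical (Ideal.span_le.2 hs)) (IsNoetherian.noetherian _)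
  exact isAdicComplete_of_pow_le le_sup_left hk

/-- The coefficient ring of a level is nontrivial. -/
instance nontrivial_twQuot : Nontrivial (TwQuot O p r n) := (twAug O p r n).domain_nontrivial

/-- The coefficient ring of a level is local. -/
instance isLocalRing_twQuot : IsLocalRing (TwQuot O p r n) :=
  .of_surjective' _ Ideal.Quotient.mk_surjective

/-- The coefficient ring of a level is Noetherian. -/
instance isNoetherianRing_twQuot : IsNoetherianRing (TwQuot O p r n) :=
  haveI : IsNoetherianRing (MvPowerSeries (Fin r) O) := inferInstance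
  inferInstance

/-- The variables lie in the maximal ideal. -/
theorem twVar_mem_maximalIdeal (i : Fin r) : twVar O p r n i ∈ maximalIdeal (TwQuot O p r n) := by
  have : IsLocalHom (Ideal.Quotient.mk (twIdeal O p r n)) :=
    IsLocalHom.of_surjective _ Ideal.Quotient.mk_surjective
  exact map_nonunit (Ideal.Quotient.mk (twIdeal O p r n)) _ (DefRing.X_mem_maximalIdeal i)

/-- The quotient of power series is the quotient of polynomials. -/
theorem exists_twPolyEquiv : ∃ e : TwQuot O p r n ≃ₐ[O] TwPoly O p r n,
    ∀ i, e (twVar O p r n i) = twPolyVar O p r n i := by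
  have := isAdicComplete_twPolyMax O p r n
  obtain ⟨Φ, hC, hX⟩ := exists_eval (J := twPolyMax O p r n) (algebraMap O (TwPoly O p r n))
    (twPolyVar O p r n) fun i => Ideal.mem_sup_right (Ideal.subset_span ⟨i, rfl⟩)
  let f : TwQuot O p r n →+* TwPoly O p r n := Ideal.Quotient.lift _ Φ fun x hx =>
    RingHom.mem_ker.1 ((Ideal.span_le.2 (by
      rintro _ ⟨i, rfl⟩
      rw [SetLike.mem_coe, RingHom.mem_ker, map_sub, map_pow, map_add, map_one, hX,
        one_add_twPolyVar_pow, sub_self])) hx)
  let g : TwPoly O p r n →ₐ[O] TwQuot O p r n :=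
    Ideal.Quotient.liftₐ _ (MvPolynomial.aeval (twVar O p r n)) fun x hx =>
      RingHom.mem_ker.1 ((Ideal.span_le (I := RingHom.ker (MvPolynomial.aeval (twVar O p r n)))).2
        (by
          rintro _ ⟨i, rfl⟩
          rw [SetLike.mem_coe, RingHom.mem_ker, map_sub, map_pow, map_add, map_one,
            MvPolynomial.aeval_X, one_add_twVar_pow, sub_self]) hx)
  have hf : ∀ o, f (algebraMap O (TwQuot O p r n) o) = algebraMap O (TwPoly O p r n) o := fun o =>
    hC o
  let f' : TwQuot O p r n →ₐ[O] TwPoly O p r n := { f with commutes' := hf }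
  have hfX : ∀ i, f' (twVar O p r n i) = twPolyVar O p r n i := fun i => hX i
  have hgX : ∀ i, g (twPolyVar O p r n i) = twVar O p r n i := fun i =>
    MvPolynomial.aeval_X (R := O) (twVar O p r n) i
  refine ⟨AlgEquiv.ofAlgHom f' g ?_ ?_, hfX⟩
  · refine Ideal.Quotient.algHom_ext O (MvPolynomial.algHom_ext fun i => ?_)
    show f' (g (twPolyVar O p r n i)) = twPolyVar O p r n i
    rw [hgX, hfX]
  · have : IsHausdorff (maximalIdeal (TwQuot O p r n)) (TwQuot O p r n) := inferInstance
    have h := eval_unique (J := maximalIdeal (TwQuot O p r n))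
      (Φ := ((g.comp f').toRingHom).comp (Ideal.Quotient.mk (twIdeal O p r n)))
      (Ψ := Ideal.Quotient.mk (twIdeal O p r n)) (fun i => ?_)
      (fun b => (g.comp f').commutes b) (fun i => ?_)
    · ext x
      obtain ⟨x, rfl⟩ := Ideal.Quotient.mk_surjective x
      exact RingHom.congr_fun h x
    · show g (f' (twVar O p r n i)) ∈ _
      rw [hfX, hgX]
      exact twVar_mem_maximalIdeal O p r n i
    · show g (f' (twVar O p r n i)) = twVar O p r n i
      rw [hfX, hgX]

/-- The coefficient ring of a level is finite over `O`. -/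
instance finite_twQuot : Module.Finite O (TwQuot O p r n) :=
  haveI := finite_twPoly O p r n
  Module.Finite.equiv (exists_twPolyEquiv O p r n).choose.symm.toLinearEquiv

/-- The coefficient ring of a level is complete. -/
instance isAdicComplete_twQuot :
    IsAdicComplete (maximalIdeal (TwQuot O p r n)) (TwQuot O p r n) := by
  have := isAdicComplete_of_finite (C := TwQuot O p r n) O
  have hs : maximalIdeal (TwQuot O p r n) ≤
      ((maximalIdeal O).map (algebraMap O (TwQuot O p r n))).radical := by
    have : Algebra.IsIntegral O (TwQuot O p r n) := Algebra.IsIntegral.of_finite O _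
    rw [Ideal.radical_eq_sInf]
    refine le_sInf fun P ⟨hP, hPp⟩ => ?_
    have hcomap : P.comap (algebraMap O (TwQuot O p r n)) = maximalIdeal O :=
      ((IsLocalRing.maximalIdeal.isMaximal O).eq_of_le (Ideal.comap_ne_top _ hPp.ne_top)
        (Ideal.map_le_iff_le_comap.1 hP)).symm
    have := hPp
    have : P.IsMaximal := Ideal.isMaximal_of_isIntegral_of_isMaximal_comap (R := O) P
      (by rw [hcomap]; exact IsLocalRing.maximalIdeal.isMaximal O)
    rw [IsLocalRing.eq_maximalIdeal this]
  obtain ⟨k, hk⟩ := Ideal.exists_pow_le_of_le_radical_of_fg hs (IsNoetherian.noetherian _)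
  refine isAdicComplete_of_pow_le ?_ hk
  refine Ideal.map_le_iff_le_comap.2 fun o ho => ?_
  have : IsLocalHom (algebraMap O (TwQuot O p r n)) := ⟨fun a ha => by
    have := ha.map (twAug O p r n)
    simpa [twAug, show algebraMap O (TwQuot O p r n) a = Ideal.Quotient.mk _ (MvPowerSeries.C a)
      from rfl] using this⟩
  exact map_nonunit _ _ ho

/-- The group of the auxiliary characters. -/
abbrev TwGroup : Type := Multiplicative (Fin r → ZMod (p ^ (n + 1)))

/-- `TwQuot` embeds in a group algebra. -/
theorem exists_toGroupAlgebra : ∃ e : TwQuot O p r n →ₐ[O] MonoidAlgebra O (TwGroup p r n),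
    Function.Injective e := by
  classical
  have : NeZero (p ^ (n + 1)) := ⟨pow_ne_zero _ (Fact.out : p.Prime).ne_zero⟩
  let gen : Fin r → TwGroup p r n := fun i => Multiplicative.ofAdd (Pi.single i 1)
  let a : TwPoly O p r n →ₐ[O] MonoidAlgebra O (TwGroup p r n) :=
    Ideal.Quotient.liftₐ _ (MvPolynomial.aeval fun i => MonoidAlgebra.of O _ (gen i) - 1)
      fun x hx => RingHom.mem_ker.1 ((Ideal.span_le (I := RingHom.ker (MvPolynomial.aeval
        fun i => MonoidAlgebra.of O (TwGroup p r n) (gen i) - 1))).2 (by
          rintro _ ⟨i, rfl⟩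
          rw [SetLike.mem_coe, RingHom.mem_ker, map_sub, map_pow, map_add, map_one,
            MvPolynomial.aeval_X, add_sub_cancel, ← map_pow]
          rw [show gen i ^ p ^ (n + 1) = 1 from Multiplicative.toAdd.injective (funext fun j => by
            simp [gen, nsmul_eq_mul]), map_one, sub_self]) hx)
  let u : Fin r → TwPoly O p r n := fun i => 1 + twPolyVar O p r n i
  have hu : ∀ i (k : ℕ), u i ^ (k % p ^ (n + 1)) = u i ^ k := fun i k =>
    (pow_eq_pow_mod k (one_add_twPolyVar_pow O p r n i)).symm
  let h : TwGroup p r n →* TwPoly O p r n :=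
    { toFun := fun g => ∏ i, u i ^ (Multiplicative.toAdd g i).val
      map_one' := by simp
      map_mul' := fun g g' => by
        rw [← Finset.prod_mul_distrib]
        refine Finset.prod_congr rfl fun i _ => ?_
        rw [toAdd_mul, Pi.add_apply, ZMod.val_add, hu, pow_add] }
  let b : MonoidAlgebra O (TwGroup p r n) →ₐ[O] TwPoly O p r n :=
    MonoidAlgebra.lift O (TwPoly O p r n) (TwGroup p r n) h
  have hba : b.comp a = AlgHom.id O _ := by
    refine Ideal.Quotient.algHom_ext O (MvPolynomial.algHom_ext fun i => ?_)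
    show b (MvPolynomial.aeval (fun i => MonoidAlgebra.of O (TwGroup p r n) (gen i) - 1)
      (MvPolynomial.X i)) = twPolyVar O p r n i
    rw [MvPolynomial.aeval_X, map_sub, map_one, MonoidAlgebra.lift_of]
    show ∏ j, u j ^ (Multiplicative.toAdd (gen i) j).val - 1 = _
    have : Fact (1 < p ^ (n + 1)) := ⟨one_lt_pow₀ (Fact.out : p.Prime).one_lt n.succ_ne_zero⟩
    rw [Finset.prod_eq_single i (fun j _ hj => by simp [gen, hj]) (fun h => absurd (Finset.mem_univ i) h)]
    simp [gen, u, ZMod.val_one]
  obtain ⟨e, -⟩ := exists_twPolyEquiv O p r n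
  refine ⟨a.comp e.toAlgHom, fun x y hxy => e.injective ?_⟩
  have h1 := congrArg b hxy
  rw [AlgHom.comp_apply, AlgHom.comp_apply, ← AlgHom.comp_apply b a, ← AlgHom.comp_apply b a,
    hba] at h1
  exact h1

variable [IsDomain O] [CharZero O]

/-- The coefficient ring of a level is reduced. -/
instance isReduced_twQuot : IsReduced (TwQuot O p r n) := by
  obtain ⟨e, he⟩ := exists_toGroupAlgebra O p r n
  have : NeZero (p ^ (n + 1)) := ⟨pow_ne_zero _ (Fact.out : p.Prime).ne_zero⟩
  let K := FractionRing O
  let f := MonoidAlgebra.mapRingHom (TwGroup p r n) (algebraMap O K)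
  have hf : Function.Injective f := fun x y hxy => MonoidAlgebra.ext (Finsupp.ext fun g =>
    IsFractionRing.injective O K (by
      exact congrArg (fun z : MonoidAlgebra K (TwGroup p r n) => z.coeff g) hxy))
  have : NeZero (Nat.card (TwGroup p r n) : K) := ⟨Nat.cast_ne_zero.2 Nat.card_pos.ne'⟩
  have : IsSemisimpleRing (MonoidAlgebra K (TwGroup p r n)) := inferInstance
  exact isReduced_of_injective (f.comp e.toRingHom) (hf.comp he)

/-- The coefficient ring of a level is torsion free. -/
instance isTorsionFree_twQuot : Module.IsTorsionFree ℤ (TwQuot O p r n) := by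
  obtain ⟨e, he⟩ := exists_toGroupAlgebra O p r n
  exact Function.Injective.moduleIsTorsionFree e he fun k x => map_zsmul e k x

end Fermat.Agent.Engine
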