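import Fermat.Agent.Engine.ExtraNil
import Fermat.Agent.Engine.TwRing
import Fermat.Agent.Patch.Ultralimit
import Mathlib.RingTheory.Polynomial.Cyclotomic.Eval
import Mathlib.RingTheory.DiscreteValuationRing.Basic

/-!
# Elements divisible by `p` at every point, on deep levels

An element of `TwQuot O p r n` that every point `S_i ↦ ζ_i - 1` sends to a multiple of `p` lies,
for `n` large, in the ideal of `𝔪_O` and a given power of the maximal ideal
(`exists_bound_of_divisible_points`).  The proof specialises a limit of such elements at a root of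
unity with rapidly growing `p`-power weights.
-/

set_option autoImplicit false
set_option linter.unusedSectionVars false

noncomputable section

open IsLocalRing Filter

namespace Fermat.Agent.Engine

/-- A non-empty set of exponents has an element of least weight for suitable `p`-power weights. -/
theorem exists_separating_weights {p : ℕ} (hp : 1 < p) : ∀ {r : ℕ} (S : Set (Fin r → ℕ)),
    S.Nonempty → ∃ e ∈ S, ∃ t : Fin r → ℕ,
      ∀ e' ∈ S, e' ≠ e → ∑ i, e i * p ^ t i < ∑ i, e' i * p ^ t i := by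
  classical
  intro r
  induction r with
  | zero =>
    rintro S ⟨e, he⟩
    exact ⟨e, he, Fin.elim0, fun e' _ h => absurd (Subsingleton.elim e' e) h⟩
  | succ r ih =>
    intro S hS
    have h : ∃ k, ∃ e ∈ S, e (Fin.last r) = k := ⟨_, hS.some, hS.some_mem, rfl⟩
    obtain ⟨e₁, he₁, he₁k⟩ := Nat.find_spec h
    obtain ⟨_, ⟨e, ⟨he, hek⟩, rfl⟩, t, ht⟩ :=
      ih (Fin.init '' {e ∈ S | e (Fin.last r) = Nat.find h}) ⟨_, e₁, ⟨he₁, he₁k⟩, rfl⟩
    set W := ∑ i, Fin.init e i * p ^ t i
    refine ⟨e, he, Fin.snoc t W, fun e' he' hne => ?_⟩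
    rw [Fin.sum_univ_castSucc, Fin.sum_univ_castSucc]
    simp only [Fin.snoc_castSucc, Fin.snoc_last]
    rcases (Nat.find_min' h ⟨e', he', rfl⟩).eq_or_lt with heq | hlt
    · rw [← heq, hek]
      refine Nat.add_lt_add_right (ht _ ⟨e', ⟨he', heq.symm⟩, rfl⟩ fun hi => hne ?_) _
      rw [← Fin.snoc_init_self e', ← Fin.snoc_init_self e, hi, ← heq, hek]
    · show W + _ < _
      rw [hek]
      have h1 : W < p ^ W := Nat.lt_pow_self hp
      calc W + Nat.find h * p ^ W < (Nat.find h + 1) * p ^ W := by rw [add_mul, one_mul]; omega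
        _ ≤ e' (Fin.last r) * p ^ W := Nat.mul_le_mul_right _ hlt
        _ ≤ _ := Nat.le_add_left _ _

variable (O : Type) [CommRing O] [IsDomain O]

/-- The algebraic closure of the fractions. -/
abbrev PointField : Type := AlgebraicClosure (FractionRing O)

/-- The points integral over `O`. -/
abbrev PointRing : Subalgebra O (PointField O) := integralClosure O (PointField O)

variable {O} [CharZero O] {p : ℕ}

/-- The field of the points has characteristic zero. -/
instance : CharZero (PointField O) :=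
  charZero_of_injective_algebraMap (RingHom.injective (algebraMap (FractionRing O) (PointField O)))

/-- `p` is not invertible among the integral points. -/
theorem not_isUnit_pointRing [IsIntegrallyClosed O] [IsLocalRing O]
    (hp : (p : O) ∈ maximalIdeal O) : ¬ IsUnit (p : PointRing O) := by
  intro h
  have hint : Algebra.IsIntegral O (PointRing O) := inferInstance
  have hinj : Function.Injective (algebraMap O (PointRing O)) := fun a b hab => by
    have := congrArg (Subalgebra.val _) hab
    simpa using (IsFractionRing.injective O (FractionRing O)).eq_iff.1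
      ((RingHom.injective (algebraMap (FractionRing O) (PointField O))).eq_iff.1
        (by rwa [← IsScalarTower.algebraMap_apply, ← IsScalarTower.algebraMap_apply]))
  have := (algebraMap_isIntegral_iff.2 hint).isLocalHom hinj
  exact hp ((map_natCast (algebraMap O (PointRing O)) p ▸ h).of_map)

variable [Fact p.Prime]

/-- The element `ζ - 1` for a primitive `p ^ (n + 1)`-th root of unity. -/
theorem exists_uniformizer (n : ℕ) : ∃ π : PointRing O,
    (1 + π) ^ p ^ (n + 1) = 1 ∧ (∃ z, (p : PointRing O) = π ^ Nat.totient (p ^ (n + 1)) * z) ∧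
      ∃ z, π ^ p ^ (n + 1) = (p : PointRing O) * z := by
  have hp : p.Prime := Fact.out
  have : NeZero (p ^ (n + 1)) := ⟨pow_ne_zero _ hp.ne_zero⟩
  obtain ⟨ζ, hζ⟩ := HasEnoughRootsOfUnity.exists_primitiveRoot (PointField O) (p ^ (n + 1))
  have hint : IsIntegral O ζ := IsIntegral.of_pow (pow_pos hp.pos _)
    (by rw [hζ.pow_eq_one]; exact isIntegral_one)
  let ζ' : PointRing O := ⟨ζ, hint⟩
  have hζ' : IsPrimitiveRoot ζ' (p ^ (n + 1)) :=
    IsPrimitiveRoot.of_map_of_injective (f := (PointRing O).val) hζ Subtype.val_injective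
  refine ⟨ζ' - 1, by rw [add_sub_cancel, hζ'.pow_eq_one], ?_, ?_⟩
  · have h1 : Polynomial.eval 1 (Polynomial.cyclotomic (p ^ (n + 1)) (PointRing O)) = p :=
      Polynomial.eval_one_cyclotomic_prime_pow n
    rw [Polynomial.cyclotomic_eq_prod_X_sub_primitiveRoots hζ', Polynomial.eval_prod] at h1
    simp only [Polynomial.eval_sub, Polynomial.eval_X, Polynomial.eval_C] at h1
    have hdvd : ∏ _μ ∈ primitiveRoots (p ^ (n + 1)) (PointRing O), (ζ' - 1) ∣
        ∏ μ ∈ primitiveRoots (p ^ (n + 1)) (PointRing O), (1 - μ) := by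
      refine Finset.prod_dvd_prod_of_dvd _ _ fun μ hμ => ?_
      obtain ⟨i, -, rfl⟩ := hζ'.eq_pow_of_pow_eq_one
        ((mem_primitiveRoots (NeZero.pos _)).1 hμ).pow_eq_one
      rw [← neg_sub, neg_dvd]
      simpa using sub_dvd_pow_sub_pow 1 ζ' i
    rw [h1, Finset.prod_const, hζ'.card_primitiveRoots] at hdvd
    exact hdvd
  · obtain ⟨u, hu⟩ := exists_add_pow_prime_pow_eq hp (1 : PointRing O) (ζ' - 1) (n + 1)
    rw [add_sub_cancel, hζ'.pow_eq_one, one_pow, mul_one] at hu
    exact ⟨-((ζ' - 1) * u), by linear_combination -hu⟩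

variable [IsDiscreteValuationRing O] [IsAdicComplete (maximalIdeal O) O] [Finite (ResidueField O)]

/-- The maximal ideal of a level, as the preimage under the augmentation. -/
abbrev twMax (O : Type) [CommRing O] [IsLocalRing O] (p r n : ℕ) : Ideal (TwQuot O p r n) :=
  (maximalIdeal O).comap (twAug O p r n)

/-- The variables of a level lie in its maximal ideal. -/
theorem twVar_mem_twMax {r n : ℕ} (i : Fin r) : twVar O p r n i ∈ twMax O p r n := by
  rw [Ideal.mem_comap, twAug, twVar, Ideal.Quotient.lift_mk, MvPowerSeries.constantCoeff_X]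
  exact zero_mem _

/-- A polynomial whose low coefficients are in `𝔪_O` is small. -/
theorem eval₂_mem_of_low_coeff {r n j : ℕ} (q : MvPolynomial (Fin r) O)
    (h : ∀ e : Fin r →₀ ℕ, e.degree < j → q.coeff e ∈ maximalIdeal O) :
    MvPolynomial.eval₂ (twConst O p r n) (twVar O p r n) q ∈
      (maximalIdeal O).map (twConst O p r n) ⊔ twMax O p r n ^ j := by
  rw [MvPolynomial.eval₂_eq']
  refine Submodule.sum_mem _ fun e _ => ?_
  by_cases he : e.degree < j
  · exact Ideal.mul_mem_right _ _ (Ideal.mem_sup_left (Ideal.mem_map_of_mem _ (h e he)))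
  · refine Ideal.mul_mem_left _ _ (Ideal.mem_sup_right (Ideal.pow_le_pow_right (not_lt.1 he) ?_))
    rw [Finsupp.degree_eq_sum, ← Finset.prod_pow_eq_pow_sum Finset.univ (fun i => e i) (twMax O p r n)]
    exact Ideal.prod_mem_prod fun i _ => Ideal.pow_mem_pow (twVar_mem_twMax i) _

/-- Points with prescribed `p`-power weights. -/
theorem exists_point_weights {r n : ℕ} (hp : (p : O) ∈ maximalIdeal O) (π : PointRing O)
    (hπ : (1 + π) ^ p ^ (n + 1) = 1) (t : Fin r → ℕ) :
    ∃ θ : TwQuot O p r n →ₐ[O] PointField O, ∀ q : MvPolynomial (Fin r) O,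
      θ (MvPolynomial.eval₂ (twConst O p r n) (twVar O p r n) q) =
        (MvPolynomial.aeval (fun i => (1 + π) ^ p ^ t i - 1) q : PointRing O) := by
  have : Fact ((p : O) ∈ maximalIdeal O) := ⟨hp⟩
  obtain ⟨e, he⟩ := exists_twPolyEquiv O p r n
  let θ₀ : TwPoly O p r n →ₐ[O] PointRing O := Ideal.Quotient.liftₐ _
    (MvPolynomial.aeval fun i => (1 + π) ^ p ^ t i - 1) fun x hx =>
      RingHom.mem_ker.1 ((Ideal.span_le (I := RingHom.ker (MvPolynomial.aeval (R := O)
        fun i => (1 + π) ^ p ^ t i - 1))).2 (by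
          rintro _ ⟨i, rfl⟩
          rw [SetLike.mem_coe, RingHom.mem_ker, map_sub, map_pow, map_add, map_one,
            MvPolynomial.aeval_X, add_sub_cancel, ← pow_mul, mul_comm, pow_mul, hπ, one_pow,
            sub_self]) hx)
  let θ : TwQuot O p r n →ₐ[O] PointField O := (PointRing O).val.comp (θ₀.comp e.toAlgHom)
  refine ⟨θ, fun q => ?_⟩
  have h : θ.comp (MvPolynomial.aeval (twVar O p r n)) =
      (PointRing O).val.comp (MvPolynomial.aeval fun i => (1 + π) ^ p ^ t i - 1) := by
    refine MvPolynomial.algHom_ext fun i => ?_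
    simp only [AlgHom.comp_apply, MvPolynomial.aeval_X]
    show ((θ₀ (e (twVar O p r n i)) : PointRing O) : PointField O) = _
    rw [he]
    show ((MvPolynomial.aeval (fun i => (1 + π) ^ p ^ t i - 1) (MvPolynomial.X i) :
      PointRing O) : PointField O) = _
    rw [MvPolynomial.aeval_X]
    rfl
  exact AlgHom.congr_fun h q

/-- Degree is at most weight. -/
theorem le_weight {r : ℕ} (e : Fin r → ℕ) (t : Fin r → ℕ) (i : Fin r) :
    e i ≤ ∑ l, e l * p ^ t l :=
  (Nat.le_mul_of_pos_right _ (pow_pos (Fact.out : p.Prime).pos _)).trans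
    (Finset.single_le_sum (f := fun l => e l * p ^ t l) (fun _ _ => Nat.zero_le _) (Finset.mem_univ i))

/-- **Elements divisible by `p` at every point are small on deep levels.** -/
theorem exists_bound_of_divisible_points (hp : (p : O) ∈ maximalIdeal O) (r j : ℕ) :
    ∃ n₀, ∀ n, n₀ ≤ n → ∀ a : TwQuot O p r n,
      (∀ θ : TwQuot O p r n →ₐ[O] PointField O, ∃ y, IsIntegral O y ∧ θ a = p * y) →
      a ∈ (maximalIdeal O).map (twConst O p r n) ⊔ twMax O p r n ^ j := by
  classical
  by_contra hcon
  push Not at hcon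
  choose n hn a ha hbad using hcon
  choose q hq using fun i => twQuot_eq_eval₂ (r := r) (n := n i) hp (a i)
  let c : ℕ → (Fin r →₀ ℕ) → ResidueField O := fun i e => residue O ((q i).coeff e)
  have hex : ∀ e, ∃ v, ∀ᶠ i in (Patch.patchFilter : Filter ℕ), c i e = v := fun e => by
    have h : ∀ᶠ i in (Patch.patchFilter : Filter ℕ), ∃ v, c i e = v :=
      Eventually.of_forall fun i => ⟨_, rfl⟩
    exact Ultrafilter.eventually_exists_iff.1 h
  choose lim hlim using hex
  -- the exponents bounded by `D`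
  let box : ℕ → Finset (Fin r →₀ ℕ) := fun D =>
    (Fintype.piFinset fun _ : Fin r => Finset.range (D + 1)).image Finsupp.equivFunOnFinite.symm
  have hbox : ∀ {D : ℕ} {e : Fin r →₀ ℕ}, (∀ l, e l ≤ D) → e ∈ box D := fun {D e} h =>
    Finset.mem_image.2 ⟨⇑e, Fintype.mem_piFinset.2 fun l => Finset.mem_range.2 (by
      have := h l; omega), Finsupp.ext fun _ => rfl⟩
  have hev : ∀ D, ∀ᶠ i in (Patch.patchFilter : Filter ℕ), ∀ e ∈ box D, c i e = lim e := fun D =>
    (eventually_all_finset _).2 fun e _ => hlim e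
  obtain ⟨e₀, he₀⟩ : ∃ e, lim e ≠ 0 := by
    by_contra h
    push Not at h
    obtain ⟨i, hi⟩ := (hev j).exists
    refine hbad i ?_
    rw [← hq i]
    refine eval₂_mem_of_low_coeff _ fun e he => ?_
    rw [← residue_eq_zero_iff]
    have hel : ∀ l, e l ≤ j := fun l => ((Finsupp.le_degree l e).trans he.le)
    exact (hi e (hbox hel)).trans (h e)
  obtain ⟨es, hes, t, ht⟩ := exists_separating_weights (Fact.out : p.Prime).one_lt
    {e : Fin r → ℕ | lim (Finsupp.equivFunOnFinite.symm e) ≠ 0}
    ⟨⇑e₀, by simpa [show Finsupp.equivFunOnFinite.symm (⇑e₀) = e₀ from Finsupp.ext fun _ => rfl]⟩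
  set δ := ∑ l, es l * p ^ t l
  obtain ⟨ee, hee⟩ : ∃ ee, maximalIdeal O ^ ee ≤ Ideal.span {(p : O)} := by
    obtain ⟨ϖ, hϖ⟩ := IsDiscreteValuationRing.exists_irreducible O
    obtain ⟨k, u, hk⟩ := IsDiscreteValuationRing.eq_unit_mul_pow_irreducible
      (Nat.cast_ne_zero.2 (Fact.out : p.Prime).ne_zero : (p : O) ≠ 0) hϖ
    refine ⟨k, ?_⟩
    rw [hϖ.maximalIdeal_eq, Ideal.span_singleton_pow, Ideal.span_singleton_le_span_singleton, hk,
      Units.mul_left_dvd]
  obtain ⟨i, hbox', hlarge⟩ := ((hev δ).and (Patch.eventually_ge (δ * ee + 1))).exists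
  have hlt : δ * ee < Nat.totient (p ^ (n i + 1)) := by
    rw [Nat.totient_prime_pow_succ Fact.out]
    calc δ * ee < n i := lt_of_lt_of_le hlarge (hn i)
      _ < p ^ n i := Nat.lt_pow_self (Fact.out : p.Prime).one_lt
      _ ≤ p ^ n i * (p - 1) :=
        Nat.le_mul_of_pos_right _ (Nat.sub_pos_of_lt (Fact.out : p.Prime).one_lt)
  obtain ⟨π, hπ1, ⟨z, hz⟩, z', hz'⟩ := exists_uniformizer (O := O) (p := p) (n i)
  obtain ⟨θ, hθ⟩ := exists_point_weights (r := r) hp π hπ1 t
  obtain ⟨y, hy, hθy⟩ := ha i θ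
  set I := (maximalIdeal O).map (algebraMap O (PointRing O)) with hI
  set mk := Ideal.Quotient.mk I
  have hpI : (p : PointRing O) ∈ I := by
    rw [← map_natCast (algebraMap O (PointRing O))]
    exact Ideal.mem_map_of_mem _ hp
  have hnil : IsNilpotent (mk π) := ⟨p ^ (n i + 1), by
    rw [← map_pow, hz', Ideal.Quotient.eq_zero_iff_mem]
    exact Ideal.mul_mem_right _ _ hpI⟩
  -- the image in the quotient is the monomial of least weight
  let x : Fin r → PointRing O ⧸ I := fun l => mk π ^ p ^ t l
  have hx : ∀ l, mk ((1 + π) ^ p ^ t l - 1) = x l := fun l => by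
    obtain ⟨u, hu⟩ := exists_add_pow_prime_pow_eq (Fact.out : p.Prime) (1 : PointRing O) π (t l)
    rw [hu, one_pow, map_sub, map_add, map_add, map_one, map_pow, map_mul, map_mul, map_mul,
      Ideal.Quotient.eq_zero_iff_mem.2 hpI]
    ring
  have hzero : mk (MvPolynomial.aeval (fun l => (1 + π) ^ p ^ t l - 1) (q i)) = 0 := by
    have h1 : (MvPolynomial.aeval (fun l => (1 + π) ^ p ^ t l - 1) (q i) : PointRing O) =
        (p : PointRing O) * ⟨y, hy⟩ := Subtype.ext (by
      rw [← hθ, hq, hθy]
      push_cast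
      rfl)
    rw [h1, Ideal.Quotient.eq_zero_iff_mem]
    exact Ideal.mul_mem_right _ _ hpI
  have hsum : mk (MvPolynomial.aeval (fun l => (1 + π) ^ p ^ t l - 1) (q i)) =
      ∑ e ∈ (q i).support, mk (algebraMap O _ ((q i).coeff e)) * mk π ^ (∑ l, e l * p ^ t l) := by
    rw [MvPolynomial.aeval_def, MvPolynomial.eval₂_eq', map_sum]
    refine Finset.sum_congr rfl fun e _ => ?_
    rw [map_mul, map_prod, ← Finset.prod_pow_eq_pow_sum]
    congr 1
    refine Finset.prod_congr rfl fun l _ => ?_
    rw [map_pow, hx, mul_comm, pow_mul]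
  have hes' : Finsupp.equivFunOnFinite.symm es ∈ box δ := hbox fun l => le_weight es t l
  set ces := (q i).coeff (Finsupp.equivFunOnFinite.symm es)
  have hu : IsUnit ces := by
    by_contra h
    exact hes ((hbox' _ hes').symm.trans ((residue_eq_zero_iff _).2 h))
  have hdvd : ∃ w, ∑ e ∈ (q i).support,
        mk (algebraMap O _ ((q i).coeff e)) * mk π ^ (∑ l, e l * p ^ t l) =
      mk (algebraMap O _ ces) * mk π ^ δ + mk π ^ (δ + 1) * w := by
    have hmem : Finsupp.equivFunOnFinite.symm es ∈ (q i).support :=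
      MvPolynomial.mem_support_iff.2 hu.ne_zero
    have hrest : mk π ^ (δ + 1) ∣ ∑ e ∈ (q i).support.erase (Finsupp.equivFunOnFinite.symm es),
        mk (algebraMap O _ ((q i).coeff e)) * mk π ^ (∑ l, e l * p ^ t l) := by
      refine Finset.dvd_sum fun e he => ?_
      by_cases hw : ∑ l, e l * p ^ t l ≤ δ
      · have hb : e ∈ box δ := hbox fun l => (le_weight (⇑e) t l).trans hw
        have hlim0 : lim e = 0 := by
          by_contra h
          have hne : ⇑e ≠ es := fun h' => Finset.ne_of_mem_erase he (by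
            rw [← h']; exact Finsupp.ext fun _ => rfl)
          have := ht (⇑e) (by
            simpa [show Finsupp.equivFunOnFinite.symm (⇑e) = e from Finsupp.ext fun _ => rfl]
              using h) hne
          omega
        have h0 : mk (algebraMap O _ ((q i).coeff e)) = 0 := Ideal.Quotient.eq_zero_iff_mem.2
          (Ideal.mem_map_of_mem _ ((residue_eq_zero_iff _).1 ((hbox' _ hb).trans hlim0)))
        rw [h0, zero_mul]
        exact dvd_zero _
      · exact (pow_dvd_pow _ (by omega)).mul_left _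
    obtain ⟨w, hw⟩ := hrest
    refine ⟨w, ?_⟩
    rw [← Finset.add_sum_erase _ _ hmem, hw]
    rfl
  obtain ⟨w, hw⟩ := hdvd
  rw [hsum, hw, pow_succ, mul_assoc, mul_comm (mk (algebraMap O _ ces)), ← mul_add] at hzero
  have hunit : IsUnit (mk (algebraMap O _ ces) + mk π * w) :=
    IsNilpotent.isUnit_add_left_of_commute
      ((Commute.all _ _).isNilpotent_mul_right hnil) ((hu.map (algebraMap O _)).map mk)
      (Commute.all _ _)
  rw [hunit.mul_left_eq_zero, ← map_pow, Ideal.Quotient.eq_zero_iff_mem] at hzero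
  have h2 : π ^ (δ * ee) ∈ Ideal.span {(p : PointRing O)} := by
    have h := Ideal.pow_mem_pow hzero ee
    rw [← pow_mul, hI, ← Ideal.map_pow] at h
    refine (le_trans (Ideal.map_mono hee) ?_) h
    rw [Ideal.map_span, Set.image_singleton, map_natCast]
  obtain ⟨v, hv⟩ := Ideal.mem_span_singleton'.1 h2
  obtain ⟨m, hm⟩ := Nat.exists_eq_add_of_lt hlt
  have hπ0 : π ≠ 0 := fun h0 => by
    rw [h0, zero_pow (Nat.totient_pos.2 (pow_pos (Fact.out : p.Prime).pos _)).ne', zero_mul] at hz
    exact (Fact.out : p.Prime).ne_zero (by exact_mod_cast hz)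
  rw [hz, hm, add_assoc, pow_add, ← mul_assoc, ← mul_assoc, mul_comm v (π ^ (δ * ee))] at hv
  have h3 : v * π ^ (m + 1) * z = 1 := by
    refine mul_left_cancel₀ (pow_ne_zero (δ * ee) hπ0) ?_
    rw [mul_one]
    linear_combination hv
  have hπu : IsUnit π := IsUnit.of_mul_eq_one (v * π ^ m * z) (by
    linear_combination h3)
  refine not_isUnit_pointRing hp (isUnit_of_mul_isUnit_left (y := z') ?_)
  rw [← hz']
  exact hπu.pow _

end Fermat.Agent.Engine
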