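import Fermat.Agent.Deform.TangentBound
import Fermat.Agent.Engine.LocalTypes

/-!
# Framed coordinates generate, given the framed tangent bound

For a deformation `N` over `R` whose first order cocycles lie in `Zc`, the ring `R[[Y]]` of frames at
the places of `T` (one entry of one frame fixed) is generated by the coordinates of a Frobenius and
a tame element at each place and `g` further variables, if pairs (cocycle, frames) have dimension at
most `g + 4`.
-/

set_option autoImplicit false

noncomputable section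

open IsLocalRing MvPowerSeries Fermat.Agent.DefRing Fermat.Agent.GalCoh

namespace Fermat.Agent.Deform

/-- The maximal ideal of a power series ring is generated by that of the base and the variables. -/
theorem maximalIdeal_mvPowerSeries_le {O : Type*} [CommRing O] [IsLocalRing O] {σ : Type*}
    [Finite σ] : maximalIdeal (MvPowerSeries σ O) ≤
      (maximalIdeal O).map (C : O →+* MvPowerSeries σ O) ⊔ Ideal.span (Set.range X) := by
  classical
  intro f hf
  rw [mem_maximalIdeal_iff_constantCoeff] at hf
  have h1 : f - C (constantCoeff f) ∈ Ideal.span (Set.range X) := by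
    have := sub_truncTotal_mem_span_pow f 1
    rw [pow_one] at this
    convert this using 2
    ext e
    rw [MvPolynomial.coeff_coe, coeff_truncTotal_eq_ite, coeff_C]
    rcases eq_or_ne e 0 with rfl | he
    · simp
    · rw [if_neg he, if_neg]
      have : Finsupp.degree e ≠ 0 := by simpa [Finsupp.degree_eq_zero_iff] using he
      omega
  exact Submodule.mem_sup.2 ⟨_, Ideal.mem_map_of_mem _ hf, _, h1, add_sub_cancel _ _⟩

/-- The entries of the frames, with `(r₀, 0, 0)` left out. -/
abbrev FrameVar (T : Type) (r₀ : T) : Type := {p : T × Fin 2 × Fin 2 // p ≠ (r₀, 0, 0)}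

variable {T : Type} (r₀ : T) (R : Type) [CommRing R]

/-- The part `Y r` of the frame `1 + Y r`. -/
def frameVarMat (r : T) : Matrix (Fin 2) (Fin 2) (MvPowerSeries (FrameVar T r₀) R) :=
  open Classical in
  Matrix.of fun a b => if h : (r, a, b) = (r₀, 0, 0) then 0 else X ⟨(r, a, b), h⟩

/-- The generic frame at `r`. -/
def genericFrame (r : T) : Matrix (Fin 2) (Fin 2) (MvPowerSeries (FrameVar T r₀) R) :=
  1 + frameVarMat r₀ R r

/-- The generic frame is invertible. -/
theorem isUnit_genericFrame (r : T) : IsUnit (genericFrame r₀ R r) := by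
  have h0 : (frameVarMat r₀ R r).map constantCoeff = 0 := by
    ext a b
    simp only [frameVarMat, Matrix.map_apply, Matrix.of_apply, Matrix.zero_apply]
    split_ifs <;> simp
  rw [Matrix.isUnit_iff_isUnit_det, isUnit_iff_constantCoeff, RingHom.map_det,
    genericFrame, RingHom.mapMatrix_apply, Matrix.map_add _ (map_add _), h0,
    Matrix.map_one _ (map_zero _) (map_one _), add_zero, Matrix.det_one]
  exact isUnit_one

/-- The representation read in the generic frame at `r`. -/
def framedRep (N : MRep R) (r : T) : MRep (MvPowerSeries (FrameVar T r₀) R) where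
  toFun σ := ((isUnit_genericFrame r₀ R r).unit⁻¹ : (Matrix _ _ _)ˣ).1 * (N σ).map C *
    genericFrame r₀ R r
  map_one' := by
    rw [map_one, Matrix.map_one _ (map_zero _) (map_one _), mul_one, IsUnit.val_inv_mul]
  map_mul' σ τ := by
    rw [map_mul, Matrix.map_mul]
    simp only [mul_assoc]
    rw [← mul_assoc (genericFrame r₀ R r), IsUnit.mul_val_inv, one_mul]

end Fermat.Agent.Deform

namespace Fermat.Agent.Engine

open Fermat.Agent.Deform

attribute [local instance 10000] dualAlgebra

variable {O : Type} [CommRing O] [IsLocalRing O] {D : NormalData O}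

local notation "kk" => IsLocalRing.ResidueField O
local notation "M₂" => Matrix (Fin 2) (Fin 2) (IsLocalRing.ResidueField O)

/-- Only scalars commute with a residual representation having normal data. -/
theorem exists_eq_smul_one_of_commute (Y : M₂) (h : ∀ σ, D.rbar σ * Y = Y * D.rbar σ) :
    ∃ c : kk, Y = c • 1 := by
  have hu := evRep_conj (𝒪 := O) Y (fun σ => (h σ).symm) D.u
  have hw := evRep_conj (𝒪 := O) Y (fun σ => (h σ).symm) D.w
  rw [D.u_spec] at hu
  rw [D.w_spec] at hw
  have e10 := congrFun (congrFun hu 1) 0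
  have e01 := congrFun (congrFun hu 0) 1
  have f10 := congrFun (congrFun hw 1) 0
  simp [Matrix.mul_apply, Fin.sum_univ_two] at e10 e01 f10
  refine ⟨Y 0 0, Matrix.ext fun a b => ?_⟩
  fin_cases a <;> fin_cases b <;> simp [e10, ← e01, f10]

/-- **Framed coordinates**: the power series ring of frames over `R` is a quotient of the ring of
local coordinates with `g` global variables, when framed pairs have dimension at most `g + 4`. -/
theorem exists_surjective_locRing [Finite (ResidueField O)] [IsNoetherianRing O]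
    [IsAdicComplete (maximalIdeal O) O]
    {T : Type} [Finite T] (r₀ : T) (frob tame : T → GQ) (g : ℕ)
    (Φ₀ : T → Matrix (Fin 2) (Fin 2) O) (hΦ₀ : ∀ r, (Φ₀ r).map (residue O) = D.rbar (frob r))
    (htame : ∀ r, D.rbar (tame r) = 1)
    (Zc : Submodule kk (GQ → M₂)) (hcob : ∀ Y : M₂, d0 (adRep D.rbar) Y ∈ Zc)
    (hbound : ∀ W : Submodule kk ((GQ → M₂) × (T → M₂)),
      (∀ x ∈ W, x.1 ∈ Zc ∧ ∀ r, ∀ σ ∈ ({frob r, tame r} : Set GQ),
        x.1 σ + x.2 r - D.rbar σ * x.2 r * D.rbar σ⁻¹ = 0) →
      FiniteDimensional kk W ∧ Module.finrank kk W ≤ g + 4)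
    {R : Type} [CommRing R] [IsLocalRing R] [IsNoetherianRing R]
    [IsAdicComplete (maximalIdeal R) R] [Algebra O R] (hl : IsLocalHom (algebraMap O R))
    (hs : Function.Surjective (residue R ∘ algebraMap O R)) (N : MRep R) (hN : D.IsNormal N)
    (hred : D.Reduces hl hs N)
    (hgen : ∀ x : R, ∃ s ∈ Algebra.adjoin O (entries N), x - s ∈ maximalIdeal R ^ 2)
    (hZ : ∀ φ : R →ₐ[O] DualNumber kk,
      cocOf D.rbar (mapRep (φ : R →+* DualNumber kk) N) ∈ Zc) :
    ∃ ψ : LocRing O T g →ₐ[O] MvPowerSeries (FrameVar T r₀) R,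
      IsLocalHom (ψ : LocRing O T g →+* MvPowerSeries (FrameVar T r₀) R) ∧ Function.Surjective ψ ∧
      ∀ r, (locFrob (g := g) Φ₀ r).map ψ = framedRep r₀ R N r (frob r) ∧
        (locMono (g := g) (O := O) r).map ψ = framedRep r₀ R N r (tame r) - 1 := by
  classical
  have : Fintype T := Fintype.ofFinite T
  have : IsAdicComplete (maximalIdeal (MvPowerSeries (FrameVar T r₀) R)) (MvPowerSeries (FrameVar T r₀) R) := isAdicComplete_mvPowerSeries
  have hlA : IsLocalHom (algebraMap O (MvPowerSeries (FrameVar T r₀) R)) := by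
    rw [IsScalarTower.algebraMap_eq O R (MvPowerSeries (FrameVar T r₀) R)]
    have : IsLocalHom (algebraMap R (MvPowerSeries (FrameVar T r₀) R)) := ⟨fun x hx => by
      rw [MvPowerSeries.algebraMap_apply, Algebra.algebraMap_self, RingHom.id_apply] at hx
      simpa using (isUnit_iff_constantCoeff.mp hx)⟩
    exact RingHom.isLocalHom_comp _ _
  let Cₐ : R →ₐ[O] (MvPowerSeries (FrameVar T r₀) R) :=
    { (C : R →+* (MvPowerSeries (FrameVar T r₀) R)) with commutes' := fun o => by simp [MvPowerSeries.algebraMap_apply] }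
  have hC : ∀ x : R, Cₐ x = C x := fun _ => rfl
  have hCl : IsLocalHom (Cₐ : R →+* (MvPowerSeries (FrameVar T r₀) R)) := ⟨fun x hx => by
    simpa [hC] using (isUnit_iff_constantCoeff.mp hx)⟩
  have hsA : Function.Surjective (residue (MvPowerSeries (FrameVar T r₀) R) ∘ algebraMap O (MvPowerSeries (FrameVar T r₀) R)) := by
    intro z
    obtain ⟨f, rfl⟩ := IsLocalRing.residue_surjective z
    obtain ⟨o, ho⟩ := exists_algebraMap_add_mem hs (constantCoeff f)
    refine ⟨o, (RingHom.sub_mem_ker_iff _).mp ?_⟩
    rw [IsLocalRing.ker_residue, mem_maximalIdeal_iff_constantCoeff, map_sub,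
      MvPowerSeries.algebraMap_apply, constantCoeff_C]
    simpa using neg_mem ho
  -- the coordinates
  let loc : (T × Fin 2 × Fin 2) ⊕ (T × Fin 2 × Fin 2) → (MvPowerSeries (FrameVar T r₀) R) := Sum.elim
    (fun p => framedRep r₀ R N p.1 (frob p.1) p.2.1 p.2.2 - algebraMap O (MvPowerSeries (FrameVar T r₀) R) (Φ₀ p.1 p.2.1 p.2.2))
    (fun p => (framedRep r₀ R N p.1 (tame p.1) - 1) p.2.1 p.2.2)
  have hcc : ∀ r σ, (framedRep r₀ R N r σ).map constantCoeff = N σ := by
    intro r σ
    have h1 : (genericFrame r₀ R r).map constantCoeff = 1 := by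
      ext a b
      simp only [genericFrame, frameVarMat, Matrix.map_apply, Matrix.add_apply, Matrix.of_apply]
      rw [map_add, Matrix.one_apply, Matrix.one_apply]
      split_ifs <;> simp
    have h2 : ((isUnit_genericFrame r₀ R r).unit⁻¹ : (Matrix _ _ (MvPowerSeries (FrameVar T r₀) R))ˣ).1.map constantCoeff = 1 := by
      have := congrArg (fun Z => Matrix.map Z constantCoeff) (isUnit_genericFrame r₀ R r).val_inv_mul
      simpa [Matrix.map_mul, h1, Matrix.map_one _ (map_zero _) (map_one _)] using this
    have h3 : ((N σ).map C).map (constantCoeff : (MvPowerSeries (FrameVar T r₀) R) →+* R) = N σ := by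
      ext a b; simp
    show (_ * _ * _ : Matrix (Fin 2) (Fin 2) (MvPowerSeries (FrameVar T r₀) R)).map constantCoeff = _
    rw [Matrix.map_mul, Matrix.map_mul, h1, h2, h3, one_mul, mul_one]
  have hNres : ∀ σ a b, toResidue hl hs (N σ a b) = D.rbar σ a b := fun σ a b =>
    congrFun (congrFun (DFunLike.congr_fun hred σ) a) b
  have hlocm : ∀ l, loc l ∈ maximalIdeal (MvPowerSeries (FrameVar T r₀) R) := by
    rintro (⟨r, a, b⟩ | ⟨r, a, b⟩)
    · show framedRep r₀ R N r (frob r) a b - _ ∈ _
      rw [mem_maximalIdeal_iff_constantCoeff, map_sub, MvPowerSeries.algebraMap_apply,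
        constantCoeff_C, ← toResidue_eq_zero_iff hl hs]
      rw [show constantCoeff (framedRep r₀ R N r (frob r) a b) = N (frob r) a b from
        congrFun (congrFun (hcc r (frob r)) a) b, map_sub, hNres, AlgHom.commutes, ← hΦ₀]
      exact sub_self _
    · show (framedRep r₀ R N r (tame r) - 1) a b ∈ _
      rw [mem_maximalIdeal_iff_constantCoeff, Matrix.sub_apply, map_sub,
        ← toResidue_eq_zero_iff hl hs,
        show constantCoeff (framedRep r₀ R N r (tame r) a b) = N (tame r) a b from
        congrFun (congrFun (hcc r (tame r)) a) b, map_sub, hNres, htame]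
      rw [Matrix.one_apply, Matrix.one_apply]
      split_ifs <;> simp
  -- the ring of local coordinates
  set B := MvPowerSeries ((T × Fin 2 × Fin 2) ⊕ (T × Fin 2 × Fin 2)) O with hB
  obtain ⟨ψ₀, hψ₀, hψ₀X⟩ := exists_algHom_powerSeries (B := O) loc hlocm
  let : Algebra B (MvPowerSeries (FrameVar T r₀) R) := (ψ₀ : B →+* (MvPowerSeries (FrameVar T r₀) R)).toAlgebra
  have : IsScalarTower O B (MvPowerSeries (FrameVar T r₀) R) := IsScalarTower.of_algebraMap_eq fun o => (ψ₀.commutes o).symm
  have : IsLocalHom (algebraMap B (MvPowerSeries (FrameVar T r₀) R)) := hψ₀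
  have : IsLocalHom (algebraMap O B) := ⟨fun x hx => by
    have := isUnit_iff_constantCoeff.mp hx
    rwa [MvPowerSeries.algebraMap_apply, constantCoeff_C, Algebra.algebraMap_self,
      RingHom.id_apply] at this⟩
  -- generators
  let point : (GQ × Fin 2 × Fin 2) ⊕ FrameVar T r₀ → (MvPowerSeries (FrameVar T r₀) R) :=
    Sum.elim (fun i => C (coordsOf (⇑N) i)) X
  have hgenA : ∀ f : (MvPowerSeries (FrameVar T r₀) R), ∃ s ∈ Algebra.adjoin O (Set.range point), f - s ∈ maximalIdeal (MvPowerSeries (FrameVar T r₀) R) ^ 2 := by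
    set Sb := Algebra.adjoin O (Set.range point)
    let K : Subalgebra O (MvPowerSeries (FrameVar T r₀) R) :=
      (Sb.map (Ideal.Quotient.mkₐ O (maximalIdeal (MvPowerSeries (FrameVar T r₀) R) ^ 2))).comap (Ideal.Quotient.mkₐ O _)
    suffices h : ∀ f : (MvPowerSeries (FrameVar T r₀) R), f ∈ K by
      intro f
      obtain ⟨s, hs', he⟩ := h f
      exact ⟨s, hs', (Ideal.Quotient.mk_eq_mk_iff_sub_mem _ _).mp he.symm⟩
    have hSK : Sb ≤ K := fun s hs' => ⟨s, hs', rfl⟩
    have hmK : ∀ f ∈ maximalIdeal (MvPowerSeries (FrameVar T r₀) R) ^ 2, f ∈ K := fun f hf => by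
      rw [Subalgebra.mem_comap, Ideal.Quotient.mkₐ_eq_mk, Ideal.Quotient.eq_zero_iff_mem.mpr hf]
      exact zero_mem _
    have hCK : ∀ x : R, C x ∈ K := by
      intro x
      obtain ⟨t, ht, htx⟩ := hgen x
      have h1 : C t ∈ K := by
        have : Cₐ t ∈ (Algebra.adjoin O (entries N)).map Cₐ := ⟨t, ht, rfl⟩
        rw [AlgHom.map_adjoin] at this
        refine hSK (Algebra.adjoin_le ?_ this)
        rintro _ ⟨_, ⟨i, rfl⟩, rfl⟩
        exact Algebra.subset_adjoin ⟨Sum.inl i, rfl⟩
      have h2 : C (x - t) ∈ K := hmK _ (mem_pow_of_algHom (Cₐ : R →+* (MvPowerSeries (FrameVar T r₀) R)) hCl htx)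
      simpa using add_mem h2 h1
    intro f
    have hf := Ideal.pow_right_mono span_X_le_maximalIdeal 2 (sub_truncTotal_mem_span_pow f 2)
    have hp : ∀ p : MvPolynomial (FrameVar T r₀) R, (p : (MvPowerSeries (FrameVar T r₀) R)) ∈ K := by
      intro p
      induction p using MvPolynomial.induction_on with
      | C x => rw [MvPolynomial.coe_C]; exact hCK x
      | add p q hp hq => rw [MvPolynomial.coe_add]; exact add_mem hp hq
      | mul_X p i hp =>
        rw [MvPolynomial.coe_mul, MvPolynomial.coe_X]
        exact mul_mem hp (hSK (Algebra.subset_adjoin ⟨Sum.inr i, rfl⟩))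
    have := add_mem (hmK _ hf) (hp (truncTotal 2 f))
    rwa [sub_add_cancel] at this
  -- the tangent space
  let pairs : Submodule kk ((GQ → M₂) × (T → M₂)) :=
    { carrier := {x | x.1 ∈ Zc ∧ ∀ r, ∀ σ ∈ ({frob r, tame r} : Set GQ),
        x.1 σ + x.2 r - D.rbar σ * x.2 r * D.rbar σ⁻¹ = 0}
      zero_mem' := ⟨Zc.zero_mem, fun r σ _ => by simp⟩
      add_mem' := fun {x y} hx hy => ⟨Zc.add_mem hx.1 hy.1, fun r σ hσ => by
        have h1 := hx.2 r σ hσ
        have h2 := hy.2 r σ hσ
        simp only [Prod.fst_add, Prod.snd_add, Pi.add_apply, mul_add, add_mul]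
        rw [← add_zero (0 : M₂)]
        nth_rewrite 1 [← h1]
        rw [← h2]
        abel⟩
      smul_mem' := fun c x hx => ⟨Zc.smul_mem c hx.1, fun r σ hσ => by
        have h1 := congrArg (c • ·) (hx.2 r σ hσ)
        simpa [smul_sub, smul_add] using h1⟩ }
  let K : Submodule kk ((GQ → M₂) × (T → M₂)) :=
    pairs ⊓ (normalCocycles D).comap (LinearMap.fst _ _ _) ⊓
      LinearMap.ker ((LinearMap.proj (0 : Fin 2)).comp ((LinearMap.proj (0 : Fin 2)).comp
        ((LinearMap.proj r₀).comp (LinearMap.snd kk (GQ → M₂) (T → M₂)))))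
  obtain ⟨hfin, hdim⟩ := hbound pairs fun x hx => hx
  have hKfin : FiniteDimensional kk K :=
    Submodule.finiteDimensional_of_le (inf_le_left.trans inf_le_left)
  let mv : (K × M₂) →ₗ[kk] pairs := LinearMap.codRestrict pairs
    (K.subtype.coprod ((d0 (adRep D.rbar)).prod (LinearMap.pi fun _ => LinearMap.id)))
    fun z => by
      refine pairs.add_mem z.1.2.1.1 ⟨hcob z.2, fun r σ _ => ?_⟩
      simp [d0_apply]
  have hmv : Function.Injective mv := by
    refine (injective_iff_map_eq_zero mv).mpr fun z hz => ?_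
    obtain ⟨⟨⟨c, Z⟩, ⟨hp, hcn⟩, hZ0⟩, Y⟩ := z
    have hz' : c + d0 (adRep D.rbar) Y = 0 ∧ (fun r => Z r + Y) = 0 := by
      have := congrArg Subtype.val hz
      exact ⟨congrArg Prod.fst this, congrArg Prod.snd this⟩
    have hc0 : c = 0 := eq_zero_of_mem_normalCocycles_of_mem_B1 hcn
      ⟨-Y, by rw [map_neg]; exact (eq_neg_of_add_eq_zero_left hz'.1).symm⟩
    obtain ⟨s, hs0⟩ := exists_eq_smul_one_of_commute Y fun σ => by
      have h1 := congrFun hz'.1 σ
      rw [hc0, zero_add, d0_apply, adRep_apply, Pi.zero_apply, sub_eq_zero] at h1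
      calc D.rbar σ * Y = D.rbar σ * Y * (D.rbar σ⁻¹ * D.rbar σ) := by rw [rho_inv_mul, mul_one]
        _ = Y * D.rbar σ := by rw [← mul_assoc, h1]
    have hY : Y = 0 := by
      have h1 : Z r₀ 0 0 + Y 0 0 = 0 := congrFun (congrFun (congrFun hz'.2 r₀) 0) 0
      have h2 : Z r₀ 0 0 = 0 := hZ0
      rw [h2, zero_add, hs0] at h1
      rw [hs0, show s = 0 by simpa using h1, zero_smul]
    have hZ : Z = 0 := funext fun r => by simpa [hY] using congrFun hz'.2 r
    simp [hc0, hY, hZ]
  have hKdim : Module.finrank kk K ≤ g := by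
    have h1 := LinearMap.finrank_le_finrank_of_injective hmv
    rw [Module.finrank_prod, Module.finrank_matrix] at h1
    simp at h1
    omega
  let Ψ : (GQ → M₂) × (T → M₂) →ₗ[kk] ((GQ × Fin 2 × Fin 2) ⊕ FrameVar T r₀ → kk) :=
    { toFun := fun x => Sum.elim (coordsOf fun σ => x.1 σ * D.rbar σ)
        fun p => -(x.2 p.1.1 p.1.2.1 p.1.2.2)
      map_add' := fun x y => by
        funext i
        rcases i with ⟨σ, a, b⟩ | p
        · simp [coordsOf, add_mul]
        · simp [add_comm]
      map_smul' := fun c x => by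
        funext i
        rcases i with ⟨σ, a, b⟩ | p
        · simp [coordsOf]
        · simp }
  have : FiniteDimensional kk (K.map Ψ) := Module.Finite.map K Ψ
  obtain ⟨y, hy, hle⟩ := exists_relative_generators (B := B) hsA point hgenA (K.map Ψ)
    ((Submodule.finrank_map_le Ψ K).trans hKdim) (fun φ hφ => by
      have hφl := isLocalHom_toDual φ
      have hm : ∀ {f : (MvPowerSeries (FrameVar T r₀) R)}, f ∈ maximalIdeal (MvPowerSeries (FrameVar T r₀) R) → (φ f).fst = 0 := fun {f} hf => by
        by_contra hne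
        exact hf (hφl.map_nonunit f
          (TrivSqZeroExt.isUnit_iff_isUnit_fst.mpr (isUnit_iff_ne_zero.mpr hne)))
      set N' := mapRep ((φ.comp Cₐ : R →ₐ[O] DualNumber kk) : R →+* DualNumber kk) N with hN'
      have hN'a : ∀ σ, N' σ = ((N σ).map C).map φ := fun σ => by
        rw [hN', mapRep_apply, Matrix.map_map]; rfl
      have hfst : ∀ σ, (N' σ).map TrivSqZeroExt.fst = D.rbar σ := fun σ => Matrix.ext fun a b => by
        obtain ⟨o, ho⟩ := exists_algebraMap_add_mem hs (N σ a b)
        have h1 : residue O o = D.rbar σ a b := by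
          have := (toResidue_eq_zero_iff hl hs).mpr ho
          rw [map_sub, AlgHom.commutes, hNres, sub_eq_zero] at this
          exact this.symm
        have h2 := hm (mem_pow_of_algHom (Cₐ : R →+* (MvPowerSeries (FrameVar T r₀) R)) hCl (n := 1) (by rwa [pow_one]) |>
          fun h => by rwa [pow_one] at h)
        rw [hN'a, Matrix.map_apply, Matrix.map_apply, Matrix.map_apply]
        have h3 : φ (C (algebraMap O R o)) = algebraMap O (DualNumber kk) o := by
          rw [← hC, AlgHom.commutes, AlgHom.commutes]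
        simp only [RingHom.coe_coe, hC, map_sub, h3, TrivSqZeroExt.fst_sub, dual_algebraMap,
          TrivSqZeroExt.fst_inl, sub_eq_zero, h1] at h2
        exact h2
      let Z : T → M₂ := fun r => (frameVarMat r₀ R r).map fun f => (φ f).snd
      have hF : ∀ r, ((genericFrame r₀ R r).map φ).map TrivSqZeroExt.fst = 1 ∧
          ((genericFrame r₀ R r).map φ).map TrivSqZeroExt.snd = Z r := by
        refine fun r => ⟨Matrix.ext fun a b => ?_, Matrix.ext fun a b => ?_⟩
        · simp only [genericFrame, frameVarMat, Matrix.map_apply, Matrix.add_apply, Matrix.of_apply,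
            Matrix.one_apply]
          split_ifs <;> simp [hm (X_mem_maximalIdeal _)]
        · simp only [Z, genericFrame, frameVarMat, Matrix.map_apply, Matrix.add_apply,
            Matrix.of_apply, Matrix.one_apply]
          split_ifs <;> simp
      have heq : ∀ r σ, ((framedRep r₀ R N r σ).map φ).map TrivSqZeroExt.snd =
          cocOf D.rbar N' σ * D.rbar σ - Z r * D.rbar σ + D.rbar σ * Z r := by
        intro r σ
        set F := (genericFrame r₀ R r).map φ
        set F' := ((isUnit_genericFrame r₀ R r).unit⁻¹ : (Matrix _ _ (MvPowerSeries (FrameVar T r₀) R))ˣ).1.map φ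
        have hone : (1 : Matrix (Fin 2) (Fin 2) (DualNumber kk)).map TrivSqZeroExt.fst = 1 ∧
            (1 : Matrix (Fin 2) (Fin 2) (DualNumber kk)).map TrivSqZeroExt.snd = (0 : M₂) := by
          constructor
          · rw [← dualMat_one, fst_dualMat]
          · rw [← dualMat_one, snd_dualMat]
        have hmul : F' * F = 1 := by
          rw [← Matrix.map_mul, IsUnit.val_inv_mul, Matrix.map_one _ (map_zero φ) (map_one φ)]
        have h1 : F'.map TrivSqZeroExt.fst = 1 := by
          have := congrArg (fun W => W.map TrivSqZeroExt.fst) hmul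
          simp only [fst_map_mul, hone.1] at this
          rwa [show F.map TrivSqZeroExt.fst = 1 from (hF r).1, mul_one] at this
        have h2 : F'.map TrivSqZeroExt.snd = -Z r := by
          have := congrArg (fun W => W.map TrivSqZeroExt.snd) hmul
          simp only [snd_map_mul, h1, hone.2, one_mul] at this
          rw [show F.map TrivSqZeroExt.fst = 1 from (hF r).1,
            show F.map TrivSqZeroExt.snd = Z r from (hF r).2, mul_one] at this
          exact eq_neg_of_add_eq_zero_right this
        show ((_ * _ * _ : Matrix (Fin 2) (Fin 2) (MvPowerSeries (FrameVar T r₀) R)).map φ).map _ = _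
        rw [Matrix.map_mul, Matrix.map_mul, ← hN'a, snd_map_mul, fst_map_mul, snd_map_mul,
          (hF r).1, (hF r).2, h1, h2, hfst, snd_eq_cocOf_mul (ρ := D.rbar)]
        simp only [one_mul, mul_one, neg_mul]
        abel
      have hrel : ∀ r, ∀ σ ∈ ({frob r, tame r} : Set GQ),
          cocOf D.rbar N' σ + -Z r - D.rbar σ * -Z r * D.rbar σ⁻¹ = 0 := by
        intro r σ hσ
        have h1 : ((framedRep r₀ R N r σ).map φ).map TrivSqZeroExt.snd = 0 := by
          refine Matrix.ext fun a b => ?_
          have hl0 : ∀ l, φ (loc l) = 0 := fun l => by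
            rw [← hψ₀X l]
            exact hφ (X l) (X_mem_maximalIdeal l)
          rw [Matrix.map_apply, Matrix.map_apply, Matrix.zero_apply]
          rcases hσ with rfl | rfl
          · have := hl0 (Sum.inl (r, a, b))
            simp only [loc, Sum.elim_inl, map_sub, AlgHom.commutes, sub_eq_zero] at this
            rw [this, dual_algebraMap, TrivSqZeroExt.snd_inl]
          · have := hl0 (Sum.inr (r, a, b))
            simp only [loc, Sum.elim_inr, Matrix.sub_apply, map_sub, sub_eq_zero,
              Matrix.one_apply] at this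
            rw [this]
            split_ifs <;> simp
        have h2 := congrArg (fun W => W * D.rbar σ⁻¹) ((heq r σ).symm.trans h1)
        simp only [sub_mul, add_mul, zero_mul, mul_assoc, rho_mul_inv, mul_one] at h2
        rw [← h2]
        simp only [mul_neg, neg_mul, mul_assoc]
        abel
      refine ⟨(cocOf D.rbar N', fun r => -Z r),
        ⟨⟨⟨hZ _, hrel⟩, cocOf_mul hfst, (liftOf_cocOf hfst).symm ▸ hN.map _⟩, ?_⟩, ?_⟩
      · show -(φ (frameVarMat r₀ R r₀ 0 0)).snd = 0
        simp [frameVarMat]
      · funext i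
        rcases i with ⟨σ, a, b⟩ | p
        · show (cocOf D.rbar N' σ * D.rbar σ) a b = _
          rw [← snd_eq_cocOf_mul, hN'a]
          rfl
        · show - -(φ (frameVarMat r₀ R p.1.1 p.1.2.1 p.1.2.2)).snd = _
          rw [neg_neg, frameVarMat, Matrix.of_apply, dif_neg p.2]
          rfl)
  -- all coordinates together
  let x : LocVar T g → (MvPowerSeries (FrameVar T r₀) R) :=
    Sum.elim (fun p => loc (Sum.inl p)) (Sum.elim (fun p => loc (Sum.inr p)) y)
  have hx : ∀ i, x i ∈ maximalIdeal (MvPowerSeries (FrameVar T r₀) R) := by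
    rintro (p | p | l)
    exacts [hlocm (Sum.inl p), hlocm (Sum.inr p), hy l]
  have : IsAdicComplete (maximalIdeal (LocRing O T g)) (LocRing O T g) :=
    isAdicComplete_mvPowerSeries
  obtain ⟨ψ, hψl, hψX⟩ := exists_algHom_powerSeries (B := O) x hx
  have := hψl
  have hψC : ∀ o : O, ψ (C o) = algebraMap O (MvPowerSeries (FrameVar T r₀) R) o := fun o => by
    have := ψ.commutes o
    rwa [MvPowerSeries.algebraMap_apply, Algebra.algebraMap_self, RingHom.id_apply] at this
  have hmem : ∀ i : LocVar T g, ψ (X i) ∈ (maximalIdeal (LocRing O T g)).map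
      (ψ : LocRing O T g →+* MvPowerSeries (FrameVar T r₀) R) :=
    fun i => Ideal.mem_map_of_mem _ (X_mem_maximalIdeal i)
  refine ⟨ψ, hψl, surjective_of_cotangent (ψ : LocRing O T g →+* (MvPowerSeries (FrameVar T r₀) R)) (fun z => ?_)
    (hle.trans (sup_le_sup_right (sup_le ?_ ?_) _)), fun r => ⟨?_, ?_⟩⟩
  · obtain ⟨o, ho⟩ := hsA z
    exact ⟨C o, by simpa [hψC] using ho⟩
  · refine Ideal.map_le_iff_le_comap.mpr (maximalIdeal_mvPowerSeries_le.trans (sup_le
      (Ideal.map_le_iff_le_comap.mpr fun o ho => ?_) (Ideal.span_le.mpr ?_)))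
    · simp only [Ideal.mem_comap]
      have h1 : C o ∈ maximalIdeal (LocRing O T g) := by
        rwa [mem_maximalIdeal_iff_constantCoeff, constantCoeff_C]
      have h2 := Ideal.mem_map_of_mem (ψ : LocRing O T g →+* (MvPowerSeries (FrameVar T r₀) R)) h1
      rw [show algebraMap B (MvPowerSeries (FrameVar T r₀) R) (C o) = ψ (C o) by
        rw [hψC, IsScalarTower.algebraMap_apply O B (MvPowerSeries (FrameVar T r₀) R), MvPowerSeries.algebraMap_apply,
          Algebra.algebraMap_self, RingHom.id_apply]]
      exact h2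
    · rintro _ ⟨l, rfl⟩
      rw [SetLike.mem_coe, Ideal.mem_comap, show algebraMap B (MvPowerSeries (FrameVar T r₀) R) (X l) = loc l from hψ₀X l]
      rcases l with p | p
      · rw [show loc (Sum.inl p) = ψ (X (Sum.inl p)) from (hψX (Sum.inl p)).symm]
        exact hmem _
      · rw [show loc (Sum.inr p) = ψ (X (Sum.inr (Sum.inl p))) from
          (hψX (Sum.inr (Sum.inl p))).symm]
        exact hmem _
  · rw [Ideal.span_le]
    rintro _ ⟨l, rfl⟩
    rw [SetLike.mem_coe, show y l = ψ (X (Sum.inr (Sum.inr l))) from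
      (hψX (Sum.inr (Sum.inr l))).symm]
    exact hmem _
  · ext a b
    simp only [locFrob, Matrix.map_apply, Matrix.of_apply, map_add, hψC, hψX]
    simp [x, loc]
  · ext a b
    simp only [locMono, Matrix.map_apply, Matrix.of_apply, hψX]
    simp [x, loc]

end Fermat.Agent.Engine
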