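import Fermat.Agent.Engine.Coefficients

/-!
# Adding frames to an action of a level ring

From matrices over `TwQuot` for the level ring: `fullAct`, matrices over `O[[S, y]] ⧸ levelIdeal n`
for the extended coordinate ring, and `baseMap`, its reduction to the base ring.
-/

set_option autoImplicit false

noncomputable section

namespace Fermat.Agent.Engine

open IsLocalRing Filter Patch Fermat.Agent.Deform Fermat.Agent.DefRing

variable {O : Type} [CommRing O] [IsDomain O] [IsDiscreteValuationRing O]
  [IsAdicComplete (maximalIdeal O) O] {r : ℕ} {T : Type} [Fintype T] {r₀ : T}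
  {frob tame : T → GQ} {Φ₀ : T → Matrix (Fin 2) (Fin 2) O} {L₀ : LevelData O} {PB : L₀.RepRing}

namespace AuxLevels

variable (X : AuxLevels r r₀ frob tame Φ₀ L₀ PB) (n : ℕ)

omit [IsAdicComplete (maximalIdeal O) O] in
/-- The map from the extended local coordinates to the framed level with free variables exists. -/
theorem exists_extMap : ∃ Φ : ExtRing O T r X.nExtra X.g →+*
      MvPowerSeries (Fin r) ((X.P n).Framed r₀),
    (∀ x, Φ (MvPowerSeries.C x) = MvPowerSeries.C (X.θ n x)) ∧
      (∀ i, Φ (MvPowerSeries.X (Sum.inl i)) = MvPowerSeries.X i) ∧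
      ∀ k, Φ (MvPowerSeries.X (Sum.inr k)) =
        MvPowerSeries.C (MvPowerSeries.C (X.extra n k)) := by
  have : IsAdicComplete (maximalIdeal ((X.P n).Framed r₀)) ((X.P n).Framed r₀) :=
    (X.P n).isAdicComplete_framed r₀
  have : IsAdicComplete (maximalIdeal (MvPowerSeries (Fin r) ((X.P n).Framed r₀)))
      (MvPowerSeries (Fin r) ((X.P n).Framed r₀)) := DefRing.isAdicComplete_mvPowerSeries
  obtain ⟨Φ, hC, hX⟩ := exists_eval (J := maximalIdeal (MvPowerSeries (Fin r) ((X.P n).Framed r₀)))
    ((MvPowerSeries.C : (X.P n).Framed r₀ →+* _).comp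
      (X.θ n : LocRing O T X.g →+* (X.P n).Framed r₀))
    (Sum.elim (fun i : Fin r => MvPowerSeries.X i)
      fun k => MvPowerSeries.C (MvPowerSeries.C (X.extra n k))) (by
      rintro (i | k)
      · exact DefRing.X_mem_maximalIdeal i
      · show MvPowerSeries.C (MvPowerSeries.C (X.extra n k)) ∈ maximalIdeal _
        rw [DefRing.mem_maximalIdeal_iff_constantCoeff, MvPowerSeries.constantCoeff_C,
          DefRing.mem_maximalIdeal_iff_constantCoeff, MvPowerSeries.constantCoeff_C]
        exact X.extra_mem n k)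
  exact ⟨Φ, fun x => hC x, fun i => hX (Sum.inl i), fun k => hX (Sum.inr k)⟩

/-- The extended coordinates in the framed ring. -/
def extMap : ExtRing O T r X.nExtra X.g →+* MvPowerSeries (Fin r) ((X.P n).Framed r₀) :=
  (X.exists_extMap n).choose

omit [IsAdicComplete (maximalIdeal O) O] in
/-- `extMap` on constants. -/
theorem extMap_C (x : LocRing O T X.g) :
    X.extMap n (MvPowerSeries.C x) = MvPowerSeries.C (X.θ n x) :=
  (X.exists_extMap n).choose_spec.1 x

omit [IsAdicComplete (maximalIdeal O) O] in
/-- `extMap` on the Taylor–Wiles variables. -/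
theorem extMap_inl (i : Fin r) :
    X.extMap n (MvPowerSeries.X (Sum.inl i)) = MvPowerSeries.X i :=
  (X.exists_extMap n).choose_spec.2.1 i

omit [IsAdicComplete (maximalIdeal O) O] in
/-- `extMap` on the further generators. -/
theorem extMap_inr (k : Fin X.nExtra) : X.extMap n (MvPowerSeries.X (Sum.inr k)) =
    MvPowerSeries.C (MvPowerSeries.C (X.extra n k)) :=
  (X.exists_extMap n).choose_spec.2.2 k

/-- Everything in the framed ring comes from the extended coordinates; non-units from the maximal
ideal of the local coordinates and the further variables. -/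
theorem exists_extMap_eq (f : (X.P n).Framed r₀) :
    ∃ t, X.extMap n t = MvPowerSeries.C f ∧ (f ∈ maximalIdeal _ →
      t ∈ (maximalIdeal (LocRing O T X.g)).map MvPowerSeries.C ⊔
        Ideal.span (Set.range fun k => MvPowerSeries.X (Sum.inr k))) := by
  obtain ⟨Φ, hsurj, hC, hX⟩ := X.generates n
  obtain ⟨t₀, rfl⟩ := hsurj f
  have : IsAdicComplete (maximalIdeal (LocRing O T X.g)) (LocRing O T X.g) :=
    DefRing.isAdicComplete_mvPowerSeries
  have : IsAdicComplete (maximalIdeal (ExtRing O T r X.nExtra X.g))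
      (ExtRing O T r X.nExtra X.g) := DefRing.isAdicComplete_mvPowerSeries
  obtain ⟨ι', hιC, hιX⟩ := exists_eval (J := maximalIdeal (ExtRing O T r X.nExtra X.g))
    (MvPowerSeries.C : LocRing O T X.g →+* ExtRing O T r X.nExtra X.g)
    (fun k : Fin X.nExtra => MvPowerSeries.X (Sum.inr k))
    fun k => DefRing.X_mem_maximalIdeal _
  have : IsAdicComplete (maximalIdeal ((X.P n).Framed r₀)) ((X.P n).Framed r₀) :=
    (X.P n).isAdicComplete_framed r₀
  have : IsAdicComplete (maximalIdeal (MvPowerSeries (Fin r) ((X.P n).Framed r₀)))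
      (MvPowerSeries (Fin r) ((X.P n).Framed r₀)) := DefRing.isAdicComplete_mvPowerSeries
  refine ⟨ι' t₀, RingHom.congr_fun (eval_unique
    (J := maximalIdeal (MvPowerSeries (Fin r) ((X.P n).Framed r₀)))
    (Φ := (X.extMap n).comp ι') (Ψ := (MvPowerSeries.C : (X.P n).Framed r₀ →+* _).comp Φ)
    (fun k => ?_) (fun b => ?_) fun k => ?_) t₀, fun hf => ?_⟩
  · rw [RingHom.comp_apply, hιX, extMap_inr, DefRing.mem_maximalIdeal_iff_constantCoeff,
      MvPowerSeries.constantCoeff_C, DefRing.mem_maximalIdeal_iff_constantCoeff,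
      MvPowerSeries.constantCoeff_C]
    exact X.extra_mem n k
  · rw [RingHom.comp_apply, RingHom.comp_apply, hιC, extMap_C, hC]
  · rw [RingHom.comp_apply, RingHom.comp_apply, hιX, extMap_inr, hX]
  · have h1 := Ideal.mem_map_of_mem ι'
      (maximalIdeal_mvPowerSeries_le (show t₀ ∈ maximalIdeal _ from fun hu => hf (hu.map Φ)))
    rw [Ideal.map_sup, Ideal.map_map, show ι'.comp MvPowerSeries.C =
      (MvPowerSeries.C : LocRing O T X.g →+* _) from RingHom.ext hιC, Ideal.map_span,
      ← Set.range_comp] at h1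
    convert h1 using 4
    exact funext fun k => (hιX k).symm

/-- Reduction of the framed ring to the base: trivial frames. -/
def framedBase : (X.P n).Framed r₀ →+* PB.R :=
  (X.toBase n : (X.P n).R →+* PB.R).comp MvPowerSeries.constantCoeff

/-- The map to the base ring. -/
def baseMap : ExtRing O T r X.nExtra X.g →+* PB.R :=
  ((X.framedBase n).comp MvPowerSeries.constantCoeff).comp (X.extMap n)

/-- `baseMap` on constants. -/
theorem baseMap_C (x : LocRing O T X.g) :
    X.baseMap n (MvPowerSeries.C x) = X.framedBase n (X.θ n x) := by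
  rw [baseMap, RingHom.comp_apply, RingHom.comp_apply, extMap_C, MvPowerSeries.constantCoeff_C]

/-- `baseMap` kills the Taylor–Wiles variables. -/
theorem baseMap_inl (i : Fin r) : X.baseMap n (MvPowerSeries.X (Sum.inl i)) = 0 := by
  rw [baseMap, RingHom.comp_apply, RingHom.comp_apply, extMap_inl,
    MvPowerSeries.constantCoeff_X, map_zero]

/-- `baseMap` is surjective. -/
theorem surjective_baseMap : Function.Surjective (X.baseMap n) := fun b => by
  obtain ⟨a, rfl⟩ := X.toBase_surjective n b
  obtain ⟨t, ht, -⟩ := X.exists_extMap_eq n (MvPowerSeries.C a)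
  refine ⟨t, ?_⟩
  rw [baseMap, RingHom.comp_apply, RingHom.comp_apply, ht, MvPowerSeries.constantCoeff_C]
  show X.toBase n (MvPowerSeries.constantCoeff (MvPowerSeries.C a)) = _
  rw [MvPowerSeries.constantCoeff_C]

/-- `baseMap` is local. -/
theorem isLocalHom_baseMap : IsLocalHom (X.baseMap n) := ⟨fun t ht => by
  by_contra hnu
  have : IsLocalHom (X.θ n : LocRing O T X.g →+* (X.P n).Framed r₀) := X.θ_isLocalHom n
  have hm : X.extMap n t ∈ maximalIdeal _ := by
    intro hu
    apply hnu
    rw [MvPowerSeries.isUnit_iff_constantCoeff]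
    by_contra hc
    have h1 : t ∈ maximalIdeal (ExtRing O T r X.nExtra X.g) :=
      (DefRing.mem_maximalIdeal_iff_constantCoeff t).2 hc
    have h2 : (maximalIdeal (ExtRing O T r X.nExtra X.g)).map (X.extMap n) ≤ maximalIdeal _ := by
      refine le_trans (Ideal.map_mono maximalIdeal_mvPowerSeries_le) ?_
      rw [Ideal.map_sup, Ideal.map_map, Ideal.map_span]
      refine sup_le (Ideal.map_le_iff_le_comap.2 fun a ha => ?_) (Ideal.span_le.2 ?_)
      · rw [Ideal.mem_comap, RingHom.comp_apply, extMap_C,
          DefRing.mem_maximalIdeal_iff_constantCoeff, MvPowerSeries.constantCoeff_C]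
        exact map_nonunit (X.θ n : LocRing O T X.g →+* (X.P n).Framed r₀) a ha
      · rintro _ ⟨_, ⟨i | k, rfl⟩, rfl⟩
        · rw [SetLike.mem_coe, extMap_inl]
          exact DefRing.X_mem_maximalIdeal i
        · rw [SetLike.mem_coe, extMap_inr, DefRing.mem_maximalIdeal_iff_constantCoeff,
            MvPowerSeries.constantCoeff_C, DefRing.mem_maximalIdeal_iff_constantCoeff,
            MvPowerSeries.constantCoeff_C]
          exact X.extra_mem n k
    exact h2 (Ideal.mem_map_of_mem _ h1) hu
  have hm2 : MvPowerSeries.constantCoeff (MvPowerSeries.constantCoeff (X.extMap n t)) ∈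
      maximalIdeal (X.P n).R := by
    rw [← DefRing.mem_maximalIdeal_iff_constantCoeff, ← DefRing.mem_maximalIdeal_iff_constantCoeff]
    exact hm
  have := X.toBase_isLocalHom n
  exact map_nonunit (X.toBase n : (X.P n).R →+* PB.R) _ hm2 ht⟩

section Act

variable (p : ℕ) {d : ℕ} (act : (X.P n).R →+* Matrix (Fin d) (Fin d) (TwQuot O p r n))

/-- The coefficient ring of level `n`. -/
abbrev Coeff : Type := CoeffRing O r T r₀ ⧸ levelIdeal O p r r₀ n

omit [IsAdicComplete (maximalIdeal O) O] [Fintype T] in
/-- The level ideal is proper. -/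
theorem levelIdeal_ne_top : levelIdeal O p r r₀ n ≠ ⊤ := fun h =>
  one_ne_zero (α := O) (C_mem_augIdeal_iff O r r₀ |>.1
    (levelIdeal_le_augIdeal O p r r₀ n (h ▸ Submodule.mem_top)))

/-- The coefficient ring of a level is nontrivial. -/
instance : Nontrivial (CoeffRing O r T r₀ ⧸ levelIdeal O p r r₀ n) :=
  Ideal.Quotient.nontrivial_iff.2 (levelIdeal_ne_top n p)

/-- The coefficient ring of a level is local. -/
instance : IsLocalRing (CoeffRing O r T r₀ ⧸ levelIdeal O p r r₀ n) :=
  .of_surjective' _ Ideal.Quotient.mk_surjective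

/-- The coefficient ring of a level is complete. -/
theorem isAdicComplete_coeff : IsAdicComplete
    (maximalIdeal (CoeffRing O r T r₀ ⧸ levelIdeal O p r r₀ n))
    (CoeffRing O r T r₀ ⧸ levelIdeal O p r r₀ n) := by
  have : IsAdicComplete (maximalIdeal (CoeffRing O r T r₀)) (CoeffRing O r T r₀) :=
    DefRing.isAdicComplete_mvPowerSeries
  have h := isAdicComplete_of_finite (C := CoeffRing O r T r₀ ⧸ levelIdeal O p r r₀ n)
    (CoeffRing O r T r₀)
  rwa [show (maximalIdeal (CoeffRing O r T r₀)).map (algebraMap _ _) =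
    maximalIdeal (CoeffRing O r T r₀ ⧸ levelIdeal O p r r₀ n) from ?_] at h
  refine le_antisymm (Ideal.map_le_iff_le_comap.2 fun x hx => ?_) fun y hy => ?_
  · have : IsLocalHom (Ideal.Quotient.mk (levelIdeal O p r r₀ n)) :=
      IsLocalHom.of_surjective _ Ideal.Quotient.mk_surjective
    exact map_nonunit (Ideal.Quotient.mk (levelIdeal O p r r₀ n)) x hx
  · obtain ⟨x, rfl⟩ := Ideal.Quotient.mk_surjective y
    exact Ideal.mem_map_of_mem _ (fun hu => hy (hu.map _))

omit [IsAdicComplete (maximalIdeal O) O] [Fintype T] in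
/-- The variables lie in the maximal ideal of the coefficient ring of a level. -/
theorem mk_X_mem (i : Fin r ⊕ FrameVar T r₀) :
    Ideal.Quotient.mk (levelIdeal O p r r₀ n) (MvPowerSeries.X i) ∈
      maximalIdeal (CoeffRing O r T r₀ ⧸ levelIdeal O p r r₀ n) := by
  have : IsLocalHom (Ideal.Quotient.mk (levelIdeal O p r r₀ n)) :=
    IsLocalHom.of_surjective _ Ideal.Quotient.mk_surjective
  exact map_nonunit (Ideal.Quotient.mk (levelIdeal O p r r₀ n)) _ (X_mem O r r₀ i)

/-- The embedding of the coefficient ring of the auxiliary level. -/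
def twEmbed : TwQuot O p r n →+* Coeff (O := O) (r := r) (r₀ := r₀) n p :=
  (exists_twEmbed O p r r₀ n).choose

/-- `twEmbed` on constants. -/
theorem twEmbed_const (o : O) : twEmbed (r₀ := r₀) n p (twConst O p r n o) =
    Ideal.Quotient.mk _ (MvPowerSeries.C o) :=
  (exists_twEmbed O p r r₀ n).choose_spec.1 o

/-- `twEmbed` on the variables. -/
theorem twEmbed_var (i : Fin r) : twEmbed (r₀ := r₀) n p (twVar O p r n i) =
    Ideal.Quotient.mk _ (MvPowerSeries.X (Sum.inl i)) :=
  (exists_twEmbed O p r r₀ n).choose_spec.2 i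

/-- The action extends to the framed ring, the frame variables acting as scalars. -/
theorem exists_framedAct : ∃ Φ : (X.P n).Framed r₀ →+*
      Matrix (Fin d) (Fin d) (Coeff (O := O) (r := r) (r₀ := r₀) n p),
    (∀ b, Φ (MvPowerSeries.C b) = (act b).map (twEmbed (r₀ := r₀) n p)) ∧
      ∀ y, Φ (MvPowerSeries.X y) = Ideal.Quotient.mk (levelIdeal O p r r₀ n)
        (MvPowerSeries.X (Sum.inr y)) • 1 := by
  have := isAdicComplete_coeff (O := O) (r := r) (r₀ := r₀) n p
  exact exists_matEval (((twEmbed (r₀ := r₀) n p).mapMatrix).comp act)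
    (fun y => Ideal.Quotient.mk (levelIdeal O p r r₀ n) (MvPowerSeries.X (Sum.inr y)))
    fun y => mk_X_mem n p _

/-- The action of the framed ring. -/
def framedAct : (X.P n).Framed r₀ →+*
    Matrix (Fin d) (Fin d) (Coeff (O := O) (r := r) (r₀ := r₀) n p) :=
  (X.exists_framedAct n p act).choose

/-- `framedAct` on the level ring. -/
theorem framedAct_C (b : (X.P n).R) :
    X.framedAct n p act (MvPowerSeries.C b) = (act b).map (twEmbed (r₀ := r₀) n p) :=
  (X.exists_framedAct n p act).choose_spec.1 b

/-- `framedAct` on the frame variables. -/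
theorem framedAct_X (y : FrameVar T r₀) : X.framedAct n p act (MvPowerSeries.X y) =
    Ideal.Quotient.mk (levelIdeal O p r r₀ n) (MvPowerSeries.X (Sum.inr y)) • 1 :=
  (X.exists_framedAct n p act).choose_spec.2 y

/-- The action extends to the series in the Taylor–Wiles variables, acting as scalars. -/
theorem exists_diamondAct : ∃ Φ : MvPowerSeries (Fin r) ((X.P n).Framed r₀) →+*
      Matrix (Fin d) (Fin d) (Coeff (O := O) (r := r) (r₀ := r₀) n p),
    (∀ f, Φ (MvPowerSeries.C f) = X.framedAct n p act f) ∧
      ∀ i, Φ (MvPowerSeries.X i) = Ideal.Quotient.mk (levelIdeal O p r r₀ n)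
        (MvPowerSeries.X (Sum.inl i)) • 1 := by
  have := isAdicComplete_coeff (O := O) (r := r) (r₀ := r₀) n p
  exact exists_matEval (X.framedAct n p act)
    (fun i => Ideal.Quotient.mk (levelIdeal O p r r₀ n) (MvPowerSeries.X (Sum.inl i)))
    fun i => mk_X_mem n p _

/-- The action of the extended coordinates. -/
def fullAct : ExtRing O T r X.nExtra X.g →+*
    Matrix (Fin d) (Fin d) (Coeff (O := O) (r := r) (r₀ := r₀) n p) :=
  (X.exists_diamondAct n p act).choose.comp (X.extMap n)

/-- `fullAct` on the local coordinates. -/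
theorem fullAct_C (x : LocRing O T X.g) :
    X.fullAct n p act (MvPowerSeries.C x) = X.framedAct n p act (X.θ n x) := by
  rw [fullAct, RingHom.comp_apply, extMap_C]
  exact (X.exists_diamondAct n p act).choose_spec.1 _

/-- `fullAct` on the Taylor–Wiles variables. -/
theorem fullAct_inl (i : Fin r) : X.fullAct n p act (MvPowerSeries.X (Sum.inl i)) =
    Ideal.Quotient.mk (levelIdeal O p r r₀ n) (MvPowerSeries.X (Sum.inl i)) • 1 := by
  rw [fullAct, RingHom.comp_apply, extMap_inl]
  exact (X.exists_diamondAct n p act).choose_spec.2 _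

/-- `fullAct` on the further generators. -/
theorem fullAct_inr (k : Fin X.nExtra) : X.fullAct n p act (MvPowerSeries.X (Sum.inr k)) =
    (act (X.extra n k)).map (twEmbed (r₀ := r₀) n p) := by
  rw [fullAct, RingHom.comp_apply, extMap_inr]
  exact ((X.exists_diamondAct n p act).choose_spec.1 _).trans (X.framedAct_C n p act _)

/-- `fullAct` of an element with constant image under `extMap`. -/
theorem fullAct_of_extMap {t : ExtRing O T r X.nExtra X.g} {f : (X.P n).Framed r₀}
    (h : X.extMap n t = MvPowerSeries.C f) :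
    X.fullAct n p act t = X.framedAct n p act f := by
  rw [fullAct, RingHom.comp_apply, h]
  exact (X.exists_diamondAct n p act).choose_spec.1 _

/-- Constants act as scalars. -/
theorem framedAct_algebraMap (hconst : ∀ o, act (algebraMap O (X.P n).R o) =
    twConst O p r n o • 1) (o : O) :
    X.framedAct n p act (algebraMap O ((X.P n).Framed r₀) o) =
      Ideal.Quotient.mk (levelIdeal O p r r₀ n) (MvPowerSeries.C o) • 1 := by
  rw [MvPowerSeries.algebraMap_apply, framedAct_C, hconst]
  ext i j
  simp [Matrix.one_apply, apply_ite (twEmbed (r₀ := r₀) n p), twEmbed_const]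

end Act

end AuxLevels

end Fermat.Agent.Engine
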