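import Fermat.Agent.Engine.FramedLevel

/-!
# Local relations and reduction of the framed actions

The equations at the framed primes follow from trace conditions on a level, the reduction of the
framed action is the base action, and every scalar is the action of an element.
-/

set_option autoImplicit false

noncomputable section

namespace Fermat.Agent.Engine

open IsLocalRing Filter Patch Fermat.Agent.Deform Fermat.Agent.DefRing

section Matrices

variable {A : Type} [CommRing A]

/-- A unipotent conjugate equation linearises. -/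
theorem tame_of_relation {F M : Matrix (Fin 2) (Fin 2) A} (htr : M.trace = 0) (hdet : M.det = 0)
    {r : ℕ} (h : F * (1 + M) = (1 + M) ^ r * F) : F * M = r • (M * F) := by
  have hMM : M * M = 0 := by
    rw [Matrix.trace_fin_two] at htr
    rw [Matrix.det_fin_two] at hdet
    ext i j
    fin_cases i <;> fin_cases j <;> simp [Matrix.mul_apply, Fin.sum_univ_two]
    · linear_combination M 0 0 * htr - hdet
    · linear_combination M 0 1 * htr
    · linear_combination M 1 0 * htr
    · linear_combination M 1 1 * htr - hdet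
  have hpow : ∀ k : ℕ, (1 + M) ^ k = 1 + k • M := by
    intro k
    induction k with
    | zero => simp
    | succ k ih =>
      rw [pow_succ, ih, add_mul, one_mul, smul_mul_assoc, mul_add, mul_one, hMM, add_zero,
        add_smul, one_smul]
      abel
  rw [hpow, mul_add, mul_one, add_mul, one_mul, smul_mul_assoc] at h
  exact add_left_cancel h

/-- With eigenvalues two different `p`-th roots of unity the `p`-th power is the identity. -/
theorem pow_eq_one_of_quadratic {O : Type} [CommRing O] [IsDomain O] [Algebra O A] {p : ℕ}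
    {ζ ζ' : O} (hne : ζ ≠ ζ') (hζ : ζ ^ p = 1) (hζ' : ζ' ^ p = 1)
    (M : Matrix (Fin 2) (Fin 2) A) (hdet : M.det = algebraMap O A (ζ * ζ'))
    (htr : M.trace = algebraMap O A (ζ + ζ')) : M ^ p = 1 := by
  obtain ⟨a, ha⟩ := (Polynomial.dvd_iff_isRoot (p := (Polynomial.X : Polynomial O) ^ p - 1)
    (a := ζ)).2 (by simp [hζ])
  have ha' : a.eval ζ' = 0 := by
    have h := congrArg (Polynomial.eval ζ') ha
    simp [hζ'] at h
    exact h.resolve_left (sub_ne_zero.2 hne.symm)
  obtain ⟨b, hb⟩ := (Polynomial.dvd_iff_isRoot (p := a) (a := ζ')).2 ha'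
  rw [hb] at ha
  have h := congrArg (Polynomial.aeval M) ha
  have h0 : (M - algebraMap O (Matrix (Fin 2) (Fin 2) A) ζ) *
      (M - algebraMap O (Matrix (Fin 2) (Fin 2) A) ζ') = 0 := by
    rw [Matrix.trace_fin_two, map_add] at htr
    rw [Matrix.det_fin_two, map_mul] at hdet
    ext i j
    fin_cases i <;> fin_cases j <;>
      simp [Matrix.mul_apply, Fin.sum_univ_two, Matrix.algebraMap_eq_diagonal]
    · linear_combination M 0 0 * htr - hdet
    · linear_combination M 0 1 * htr
    · linear_combination M 1 0 * htr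
    · linear_combination M 1 1 * htr - hdet
  simp only [map_sub, map_mul, map_pow, map_one, Polynomial.aeval_X, Polynomial.aeval_C] at h
  rw [← mul_assoc, h0, zero_mul, sub_eq_zero] at h
  exact h

end Matrices

section Lifts

variable {O : Type} [CommRing O] [IsLocalRing O]

/-- At a prime without residual ramification the entries of inertia minus one are not units. -/
theorem sub_one_mem_of_residual {L : LevelData O} {A : Type} [CommRing A] [IsLocalRing A]
    [Algebra O A] {hl : IsLocalHom (algebraMap O A)}
    {hs : Function.Surjective (residue A ∘ algebraMap O A)} {N : MRep A}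
    (h : L.IsRepLift hl hs N) {σ : GQ} (hσ : L.D.rbar σ = 1) (i j : Fin 2) :
    (N σ - 1) i j ∈ maximalIdeal A := by
  rw [← toResidue_eq_zero_iff hl hs, Matrix.sub_apply, map_sub, sub_eq_zero]
  have h1 := congrFun (congrFun (DFunLike.congr_fun h.reduces σ) i) j
  rw [hσ] at h1
  refine h1.trans ?_
  simp [Matrix.one_apply, apply_ite (toResidue hl hs)]

/-- Residue field facts of a lift ring. -/
theorem residue_facts {p : ℕ} [Finite (ResidueField O)] [CharP (ResidueField O) p] {A : Type}
    [CommRing A] [IsLocalRing A] [Algebra O A] (hl : IsLocalHom (algebraMap O A))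
    (hs : Function.Surjective (residue A ∘ algebraMap O A)) :
    Finite (ResidueField A) ∧ CharP (ResidueField A) p := by
  have := hl
  refine ⟨Finite.of_surjective (ResidueField.map (algebraMap O A)) fun y => ?_,
    charP_of_injective_ringHom (RingHom.injective (ResidueField.map (algebraMap O A))) p⟩
  obtain ⟨o, rfl⟩ := hs y
  exact ⟨residue O o, rfl⟩

end Lifts

namespace AuxLevels

variable {O : Type} [CommRing O] [IsDomain O] [IsDiscreteValuationRing O]
  [IsAdicComplete (maximalIdeal O) O] {r : ℕ} {T : Type} [Fintype T] {r₀ : T}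
  {frob tame : T → GQ} {Φ₀ : T → Matrix (Fin 2) (Fin 2) O} {L₀ : LevelData O} {PB : L₀.RepRing}
  (X : AuxLevels r r₀ frob tame Φ₀ L₀ PB) (n : ℕ)

/-- The frame at `v`. -/
abbrev frame (v : T) : Matrix (Fin 2) (Fin 2) ((X.P n).Framed r₀) := genericFrame r₀ (X.P n).R v

/-- Its inverse. -/
abbrev frameInv (v : T) : Matrix (Fin 2) (Fin 2) ((X.P n).Framed r₀) :=
  ((isUnit_genericFrame r₀ (X.P n).R v).unit⁻¹ :
    (Matrix (Fin 2) (Fin 2) ((X.P n).Framed r₀))ˣ).1

omit [IsAdicComplete (maximalIdeal O) O] in
/-- The frame times its inverse. -/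
theorem frame_mul_inv (v : T) : X.frame n v * X.frameInv n v = 1 :=
  IsUnit.mul_val_inv (isUnit_genericFrame r₀ (X.P n).R v)

omit [IsAdicComplete (maximalIdeal O) O] in
/-- The inverse of the frame times the frame. -/
theorem inv_mul_frame (v : T) : X.frameInv n v * X.frame n v = 1 :=
  IsUnit.val_inv_mul (isUnit_genericFrame r₀ (X.P n).R v)

/-- Conjugation by the frame, from matrices over the lift ring. -/
def conjMap (v : T) : Matrix (Fin 2) (Fin 2) (X.P n).R →+*
    Matrix (Fin 2) (Fin 2) ((X.P n).Framed r₀) where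
  toFun A := X.frameInv n v * A.map MvPowerSeries.C * X.frame n v
  map_one' := by
    rw [Matrix.map_one _ (map_zero _) (map_one _), mul_one, inv_mul_frame]
  map_mul' A B := by
    rw [Matrix.map_mul]
    simp only [mul_assoc]
    rw [← mul_assoc (X.frame n v) (X.frameInv n v), frame_mul_inv, one_mul]
  map_zero' := by rw [Matrix.map_zero _ (map_zero _), mul_zero, zero_mul]
  map_add' A B := by rw [Matrix.map_add _ (map_add _), mul_add, add_mul]

omit [IsAdicComplete (maximalIdeal O) O] in
/-- Conjugation by the frame preserves entries in an ideal. -/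
theorem conjMap_mem {J : Ideal (X.P n).R} (v : T) {A : Matrix (Fin 2) (Fin 2) (X.P n).R}
    (hA : ∀ i j, A i j ∈ J) (i j : Fin 2) :
    X.conjMap n v A i j ∈ J.map (MvPowerSeries.C : (X.P n).R →+* (X.P n).Framed r₀) := by
  show (X.frameInv n v * A.map (MvPowerSeries.C : (X.P n).R →+* (X.P n).Framed r₀) *
    X.frame n v) i j ∈ _
  simp only [Matrix.mul_apply, Fin.sum_univ_two, Matrix.map_apply]
  exact add_mem
    (Ideal.mul_mem_right _ _ (add_mem (Ideal.mul_mem_left _ _ (Ideal.mem_map_of_mem _ (hA _ _)))
      (Ideal.mul_mem_left _ _ (Ideal.mem_map_of_mem _ (hA _ _)))))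
    (Ideal.mul_mem_right _ _ (add_mem (Ideal.mul_mem_left _ _ (Ideal.mem_map_of_mem _ (hA _ _)))
      (Ideal.mul_mem_left _ _ (Ideal.mem_map_of_mem _ (hA _ _)))))

omit [IsAdicComplete (maximalIdeal O) O] in
/-- The generic Frobenius maps to the conjugated Frobenius of the level. -/
theorem θ_frob (v : T) : (locFrob (g := X.g) Φ₀ v).map (X.θ n) =
    (X.frameInv n v) * ((X.P n).rep (frob v)).map MvPowerSeries.C * (X.frame n v) :=
  (X.θ_spec n v).1

omit [IsAdicComplete (maximalIdeal O) O] in
/-- The generic monodromy maps to the conjugated tame generator of the level, less `1`. -/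
theorem θ_mono (v : T) : (locMono (g := X.g) (O := O) v).map (X.θ n) =
    (X.frameInv n v) * ((X.P n).rep (tame v) - 1).map MvPowerSeries.C * (X.frame n v) := by
  rw [(X.θ_spec n v).2, Matrix.map_sub _ (map_sub _), Matrix.map_one _ (map_zero _) (map_one _),
    mul_sub, sub_mul, mul_one, inv_mul_frame]
  rfl

omit [IsAdicComplete (maximalIdeal O) O] in
/-- Conjugation by the frame preserves traces. -/
theorem trace_conj (v : T) (A : Matrix (Fin 2) (Fin 2) ((X.P n).Framed r₀)) :
    ((X.frameInv n v) * A * (X.frame n v)).trace = A.trace := by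
  rw [Matrix.trace_mul_cycle, frame_mul_inv, one_mul]

omit [IsAdicComplete (maximalIdeal O) O] in
/-- Conjugation by the frame preserves determinants. -/
theorem det_conj (v : T) (A : Matrix (Fin 2) (Fin 2) ((X.P n).Framed r₀)) :
    ((X.frameInv n v) * A * (X.frame n v)).det = A.det := by
  rw [Matrix.det_mul, Matrix.det_mul, mul_comm, ← mul_assoc, ← Matrix.det_mul,
    frame_mul_inv, Matrix.det_one, one_mul]

/-- The trace of Frobenius in local coordinates and in the level. -/
theorem θ_trace_frob (v : T) : X.θ n (locFrob (g := X.g) Φ₀ v).trace =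
    MvPowerSeries.C ((X.P n).rep (frob v)).trace := by
  have h := congrArg Matrix.trace (X.θ_frob n v)
  rw [trace_conj] at h
  simpa [Matrix.trace_fin_two] using h

/-- The trace of monodromy in local coordinates and in the level. -/
theorem θ_trace_mono (v : T) : X.θ n (locMono (g := X.g) (O := O) v).trace =
    MvPowerSeries.C (((X.P n).rep (tame v)).trace - 2) := by
  have h := congrArg Matrix.trace (X.θ_mono n v)
  rw [trace_conj] at h
  simp [Matrix.trace_fin_two] at h ⊢
  rw [h, map_ofNat]
  ring

omit [IsAdicComplete (maximalIdeal O) O] in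
/-- The tame generator has determinant `1`. -/
theorem det_tame_rep {p : ℕ} {qv : T → ℕ} (hF : FramedPrimes p L₀ qv frob tame) (v : T) :
    ((X.P n).rep (tame v)).det = 1 := by
  rw [(X.P n).isLift.eqs.det]
  show algebraMap O _ (L₀.detChar (tame v)) = 1
  rw [hF.det_tame, map_one]

/-- The determinant of monodromy in local coordinates and in the level. -/
theorem θ_det_mono {p : ℕ} {qv : T → ℕ} (hF : FramedPrimes p L₀ qv frob tame) (v : T) :
    X.θ n (locMono (g := X.g) (O := O) v).det =
      -MvPowerSeries.C (((X.P n).rep (tame v)).trace - 2) := by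
  have h := congrArg Matrix.det (X.θ_mono n v)
  rw [det_conj] at h
  have h1 : X.θ n (locMono (g := X.g) (O := O) v).det =
      ((locMono (g := X.g) (O := O) v).map (X.θ n)).det :=
    RingHom.map_det (X.θ n : LocRing O T X.g →+* (X.P n).Framed r₀) _
  rw [h1, h, ← RingHom.mapMatrix_apply, ← RingHom.map_det, ← map_neg]
  congr 1
  have hd := X.det_tame_rep n hF v
  rw [Matrix.det_fin_two] at hd
  simp [Matrix.det_fin_two, Matrix.trace_fin_two]
  linear_combination hd

/-- The determinant of Frobenius is the prime. -/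
theorem θ_det_frob {p : ℕ} {qv : T → ℕ} (hF : FramedPrimes p L₀ qv frob tame) (v : T) :
    X.θ n ((locFrob (g := X.g) Φ₀ v).det - (qv v : LocRing O T X.g)) = 0 := by
  have h := congrArg Matrix.det (X.θ_frob n v)
  rw [det_conj, ← RingHom.mapMatrix_apply (MvPowerSeries.C : (X.P n).R →+* _), ← RingHom.map_det,
    (X.P n).isLift.eqs.det] at h
  rw [map_sub, map_natCast, sub_eq_zero]
  refine ((RingHom.map_det (X.θ n : LocRing O T X.g →+* (X.P n).Framed r₀) _).trans h).trans ?_
  show MvPowerSeries.C (algebraMap O (X.P n).R (L₀.detChar (frob v))) = _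
  rw [hF.det_frob, map_natCast, map_natCast]

variable (p : ℕ) {d : ℕ} (act : (X.P n).R →+* Matrix (Fin d) (Fin d) (TwQuot O p r n))

/-- An element killed by the action is killed by the framed action. -/
theorem framedAct_C_eq_zero {b : (X.P n).R} (h : act b = 0) :
    X.framedAct n p act (MvPowerSeries.C b) = 0 := by
  rw [framedAct_C, h, Matrix.map_zero _ (map_zero _)]

/-- If the entries lie in `ker act + (δ)` and `(act δ) ^ k = 0`, so do the framed ones. -/
theorem framed_entries (v : T) {δ : (X.P n).R} {k : ℕ} (hk : act δ ^ k = 0)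
    (A : Matrix (Fin 2) (Fin 2) (X.P n).R)
    (hA : ∀ i j, A i j ∈ RingHom.ker act ⊔ Ideal.span {δ}) (i j : Fin 2) :
    X.framedAct n p act (X.conjMap n v A i j) ^ k = 0 := by
  have hJ : (RingHom.ker act).map (MvPowerSeries.C : (X.P n).R →+* (X.P n).Framed r₀) ≤
      RingHom.ker (X.framedAct n p act) :=
    Ideal.map_le_iff_le_comap.2 fun b hb => X.framedAct_C_eq_zero n p act (RingHom.mem_ker.1 hb)
  have h := X.conjMap_mem n v hA i j
  rw [Ideal.map_sup, Ideal.map_span, Set.image_singleton] at h
  obtain ⟨a, ha, b, hb, hab⟩ := Submodule.mem_sup.1 h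
  obtain ⟨c, rfl⟩ := Ideal.mem_span_singleton'.1 hb
  rw [← hab, map_add, RingHom.mem_ker.1 (hJ ha), zero_add, ← map_pow, mul_pow, map_mul,
    ← map_pow, X.framedAct_C_eq_zero n p act (by rwa [map_pow]), mul_zero]

omit [IsAdicComplete (maximalIdeal O) O] in
/-- The tame relation in the quotient acting faithfully. -/
theorem act_tame [Finite (ResidueField O)] [Fact p.Prime] [CharP (ResidueField O) p] {qv : T → ℕ}
    (hF : FramedPrimes p L₀ qv frob tame) (v : T) :
    (X.P n).rep (frob v) * (X.P n).rep (tame v) =
      (X.P n).rep (tame v) ^ qv v * (X.P n).rep (frob v) := by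
  obtain ⟨Pl, hPl, hfr, hta, hgen⟩ := hF.place v
  obtain ⟨hfin, hchar⟩ := residue_facts (p := p) (X.P n).instIsLocalHom (X.P n).residue_surjective
  have h := (frob_tame_relation p (X.P n).rep (X.P n).isLift.cont (hF.prime v) (hF.ne_p v) Pl hPl
    (fun σ hσ => sub_one_mem_of_residual (X.P n).isLift (hF.residual v Pl hPl σ hσ))
    (frob v) (tame v) hfr hta hgen).1
  rw [← h, mul_assoc _ ((X.P n).rep (frob v)⁻¹), ← map_mul _ (frob v)⁻¹, inv_mul_cancel, map_one,
    mul_one]

/-- The tame relation in the framed action. -/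
theorem framedAct_tame [Finite (ResidueField O)] [Fact p.Prime] [CharP (ResidueField O) p]
    {qv : T → ℕ} (hF : FramedPrimes p L₀ qv frob tame) (v : T)
    (htr : act (((X.P n).rep (tame v)).trace - 2) = 0) (i j : Fin 2) :
    X.framedAct n p act (X.θ n (((locFrob (g := X.g) Φ₀ v * locMono v -
      (qv v : LocRing O T X.g) • (locMono v * locFrob (g := X.g) Φ₀ v)) :
        Matrix (Fin 2) (Fin 2) (LocRing O T X.g)) i j)) = 0 := by
  set F := (X.P n).rep (frob v)
  set M := (X.P n).rep (tame v) - 1
  have hK : ∀ i j, (F * M - (qv v : (X.P n).R) • (M * F)) i j ∈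
      RingHom.ker act ⊔ Ideal.span {(0 : (X.P n).R)} := by
    intro i j
    refine Ideal.mem_sup_left ?_
    set f := Ideal.Quotient.mk (RingHom.ker act)
    suffices h : f.mapMatrix (F * M - (qv v : (X.P n).R) • (M * F)) = 0 from
      Ideal.Quotient.eq_zero_iff_mem.1 (congrFun (congrFun h i) j)
    have htrM : M.trace = ((X.P n).rep (tame v)).trace - 2 := by
      simp [M, Matrix.trace_fin_two]
    have hdetM : M.det = -(((X.P n).rep (tame v)).trace - 2) := by
      have hd := X.det_tame_rep n hF v
      rw [Matrix.det_fin_two] at hd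
      simp [M, Matrix.det_fin_two, Matrix.trace_fin_two]
      linear_combination hd
    have h0 : f (((X.P n).rep (tame v)).trace - 2) = 0 :=
      Ideal.Quotient.eq_zero_iff_mem.2 (RingHom.mem_ker.2 htr)
    have hrel := congrArg f.mapMatrix (X.act_tame n p hF v)
    rw [show (X.P n).rep (tame v) = 1 + M from (add_sub_cancel _ _).symm, map_mul, map_mul,
      map_pow, map_add, map_one] at hrel
    have h1 := tame_of_relation
      (show (f.mapMatrix M).trace = 0 by
        rw [show (f.mapMatrix M).trace = f M.trace from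
          (AddMonoidHom.map_trace f.toAddMonoidHom M).symm, htrM, h0])
      (show (f.mapMatrix M).det = 0 by rw [← RingHom.map_det, hdetM, map_neg, h0, neg_zero]) hrel
    rw [map_sub, map_mul, h1, Nat.cast_smul_eq_nsmul, map_nsmul, map_mul, sub_self]
  have e : ((locFrob (g := X.g) Φ₀ v * locMono v - (qv v : LocRing O T X.g) •
      (locMono v * locFrob (g := X.g) Φ₀ v)) : Matrix (Fin 2) (Fin 2) _).map (X.θ n) =
        X.conjMap n v (F * M - (qv v : (X.P n).R) • (M * F)) := by
    rw [Nat.cast_smul_eq_nsmul, Nat.cast_smul_eq_nsmul, ← AlgHom.mapMatrix_apply, map_sub, map_mul,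
      map_nsmul, map_mul, AlgHom.mapMatrix_apply, AlgHom.mapMatrix_apply, map_sub, map_mul,
      map_nsmul, map_mul, θ_frob, θ_mono]
    rfl
  have := X.framed_entries n p act v (k := 1) (by simp) _ hK i j
  rwa [← e, Matrix.map_apply, pow_one] at this

/-- With eigenvalues different roots of unity inertia commutes with Frobenius, up to nilpotents. -/
theorem framedAct_comm [Finite (ResidueField O)] [Fact p.Prime] [CharP (ResidueField O) p]
    {qv : T → ℕ} (hF : FramedPrimes p L₀ qv frob tame) (v : T)
    (hq : (qv v : O) - 1 ∈ maximalIdeal O) {ζ ζ' : O} (hne : ζ ≠ ζ') (hζ : ζ ^ p = 1)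
    (hζ' : ζ * ζ' = 1) {k : ℕ}
    (hconst : ∀ o, act (algebraMap O (X.P n).R o) = twConst O p r n o • 1)
    (htr : (act ((X.P n).rep (tame v)).trace - twConst O p r n (ζ + ζ') • 1) ^ k = 0) (i j : Fin 2) :
    X.framedAct n p act (X.θ n ((((locFrob (g := X.g) Φ₀ v * locMono v -
      locMono v * locFrob (g := X.g) Φ₀ v) : Matrix (Fin 2) (Fin 2) (LocRing O T X.g)) i j) ^ k)) =
        0 := by
  set F := (X.P n).rep (frob v)
  set M := (X.P n).rep (tame v)
  set δ := M.trace - algebraMap O (X.P n).R (ζ + ζ') with hδ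
  have hdvd : p ∣ qv v - 1 := by
    rw [← CharP.cast_eq_zero_iff (ResidueField O) p, Nat.cast_sub (hF.prime v).one_le,
      Nat.cast_one, ← map_natCast (residue O), ← map_one (residue O), ← map_sub]
    exact (residue_eq_zero_iff _).2 hq
  have hK : ∀ i j, (F * (M - 1) - (M - 1) * F) i j ∈ RingHom.ker act ⊔ Ideal.span {δ} := by
    intro i j
    set f := Ideal.Quotient.mk (RingHom.ker act ⊔ Ideal.span {δ})
    suffices h : f.mapMatrix (F * (M - 1) - (M - 1) * F) = 0 from
      Ideal.Quotient.eq_zero_iff_mem.1 (congrFun (congrFun h i) j)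
    have hrel := congrArg f.mapMatrix (X.act_tame n p hF v)
    rw [map_mul, map_mul, map_pow] at hrel
    have hp1 : f.mapMatrix M ^ p = 1 := pow_eq_one_of_quadratic (O := O) hne hζ
      (by
        have h1 := congrArg (· ^ p) hζ'
        rwa [mul_pow, hζ, one_mul, one_pow] at h1) _
      (by
        rw [← RingHom.map_det, X.det_tame_rep n hF v, map_one, hζ', map_one])
      (by
        rw [show (f.mapMatrix M).trace = f M.trace from
          (AddMonoidHom.map_trace f.toAddMonoidHom M).symm]
        show f M.trace = f (algebraMap O (X.P n).R (ζ + ζ'))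
        rw [Ideal.Quotient.eq]
        exact Ideal.mem_sup_right (Ideal.mem_span_singleton_self δ))
    obtain ⟨e, he⟩ := hdvd
    have hM : f.mapMatrix M ^ qv v = f.mapMatrix M := by
      rw [show qv v = p * e + 1 by have := (hF.prime v).one_le; omega, pow_succ, pow_mul, hp1,
        one_pow, one_mul]
    rw [hM] at hrel
    rw [mul_sub, mul_one, sub_mul, one_mul, sub_sub_sub_cancel_right, map_sub, map_mul, map_mul,
      hrel, sub_self]
  have e : ((locFrob (g := X.g) Φ₀ v * locMono v - locMono v * locFrob (g := X.g) Φ₀ v) :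
      Matrix (Fin 2) (Fin 2) _).map (X.θ n) = X.conjMap n v (F * (M - 1) - (M - 1) * F) := by
    rw [← AlgHom.mapMatrix_apply, map_sub, map_mul, map_mul, AlgHom.mapMatrix_apply,
      AlgHom.mapMatrix_apply, map_sub, map_mul, map_mul, θ_frob, θ_mono]
    rfl
  have := X.framed_entries n p act v (k := k)
    (by rw [hδ, map_sub, hconst]; exact htr) _ hK i j
  rwa [← e, Matrix.map_apply, ← map_pow, ← map_pow] at this

/-- The augmentation of the level ring. -/
def augFactor : Coeff (O := O) (r := r) (r₀ := r₀) n p →+*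
    CoeffRing O r T r₀ ⧸ augIdeal O r r₀ :=
  Ideal.Quotient.factor (levelIdeal_le_augIdeal O p r r₀ n)

/-- The reduction of the framed action is the base action. -/
theorem fullAct_base (act₀ : PB.R →+* Matrix (Fin d) (Fin d) O)
    (hbase : ∀ x, (act x).map (twAug O p r n) = act₀ (X.toBase n x))
    (t : ExtRing O T r X.nExtra X.g) :
    (X.fullAct n p act t).map (augFactor (r₀ := r₀) n p) =
      (act₀ (X.baseMap n t)).map ((Ideal.Quotient.mk (augIdeal O r r₀)).comp MvPowerSeries.C) := by
  have := isPrime_augIdeal O r r₀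
  have : Nontrivial (CoeffRing O r T r₀ ⧸ augIdeal O r r₀) :=
    Ideal.Quotient.nontrivial_iff.2 this.ne_top
  have : IsLocalRing (CoeffRing O r T r₀ ⧸ augIdeal O r r₀) :=
    .of_surjective' _ Ideal.Quotient.mk_surjective
  set q := Ideal.Quotient.mk (augIdeal O r r₀)
  set bc : (X.P n).Framed r₀ →+* Matrix (Fin d) (Fin d) (CoeffRing O r T r₀ ⧸ augIdeal O r r₀) :=
    ((q.comp MvPowerSeries.C).mapMatrix).comp (act₀.comp (X.framedBase n))
  have hX0 : ∀ i, augFactor (O := O) (r := r) (r₀ := r₀) n p
      (Ideal.Quotient.mk _ (MvPowerSeries.X i)) = 0 := fun i =>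
    Ideal.Quotient.eq_zero_iff_mem.2 (Ideal.subset_span ⟨i, rfl⟩)
  have htw : (augFactor (r₀ := r₀) n p).comp (twEmbed (r₀ := r₀) n p) =
      (q.comp MvPowerSeries.C).comp (twAug O p r n) := by
    refine Ideal.Quotient.ringHom_ext (eval_unique
      (J := maximalIdeal (CoeffRing O r T r₀ ⧸ augIdeal O r r₀)) (fun i => ?_) (fun o => ?_)
      fun i => ?_)
    · show augFactor n p (twEmbed n p (twVar O p r n i)) ∈ _
      rw [twEmbed_var, hX0]
      exact zero_mem _
    · simp only [RingHom.comp_apply]
      rw [show Ideal.Quotient.mk (twIdeal O p r n) (MvPowerSeries.C o) = twConst O p r n o from rfl,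
        twEmbed_const]
      simp [twAug, twConst, augFactor, q]
    · simp only [RingHom.comp_apply]
      rw [show Ideal.Quotient.mk (twIdeal O p r n) (MvPowerSeries.X i) = twVar O p r n i from rfl,
        twEmbed_var, hX0]
      simp [twAug, twVar, q]
  have h2 : ((augFactor (r₀ := r₀) n p).mapMatrix).comp (X.framedAct n p act) = bc := by
    refine matEval_unique (fun _ => 0) (fun _ => zero_mem _) (fun y => ?_) (fun y => ?_) fun b => ?_
    · rw [RingHom.comp_apply, framedAct_X, RingHom.mapMatrix_apply]
      ext i j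
      simp only [Matrix.map_apply, Matrix.smul_apply, Matrix.one_apply, smul_eq_mul, mul_ite,
        mul_one, mul_zero, apply_ite (augFactor (r₀ := r₀) n p), map_zero]
      split_ifs <;> simp [hX0]
    · simp [bc, framedBase]; (rw [Matrix.smul_one_eq_diagonal]; simp)
    · rw [RingHom.comp_apply, framedAct_C, RingHom.mapMatrix_apply, Matrix.map_map]
      simp only [bc, RingHom.comp_apply, framedBase, RingHom.coe_coe,
        MvPowerSeries.constantCoeff_C, RingHom.mapMatrix_apply]
      rw [← hbase b, Matrix.map_map]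
      ext i j
      exact RingHom.congr_fun htw (act b i j)
  have h1 : ((augFactor (r₀ := r₀) n p).mapMatrix).comp (X.exists_diamondAct n p act).choose =
      bc.comp MvPowerSeries.constantCoeff := by
    refine matEval_unique (fun _ => 0) (fun _ => zero_mem _) (fun i => ?_) (fun i => ?_) fun f => ?_
    · rw [RingHom.comp_apply, (X.exists_diamondAct n p act).choose_spec.2, RingHom.mapMatrix_apply]
      ext a b
      simp only [Matrix.map_apply, Matrix.smul_apply, Matrix.one_apply, smul_eq_mul, mul_ite,
        mul_one, mul_zero, apply_ite (augFactor (r₀ := r₀) n p), map_zero]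
      split_ifs <;> simp [hX0]
    · rw [RingHom.comp_apply, MvPowerSeries.constantCoeff_X, map_zero]
      (rw [Matrix.smul_one_eq_diagonal]; simp)
    · rw [RingHom.comp_apply, (X.exists_diamondAct n p act).choose_spec.1, RingHom.comp_apply,
        MvPowerSeries.constantCoeff_C]
      exact RingHom.congr_fun h2 f
  exact RingHom.congr_fun h1 (X.extMap n t)

/-- Every scalar is the action of an element reducing to its constant term. -/
theorem exists_scalarLift :
    ∃ ℓ : CoeffRing O r T r₀ →+* ExtRing O T r X.nExtra X.g,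
      (∀ i, X.baseMap n (ℓ (MvPowerSeries.X i)) = 0) ∧
      ∀ {d : ℕ} (act : (X.P n).R →+* Matrix (Fin d) (Fin d) (TwQuot O p r n)),
        (∀ o, act (algebraMap O (X.P n).R o) = twConst O p r n o • 1) → ∀ l,
        X.fullAct n p act (ℓ l) = Ideal.Quotient.mk (levelIdeal O p r r₀ n) l • 1 := by
  have : IsAdicComplete (maximalIdeal (LocRing O T X.g)) (LocRing O T X.g) :=
    DefRing.isAdicComplete_mvPowerSeries
  have : IsAdicComplete (maximalIdeal (ExtRing O T r X.nExtra X.g))
      (ExtRing O T r X.nExtra X.g) := DefRing.isAdicComplete_mvPowerSeries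
  choose t ht htm using fun y : FrameVar T r₀ =>
    X.exists_extMap_eq n (MvPowerSeries.X y : (X.P n).Framed r₀)
  obtain ⟨ℓ, hC, hX⟩ := exists_eval (J := maximalIdeal (ExtRing O T r X.nExtra X.g))
    ((MvPowerSeries.C : LocRing O T X.g →+* _).comp MvPowerSeries.C)
    (Sum.elim (fun i => MvPowerSeries.X (Sum.inl i)) t) (by
      rintro (i | y)
      · exact DefRing.X_mem_maximalIdeal _
      · refine SetLike.le_def.1 (sup_le ?_ (Ideal.span_le.2 ?_))
          (htm y (DefRing.X_mem_maximalIdeal y))
        · refine Ideal.map_le_iff_le_comap.2 fun a ha => ?_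
          rw [Ideal.mem_comap, DefRing.mem_maximalIdeal_iff_constantCoeff,
            MvPowerSeries.constantCoeff_C]
          exact ha
        · rintro _ ⟨k, rfl⟩
          exact DefRing.X_mem_maximalIdeal _)
  refine ⟨ℓ, ?_, fun {d} act hconst l => ?_⟩
  · rintro (i | y)
    · rw [hX]
      exact X.baseMap_inl n i
    · rw [hX]
      show X.baseMap n (t y) = 0
      rw [baseMap, RingHom.comp_apply, RingHom.comp_apply, ht, MvPowerSeries.constantCoeff_C,
        framedBase, RingHom.comp_apply, MvPowerSeries.constantCoeff_X, map_zero]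
  have := isAdicComplete_coeff (O := O) (r := r) (r₀ := r₀) n p
  refine RingHom.congr_fun (matEval_unique (Φ := (X.fullAct n p act).comp ℓ)
    (Ψ := (Matrix.scalar (Fin d)).comp (Ideal.Quotient.mk (levelIdeal O p r r₀ n)))
    (fun i => Ideal.Quotient.mk _ (MvPowerSeries.X i)) (fun i => mk_X_mem n p i) ?_ ?_ ?_) l
    |>.trans ?_
  · rintro (i | y)
    · rw [RingHom.comp_apply, hX]
      exact X.fullAct_inl n p act i
    · rw [RingHom.comp_apply, hX]
      exact (X.fullAct_of_extMap n p act (ht y)).trans (X.framedAct_X n p act y)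
  · intro i
    rw [RingHom.comp_apply, Matrix.scalar_apply, ← Matrix.smul_one_eq_diagonal]
  · intro o
    rw [RingHom.comp_apply, RingHom.comp_apply, hC, RingHom.comp_apply, fullAct_C,
      Matrix.scalar_apply, ← Matrix.smul_one_eq_diagonal,
      show (MvPowerSeries.C o : LocRing O T X.g) = algebraMap O _ o from rfl, AlgHom.commutes]
    exact X.framedAct_algebraMap n p act hconst o
  · rw [RingHom.comp_apply, Matrix.scalar_apply, ← Matrix.smul_one_eq_diagonal]

end AuxLevels

end Fermat.Agent.Engine
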