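import Fermat.Agent.Engine.FramedRelations
import Fermat.Agent.Engine.Assembly

/-!
# From actions of the level rings to modules over the coefficient rings

Intertwiners pass to the framed actions, reduction is linear, and the local coordinates go to the
base representation at the trivial frames.
-/

set_option autoImplicit false

noncomputable section

namespace Fermat.Agent.Engine

open IsLocalRing Filter Patch Fermat.Agent.Deform Fermat.Agent.DefRing

section Series

variable {B : Type} [CommRing B] {σ : Type} [Finite σ]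

/-- A power series is its constant term up to the variables. -/
theorem sub_C_constantCoeff_mem (f : MvPowerSeries σ B) :
    f - MvPowerSeries.C (MvPowerSeries.constantCoeff f) ∈
      Ideal.span (Set.range (MvPowerSeries.X : σ → MvPowerSeries σ B)) := by
  classical
  have h1 := DefRing.sub_truncTotal_mem_span_pow f 1
  rw [pow_one] at h1
  convert h1 using 2
  ext e
  rw [MvPolynomial.coeff_coe, MvPowerSeries.coeff_truncTotal_eq_ite, MvPowerSeries.coeff_C]
  rcases eq_or_ne e 0 with rfl | he
  · simp
  · rw [if_neg he, if_neg]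
    have : Finsupp.degree e ≠ 0 := by simpa [Finsupp.degree_eq_zero_iff] using he
    omega

omit [Finite σ] in
/-- Power series have a finite residue field when their coefficients do. -/
theorem finite_residueField_series [IsLocalRing B] [Finite (ResidueField B)] :
    Finite (ResidueField (MvPowerSeries σ B)) := by
  have : IsLocalHom (MvPowerSeries.C : B →+* MvPowerSeries σ B) :=
    ⟨fun a ha => by simpa [MvPowerSeries.isUnit_iff_constantCoeff] using ha⟩
  refine Finite.of_surjective
    (fun x : ResidueField B => ResidueField.map (MvPowerSeries.C : B →+* MvPowerSeries σ B) x)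
    fun y => ?_
  obtain ⟨f, rfl⟩ := residue_surjective y
  refine ⟨residue B (MvPowerSeries.constantCoeff f), ?_⟩
  show residue _ (MvPowerSeries.C _) = _
  refine (sub_eq_zero.1 ?_).symm
  rw [← map_sub, residue_eq_zero_iff, DefRing.mem_maximalIdeal_iff_constantCoeff, map_sub,
    MvPowerSeries.constantCoeff_C, sub_self]
  exact zero_mem _

variable {A : Type} [CommRing A] [IsLocalRing A] {d : ℕ}

omit [Finite σ] in
/-- An evaluation at scalars in the maximal ideal sends powers of the variable ideal to powers of
it. -/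
theorem matEval_mem_pow {Φ : MvPowerSeries σ B →+* Matrix (Fin d) (Fin d) A} (c : σ → A)
    (hc : ∀ i, c i ∈ maximalIdeal A)
    (hΦ : ∀ i, Φ (MvPowerSeries.X i) = c i • (1 : Matrix (Fin d) (Fin d) A)) {n : ℕ}
    {f : MvPowerSeries σ B} (hf : f ∈ Ideal.span (Set.range MvPowerSeries.X) ^ n) :
    ∀ i j, Φ f i j ∈ maximalIdeal A ^ n := by
  induction n generalizing f with
  | zero => intro i j; rw [pow_zero, Ideal.one_eq_top]; trivial
  | succ n ih =>
    rw [pow_succ] at hf
    induction hf using Submodule.mul_induction_on' with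
    | mem_mul_mem a ha b hb =>
      induction hb using Submodule.span_induction with
      | mem b hb =>
        obtain ⟨k, rfl⟩ := hb
        intro i j
        rw [map_mul, hΦ, Matrix.mul_smul, mul_one, Matrix.smul_apply, smul_eq_mul, pow_succ']
        exact Ideal.mul_mem_mul (hc k) (ih ha i j)
      | zero => intro i j; rw [mul_zero, map_zero, Matrix.zero_apply]; exact zero_mem _
      | add b b' _ _ h h' =>
        intro i j; rw [mul_add, map_add, Matrix.add_apply]; exact add_mem (h i j) (h' i j)
      | smul s b _ h =>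
        intro i j
        rw [smul_eq_mul, mul_left_comm, map_mul, Matrix.mul_apply]
        exact Submodule.sum_mem _ fun k _ => Ideal.mul_mem_left _ _ (h k j)
    | add a _ b _ ha hb =>
      intro i j; rw [map_add, Matrix.add_apply]; exact add_mem (ha i j) (hb i j)

/-- Intertwiners of the constants intertwine the evaluations. -/
theorem matEval_intertwine [IsNoetherianRing A] {d' : ℕ}
    {Φ : MvPowerSeries σ B →+* Matrix (Fin d) (Fin d) A}
    {Φ' : MvPowerSeries σ B →+* Matrix (Fin d') (Fin d') A} (c : σ → A)
    (hc : ∀ i, c i ∈ maximalIdeal A)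
    (hΦ : ∀ i, Φ (MvPowerSeries.X i) = c i • (1 : Matrix (Fin d) (Fin d) A))
    (hΦ' : ∀ i, Φ' (MvPowerSeries.X i) = c i • (1 : Matrix (Fin d') (Fin d') A))
    (U : Matrix (Fin d') (Fin d) A)
    (hC : ∀ b, Φ' (MvPowerSeries.C b) * U = U * Φ (MvPowerSeries.C b)) (f : MvPowerSeries σ B) :
    Φ' f * U = U * Φ f := by
  classical
  have hpol : ∀ q : MvPolynomial σ B, Φ' (q : MvPowerSeries σ B) * U = U * Φ q := by
    intro q
    induction q using MvPolynomial.induction_on with
    | C b => simpa using hC b
    | add p q hp hq =>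
      rw [MvPolynomial.coe_add, map_add, map_add, Matrix.add_mul, hp, hq, Matrix.mul_add]
    | mul_X p k hp =>
      rw [MvPolynomial.coe_mul, MvPolynomial.coe_X, map_mul, map_mul, hΦ, hΦ', Matrix.mul_smul,
        mul_one, Matrix.smul_mul, hp, Matrix.mul_smul, mul_one, Matrix.mul_smul]
  refine sub_eq_zero.1 (Matrix.ext fun i j => IsHausdorff.haus
    (inferInstance : IsHausdorff (maximalIdeal A) A) _ fun n => ?_)
  rw [SModEq.zero, smul_eq_mul, Ideal.mul_top]
  have h := DefRing.sub_truncTotal_mem_span_pow f n
  have e : Φ' f * U - U * Φ f =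
      Φ' (f - (MvPowerSeries.truncTotal n f : MvPowerSeries σ B)) * U -
        U * Φ (f - (MvPowerSeries.truncTotal n f : MvPowerSeries σ B)) := by
    rw [map_sub, map_sub, Matrix.sub_mul, Matrix.mul_sub, hpol, sub_sub_sub_cancel_right]
  rw [e, Matrix.sub_apply, Matrix.mul_apply, Matrix.mul_apply]
  exact sub_mem
    (Submodule.sum_mem _ fun k _ => Ideal.mul_mem_right _ _ (matEval_mem_pow c hc hΦ' h i k))
    (Submodule.sum_mem _ fun k _ => Ideal.mul_mem_left _ _ (matEval_mem_pow c hc hΦ h k j))

end Series

namespace AuxLevels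

variable {O : Type} [CommRing O] [IsDomain O] [IsDiscreteValuationRing O]
  [IsAdicComplete (maximalIdeal O) O] {r : ℕ} {T : Type} [Fintype T] {r₀ : T}
  {frob tame : T → GQ} {Φ₀ : T → Matrix (Fin 2) (Fin 2) O} {L₀ : LevelData O} {PB : L₀.RepRing}
  (X : AuxLevels r r₀ frob tame Φ₀ L₀ PB) (n : ℕ) (p : ℕ)

/-- Intertwiners pass to the full action. -/
theorem fullAct_intertwine {d d' : ℕ}
    (act : (X.P n).R →+* Matrix (Fin d) (Fin d) (TwQuot O p r n))
    (act' : (X.P n).R →+* Matrix (Fin d') (Fin d') (TwQuot O p r n))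
    (U : Matrix (Fin d') (Fin d) (TwQuot O p r n)) (hU : ∀ b, act' b * U = U * act b)
    (t : ExtRing O T r X.nExtra X.g) :
    X.fullAct n p act' t * U.map (twEmbed (r₀ := r₀) n p) =
      U.map (twEmbed (r₀ := r₀) n p) * X.fullAct n p act t := by
  have h1 : ∀ f, X.framedAct n p act' f * U.map (twEmbed (r₀ := r₀) n p) =
      U.map (twEmbed (r₀ := r₀) n p) * X.framedAct n p act f :=
    matEval_intertwine (fun y => Ideal.Quotient.mk (levelIdeal O p r r₀ n)
        (MvPowerSeries.X (Sum.inr y))) (fun y => mk_X_mem n p _) (X.framedAct_X n p act)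
      (X.framedAct_X n p act') _ fun b => by
        rw [framedAct_C, framedAct_C, ← Matrix.map_mul, ← Matrix.map_mul, hU]
  exact matEval_intertwine (fun i => Ideal.Quotient.mk (levelIdeal O p r r₀ n)
      (MvPowerSeries.X (Sum.inl i))) (fun i => mk_X_mem n p _)
    (X.exists_diamondAct n p act).choose_spec.2 (X.exists_diamondAct n p act').choose_spec.2 _
    (fun f => by
      rw [(X.exists_diamondAct n p act').choose_spec.1, (X.exists_diamondAct n p act).choose_spec.1]
      exact h1 f) (X.extMap n t)

/-- A map of the modules of level `n` from an intertwiner. -/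
def modMap {d d' : ℕ} (act : (X.P n).R →+* Matrix (Fin d) (Fin d) (TwQuot O p r n))
    (act' : (X.P n).R →+* Matrix (Fin d') (Fin d') (TwQuot O p r n))
    (U : Matrix (Fin d') (Fin d) (TwQuot O p r n)) :
    LevelMod (X.fullAct n p act) →ₗ[CoeffRing O r T r₀] LevelMod (X.fullAct n p act') :=
  levelMap _ _ (U.map (twEmbed (r₀ := r₀) n p))

/-- An intertwiner gives an equivariant map of level modules. -/
theorem modMap_smul {d d' : ℕ} {act : (X.P n).R →+* Matrix (Fin d) (Fin d) (TwQuot O p r n)}
    {act' : (X.P n).R →+* Matrix (Fin d') (Fin d') (TwQuot O p r n)}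
    {U : Matrix (Fin d') (Fin d) (TwQuot O p r n)} (hU : ∀ b, act' b * U = U * act b)
    (t : ExtRing O T r X.nExtra X.g) (x : LevelMod (X.fullAct n p act)) :
    X.modMap n p act act' U (t • x) = t • X.modMap n p act act' U x :=
  levelMap_equivariant _ _ _ (X.fullAct_intertwine n p act act' U hU) t x

/-- `modMap` composes like matrices. -/
theorem modMap_modMap {d d' d'' : ℕ} (act : (X.P n).R →+* Matrix (Fin d) (Fin d) (TwQuot O p r n))
    (act' : (X.P n).R →+* Matrix (Fin d') (Fin d') (TwQuot O p r n))
    (act'' : (X.P n).R →+* Matrix (Fin d'') (Fin d'') (TwQuot O p r n))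
    (U : Matrix (Fin d') (Fin d) (TwQuot O p r n)) (V : Matrix (Fin d'') (Fin d') (TwQuot O p r n))
    (x : LevelMod (X.fullAct n p act)) :
    X.modMap n p act' act'' V (X.modMap n p act act' U x) = X.modMap n p act act'' (V * U) x := by
  show (V.map (twEmbed (r₀ := r₀) n p)).mulVec ((U.map (twEmbed (r₀ := r₀) n p)).mulVec _) = _
  rw [Matrix.mulVec_mulVec, ← Matrix.map_mul]
  rfl

/-- `modMap` of the identity. -/
theorem modMap_one {d : ℕ} (act : (X.P n).R →+* Matrix (Fin d) (Fin d) (TwQuot O p r n))
    (x : LevelMod (X.fullAct n p act)) : X.modMap n p act act 1 x = x := by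
  show (((1 : Matrix (Fin d) (Fin d) (TwQuot O p r n)).map
    (twEmbed (r₀ := r₀) n p))).mulVec (LevelMod.vec _ x) = _
  rw [Matrix.map_one _ (map_zero _) (map_one _), Matrix.one_mulVec]
  rfl

/-- `modMap` of zero. -/
theorem modMap_zero {d d' : ℕ} (act : (X.P n).R →+* Matrix (Fin d) (Fin d) (TwQuot O p r n))
    (act' : (X.P n).R →+* Matrix (Fin d') (Fin d') (TwQuot O p r n))
    (x : LevelMod (X.fullAct n p act)) : X.modMap n p act act' 0 x = 0 := by
  show ((0 : Matrix (Fin d') (Fin d) (TwQuot O p r n)).map
    (twEmbed (r₀ := r₀) n p)).mulVec (LevelMod.vec _ x) = _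
  rw [Matrix.map_zero _ (map_zero _), Matrix.zero_mulVec]
  rfl

/-- An element of the local coordinates with given image acts through that image. -/
theorem smul_C_eq {d : ℕ} (act : (X.P n).R →+* Matrix (Fin d) (Fin d) (TwQuot O p r n))
    {c : LocRing O T X.g} {b : (X.P n).R} (h : X.θ n c = MvPowerSeries.C b)
    (x : LevelMod (X.fullAct n p act)) :
    (MvPowerSeries.C c : ExtRing O T r X.nExtra X.g) • x = X.modMap n p act act (act b) x := by
  rw [levelMod_smul, fullAct_C, h, framedAct_C]
  rfl

/-- What is killed in the framed action kills the module. -/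
theorem smul_C_eq_zero {d : ℕ} (act : (X.P n).R →+* Matrix (Fin d) (Fin d) (TwQuot O p r n))
    {c : LocRing O T X.g} (h : X.framedAct n p act (X.θ n c) = 0)
    (x : LevelMod (X.fullAct n p act)) :
    (MvPowerSeries.C c : ExtRing O T r X.nExtra X.g) • x = 0 :=
  smul_eq_zero_of_eq_zero _ (by rw [fullAct_C, h]) x

variable {d : ℕ}

/-- The action on the base module. -/
def baseAct (r : ℕ) (r₀ : T) (act₀ : PB.R →+* Matrix (Fin d) (Fin d) O) :
    PB.R →+* Matrix (Fin d) (Fin d) (CoeffRing O r T r₀ ⧸ augIdeal O r r₀) :=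
  (((Ideal.Quotient.mk (augIdeal O r r₀)).comp MvPowerSeries.C).mapMatrix).comp act₀

/-- The base module. -/
abbrev BaseMod (r : ℕ) (r₀ : T) (act₀ : PB.R →+* Matrix (Fin d) (Fin d) O) : Type :=
  @LevelMod PB.R _ (CoeffRing O r T r₀) _ (augIdeal O r r₀) d (baseAct r r₀ act₀)

omit [IsAdicComplete (maximalIdeal O) O] [Fintype T] in
/-- An element acting as zero annihilates the base module. -/
theorem mem_annihilator_baseAct {act₀ : PB.R →+* Matrix (Fin d) (Fin d) O} {b : PB.R}
    (h : act₀ b = 0) : b ∈ Module.annihilator PB.R (BaseMod r r₀ act₀) :=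
  Module.mem_annihilator.2 fun x => smul_eq_zero_of_eq_zero _ (by
    rw [baseAct, RingHom.comp_apply, h, map_zero]) x

/-- Reduction of the coefficients of level `n`. -/
def coeffProj : (CoeffRing O r T r₀ ⧸ levelIdeal O p r r₀ n) →ₗ[CoeffRing O r T r₀]
    (CoeffRing O r T r₀ ⧸ augIdeal O r r₀) :=
  Submodule.factor (levelIdeal_le_augIdeal O p r r₀ n)

omit [IsDomain O] [IsDiscreteValuationRing O] [IsAdicComplete (maximalIdeal O) O] [Fintype T] in
/-- The two projections to the augmentation quotient agree. -/
theorem coeffProj_eq (a : CoeffRing O r T r₀ ⧸ levelIdeal O p r r₀ n) :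
    coeffProj (O := O) (r := r) (r₀ := r₀) n p a = augFactor (O := O) (r := r) (r₀ := r₀) n p a := by
  obtain ⟨a, rfl⟩ := Ideal.Quotient.mk_surjective a
  rfl

/-- Reduction of the module of level `n`. -/
def levelProj (act : (X.P n).R →+* Matrix (Fin d) (Fin d) (TwQuot O p r n))
    (act₀ : PB.R →+* Matrix (Fin d) (Fin d) O) :
    LevelMod (X.fullAct n p act) →ₗ[CoeffRing O r T r₀] BaseMod r r₀ act₀ :=
  ((coeffProj (O := O) (r := r) (r₀ := r₀) n p).compLeft (Fin d) :
    (Fin d → CoeffRing O r T r₀ ⧸ levelIdeal O p r r₀ n) →ₗ[CoeffRing O r T r₀]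
      (Fin d → CoeffRing O r T r₀ ⧸ augIdeal O r r₀))

/-- The underlying vector, in the base module. -/
def baseVec {act₀ : PB.R →+* Matrix (Fin d) (Fin d) O} (x : BaseMod r r₀ act₀) :
    Fin d → CoeffRing O r T r₀ ⧸ augIdeal O r r₀ := x

omit [IsAdicComplete (maximalIdeal O) O] [Fintype T] in
/-- Extensionality for the base module. -/
theorem base_ext {act₀ : PB.R →+* Matrix (Fin d) (Fin d) O} {x y : BaseMod r r₀ act₀}
    (h : ∀ i, baseVec x i = baseVec y i) : x = y := funext h

omit [IsAdicComplete (maximalIdeal O) O] [Fintype T] in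
/-- The action on the base module in coordinates. -/
theorem baseVec_smul {act₀ : PB.R →+* Matrix (Fin d) (Fin d) O} (b : PB.R)
    (x : BaseMod r r₀ act₀) (i : Fin d) : baseVec (b • x) i =
      (((act₀ b).map ((Ideal.Quotient.mk (augIdeal O r r₀)).comp MvPowerSeries.C)).mulVec
        (baseVec x)) i := rfl

/-- The projection to the base module in coordinates. -/
theorem levelProj_apply (act : (X.P n).R →+* Matrix (Fin d) (Fin d) (TwQuot O p r n))
    (act₀ : PB.R →+* Matrix (Fin d) (Fin d) O) (x : LevelMod (X.fullAct n p act)) (i : Fin d) :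
    baseVec (X.levelProj n p act act₀ x) i =
      augFactor (O := O) (r := r) (r₀ := r₀) n p (LevelMod.vec (X.fullAct n p act) x i) :=
  coeffProj_eq n p _

/-- The projection to the base module is equivariant. -/
theorem levelProj_smul (act : (X.P n).R →+* Matrix (Fin d) (Fin d) (TwQuot O p r n))
    (act₀ : PB.R →+* Matrix (Fin d) (Fin d) O)
    (hbase : ∀ x, (act x).map (twAug O p r n) = act₀ (X.toBase n x))
    (t : ExtRing O T r X.nExtra X.g) (x : LevelMod (X.fullAct n p act)) :
    X.levelProj n p act act₀ (t • x) = X.baseMap n t • X.levelProj n p act act₀ x := by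
  refine base_ext fun i => ?_
  rw [levelProj_apply, baseVec_smul, levelMod_smul,
    show baseVec (X.levelProj n p act act₀ x) = augFactor (O := O) (r := r) (r₀ := r₀) n p ∘
      LevelMod.vec (X.fullAct n p act) x from funext (X.levelProj_apply n p act act₀ x),
    ← X.fullAct_base n p act act₀ hbase t, ← RingHom.map_mulVec]
  rfl

/-- The projection sends the basis to the basis. -/
theorem levelProj_basis (act : (X.P n).R →+* Matrix (Fin d) (Fin d) (TwQuot O p r n))
    (act₀ : PB.R →+* Matrix (Fin d) (Fin d) O) (j i : Fin d) :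
    baseVec (X.levelProj n p act act₀ (levelBasis (X.fullAct n p act) j)) i =
      (Pi.single j 1 : Fin d → CoeffRing O r T r₀ ⧸ augIdeal O r r₀) i := by
  rw [levelProj_apply]
  show augFactor (O := O) (r := r) (r₀ := r₀) n p
      ((Pi.single j 1 : Fin d → CoeffRing O r T r₀ ⧸ levelIdeal O p r r₀ n) i) = _
  rcases eq_or_ne i j with rfl | h
  · rw [Pi.single_eq_same, Pi.single_eq_same, map_one]
  · rw [Pi.single_eq_of_ne h, Pi.single_eq_of_ne h, map_zero]

omit [IsAdicComplete (maximalIdeal O) O] in
/-- The frame is `1` at the origin of the frame variables. -/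
theorem constantCoeff_frame (v : T) :
    (X.frame n v).map (MvPowerSeries.constantCoeff (R := (X.P n).R)) = 1 := by
  ext a b
  simp only [genericFrame, frameVarMat, Matrix.map_apply, Matrix.add_apply, Matrix.of_apply,
    map_add]
  split_ifs <;> simp [Matrix.one_apply, apply_ite]

omit [IsAdicComplete (maximalIdeal O) O] in
/-- Conjugation by the frame is trivial at the origin of the frame variables. -/
theorem constantCoeff_conjMap (v : T) (A : Matrix (Fin 2) (Fin 2) (X.P n).R) :
    (X.conjMap n v A).map (MvPowerSeries.constantCoeff (R := (X.P n).R)) = A := by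
  have h1 : (X.frameInv n v).map (MvPowerSeries.constantCoeff (R := (X.P n).R)) = 1 := by
    have h := congrArg (fun M : Matrix (Fin 2) (Fin 2) ((X.P n).Framed r₀) =>
      M.map (MvPowerSeries.constantCoeff (R := (X.P n).R))) (X.inv_mul_frame n v)
    simp only [Matrix.map_mul, constantCoeff_frame, mul_one] at h
    exact h.trans (Matrix.map_one _ (map_zero _) (map_one _))
  show (X.frameInv n v * A.map MvPowerSeries.C * X.frame n v).map MvPowerSeries.constantCoeff = A
  rw [Matrix.map_mul, Matrix.map_mul, h1, constantCoeff_frame, one_mul, mul_one, Matrix.map_map]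
  ext a b
  simp

/-- The coordinates of Frobenius go to Frobenius. -/
theorem baseMap_frob (v : T) :
    (locFrob (g := X.g) Φ₀ v).map (fun x => X.baseMap n (MvPowerSeries.C x)) =
      PB.rep (frob v) := by
  ext i j
  rw [Matrix.map_apply, baseMap_C, ← X.toBase_rep n]
  have h := congrFun (congrFun (X.θ_frob n v) i) j
  rw [Matrix.map_apply] at h
  rw [h, Matrix.map_apply]
  exact congrArg (X.toBase n) (congrFun (congrFun (X.constantCoeff_conjMap n v _) i) j)

/-- The coordinates of monodromy go to the tame generator minus one. -/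
theorem baseMap_mono (v : T) :
    (locMono (g := X.g) (O := O) v).map (fun x => X.baseMap n (MvPowerSeries.C x)) =
      PB.rep (tame v) - 1 := by
  ext i j
  rw [Matrix.map_apply, baseMap_C, ← X.toBase_rep n,
    ← Matrix.map_one (X.toBase n) (map_zero _) (map_one _), ← Matrix.map_sub _ (map_sub _)]
  have h := congrFun (congrFun (X.θ_mono n v) i) j
  rw [Matrix.map_apply] at h
  rw [h, Matrix.map_apply]
  exact congrArg (X.toBase n) (congrFun (congrFun (X.constantCoeff_conjMap n v _) i) j)

end AuxLevels

end Fermat.Agent.Engine
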