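import Fermat.Agent.Engine.FrameCoords
import Fermat.Agent.Engine.Galois
import Fermat.Agent.Deform.Finite
import Fermat.Agent.TameInertia.Adic
import Fermat.Agent.TameInertia.Presentation
import Fermat.Agent.GalCoh.GlobalLevels
import Fermat.Agent.Frobenius.Exists

/-!
# The deformation ring of a level and its framed form

`LevelData` prescribes determinant, ramification (`Sigma`), unipotence (`Smin`) and a closed
condition at a place over `p`.  `RepRing` is the universal ring of normalised lifts; `Framed` is its power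
series ring in the frame variables, generated by local coordinates under the framed tangent bound.
-/

set_option autoImplicit false

noncomputable section

open IsLocalRing GaloisRep Fermat.Agent.DefRing Fermat.Agent.Deform
open Fermat.Agent.GalCoh (d0 d0_apply)

namespace Fermat.Agent.Engine

local notation "Qbar" => AlgebraicClosure ℚ

variable (O : Type) [CommRing O] [IsLocalRing O]

/-- The conditions on lifts. -/
structure LevelData where
  /-- residual data -/
  D : NormalData O
  /-- the determinant -/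
  detChar : GQ → O
  /-- ramification is allowed here -/
  Sigma : Finset ℕ
  /-- inertia is unipotent here -/
  Smin : Finset ℕ
  /-- the place over `p` -/
  place : ValuationSubring Qbar
  /-- the condition there -/
  atPlace : Closed O (place.decompositionSubgroup ℚ × Fin 2 × Fin 2)

variable {O}

/-- A point of a closed condition over a complete ring gives points over every test algebra it
maps to. -/
theorem _root_.Fermat.Agent.Deform.Closed.Mem'.mem_of_hom {ι : Type} {C : Closed O ι} {A : Type}
    [CommRing A] [IsLocalRing A] [IsNoetherianRing A] [Algebra O A] {e : ι → A} (h : C.Mem' e)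
    (hl : IsLocalHom (algebraMap O A)) (hs : Function.Surjective (residue A ∘ algebraMap O A))
    {B : Type} [CommRing B] [IsLocalRing B] [Algebra O B] (hB : IsArtinianTestAlgebra O B)
    (φ : A →ₐ[O] B) (hφ : IsLocalHom (φ : A →+* B)) : C.mem fun i => φ (e i) := by
  have := hB.isArtinian
  obtain ⟨N, hN⟩ := isNilpotent_maximalIdeal_of_isArtinianRing (A := B)
  obtain ⟨Q, _, _, _, q, hQ, hq, hqs, hker⟩ := Closed.exists_quotient_level hl hs N
  obtain ⟨θ, hθ⟩ := exists_comp_eq hqs φ fun r hr => by
    have h1 := mem_pow_of_algHom (φ : A →+* B) hφ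
      (Ideal.pow_le_pow_right (Nat.le_succ N) ((hker r).mp hr))
    rw [hN, Ideal.zero_eq_bot, Ideal.mem_bot] at h1
    exact h1
  have h1 := C.map hQ hB θ (h hQ q hq hqs)
  convert h1 using 2 with i
  rw [← hθ, AlgHom.comp_apply]

namespace LevelData

/-- Allow ramification at another set of primes. -/
def withSigma (L : LevelData O) (Sigma : Finset ℕ) : LevelData O := { L with Sigma := Sigma }

variable (L : LevelData O)

/-- The coordinates of the restriction to the place. -/
def atCoords {A : Type} [CommRing A] (N : MRep A) :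
    L.place.decompositionSubgroup ℚ × Fin 2 × Fin 2 → A :=
  coordsOf fun σ => N (σ : GQ)

/-- The equations of a lift. -/
structure Equations {A : Type} [CommRing A] [Algebra O A] (N : MRep A) : Prop where
  det : ∀ σ, (N σ).det = algebraMap O A (L.detChar σ)
  unram : ∀ q : ℕ, q.Prime → q ∉ L.Sigma → ∀ P : ValuationSubring Qbar, P.LiesOverPrime q →
    ∀ σ ∈ P.inertiaSubgroupIn ℚ, N σ = 1
  unipotent : ∀ q ∈ L.Smin, ∀ P : ValuationSubring Qbar, P.LiesOverPrime q →
    ∀ σ ∈ P.inertiaSubgroupIn ℚ, (N σ - 1) * (N σ - 1) = 0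

/-- A normalised lift of the given level. -/
structure IsRepLift {A : Type} [CommRing A] [IsLocalRing A] [Algebra O A]
    (hl : IsLocalHom (algebraMap O A)) (hs : Function.Surjective (residue A ∘ algebraMap O A))
    (N : MRep A) : Prop where
  normal : L.D.IsNormal N
  reduces : L.D.Reduces hl hs N
  cont : IsCont N
  eqs : L.Equations N
  atPlace : L.atPlace.Mem' (L.atCoords N)

/-- The residual representation satisfies the conditions. -/
structure IsResidual : Prop where
  cont : IsCont L.D.rbar
  eqs : L.Equations L.D.rbar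
  atPlace : L.atPlace.mem (L.atCoords L.D.rbar)

/-- A universal normalised lift. -/
structure RepRing : Type 1 where
  R : Type
  [instCommRing : CommRing R]
  [instIsLocalRing : IsLocalRing R]
  [instAlgebra : Algebra O R]
  [instIsNoetherianRing : IsNoetherianRing R]
  [instIsAdicComplete : IsAdicComplete (maximalIdeal R) R]
  [instIsLocalHom : IsLocalHom (algebraMap O R)]
  residue_surjective : Function.Surjective (residue R ∘ algebraMap O R)
  finite_quotient : ∀ n : ℕ, Finite (R ⧸ maximalIdeal R ^ n)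
  rep : MRep R
  isLift : L.IsRepLift instIsLocalHom residue_surjective rep
  topGen : ∀ (x : R) (n : ℕ), ∃ s ∈ Algebra.adjoin O (entries rep), x - s ∈ maximalIdeal R ^ n
  universal : ∀ (A : Type) [CommRing A] [IsLocalRing A] [IsNoetherianRing A]
    [IsAdicComplete (maximalIdeal A) A] [Algebra O A] (hl : IsLocalHom (algebraMap O A))
    (hs : Function.Surjective (residue A ∘ algebraMap O A)) (N : MRep A), L.IsRepLift hl hs N →
      ∃! φ : R →ₐ[O] A, IsLocalHom (φ : R →+* A) ∧ mapRep (φ : R →+* A) rep = N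

attribute [instance] RepRing.instCommRing RepRing.instIsLocalRing RepRing.instAlgebra
  RepRing.instIsNoetherianRing RepRing.instIsAdicComplete RepRing.instIsLocalHom

/-- The elements of the group algebra killed by a lift. -/
def relations : Set (MonoidAlgebra O GQ) :=
  (fun σ => MonoidAlgebra.of O GQ σ - 1) '' {σ : GQ | ∃ q : ℕ, q.Prime ∧ q ∉ L.Sigma ∧
      ∃ P : ValuationSubring Qbar, P.LiesOverPrime q ∧ σ ∈ P.inertiaSubgroupIn ℚ} ∪
    (fun σ => (MonoidAlgebra.of O GQ σ - 1) * (MonoidAlgebra.of O GQ σ - 1)) ''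
      {σ : GQ | ∃ q ∈ L.Smin, ∃ P : ValuationSubring Qbar, P.LiesOverPrime q ∧
        σ ∈ P.inertiaSubgroupIn ℚ}

/-- The equations of a lift as a property of representations. -/
def levelType : ∀ ⦃A : Type⦄ [CommRing A] [IsLocalRing A] [Algebra O A], GaloisRepAdic A → Prop :=
  fun _A _ _ _ ρ => (detFamily Set.univ L.detChar).condition ρ ∧
    (groupAlgebraFamily L.relations).condition ρ

/-- The level type is a deformation condition. -/
theorem isDeformationCondition_levelType : IsDeformationCondition O L.levelType :=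
  isDeformationCondition_and (detFamily Set.univ L.detChar).isDeformationCondition
    (groupAlgebraFamily L.relations).isDeformationCondition

omit [IsLocalRing O] in
/-- The equations of the determinant family. -/
theorem detFamily_val_eq_zero {A : Type} [CommRing A] [Algebra O A] {N : MRep A} {ψ : GQ → O} :
    (∀ i, (detFamily (Set.univ : Set GQ) ψ).val i N = 0) ↔
      ∀ σ, (N σ).det = algebraMap O A (ψ σ) := by
  refine ⟨fun h σ => ?_, fun h i => ?_⟩
  · have h1 := congrFun (congrFun (h ⟨σ, trivial⟩) 0) 0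
    simp only [detFamily, Matrix.scalar_apply, Matrix.diagonal_apply_eq, Matrix.zero_apply,
      sub_eq_zero] at h1
    exact h1
  · show Matrix.scalar (Fin 2) _ = 0
    rw [h i.1, sub_self, map_zero]

/-- The equations of the level as closed families. -/
theorem equations_iff {A : Type} [CommRing A] [Algebra O A] {N : MRep A} :
    L.Equations N ↔ (∀ i, (detFamily Set.univ L.detChar).val i N = 0) ∧
      ∀ i, (groupAlgebraFamily L.relations).val i N = 0 := by
  rw [detFamily_val_eq_zero]
  constructor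
  · intro h
    refine ⟨h.det, ?_⟩
    rintro ⟨z, (⟨σ, ⟨q, hq, hqS, P, hP, hσ⟩, rfl⟩ | ⟨σ, ⟨q, hqS, P, hP, hσ⟩, rfl⟩)⟩
    · simp only [groupAlgebraFamily, map_sub, map_one, evRep_of, h.unram q hq hqS P hP σ hσ,
        sub_self]
    · simp only [groupAlgebraFamily, map_sub, map_mul, map_one, evRep_of]
      exact h.unipotent q hqS P hP σ hσ
  · rintro ⟨hd, h⟩
    refine ⟨hd, fun q hq hqS P hP σ hσ => ?_, fun q hqS P hP σ hσ => ?_⟩
    · have h1 := h ⟨_, Or.inl ⟨σ, ⟨q, hq, hqS, P, hP, hσ⟩, rfl⟩⟩
      simpa only [groupAlgebraFamily, map_sub, map_one, evRep_of, sub_eq_zero] using h1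
    · have h1 := h ⟨_, Or.inr ⟨σ, ⟨q, hqS, P, hP, hσ⟩, rfl⟩⟩
      simpa only [groupAlgebraFamily, map_sub, map_mul, map_one, evRep_of] using h1

/-- The level type of a continuous representation is given by the equations. -/
theorem levelType_iff {A : Type} [CommRing A] [IsLocalRing A] [Algebra O A] {N : MRep A}
    {hc : IsCont N} : L.levelType (toAdic N hc) ↔ L.Equations N := by
  rw [L.equations_iff]
  exact and_congr ((detFamily Set.univ L.detChar).condition_iff ⟨GaloisRepAdic.Equiv.refl _⟩)
    ((groupAlgebraFamily L.relations).condition_iff ⟨GaloisRepAdic.Equiv.refl _⟩)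

/-- The equations are invariant under conjugation. -/
theorem Equations.conj {L : LevelData O} {A : Type} [CommRing A] [Algebra O A] {M N : MRep A}
    (g : (Matrix (Fin 2) (Fin 2) A)ˣ)
    (hg : ∀ σ, (g : Matrix (Fin 2) (Fin 2) A) * M σ = N σ * g) (h : L.Equations M) :
    L.Equations N := by
  rw [equations_iff] at h ⊢
  refine ⟨fun i => ?_, fun i => ?_⟩
  · have h1 := (detFamily Set.univ L.detChar).equivariant i M N g hg
    rw [h.1 i, mul_zero] at h1
    exact g.isUnit.mul_left_eq_zero.mp h1.symm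
  · have h1 := (groupAlgebraFamily L.relations).equivariant i M N g hg
    rw [h.2 i, mul_zero] at h1
    exact g.isUnit.mul_left_eq_zero.mp h1.symm

/-- The point functor of normalised lifts. -/
def repFunctor (h : L.IsResidual) : PointFunctor O (GQ × Fin 2 × Fin 2) :=
  ((PointFunctor.free (coordsOf (⇑L.D.rbar))).inter
    (globalClosed L.D L.isDeformationCondition_levelType)
      ⟨L.D.rbar, rfl, L.D.isNormal_rbar, h.cont, L.levelType_iff.mpr h.eqs⟩).inter
    (L.atPlace.comap (CoordMap.reindex O fun p => ((p.1 : GQ), p.2.1, p.2.2))) h.atPlace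

/-- The points of the functor are the lifts of the level. -/
theorem mem'_repFunctor {h : L.IsResidual} {A : Type} [CommRing A] [IsLocalRing A]
    [IsNoetherianRing A] [IsAdicComplete (maximalIdeal A) A] [Algebra O A]
    (hl : IsLocalHom (algebraMap O A)) (hs : Function.Surjective (residue A ∘ algebraMap O A))
    {e : GQ × Fin 2 × Fin 2 → A} :
    (L.repFunctor h).Mem' e ↔ ∃ N : MRep A, coordsOf (⇑N) = e ∧ L.IsRepLift hl hs N := by
  refine (PointFunctor.mem'_inter.trans (and_congr (PointFunctor.mem'_inter.trans (and_congr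
    (PointFunctor.mem'_free hl hs) (mem'_globalClosed L.D hl hs))) Closed.mem'_comap)).trans ?_
  constructor
  · rintro ⟨⟨hres, N, rfl, hn, hc, hD⟩, hp⟩
    refine ⟨N, rfl, hn, ?_, hc, L.levelType_iff.mp hD, hp⟩
    exact MonoidHom.ext fun σ => Matrix.ext fun a b => hres (σ, a, b)
  · rintro ⟨N, rfl, hN⟩
    exact ⟨⟨fun i => congrFun (congrFun (DFunLike.congr_fun hN.reduces i.1) i.2.1) i.2.2,
      N, rfl, hN.normal, hN.cont, L.levelType_iff.mpr hN.eqs⟩, hN.atPlace⟩

attribute [local instance 10000] dualAlgebra in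
/-- The tangent space of the functor is finite. -/
theorem finite_tangent_repFunctor [Finite (ResidueField O)] (h : L.IsResidual) :
    Finite (L.repFunctor h).Tangent := by
  have hT := isArtinianTestAlgebra_dual (𝒪 := O)
  have := finite_tangentSet_of_unramifiedOutside (D := L.D) (𝒟 := L.levelType)
    (S := L.Sigma.subtype Nat.Prime) fun A _ _ _ ρ hρ q hq P hP σ hσ => by
      have h1 := hρ.2 ⟨_, Or.inl ⟨σ, ⟨(q : ℕ), q.2,
        fun hm => hq (Finset.mem_subtype.mpr hm), P, hP, hσ⟩, rfl⟩⟩
      simp only [groupAlgebraFamily, map_sub, map_one, evRep_of, sub_eq_zero, matrixRep_apply] at h1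
      exact (LinearMap.toMatrix (repBasis ρ) (repBasis ρ)).injective
        (h1.trans (LinearMap.toMatrix_one _).symm)
  have key : ∀ t : (L.repFunctor h).Tangent, ∃ N : TangentSet L.D L.levelType,
      coordsOf (⇑N.1) = t.1 := by
    rintro ⟨e, ⟨hfree, N, hN, hn, hc, hD⟩, -⟩
    refine ⟨⟨N, hn, MonoidHom.ext fun σ => Matrix.ext fun a b => ?_, hc, hD⟩, hN⟩
    show toResidue hT.isLocalHom hT.residue_surjective (N σ a b) = _
    rw [show N σ a b = e (σ, a, b) from congrFun hN (σ, a, b)]
    exact (PointFunctor.free _).residue_eq hT hfree (σ, a, b)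
  choose N hN using key
  exact Finite.of_injective N fun t t' htt' => Subtype.ext (by rw [← hN t, ← hN t', htt'])

variable {L}

/-- The universal ring exists. -/
theorem nonempty_repRing [Finite (ResidueField O)] [IsNoetherianRing O]
    [IsAdicComplete (maximalIdeal O) O] (h : L.IsResidual) : Nonempty L.RepRing := by
  have := L.finite_tangent_repFunctor h
  obtain ⟨P⟩ := PointFunctor.nonempty_universalPoint (L.repFunctor h)
  obtain ⟨N, hN, hLN⟩ :=
    (L.mem'_repFunctor P.instIsLocalHom P.residue_surjective).mp P.mem'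
  refine ⟨{
    R := P.R
    residue_surjective := P.residue_surjective
    finite_quotient := P.finite_quotient
    rep := N
    isLift := hLN
    topGen := fun x n => ?_
    universal := fun A _ _ _ _ _ hl hs M hM => ?_ }⟩
  · have : entries N = Set.range P.point := by rw [← hN]; rfl
    rw [this]
    exact P.topGen x n
  · obtain ⟨φ, ⟨hφl, hφ⟩, hu⟩ := P.universal A hs _
      ((L.mem'_repFunctor hl hs).mpr ⟨M, rfl, hM⟩)
    rw [← hN] at hφ hu
    refine ⟨φ, ⟨hφl, MonoidHom.ext fun σ => Matrix.ext fun a b => hφ (σ, a, b)⟩, ?_⟩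
    exact fun φ' ⟨hl', hφ'⟩ =>
      hu φ' ⟨hl', fun i => congrFun (congrFun (DFunLike.congr_fun hφ' i.1) i.2.1) i.2.2⟩

/-- Conditions at fewer primes are stronger. -/
theorem IsRepLift.mono {Sigma₀ : Finset ℕ} (hle : Sigma₀ ⊆ L.Sigma) {A : Type} [CommRing A]
    [IsLocalRing A] [Algebra O A] {hl : IsLocalHom (algebraMap O A)}
    {hs : Function.Surjective (residue A ∘ algebraMap O A)} {N : MRep A}
    (h : (L.withSigma Sigma₀).IsRepLift hl hs N) : L.IsRepLift hl hs N :=
  ⟨h.normal, h.reduces, h.cont,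
    ⟨h.eqs.det, fun q hq hqS => h.eqs.unram q hq fun hm => hqS (hle hm), h.eqs.unipotent⟩,
    h.atPlace⟩

namespace RepRing

variable (P : L.RepRing) {T : Type} [Finite T] (r₀ : T)

/-- The universal ring of framed lifts. -/
abbrev Framed : Type := MvPowerSeries (FrameVar T r₀) P.R

/-- The framed ring is complete. -/
theorem isAdicComplete_framed :
    IsAdicComplete (maximalIdeal (P.Framed r₀)) (P.Framed r₀) :=
  isAdicComplete_mvPowerSeries

omit [Finite T] in
/-- The structure map of the framed ring is local. -/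
theorem isLocalHom_framed : IsLocalHom (algebraMap O (P.Framed r₀)) := ⟨fun o ho => by
  have h1 := MvPowerSeries.isUnit_iff_constantCoeff.mp ho
  rw [MvPowerSeries.algebraMap_apply, MvPowerSeries.constantCoeff_C] at h1
  exact P.instIsLocalHom.map_nonunit o h1⟩

omit [Finite T] in
/-- The framed ring has the residue field of `O`. -/
theorem residue_surjective_framed :
    Function.Surjective (residue (P.Framed r₀) ∘ algebraMap O (P.Framed r₀)) := fun z => by
  obtain ⟨f, rfl⟩ := IsLocalRing.residue_surjective z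
  obtain ⟨o, ho⟩ := exists_algebraMap_add_mem P.residue_surjective (MvPowerSeries.constantCoeff f)
  refine ⟨o, (RingHom.sub_mem_ker_iff _).mp ?_⟩
  rw [IsLocalRing.ker_residue, mem_maximalIdeal_iff_constantCoeff, map_sub,
    MvPowerSeries.algebraMap_apply, MvPowerSeries.constantCoeff_C]
  simpa using neg_mem ho

end RepRing

/-- Local coordinates generate the framed ring of a lift whose first order points satisfy the
condition at the place, under the framed tangent bound. -/
theorem exists_surjective_locRing_lift [Finite (ResidueField O)] [IsNoetherianRing O]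
    [IsAdicComplete (maximalIdeal O) O] {R : Type} [CommRing R] [IsLocalRing R]
    [IsNoetherianRing R] [IsAdicComplete (maximalIdeal R) R] [Algebra O R]
    (hlR : IsLocalHom (algebraMap O R)) (hsR : Function.Surjective (residue R ∘ algebraMap O R))
    (rep : MRep R) (hnormal : L.D.IsNormal rep) (hreduces : L.D.Reduces hlR hsR rep)
    (hcont : IsCont rep) (heqs : L.Equations rep)
    (htopGen : ∀ x : R, ∃ s ∈ Algebra.adjoin O (entries rep), x - s ∈ maximalIdeal R ^ 2) {p : ℕ}
    (h2 : (2 : ResidueField O) ≠ 0) (h : L.IsResidual)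
    (atP : CondAtP L.D.rbar p)
    (hfirst : letI := dualAlgebra (𝒪 := O); ∀ φ : R →ₐ[O] DualNumber (ResidueField O),
      (∀ σ, (mapRep (φ : R →+* DualNumber (ResidueField O)) rep σ).map TrivSqZeroExt.fst =
        L.D.rbar σ) →
      (∀ σ, (cocOf L.D.rbar (mapRep (φ : R →+* DualNumber (ResidueField O)) rep) σ).trace = 0) →
      (fun σ : atP.place.decompositionSubgroup ℚ =>
        cocOf L.D.rbar (mapRep (φ : R →+* DualNumber (ResidueField O)) rep) (σ : GQ)) ∈ atP.cond)
    (T : Finset ℕ) (C : LocalChoices T) (r₀ : T) {g : ℕ}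
    (hbound : ∀ W : Submodule (ResidueField O) (TangentPair (ResidueField O) T),
      (∀ x ∈ W, IsTangentPair L.D.rbar L.Smin L.Sigma T C atP x) →
      FiniteDimensional (ResidueField O) W ∧ Module.finrank (ResidueField O) W ≤ g + 4)
    (htame : ∀ r, L.D.rbar (C.tame r) = 1)
    (Φ₀ : T → Matrix (Fin 2) (Fin 2) O)
    (hΦ₀ : ∀ r, (Φ₀ r).map (residue O) = L.D.rbar (C.frob r)) :
    ∃ θ : LocRing O T g →ₐ[O] MvPowerSeries (FrameVar T r₀) R,
      IsLocalHom (θ : LocRing O T g →+* MvPowerSeries (FrameVar T r₀) R) ∧ Function.Surjective θ ∧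
      ∀ r, (locFrob (g := g) Φ₀ r).map θ = framedRep r₀ R rep r (C.frob r) ∧
        (locMono (g := g) (O := O) r).map θ = framedRep r₀ R rep r (C.tame r) - 1 := by
  let := dualAlgebra (𝒪 := O)
  let Zc : Submodule (ResidueField O) (GQ → Matrix (Fin 2) (Fin 2) (ResidueField O)) :=
    { carrier := {c | IsAdCocycle L.D.rbar c ∧
        (∀ q : ℕ, q.Prime → q ∉ L.Sigma → ∀ A : ValuationSubring Qbar, A.LiesOverPrime q →
          ∀ σ ∈ A.inertiaSubgroupIn ℚ, c σ = 0) ∧
        (∀ q ∈ L.Smin, ∀ A : ValuationSubring Qbar, A.LiesOverPrime q →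
          ∀ σ ∈ A.inertiaSubgroupIn ℚ, c σ * L.D.rbar σ * (L.D.rbar σ - 1) +
            (L.D.rbar σ - 1) * (c σ * L.D.rbar σ) = 0) ∧
        (fun σ : atP.place.decompositionSubgroup ℚ => c (σ : GQ)) ∈ atP.cond}
      zero_mem' := ⟨⟨fun a b => by simp, fun a => by simp, ⊥, inferInstance, fun _ _ => rfl⟩,
        fun _ _ _ _ _ _ _ => rfl, fun _ _ _ _ _ _ => by simp, atP.cond.zero_mem⟩
      add_mem' := by
        rintro c c' ⟨⟨hc, htr, E, hE, hc0⟩, hu, hm, hp⟩ ⟨⟨hc', htr', E', hE', hc0'⟩, hu', hm', hp'⟩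
        refine ⟨⟨fun a b => ?_, fun a => ?_, E ⊔ E', IntermediateField.finiteDimensional_sup E E',
          fun σ hσ => ?_⟩, fun q h1 h2 A h3 σ h4 => ?_, fun q h1 A h2 σ h3 => ?_,
          atP.cond.add_mem hp hp'⟩
        · simp only [Pi.add_apply, hc a b, hc' a b, mul_add, add_mul]
          abel
        · simp [htr a, htr' a]
        · rw [Pi.add_apply, hc0 σ fun x hx => hσ x (le_sup_left (b := E') hx),
            hc0' σ fun x hx => hσ x (le_sup_right (a := E) hx), add_zero]
        · rw [Pi.add_apply, hu q h1 h2 A h3 σ h4, hu' q h1 h2 A h3 σ h4, add_zero]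
        · rw [Pi.add_apply, ← add_zero (0 : Matrix (Fin 2) (Fin 2) (ResidueField O))]
          nth_rewrite 1 [← hm q h1 A h2 σ h3]
          rw [← hm' q h1 A h2 σ h3]
          noncomm_ring
      smul_mem' := by
        rintro t c ⟨⟨hc, htr, E, hE, hc0⟩, hu, hm, hp⟩
        refine ⟨⟨fun a b => ?_, fun a => ?_, E, hE, fun σ hσ => ?_⟩,
          fun q h1 h2 A h3 σ h4 => ?_, fun q h1 A h2 σ h3 => ?_, atP.cond.smul_mem t hp⟩
        · simp [hc a b, smul_add]
        · simp [htr a]
        · simp [hc0 σ hσ]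
        · simp [hu q h1 h2 A h3 σ h4]
        · have := congrArg (t • ·) (hm q h1 A h2 σ h3)
          simpa [smul_add] using this }
  have hone : ∀ σ, L.D.rbar σ = 1 → ∀ Y, d0 (adRep L.D.rbar) Y σ = 0 := fun σ hσ Y => by
    have h' : L.D.rbar σ⁻¹ = 1 := by
      have := rho_mul_inv L.D.rbar σ
      rwa [hσ, one_mul] at this
    simp [d0_apply, hσ, h']
  have hcob : ∀ Y, d0 (adRep L.D.rbar) Y ∈ Zc := by
    intro Y
    obtain ⟨E, hE, hE1⟩ := h.cont.finite_level
    refine ⟨⟨fun a b => ?_, fun a => ?_, E, hE, fun σ hσ => hone σ (hE1 σ hσ) Y⟩,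
      fun q hq hqS A hA σ hσ => hone σ (h.eqs.unram q hq hqS A hA σ hσ) Y,
      fun q hq A hA σ hσ => ?_, ?_⟩
    · rw [d0_apply, d0_apply, d0_apply, adRep_apply, adRep_apply, adRep_apply, map_mul, mul_inv_rev,
        map_mul]
      simp only [mul_sub, sub_mul, mul_assoc]
      abel
    · rw [d0_apply, adRep_apply, Matrix.trace_sub, Matrix.trace_mul_comm, ← mul_assoc, rho_inv_mul,
        one_mul, sub_self]
    · have hu := h.eqs.unipotent q hq A hA σ hσ
      have h1 : d0 (adRep L.D.rbar) Y σ * L.D.rbar σ =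
          (L.D.rbar σ - 1) * Y - Y * (L.D.rbar σ - 1) := by
        simp only [d0_apply, adRep_apply, sub_mul, mul_assoc, rho_inv_mul, mul_one, mul_sub,
          one_mul]
        abel
      rw [h1]
      calc ((L.D.rbar σ - 1) * Y - Y * (L.D.rbar σ - 1)) * (L.D.rbar σ - 1) +
            (L.D.rbar σ - 1) * ((L.D.rbar σ - 1) * Y - Y * (L.D.rbar σ - 1))
          = (L.D.rbar σ - 1) * (L.D.rbar σ - 1) * Y -
              Y * ((L.D.rbar σ - 1) * (L.D.rbar σ - 1)) := by noncomm_ring
        _ = 0 := by rw [hu, zero_mul, mul_zero, sub_zero]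
    · set c := Y.trace / 2
      have htr : (Y - c • (1 : Matrix (Fin 2) (Fin 2) (ResidueField O))).trace = 0 := by
        rw [Matrix.trace_sub, Matrix.trace_smul, Matrix.trace_one, Fintype.card_fin, smul_eq_mul,
          Nat.cast_ofNat, div_mul_cancel₀ _ h2, sub_self]
      convert atP.coboundary _ htr using 1
      funext σ
      simp [d0_apply, mul_sub, sub_mul, rho_mul_inv]
  refine exists_surjective_locRing (D := L.D) r₀ C.frob C.tame g Φ₀ hΦ₀ htame Zc hcob
    (fun W hW => hbound W fun x hx => ?_) hlR hsR rep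
    hnormal hreduces htopGen fun φ => ?_
  · obtain ⟨⟨h1, h2, h3, h4⟩, h5⟩ := hW x hx
    exact ⟨h1, h2, h3, h4, h5⟩
  · have hφl := isLocalHom_toDual φ
    have hdual := isArtinianTestAlgebra_dual (𝒪 := O)
    set N := mapRep (φ : R →+* DualNumber (ResidueField O)) rep
    have hfst : ∀ σ, (N σ).map TrivSqZeroExt.fst = L.D.rbar σ := fun σ => Matrix.ext fun a b => by
      obtain ⟨o, ho⟩ := exists_algebraMap_add_mem hsR (rep σ a b)
      have h1 : residue O o = L.D.rbar σ a b := by
        have := (toResidue_eq_zero_iff hlR hsR).mpr ho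
        rw [map_sub, AlgHom.commutes, sub_eq_zero] at this
        exact this.symm.trans (congrFun (congrFun (DFunLike.congr_fun hreduces σ) a) b)
      have h2 : (φ (rep σ a b - algebraMap O R o)).fst = 0 := by
        by_contra hne
        exact ho (hφl.map_nonunit _
          (TrivSqZeroExt.isUnit_iff_isUnit_fst.mpr (isUnit_iff_ne_zero.mpr hne)))
      rw [map_sub, AlgHom.commutes, TrivSqZeroExt.fst_sub, dual_algebraMap, TrivSqZeroExt.fst_inl,
        sub_eq_zero, h1] at h2
      exact h2
    have htr : ∀ σ, (cocOf L.D.rbar N σ).trace = 0 := fun σ => by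
      refine (det_eq_iff_trace_cocOf hfst σ).mp ?_
      rw [h.eqs.det σ]
      show (φ.mapMatrix (rep σ)).det = _
      rw [← AlgHom.map_det, heqs.det, AlgHom.commutes, dual_algebraMap]
      rfl
    have := hdual.isArtinian
    obtain ⟨E, hE, hE1⟩ := (hcont.map (φ : R →+* DualNumber (ResidueField O)) hφl).finite_level
    have hsnd1 : (1 : Matrix (Fin 2) (Fin 2) (DualNumber (ResidueField O))).map TrivSqZeroExt.snd =
        (0 : Matrix (Fin 2) (Fin 2) (ResidueField O)) := by
      rw [← dualMat_one, snd_dualMat]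
    have hcoc1 : ∀ σ, N σ = 1 → cocOf L.D.rbar N σ = 0 := fun σ hσ => by
      rw [cocOf, hσ, hsnd1, zero_mul]
    refine ⟨⟨fun a b => ?_, htr, E, hE, fun σ hσ => hcoc1 σ (hE1 σ hσ)⟩,
      fun q hq hqS A hA σ hσ => hcoc1 σ ?_, fun q hq A hA σ hσ => ?_, ?_⟩
    · rw [cocOf_mul hfst, adRep_apply, add_comm]
    · show (rep σ).map φ = 1
      rw [heqs.unram q hq hqS A hA σ hσ, Matrix.map_one _ (map_zero φ) (map_one φ)]
    · have h0 : (N σ - 1) * (N σ - 1) = 0 := by
        have := congrArg (fun X => Matrix.map X φ) (heqs.unipotent q hq A hA σ hσ)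
        show ((rep σ).map φ - 1) * ((rep σ).map φ - 1) = 0
        simpa [Matrix.map_mul, Matrix.map_sub _ (map_sub φ),
          Matrix.map_one _ (map_zero φ) (map_one φ)] using this
      have h1 : (N σ - 1).map TrivSqZeroExt.fst = L.D.rbar σ - 1 := by
        rw [← hfst σ]; ext a b; by_cases hab : a = b <;> simp [hab]
      have h2 : (N σ - 1).map TrivSqZeroExt.snd = cocOf L.D.rbar N σ * L.D.rbar σ := by
        rw [← snd_eq_cocOf_mul]; ext a b; by_cases hab : a = b <;> simp [hab]
      have := congrArg (fun X => X.map TrivSqZeroExt.snd) h0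
      simp only [snd_map_mul, h1, h2] at this
      rw [show (0 : Matrix (Fin 2) (Fin 2) (DualNumber (ResidueField O))).map TrivSqZeroExt.snd =
        (0 : Matrix (Fin 2) (Fin 2) (ResidueField O)) by ext a b; simp] at this
      rw [← this]
      abel
    · exact hfirst φ hfst htr

/-- A lift of the level in any basis has a unique normalised conjugate. -/
theorem existsUnique_normalised {A : Type} [CommRing A] [IsLocalRing A] [Algebra O A]
    [HenselianRing A (maximalIdeal A)] (hl : IsLocalHom (algebraMap O A))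
    (hs : Function.Surjective (residue A ∘ algebraMap O A)) (M : MRep A)
    (hres : ∃ g : (Matrix (Fin 2) (Fin 2) (ResidueField O))ˣ, ∀ σ,
      (g : Matrix (Fin 2) (Fin 2) (ResidueField O)) * (M σ).map (toResidue hl hs) =
        L.D.rbar σ * g)
    (hcont : IsCont M) (heq : L.Equations M)
    (hconj : ∀ g : (Matrix (Fin 2) (Fin 2) A)ˣ,
      L.atPlace.Mem' (coordsOf fun σ : L.place.decompositionSubgroup ℚ => g.1 * M σ * g⁻¹.1)) :
    ∃! N : MRep A, L.IsRepLift hl hs N ∧
      ∃ g : (Matrix (Fin 2) (Fin 2) A)ˣ, ∀ σ, (g : Matrix (Fin 2) (Fin 2) A) * M σ = N σ * g := by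
  obtain ⟨g, N, hg, hn, hr⟩ := NormalData.exists_normal (D := L.D) (hl := hl) (hs := hs) M hres
  have hN : ∀ σ, N σ = g.1 * M σ * g⁻¹.1 := fun σ => by
    rw [hg, mul_assoc, Units.mul_inv, mul_one]
  refine ⟨N, ⟨⟨hn, hr, fun n => ?_, heq.conj g hg, ?_⟩, g, hg⟩, ?_⟩
  · obtain ⟨E, hE, hE1⟩ := hcont n
    refine ⟨E, hE, fun σ hσ a b => ?_⟩
    have : N σ - 1 = g.1 * (M σ - 1) * g⁻¹.1 := by
      rw [hN, mul_sub, sub_mul, mul_one, Units.mul_inv]
    rw [this]
    simp only [Matrix.mul_apply]
    exact Submodule.sum_mem _ fun i _ => Ideal.mul_mem_right _ _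
      (Submodule.sum_mem _ fun j _ => Ideal.mul_mem_left _ _ (hE1 σ hσ j i))
  · have : (fun σ : L.place.decompositionSubgroup ℚ => N (σ : GQ)) =
        fun σ : L.place.decompositionSubgroup ℚ => g.1 * M (σ : GQ) * g⁻¹.1 :=
      funext fun σ => hN σ
    show L.atPlace.Mem' (coordsOf fun σ : L.place.decompositionSubgroup ℚ => N (σ : GQ))
    rw [this]
    exact hconj g
  · rintro N' ⟨hN', g', hg'⟩
    refine NormalData.eq_of_conj hN'.normal hn hN'.reduces hr (g * g'⁻¹) fun σ => ?_
    rw [Units.val_mul, mul_assoc]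
    calc g.1 * (g'⁻¹.1 * N' σ) = g.1 * (g'⁻¹.1 * (N' σ * g'.1) * g'⁻¹.1) := by
          simp [mul_assoc]
      _ = g.1 * M σ * g'⁻¹.1 := by rw [← hg', ← mul_assoc g'⁻¹.1, Units.inv_mul, one_mul, mul_assoc]
      _ = N σ * (g.1 * g'⁻¹.1) := by rw [hg, mul_assoc]

end LevelData

/-- Local relations at a prime where the residual representation is unramified: the tame relation,
and inertia is trivial when the tame generator is. -/
theorem frob_tame_relation {A : Type} [CommRing A] [IsLocalRing A] [Finite (ResidueField A)]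
    [IsNoetherianRing A] [IsAdicComplete (maximalIdeal A) A] (p : ℕ) [Fact p.Prime]
    [CharP (ResidueField A) p] (N : MRep A) (hN : IsCont N) {r : ℕ} (hr : r.Prime) (hrp : r ≠ p)
    (P : ValuationSubring Qbar) (hP : P.LiesOverPrime r)
    (hres : ∀ σ ∈ P.inertiaSubgroupIn ℚ, ∀ i j, (N σ - 1) i j ∈ maximalIdeal A)
    (φ τ : GQ) (hφ : P.IsFrobeniusAt φ r) (hτ : τ ∈ P.inertiaSubgroupIn ℚ)
    (hgen : ∃ x : Qbar, x ^ p = (r : ℕ) ∧ τ x ≠ x) :
    N φ * N τ * N φ⁻¹ = N τ ^ r ∧
      (N τ = 1 → ∀ P' : ValuationSubring Qbar, P'.LiesOverPrime r →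
        ∀ σ ∈ P'.inertiaSubgroupIn ℚ, N σ = 1) := by
  have hpA : (p : A) ∈ maximalIdeal A := by
    rw [← residue_eq_zero_iff, map_natCast]
    exact CharP.cast_eq_zero _ p
  have hcont : ∀ k : ℕ, ∃ F₀ : IntermediateField ℚ Qbar, FiniteDimensional ℚ F₀ ∧
      ∀ d, MonoidHom.id GQ d ∈ F₀.fixingSubgroup → ∀ a b, (N d - 1) a b ∈ maximalIdeal A ^ k :=
    fun k => by
      obtain ⟨E, hE, h1⟩ := hN k
      exact ⟨E, hE, fun d hd =>
        h1 d fun x hx => (IntermediateField.mem_fixingSubgroup_iff E d).mp hd x hx⟩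
  have hp : p.Prime := Fact.out
  obtain ⟨d₀, -, -, hrel⟩ := TameInertia.exists_tame_generator (MonoidHom.id GQ) N hcont hp hpA hr
    (Ne.symm hrp) hP hres
  refine ⟨?_, fun h1 P' hP' σ hσ => ?_⟩
  · rw [TameInertia.frobenius_relation (hrel φ hφ τ hτ), mul_assoc, ← map_mul, mul_inv_cancel,
      map_one, mul_one]
  · obtain ⟨g, hg⟩ := Frobenius.exists_smul_eq_of_liesOverPrime_qbar hr hP' hP
    have hmem : g * σ * g⁻¹ ∈ P.inertiaSubgroupIn ℚ := hg ▸ GalCoh.conj_mem_inertiaSubgroupIn hσ g
    have hgen' : TameInertia.IsTameGenerator P p r τ := by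
      refine ⟨hτ, fun y hy hyy => ?_⟩
      obtain ⟨x, hx, hxx⟩ := hgen
      have hr0 : (r : Qbar) ≠ 0 := Nat.cast_ne_zero.2 hr.ne_zero
      have hy0 : y ≠ 0 := fun h => by rw [h, zero_pow hp.ne_zero] at hy; exact hr0 hy.symm
      have hndvd : ¬ r ∣ p := fun h => hrp ((Nat.prime_dvd_prime_iff_eq hr hp).1 h)
      have hfix : τ (x / y) = x / y := BigImage.inertia_root_of_unity hr hP hτ hndvd (by
        rw [div_pow, hx, hy, div_self hr0])
      rw [map_div₀, hyy] at hfix
      exact hxx ((div_left_inj' hy0).1 hfix)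
    have hone : N (g * σ * g⁻¹) = 1 := by
      refine sub_eq_zero.mp (Matrix.ext fun a b =>
        IsHausdorff.haus (inferInstance : IsHausdorff (maximalIdeal A) A) _ fun k => ?_)
      rw [SModEq.zero, smul_eq_mul, Ideal.mul_top]
      let f : GQ →* (Matrix (Fin 2) (Fin 2) (A ⧸ maximalIdeal A ^ k))ˣ :=
        ((TameInertia.redMat (maximalIdeal A ^ k)).toMonoidHom.comp N).toHomUnits
      obtain ⟨F₀, hF₀, hF⟩ := hcont k
      obtain ⟨j, hj⟩ := TameInertia.exists_eq_pow_tameGenerator (k := k) hp hr (Ne.symm hrp) hP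
        (MonoidHom.id GQ) (ρ := f) ⟨F₀, hF₀, fun d hd => Units.ext (by
          show TameInertia.redMat _ (N d) = 1
          rw [← map_one (TameInertia.redMat _), TameInertia.redMat_eq_iff]
          exact hF d hd)⟩
        (fun d hd => Units.ext (by
          rw [Units.val_pow_eq_pow_val]
          show TameInertia.redMat _ (N d) ^ p ^ k = 1
          rw [← map_pow, ← map_one (TameInertia.redMat _), TameInertia.redMat_eq_iff]
          exact fun a b => Ideal.pow_le_pow_right k.le_succ
            (TameInertia.pow_sub_one_mem hpA (hres d hd) k a b)))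
        (d₀ := τ) hgen' (d := g * σ * g⁻¹) hmem
      have h2 : TameInertia.redMat (maximalIdeal A ^ k) (N (g * σ * g⁻¹)) =
          TameInertia.redMat (maximalIdeal A ^ k) 1 := by
        have h3 := congrArg Units.val hj
        rw [Units.val_pow_eq_pow_val] at h3
        change TameInertia.redMat _ (N _) = TameInertia.redMat _ (N τ) ^ j at h3
        rw [h3, h1, map_one, one_pow]
      exact TameInertia.redMat_eq_iff.1 h2 a b
    calc N σ = N g⁻¹ * N (g * σ * g⁻¹) * N g := by rw [← map_mul, ← map_mul]; group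
      _ = 1 := by rw [hone, mul_one, ← map_mul, inv_mul_cancel, map_one]

end Fermat.Agent.Engine
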