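import Fermat.Agent.Engine.LoweringLocal
import Fermat.Agent.Engine.TwChar

/-!
# Bases at the auxiliary levels

`exists_levelBasis`: the classes of the level `N₀ ∏ q` localised at `U_q = α_q` have a basis in which
the Hecke matrices away from these primes are those of the base level.  `exists_liftBasis`: bases
lift along a surjection of coefficients, with the matrices following.
-/

set_option autoImplicit false
set_option linter.unusedSectionVars false

noncomputable section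

namespace Fermat.Agent.Engine

open EigenRep HeckeModule IsLocalRing DefRing Deform EigenSystems TRep TwoAdic

local notation "Qbar" => AlgebraicClosure ℚ

section Change

variable {R O : Type} [CommRing R] [CommRing O] {σ : R →+* O} {N : ℕ} {χ : (ZMod N)ˣ →* R}
  {χ' : (ZMod N)ˣ →* O} {P : Submonoid (HeckePoly R)} {P' : Submonoid (HeckePoly O)}
  [IsNoetherianRing R] {ι : Type} [Fintype ι] [DecidableEq ι]

/-- Matrices follow a change of coefficients. -/
theorem toMatrix_charChange (hχ : ∀ u, σ (χ u) = χ' u)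
    (hP : ∀ s ∈ P, MvPolynomial.map σ s ∈ P') (b : Module.Basis ι R (CohChar P χ R))
    (c : Module.Basis ι O (CohChar P' χ' O)) (hbc : ∀ i, charChange hχ hP (b i) = c i)
    (a : HeckePoly R) :
    (LinearMap.toMatrix b b (Algebra.lsmul R R (CohChar P χ R) (A := HeckePoly R) a)).map σ =
      LinearMap.toMatrix c c
        (Algebra.lsmul O O (CohChar P' χ' O) (A := HeckePoly O) (MvPolynomial.map σ a)) := by
  ext i j
  rw [Matrix.map_apply, LinearMap.toMatrix_apply, LinearMap.toMatrix_apply]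
  show _ = c.repr (MvPolynomial.map σ a • c j) i
  rw [← hbc j, ← charChange_smul, show Algebra.lsmul R R (CohChar P χ R) (A := HeckePoly R) a (b j) =
    a • b j from rfl]
  conv_rhs => rw [← b.sum_repr (a • b j), map_sum]
  simp only [LinearMap.map_smulₛₗ, hbc, map_sum, map_smul, Finsupp.coe_finsetSum, Finset.sum_apply,
    Finsupp.smul_apply, c.repr_self, Finsupp.single_apply, smul_eq_mul, mul_ite, mul_one, mul_zero]
  rw [Finset.sum_ite_eq', if_pos (Finset.mem_univ i)]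

end Change

section Lift

variable {O : Type} [CommRing O] [IsLocalRing O] {Λ : Type} [CommRing Λ] [IsLocalRing Λ]
  [IsNoetherianRing Λ] [IsAdicComplete (maximalIdeal Λ) Λ] [Algebra O Λ]
  [IsLocalHom (algebraMap O Λ)] (hsΛ : Function.Surjective (residue Λ ∘ algebraMap O Λ))
  {Λ' : Type} [CommRing Λ'] [IsLocalRing Λ'] [IsNoetherianRing Λ']
  [IsAdicComplete (maximalIdeal Λ') Λ'] [Algebra O Λ'] [IsLocalHom (algebraMap O Λ')]
  (hsΛ' : Function.Surjective (residue Λ' ∘ algebraMap O Λ')) (σ : Λ →ₐ[O] Λ')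
  (hσ : IsLocalHom (σ : Λ →+* Λ')) (hσs : Function.Surjective σ)
  (S : Finset ℕ) (lam : ℕ → O) (S₀ : Finset ℕ) (α : ℕ → O) {N : ℕ} [NeZero N]
  {χ : (ZMod N)ˣ →* Λ} {χ' : (ZMod N)ˣ →* Λ'} {d : ℕ}

include hσ hσs in
/-- Bases lift along a surjection of coefficients. -/
theorem exists_liftBasis (hχ : ∀ u, σ (χ u) = χ' u)
    (h : ExactHyp (relMonoid hsΛ S lam S₀ α) χ)
    (c : Module.Basis (Fin d) Λ' (CohLoc (relMonoid hsΛ' S lam S₀ α) (scalarRep χ' Λ'))) :
    ∃ b : Module.Basis (Fin d) Λ (CohLoc (relMonoid hsΛ S lam S₀ α) (scalarRep χ Λ)),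
      ∀ l : Nat.Primes,
        (LinearMap.toMatrix b b (Algebra.lsmul Λ Λ (CohLoc (relMonoid hsΛ S lam S₀ α)
            (scalarRep χ Λ)) (A := HeckePoly Λ) (MvPolynomial.X l))).map σ =
          LinearMap.toMatrix c c (Algebra.lsmul Λ' Λ' (CohLoc (relMonoid hsΛ' S lam S₀ α)
            (scalarRep χ' Λ')) (A := HeckePoly Λ') (MvPolynomial.X l)) := by
  have hP : ∀ s ∈ relMonoid hsΛ S lam S₀ α,
      MvPolynomial.map (σ : Λ →+* Λ') s ∈ relMonoid hsΛ' S lam S₀ α := fun s hs =>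
    map_mem_relMonoid hsΛ S lam S₀ α hsΛ' σ hσ hs
  have : Module.Finite Λ (CohChar (relMonoid hsΛ S lam S₀ α) χ Λ) :=
    finite_relCoh hsΛ S lam S₀ α χ
  obtain ⟨b, hb⟩ := exists_basis_lift (σ := (σ : Λ →+* Λ')) hσs hχ hP
    (fun t ht => exists_map_relMonoid hsΛ S lam S₀ α hsΛ' σ hσ hσs ht) h (RingHom.ker_ne_top _) c
  refine ⟨b, fun l => ?_⟩
  have := toMatrix_charChange hχ hP b c hb (MvPolynomial.X l)
  rw [MvPolynomial.map_X] at this
  exact this

include hσ hσs in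
/-- Bases go down along a surjection of coefficients. -/
theorem exists_downBasis (hχ : ∀ u, σ (χ u) = χ' u)
    (h : ExactHyp (relMonoid hsΛ S lam S₀ α) χ)
    (b : Module.Basis (Fin d) Λ (CohLoc (relMonoid hsΛ S lam S₀ α) (scalarRep χ Λ))) :
    ∃ c : Module.Basis (Fin d) Λ' (CohLoc (relMonoid hsΛ' S lam S₀ α) (scalarRep χ' Λ')),
      ∀ l : Nat.Primes,
        (LinearMap.toMatrix b b (Algebra.lsmul Λ Λ (CohLoc (relMonoid hsΛ S lam S₀ α)
            (scalarRep χ Λ)) (A := HeckePoly Λ) (MvPolynomial.X l))).map σ =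
          LinearMap.toMatrix c c (Algebra.lsmul Λ' Λ' (CohLoc (relMonoid hsΛ' S lam S₀ α)
            (scalarRep χ' Λ')) (A := HeckePoly Λ') (MvPolynomial.X l)) := by
  have hP : ∀ s ∈ relMonoid hsΛ S lam S₀ α,
      MvPolynomial.map (σ : Λ →+* Λ') s ∈ relMonoid hsΛ' S lam S₀ α := fun s hs =>
    map_mem_relMonoid hsΛ S lam S₀ α hsΛ' σ hσ hs
  obtain ⟨c, hc⟩ := exists_basis_charChange (σ := (σ : Λ →+* Λ')) hσs hχ hP
    (fun t ht => exists_map_relMonoid hsΛ S lam S₀ α hsΛ' σ hσ hσs ht) h b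
  refine ⟨c, fun l => ?_⟩
  have := toMatrix_charChange hχ hP b c (fun i => (hc i).symm) (MvPolynomial.X l)
  rw [MvPolynomial.map_X] at this
  exact this

end Lift

/-- Forgetting primes at their residual values gives the residual system. -/
theorem relaxIdeal_lamIdeal {O : Type} [CommRing O] [IsLocalRing O] {Λ : Type} [CommRing Λ]
    [IsLocalRing Λ] [IsNoetherianRing Λ] [IsAdicComplete (maximalIdeal Λ) Λ] [Algebra O Λ]
    [IsLocalHom (algebraMap O Λ)] (hsΛ : Function.Surjective (residue Λ ∘ algebraMap O Λ))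
    (S S₀ : Finset ℕ) (lam : ℕ → O) :
    relaxIdeal (lamIdeal hsΛ S lam) (↑S₀ : Set ℕ) (fun x => algebraMap O Λ (lam x)) =
      lamIdeal hsΛ S₀ lam := by
  refine Ideal.ext fun a => ?_
  have h : lamHom O Λ hsΛ S lam
      (relaxHom Λ (↑S : Set ℕ) ↑S₀ (fun x => algebraMap O Λ (lam x)) a) =
        lamHom O Λ hsΛ S₀ lam a := by
    induction a using MvPolynomial.induction_on with
    | C r =>
      rw [← MvPolynomial.algebraMap_eq, AlgHom.commutes, MvPolynomial.algebraMap_eq, lamHom_C,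
        MvPolynomial.algebraMap_eq, lamHom_C]
    | add a b ha hb => rw [map_add, map_add, map_add, ha, hb]
    | mul_X a l ha =>
      rw [map_mul, map_mul, map_mul, ha, relaxHom, MvPolynomial.aeval_X, lamHom_X]
      congr 1
      split
      · rw [lamHom_C, AlgHom.commutes]
        rfl
      · rw [lamHom_X]
  rw [Ideal.mem_comap, lamIdeal, lamIdeal, RingHom.mem_ker, RingHom.mem_ker, h]

variable {p : ℕ} [Fact p.Prime] {O : Type} [CommRing O] [IsDomain O]
  [IsDiscreteValuationRing O] [IsAdicComplete (maximalIdeal O) O] [Finite (ResidueField O)]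
  [CharZero O] {ι₀ : ℤ_[p] →+* O} {N₀ : ℕ} [NeZero N₀] {lam : ℕ → O} {L₀ : LevelData O}
  (H : BaseSetting p ι₀ N₀ lam L₀) (hplace : TopPlaceHyp p ι₀ N₀ lam L₀)

include H hplace

/-- A basis at the auxiliary level from one at the base level, for given roots. -/
theorem BaseSetting.exists_levelBasis_of_roots {Sig : Finset ℕ} (P : (L₀.withSigma Sig).RepRing)
    (Qn : Finset ℕ)
    (hQ : ∀ q ∈ Qn, q.Prime ∧ q ≠ p ∧ q ∉ L₀.Sigma ∧ p ∣ q - 1)
    (α β : ℕ → O) (hab : ∀ q ∈ Qn, α q + β q - lam q ∈ maximalIdeal O ∧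
      α q * β q - q ∈ maximalIdeal O ∧ IsUnit (α q - β q) ∧ IsUnit (α q * α q - 1) ∧
      IsUnit (((q : O) + 1) * ((q : O) + 1) - (α q + β q) * (α q + β q)))
    (hSig : L₀.Sigma ∪ Qn ⊆ Sig) (M : ℕ) [NeZero M] (hM : M = (∏ q ∈ Qn, q) * N₀) {d : ℕ}
    (b₀ : Module.Basis (Fin d) O (CohLoc
      (awayMonoid (lamIdeal (Λ := O) (residue_surjective (R := O)) L₀.Sigma lam))
      (scalarRep (1 : (ZMod N₀)ˣ →* O) O))) :
    ∃ c : Module.Basis (Fin d) O (CohLoc
        (relMonoid (Λ := O) (residue_surjective (R := O)) (L₀.Sigma ∪ Qn) lam L₀.Sigma α)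
        (scalarRep (1 : (ZMod M)ˣ →* O) O)),
      ∀ l : Nat.Primes, (l : ℕ) ∉ L₀.Sigma ∪ Qn →
        LinearMap.toMatrix c c (Algebra.lsmul O O (CohLoc
            (relMonoid (Λ := O) (residue_surjective (R := O)) (L₀.Sigma ∪ Qn) lam L₀.Sigma α)
            (scalarRep (1 : (ZMod M)ˣ →* O) O)) (A := HeckePoly O) (MvPolynomial.X l)) =
          LinearMap.toMatrix b₀ b₀ (Algebra.lsmul O O (CohLoc
            (awayMonoid (lamIdeal (Λ := O) (residue_surjective (R := O)) L₀.Sigma lam))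
            (scalarRep (1 : (ZMod N₀)ˣ →* O) O)) (A := HeckePoly O) (MvPolynomial.X l)) := by
  classical
  let hsO : Function.Surjective (residue O ∘ algebraMap O O) := residue_surjective (R := O)
  set S := L₀.Sigma ∪ Qn with hSdef
  have hdisj : ∀ q ∈ Qn, ¬ q ∣ N₀ := fun q hq h =>
    (hQ q hq).2.2.1 (H.sigma q (hQ q hq).1 (h.mul_right p))
  -- nilpotence at the intermediate levels
  have hnil : ∀ U, U ⊆ Qn → ∀ l : Nat.Primes, (l : ℕ) ∈ Qn → (l : ℕ) ∉ U →
      ∀ (M' : ℕ) [NeZero M'], M' = (∏ x ∈ U, x) * N₀ → ∀ c : O, c - lam l ∈ maximalIdeal O →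
        MvPolynomial.X l - MvPolynomial.C c ∈ nilModIdeal (CohLoc
          (awayMonoid (lamIdeal hsO S lam)) (scalarRep (1 : (ZMod M')ˣ →* O) O)) := by
    intro U hU l hl hlU M' _ hM' c hc
    subst hM'
    have hprime : ∀ ℓ : ℕ, ℓ.Prime → ℓ ∣ (∏ x ∈ U, x) * N₀ * p →
        ℓ ∈ U ∨ (ℓ ∣ N₀ * p ∧ ℓ ∈ L₀.Sigma) := fun ℓ hℓ h => by
      rw [mul_assoc] at h
      rcases hℓ.dvd_mul.mp h with h | h
      · obtain ⟨x, hx, hd⟩ := (Prime.dvd_finsetProd_iff hℓ.prime _).mp h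
        exact Or.inl ((Nat.prime_dvd_prime_iff_eq hℓ (hQ x (hU hx)).1).mp hd ▸ hx)
      · exact Or.inr ⟨h, H.sigma ℓ hℓ h⟩
    have hmem : ∀ ℓ : ℕ, ℓ.Prime → ℓ ∣ (∏ x ∈ U, x) * N₀ * p → ℓ ∈ S := fun ℓ hℓ h =>
      (hprime ℓ hℓ h).elim (fun h => Finset.mem_union_right _ (hU h))
        fun h => Finset.mem_union_left _ h.2
    refine H.nil_pred hplace P (dvd_mul_left _ _) ?_ Finset.subset_union_left hmem
      (fun ℓ hℓ h => hSig (hmem ℓ hℓ h)) ?_ ?_ (hQ l hl).2.2.1 hc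
    · rw [Nat.mul_div_cancel _ (Nat.pos_of_ne_zero (NeZero.ne N₀))]
      intro h
      obtain ⟨x, hx, hd⟩ := (Prime.dvd_finsetProd_iff (Fact.out : p.Prime).prime _).mp h
      exact (hQ x (hU hx)).2.1 ((Nat.prime_dvd_prime_iff_eq Fact.out (hQ x (hU hx)).1).mp hd).symm
    · intro q hq h
      obtain ⟨hqp, -, hq2, hqS⟩ := H.smin q hq
      have hqU : ¬ q ∣ ∏ x ∈ U, x := fun h => by
        obtain ⟨x, hx, hd⟩ := (Prime.dvd_finsetProd_iff hqp.prime _).mp h
        exact (hQ x (hU hx)).2.2.1 ((Nat.prime_dvd_prime_iff_eq hqp (hQ x (hU hx)).1).mp hd ▸ hqS)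
      exact hq2 ((Nat.Coprime.mul_left ((Nat.Prime.coprime_iff_not_dvd hqp).mpr hqU)
        ((Nat.Prime.coprime_iff_not_dvd hqp).mpr hqU)).dvd_of_dvd_mul_left h)
    · intro h
      rcases hprime l l.2 h with h | h
      · exact hlU h
      · exact (hQ l hl).2.2.1 h.2
  -- forgetting the auxiliary primes at the base level
  have hsub : (↑L₀.Sigma : Set ℕ) ⊆ ↑S := Finset.coe_subset.mpr Finset.subset_union_left
  have := finite_cohLoc (scalarRep (1 : (ZMod N₀)ˣ →* O) O) _ (maximalIdeal_le_lamIdeal hsO S lam)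
  have hb₁ := locMono_relax_bijective (ρ := scalarRep (1 : (ZMod N₀)ˣ →* O) O) hsub lam
    (lamIdeal hsO S lam) fun l hl hl' => by
      have hlQ : (l : ℕ) ∈ Qn := (Finset.mem_union.mp hl).resolve_left hl'
      exact hnil ∅ (Finset.empty_subset _) l hlQ (Finset.notMem_empty _) N₀ (by simp) (lam l)
        (by simp)
  obtain ⟨e₁, he₁⟩ := exists_equiv_of_eq (relaxIdeal (lamIdeal hsO S lam) (↑L₀.Sigma : Set ℕ) lam)
    (lamIdeal hsO L₀.Sigma lam) (relaxIdeal_lamIdeal hsO S L₀.Sigma lam)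
    (scalarRep (1 : (ZMod N₀)ˣ →* O) O)
  obtain ⟨e, he⟩ := exists_baseLevelEquiv (lamIdeal hsO S lam) (maximalIdeal_le_lamIdeal hsO S lam)
    Qn α β (fun q hq => ⟨(hQ q hq).1, hdisj q hq, Finset.mem_union_right _ hq⟩)
    (fun q hq => (hab q hq).2.1) (fun q hq => (hab q hq).2.2.1) (fun q hq => (hab q hq).2.2.2.1)
    (fun q hq => (hab q hq).2.2.2.2)
    (fun U hU l hl hlU M' _ hM' => hnil U hU l hl hlU M' hM' _ (hab l hl).1) M hM
    (S₀ := (↑L₀.Sigma : Set ℕ)) (by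
      ext x
      simp only [hSdef, Finset.coe_union, Set.mem_sdiff, Set.mem_union, Finset.mem_coe]
      exact ⟨fun h => ⟨Or.inl h, fun hx => (hQ x hx).2.2.1 h⟩, fun h => h.1.resolve_right h.2⟩)
  obtain ⟨e₂, he₂⟩ := exists_equiv_of_eq (relaxIdeal (lamIdeal hsO S lam) (↑L₀.Sigma : Set ℕ) α)
    (relaxIdeal (lamIdeal hsO S lam) (↑L₀.Sigma : Set ℕ) fun x => algebraMap O O (α x)) rfl
    (scalarRep (1 : (ZMod M)ˣ →* O) O)
  let E : CohLoc (awayMonoid (lamIdeal hsO L₀.Sigma lam)) (scalarRep (1 : (ZMod N₀)ˣ →* O) O) ≃ₗ[O]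
      CohLoc (relMonoid hsO S lam L₀.Sigma α) (scalarRep (1 : (ZMod M)ˣ →* O) O) := e₁.symm.trans ((LinearEquiv.ofBijective ((TwoAdic.locMono
    (ρ := scalarRep (1 : (ZMod N₀)ˣ →* O) O)
    (awayMonoid_le_relax hsub lam (lamIdeal hsO S lam))).restrictScalars O) hb₁).symm.trans (e.trans e₂))
  have hE : ∀ (l : Nat.Primes) (hl : (l : ℕ) ∉ S) u,
      E ((MvPolynomial.X l : HeckePoly O) • u) = (MvPolynomial.X l : HeckePoly O) • E u := by
    intro l hl u
    obtain ⟨v, rfl⟩ := e₁.surjective u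
    obtain ⟨w, rfl⟩ := hb₁.2 v
    have e2 : ∀ z, E (e₁ (TwoAdic.locMono (awayMonoid_le_relax hsub lam (lamIdeal hsO S lam)) z)) =
        e₂ (e z) := fun z => by
      show e₂ (e (LinearEquiv.symm _ (e₁.symm (e₁ _)))) = _
      rw [e₁.symm_apply_apply]
      exact congrArg (fun y => e₂ (e y)) (LinearEquiv.symm_apply_apply _ z)
    rw [← he₁, ← map_smul, e2, e2, ← awayIncl_X (O := O) ⟨l, hl⟩, he, he₂]
    rfl
  refine ⟨b₀.map E, fun l hl => ?_⟩
  ext i j
  rw [LinearMap.toMatrix_apply, LinearMap.toMatrix_apply]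
  show ((b₀.map E).repr ((MvPolynomial.X l : HeckePoly O) • E (b₀ j))) i =
    b₀.repr ((MvPolynomial.X l : HeckePoly O) • b₀ j) i
  rw [← hE l hl, Module.Basis.map_repr, LinearEquiv.trans_apply, LinearEquiv.symm_apply_apply]

/-- **A basis at the auxiliary level from one at the base level.** -/
theorem BaseSetting.exists_levelBasis {Sig : Finset ℕ} (P : (L₀.withSigma Sig).RepRing)
    (Qn : Finset ℕ)
    (hQ : ∀ q ∈ Qn, q.Prime ∧ q ≠ p ∧ q ∉ L₀.Sigma ∧ p ∣ q - 1)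
    (hdist : ∀ q ∈ Qn, ∀ A : ValuationSubring Qbar, A.LiesOverPrime q → ∀ φ : GQ,
      A.IsFrobeniusAt φ q → (L₀.D.rbar φ).trace ^ 2 ≠ 4 * (L₀.D.rbar φ).det)
    (hSig : L₀.Sigma ∪ Qn ⊆ Sig) (M : ℕ) [NeZero M] (hM : M = (∏ q ∈ Qn, q) * N₀) {d : ℕ}
    (b₀ : Module.Basis (Fin d) O (CohLoc
      (awayMonoid (lamIdeal (Λ := O) (residue_surjective (R := O)) L₀.Sigma lam))
      (scalarRep (1 : (ZMod N₀)ˣ →* O) O))) :
    ∃ (α : ℕ → O) (c : Module.Basis (Fin d) O (CohLoc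
        (relMonoid (Λ := O) (residue_surjective (R := O)) (L₀.Sigma ∪ Qn) lam L₀.Sigma α)
        (scalarRep (1 : (ZMod M)ˣ →* O) O))),
      ∀ l : Nat.Primes, (l : ℕ) ∉ L₀.Sigma ∪ Qn →
        LinearMap.toMatrix c c (Algebra.lsmul O O (CohLoc
            (relMonoid (Λ := O) (residue_surjective (R := O)) (L₀.Sigma ∪ Qn) lam L₀.Sigma α)
            (scalarRep (1 : (ZMod M)ˣ →* O) O)) (A := HeckePoly O) (MvPolynomial.X l)) =
          LinearMap.toMatrix b₀ b₀ (Algebra.lsmul O O (CohLoc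
            (awayMonoid (lamIdeal (Λ := O) (residue_surjective (R := O)) L₀.Sigma lam))
            (scalarRep (1 : (ZMod N₀)ˣ →* O) O)) (A := HeckePoly O) (MvPolynomial.X l)) := by
  classical
  have hroots : ∀ q ∈ Qn, ∃ α β : O, α + β - lam q ∈ maximalIdeal O ∧
      α * β - q ∈ maximalIdeal O ∧ IsUnit (α - β) ∧ IsUnit (α * α - 1) ∧
      IsUnit (((q : O) + 1) * ((q : O) + 1) - (α + β) * (α + β)) := fun q hq =>
    H.exists_roots (hQ q hq).1 (hQ q hq).2.1 (hQ q hq).2.2.1 (hQ q hq).2.2.2 (hdist q hq)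
  choose α' β' hr using hroots
  let α : ℕ → O := fun q => if h : q ∈ Qn then α' q h else 0
  let β : ℕ → O := fun q => if h : q ∈ Qn then β' q h else 0
  obtain ⟨c, hc⟩ := H.exists_levelBasis_of_roots hplace P Qn hQ α β (fun q hq => by
    simp only [α, β, dif_pos hq]
    exact hr q hq) hSig M hM b₀
  exact ⟨α, c, hc⟩

end Fermat.Agent.Engine
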