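import Mathlib

/-!
# A representation from a module with quadratic relations

A group acts on a faithful `T`-module so that every element satisfies
`g² - t(g) g + χ(g) = 0`.  If some `c` has `t c = 0`, `χ c = -1` and a mixed element is residually
invertible, the action is a two-dimensional representation over `T` with trace `t`, determinant
`χ`, tensored with a module.  Neither reducedness of `T` nor pseudo-representation axioms are
needed.
-/

set_option autoImplicit false

noncomputable section

namespace Fermat.Agent.Engine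

variable {T : Type*} [CommRing T] {V : Type*} [AddCommGroup V] [Module T V] {G : Type*} [Group G]

/-- The quadratic relation for every element. -/
def QuadraticAction (ρ : G →* Module.End T V) (t : G → T) (χ : G →* T) : Prop :=
  ∀ g, ρ g * ρ g - t g • ρ g + χ g • (1 : Module.End T V) = 0

/-- Exchanging two factors in a quadratic action. -/
theorem swap_identity {ρ : G →* Module.End T V} {t : G → T} {χ : G →* T}
    (hq : QuadraticAction ρ t χ) (g h : G) :
    ρ h * ρ g = (t (g * h) - t g * t h) • (1 : Module.End T V) - ρ g * ρ h + t h • ρ g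
      + t g • ρ h := by
  have adj : ∀ k, (t k • (1 : Module.End T V) - ρ k) * ρ k = χ k • 1 := fun k => by
    rw [sub_mul, smul_mul_assoc, one_mul]
    linear_combination (norm := (module)) -(hq k)
  have h1 : ρ (g * h) * (t (g * h) • (1 : Module.End T V) - ρ (g * h)) =
      ρ (g * h) * ((t h • 1 - ρ h) * (t g • 1 - ρ g)) := by
    have e1 : ρ (g * h) * (t (g * h) • (1 : Module.End T V) - ρ (g * h)) = χ (g * h) • 1 := by
      rw [mul_sub, mul_smul_comm, mul_one]
      linear_combination (norm := (module)) -(hq (g * h))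
    have e2 : ∀ k, ρ k * (t k • (1 : Module.End T V) - ρ k) = χ k • 1 := fun k => by
      rw [mul_sub, mul_smul_comm, mul_one]
      linear_combination (norm := (module)) -(hq k)
    rw [e1, map_mul ρ, mul_assoc, ← mul_assoc (ρ h), e2 h, smul_mul_assoc, one_mul, mul_smul_comm,
      e2 g, smul_smul, map_mul χ, mul_comm]
  have h2 := (Group.isUnit (g * h)).map ρ |>.mul_left_cancel h1
  simp only [sub_mul, mul_sub, smul_mul_assoc, mul_smul_comm, one_mul, mul_one, map_mul] at h2
  linear_combination (norm := (module)) -h2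

variable (t : G → T) (hlf : T) (c : G)

/-- Upper left entry. -/
def entryA (g : G) : T := hlf * (t g + t (g * c))

/-- Lower right entry. -/
def entryD (g : G) : T := hlf * (t g - t (g * c))

/-- Coefficient of `e g (1 - e) h e`. -/
def entryX (g h : G) : T := entryA t hlf c (g * h) - entryA t hlf c g * entryA t hlf c h

/-- Coefficient of `(1 - e) h e g (1 - e)`. -/
def entryY (g h : G) : T := entryD t hlf c (h * g) - entryD t hlf c h * entryD t hlf c g

/-- The representation and the splitting of the module. -/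
theorem exists_matrices_of_quadratic {ρ : G →* Module.End T V} {χ : G →* T}
    (hq : QuadraticAction ρ t χ) (hfaith : ∀ x : T, (∀ v : V, x • v = 0) → x = 0)
    (hhlf : 2 * hlf = 1) (htc : t c = 0) (hχc : χ c = -1)
    {g₀ h₀ : G} (hx : IsUnit (entryX t hlf c g₀ h₀)) (hy : IsUnit (entryY t hlf c g₀ h₀)) :
    ∃ (M : G →* Matrix (Fin 2) (Fin 2) T) (U : Submodule T V) (φ : (Fin 2 → U) ≃ₗ[T] V),
      (∀ g, (M g).trace = t g) ∧ (∀ g, (M g).det = χ g) ∧
      ∀ g (w : Fin 2 → U), ρ g (φ w) = φ fun i => ∑ j, M g i j • w j := by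
  obtain ⟨ux, hux⟩ := hx
  obtain ⟨uy, huy⟩ := hy
  set a := entryA t hlf c
  set d := entryD t hlf c
  have hcc : ρ c * ρ c = 1 := by
    have := hq c
    rw [htc, hχc] at this
    linear_combination (norm := (module)) this
  obtain ⟨e, he⟩ : ∃ e : Module.End T V, e = hlf • (1 + ρ c) := ⟨_, rfl⟩
  obtain ⟨f, hfdef⟩ : ∃ f : Module.End T V, f = hlf • (1 - ρ c) := ⟨_, rfl⟩
  have hef1 : e + f = 1 := by
    simp only [he, hfdef]
    rw [← smul_add, show (1 + ρ c + (1 - ρ c) : Module.End T V) = (2 : T) • 1 by module,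
      smul_smul, mul_comm, hhlf, one_smul]
  have hh4 : hlf * hlf * 2 = hlf := by linear_combination hlf * hhlf
  have hee : e * e = e := by
    simp only [he, smul_mul_assoc, mul_smul_comm, add_mul, mul_add, one_mul, mul_one, hcc]
    linear_combination (norm := (module)) congrArg (fun z : T => z • (1 + ρ c)) hh4
  have hf : f = 1 - e := eq_sub_of_add_eq' hef1
  have hef : e * f = 0 := by rw [hf, mul_sub, mul_one, hee, sub_self]
  have hfe : f * e = 0 := by rw [hf, sub_mul, one_mul, hee, sub_self]
  have hff : f * f = f := by rw [hf, sub_mul, one_mul, ← hf, hef, sub_zero]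
  have hcgc : ∀ g, ρ c * ρ g = t (g * c) • (1 : Module.End T V) + t g • ρ c - ρ g * ρ c := by
    intro g
    have := swap_identity hq g c
    rw [htc] at this
    linear_combination (norm := (module)) this
  have hcgc2 : ∀ g, ρ c * (ρ g * ρ c) = t (g * c) • ρ c + t g • (1 : Module.End T V) - ρ g := by
    intro g
    rw [← mul_assoc, hcgc, sub_mul, add_mul, smul_mul_assoc, one_mul, smul_mul_assoc, hcc,
      mul_assoc, hcc, mul_one]
  have hege : ∀ g, e * ρ g * e = a g • e := by
    intro g
    have h1 : (1 + ρ c) * ρ g * (1 + ρ c) = (t g + t (g * c)) • (1 + ρ c) := by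
      simp only [add_mul, mul_add, one_mul, mul_one, mul_assoc, hcgc2]
      rw [hcgc]
      module
    simp only [he, a, entryA, smul_mul_assoc, mul_smul_comm, h1, smul_smul]
    congr 1
    ring
  have hfgf : ∀ g, f * ρ g * f = d g • f := by
    intro g
    have h1 : (1 - ρ c) * ρ g * (1 - ρ c) = (t g - t (g * c)) • (1 - ρ c) := by
      simp only [sub_mul, mul_sub, one_mul, mul_one, mul_assoc, hcgc2]
      rw [hcgc]
      module
    simp only [hfdef, d, entryD, smul_mul_assoc, mul_smul_comm, h1, smul_smul]
    congr 1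
    ring
  have hegfhe : ∀ g h, e * ρ g * f * ρ h * e = entryX t hlf c g h • e := by
    intro g h
    rw [hf, show e * ρ g * (1 - e) * ρ h * e = e * (ρ g * ρ h) * e - (e * ρ g * e) * (ρ h * e) by
      noncomm_ring, ← map_mul, hege, hege, smul_mul_assoc, ← mul_assoc, hege, smul_smul, entryX,
      sub_smul]
  have hfhegf : ∀ g h, f * ρ h * e * ρ g * f = entryY t hlf c g h • f := by
    intro g h
    rw [show e = 1 - f from eq_sub_of_add_eq hef1,
      show f * ρ h * (1 - f) * ρ g * f = f * (ρ h * ρ g) * f - (f * ρ h * f) * (ρ g * f) by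
      noncomm_ring, ← map_mul, hfgf, hfgf, smul_mul_assoc, ← mul_assoc, hfgf, smul_smul, entryY,
      sub_smul]
  obtain ⟨Y, hYdef⟩ : ∃ Y, Y = f * ρ h₀ * e := ⟨_, rfl⟩
  obtain ⟨X, hXdef⟩ : ∃ X, X = e * ρ g₀ * f := ⟨_, rfl⟩
  let U : Submodule T V := LinearMap.range e
  have heU : ∀ w : U, e (w : V) = w := by
    rintro ⟨_, v, rfl⟩
    exact LinearMap.congr_fun hee v
  let M₀ : G → Matrix (Fin 2) (Fin 2) T := fun g =>
    !![a g, entryX t hlf c g h₀; (↑uy⁻¹ : T) * entryX t hlf c g₀ g, d g]
  let φ₀ : (Fin 2 → U) →ₗ[T] V :=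
    { toFun := fun w => (w 0 : V) + Y (w 1)
      map_add' := fun w w' => by simp only [Pi.add_apply, Submodule.coe_add, map_add]; abel
      map_smul' := fun l w => by
        simp only [Pi.smul_apply, Submodule.coe_smul, map_smul, RingHom.id_apply, smul_add] }
  have hYX : Y * X = (uy : T) • f := by
    rw [show Y * X = f * ρ h₀ * (e * e) * ρ g₀ * f by rw [hYdef, hXdef]; noncomm_ring, hee, hfhegf, huy]
  have hXY : X * Y = (ux : T) • e := by
    rw [show X * Y = e * ρ g₀ * (f * f) * ρ h₀ * e by rw [hYdef, hXdef]; noncomm_ring, hff, hegfhe, hux]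
  have heY : e * Y = 0 := by rw [hYdef, ← mul_assoc, ← mul_assoc, hef, zero_mul, zero_mul]
  have hinj : Function.Injective φ₀ := by
    refine (injective_iff_map_eq_zero φ₀).2 fun w hw => ?_
    have hw' : (w 0 : V) + Y (w 1) = 0 := hw
    have h0 : (w 0 : V) = 0 := by
      have := congrArg e hw'
      rwa [map_add, heU, map_zero, ← Module.End.mul_apply, heY, LinearMap.zero_apply,
        add_zero] at this
    have h1 : (w 1 : V) = 0 := by
      rw [h0, zero_add] at hw'
      have := congrArg X hw'
      rw [map_zero, ← Module.End.mul_apply, hXY, LinearMap.smul_apply, heU] at this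
      simpa [smul_smul] using congrArg ((↑ux⁻¹ : T) • ·) this
    funext i
    fin_cases i <;> exact Subtype.ext (by assumption)
  have hsurj : Function.Surjective φ₀ := by
    intro v
    refine ⟨![⟨e v, v, rfl⟩, (↑uy⁻¹ : T) • ⟨X v, ρ g₀ (f v), by rw [hXdef]; rfl⟩], ?_⟩
    show e v + Y ((↑uy⁻¹ : T) • X v) = v
    rw [map_smul, ← Module.End.mul_apply, hYX, LinearMap.smul_apply, smul_smul (↑uy⁻¹ : T),
      Units.inv_mul, one_smul, ← LinearMap.add_apply, hef1, Module.End.one_apply]
  let φ := LinearEquiv.ofBijective φ₀ ⟨hinj, hsurj⟩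
  have hact : ∀ g (w : Fin 2 → U), ρ g (φ w) = φ fun i => ∑ j, M₀ g i j • w j := by
    intro g w
    have hXfge : (uy : T) • (f * ρ g * e) = entryX t hlf c g₀ g • Y := by
      calc (uy : T) • (f * ρ g * e) = ((uy : T) • f) * (f * ρ g * e) := by
            rw [smul_mul_assoc, ← mul_assoc, ← mul_assoc, hff]
        _ = Y * X * (f * ρ g * e) := by rw [hYX]
        _ = f * ρ h₀ * e * (e * ρ g₀ * (f * f) * ρ g * e) := by simp only [hYdef, hXdef, mul_assoc]
        _ = _ := by rw [hff, hegfhe, mul_smul_comm, mul_assoc _ e e, hee, ← hYdef]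
    have hlow : f * ρ g * e = ((↑uy⁻¹ : T) * entryX t hlf c g₀ g) • Y := by
      rw [← smul_smul, ← hXfge, smul_smul, Units.inv_mul, one_smul]
    have h1 : ρ g * e = a g • e + ((↑uy⁻¹ : T) * entryX t hlf c g₀ g) • Y := by
      rw [← hege, ← hlow, ← add_mul, ← add_mul, hef1, one_mul]
    have h2 : ρ g * Y = entryX t hlf c g h₀ • e + d g • Y := by
      calc ρ g * Y = (e + f) * (ρ g * Y) := by rw [hef1, one_mul]
        _ = e * ρ g * f * ρ h₀ * e + f * ρ g * (f * f) * ρ h₀ * e := by
            rw [hff, add_mul]; simp only [hYdef, mul_assoc]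
        _ = _ := by
            rw [hegfhe, show f * ρ g * (f * f) * ρ h₀ * e = (f * ρ g * f) * (f * ρ h₀ * e) by
              simp only [mul_assoc], hfgf, smul_mul_assoc, ← mul_assoc, ← mul_assoc, hff, ← hYdef]
    show ρ g ((w 0 : V) + Y (w 1)) = _
    have k1 := LinearMap.congr_fun h1 (w 0 : V)
    have k2 := LinearMap.congr_fun h2 (w 1 : V)
    simp only [Module.End.mul_apply, LinearMap.add_apply, LinearMap.smul_apply, heU] at k1 k2
    rw [map_add, k1, k2]
    show _ = ((∑ j, M₀ g 0 j • w j : U) : V) + Y ((∑ j, M₀ g 1 j • w j : U) : V)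
    simp only [M₀, Fin.sum_univ_two, Matrix.of_apply, Matrix.cons_val', Matrix.cons_val_zero,
      Matrix.cons_val_one, Matrix.empty_val', Matrix.cons_val_fin_one, Submodule.coe_add,
      Submodule.coe_smul, map_add, map_smul]
    abel
  have hM : ∀ X' : Matrix (Fin 2) (Fin 2) T, (∀ w : Fin 2 → U, ∀ i, ∑ j, X' i j • w j = 0) →
      X' = 0 := by
    intro X' hX'
    ext i j
    refine hfaith _ fun v => ?_
    obtain ⟨w, rfl⟩ := φ.surjective v
    rw [← map_smul]
    convert map_zero φ
    funext k
    simpa [Pi.single_apply] using hX' (Pi.single j (w k)) i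
  have happ : ∀ (P Q : Matrix (Fin 2) (Fin 2) T),
      (∀ w : Fin 2 → U, (fun i => ∑ j, P i j • w j) = fun i => ∑ j, Q i j • w j) → P = Q :=
    fun P Q h => sub_eq_zero.1 (hM _ fun w i => by
      simp only [Matrix.sub_apply, sub_smul, Finset.sum_sub_distrib, congrFun (h w) i, sub_self])
  refine ⟨⟨⟨M₀, happ _ _ fun w => φ.injective ?_⟩, fun g h => happ _ _ fun w => φ.injective ?_⟩,
    U, φ, fun g => ?_, fun g => ?_, hact⟩
  · rw [← hact, map_one, Module.End.one_apply]
    exact congrArg φ (funext fun i => by simp [Matrix.one_apply, ite_smul])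
  · rw [← hact, map_mul, Module.End.mul_apply, hact, hact]
    exact congrArg φ (funext fun i => by
      simp only [Matrix.mul_apply, Finset.sum_smul, Finset.smul_sum, smul_smul]
      exact Finset.sum_comm)
  · show (M₀ g).trace = t g
    simp only [M₀, a, d, entryA, entryD, Matrix.trace_fin_two_of]
    linear_combination t g * hhlf
  · show (M₀ g).det = χ g
    have ht : (M₀ g).trace = t g := by
      simp only [M₀, a, d, entryA, entryD, Matrix.trace_fin_two_of]
      linear_combination t g * hhlf
    have hrel : M₀ g * M₀ g - t g • M₀ g + χ g • (1 : Matrix (Fin 2) (Fin 2) T) = 0 := by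
      refine happ _ _ fun w => φ.injective ?_
      have h0 := LinearMap.congr_fun (hq g) (φ w)
      simp only [LinearMap.add_apply, LinearMap.sub_apply, Module.End.mul_apply,
        LinearMap.smul_apply, Module.End.one_apply, LinearMap.zero_apply, hact, ← map_smul,
        ← map_sub, ← map_add] at h0
      rw [show (fun i => ∑ j, (0 : Matrix (Fin 2) (Fin 2) T) i j • w j) = 0 by
        funext i; simp, map_zero, ← h0]
      refine congrArg φ (funext fun i => ?_)
      fin_cases i <;> simp [Matrix.mul_apply, Fin.sum_univ_two, add_smul, sub_smul, smul_smul,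
        smul_add, Matrix.one_apply] <;> abel
    have h00 := congrFun (congrFun hrel 0) 0
    simp only [← ht, Matrix.det_fin_two, Matrix.trace_fin_two, Matrix.add_apply, Matrix.sub_apply,
      Matrix.smul_apply, Matrix.mul_apply, Fin.sum_univ_two, Matrix.one_apply_eq, Matrix.zero_apply,
      smul_eq_mul] at h00 ⊢
    linear_combination -h00

end Fermat.Agent.Engine
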