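import Fermat.Agent.Patch.TaylorTrick
import Fermat.Agent.Patch.LocalMatrices

/-!
# Lowering the level at `q ≡ 1 (mod p)` after patching

`ρ` is the patched action on the twisted modules (inertia at `q` has trace `ζ + ζ' ≠ 2` and
commutes with Frobenius), `ρ'` the one on the untwisted modules (inertia is unipotent), congruent
modulo `ϖ`.  Over any prime of `Λ` containing the augmentation there is then a point of the
untwisted base module at which inertia at `q` is trivial.  The ring `R` may be replaced by its image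
in the two actions, so `hgen` is only needed there.
-/

set_option autoImplicit false

noncomputable section

namespace Fermat.Agent.Engine

open IsLocalRing Patch

variable {R : Type*} [CommRing R] [IsNoetherianRing R] [IsLocalRing R]
  {Λ : Type*} [CommRing Λ] [IsNoetherianRing Λ] [IsDomain Λ] {d : ℕ} [NeZero d]
  {M₀ : Type*} [AddCommGroup M₀] [Module R M₀] [Module Λ M₀] [SMulCommClass R Λ M₀]

/-- Traceless half difference of the diagonal entries. -/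
def halfDiff (h : R) (X : Matrix (Fin 2) (Fin 2) R) : R := h * (X 0 0 - X 1 1)

/-- A common point of two congruent actions at which monodromy is trivial. -/
theorem exists_unramified_point {ρ ρ' : R →+* Matrix (Fin d) (Fin d) Λ}
    (hsc : ScalarsIn ρ) (hsc' : ScalarsIn ρ') {l : Λ} {ϖ : R}
    (hϖ : ρ ϖ = l • (1 : Matrix (Fin d) (Fin d) Λ))
    (hcong : ∀ x i k, ρ x i k - ρ' x i k ∈ Ideal.span {l})
    {n : ℕ} (hΛ : DimGE Λ n)
    (Φ σ : Matrix (Fin 2) (Fin 2) R) {hlf ζ ζ' a₀ b₀ c₀ q : R} (hh : 2 * hlf = 1)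
    (hζ : ζ * ζ' - 1 ∈ RingHom.ker ρ)
    (hcomm : ∀ i k, (Φ * σ - σ * Φ) i k ∈ (RingHom.ker ρ).radical) (hdet : σ.det - 1 ∈ RingHom.ker ρ)
    (htr : σ.trace - (ζ + ζ') ∈ (RingHom.ker ρ).radical)
    (hπ : ∀ Q : Ideal R, Q.IsPrime → (hlf * (ζ - ζ') ∈ Q ↔ ϖ ∈ Q))
    (hϖm : ϖ ∈ maximalIdeal R) (hq : ∀ M : Ideal R, M.IsPrime → ϖ ∈ M → q - 1 ∈ M)
    (hm : ∀ x ∈ ({halfDiff hlf Φ - a₀, Φ 0 1 - b₀, Φ 1 0 - c₀, halfDiff hlf σ, σ 0 1, σ 1 0}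
      : Set R), x ∈ maximalIdeal R)
    (h0 : ∀ x ∈ ({a₀, b₀, c₀, a₀ ^ 2 + b₀ * c₀} : Set R), x ∈ maximalIdeal R →
      ∀ Q : Ideal R, Q.IsPrime → ϖ ∈ Q → x ∈ Q)
    {s : Finset R} (hs : ∀ x ∈ s, x ∈ maximalIdeal R) (hcard : s.card + 4 ≤ n)
    (hgen : ∀ Q : Ideal R, Q.IsPrime → (∀ x ∈ s, x ∈ Q) → ϖ ∈ Q → halfDiff hlf Φ - a₀ ∈ Q →
      Φ 0 1 - b₀ ∈ Q → Φ 1 0 - c₀ ∈ Q → halfDiff hlf σ ∈ Q → σ 0 1 ∈ Q → σ 1 0 ∈ Q →
      Q = maximalIdeal R)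
    (htr' : (σ - 1).trace ∈ RingHom.ker ρ') (hdet' : (σ - 1).det ∈ RingHom.ker ρ')
    (hrel' : ∀ i k, (Φ * (σ - 1) - q • ((σ - 1) * Φ)) i k ∈ RingHom.ker ρ')
    {a : Ideal Λ} {e₀ : Fin d → M₀} (he₀ : IsModBasis a e₀)
    (hbase : ∀ (r : R) j, ∑ i, ρ' r i j • e₀ i = r • e₀ j)
    {p₀ : Ideal Λ} [p₀.IsPrime] (hap : a ≤ p₀) :
    ∃ Q : Ideal R, Q.IsPrime ∧ Module.annihilator R M₀ ≤ Q ∧ (∀ i k, (σ - 1) i k ∈ Q) ∧
      ∀ r l, ρ' r = l • (1 : Matrix (Fin d) (Fin d) Λ) → (r ∈ Q ↔ l ∈ p₀) := by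
  have hspecial : ∀ P ∈ (RingHom.ker ρ).minimalPrimes,
      ∃ M : Ideal R, M.IsPrime ∧ P ≤ M ∧ ϖ ∈ M ∧
        halfDiff hlf Φ ^ 2 + Φ 0 1 * Φ 1 0 ∉ M := by
    intro P hP
    have := hP.1.1
    exact exists_special_prime_general hπ hϖm hm h0 hs hgen
      (zetaRelations_of_matrices hh Φ σ (hP.1.2 hζ)
        (fun i k => hP.1.1.radical_le_iff.2 hP.1.2 (hcomm i k)) (hP.1.2 hdet)
        (hP.1.1.radical_le_iff.2 hP.1.2 htr)) ((dimGE_component hsc hP hΛ).mono hcard)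
  have he : Φ.trace ^ 2 - 4 * Φ.det = 4 * (halfDiff hlf Φ ^ 2 + Φ 0 1 * Φ 1 0) := by
    simp only [halfDiff, Matrix.trace_fin_two, Matrix.det_fin_two]
    linear_combination -(Φ 0 0 - Φ 1 1) ^ 2 * (2 * hlf + 1) * hh
  obtain ⟨P₁, hP₁, hN⟩ := exists_unramified_component hsc hϖ hcong hspecial hq Φ (σ - 1)
    htr' hdet' hrel' he (IsUnit.of_mul_eq_one hlf hh)
  obtain ⟨Q, hQ, hle, hann, hlq⟩ := exists_prime_of_component he₀ hbase hsc' hP₁ hap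
  exact ⟨Q, hQ, hann, fun i k => hle (hN i k), hlq⟩

end Fermat.Agent.Engine
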