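import Fermat.Agent.Patch.LocalMatrices

/-!
# Three parameters at a prime `≡ 1 (mod p)` where inertia is unipotent

Modulo `ϖ` the coordinates (traceless part `(a, b, c)` of Frobenius near `(a₀, b₀, c₀)`, inertia
`(u, v, w)`, nilpotent and commuting with it) have three parameters, whatever the residual Frobenius.
-/

set_option autoImplicit false

noncomputable section

namespace Fermat.Agent.Engine

open IsLocalRing Patch

variable {R : Type*} [CommRing R] [IsLocalRing R]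

/-- The equations of nilpotent inertia commuting with Frobenius. -/
structure CommNilpotent (a b c u v w : R) (Q : Ideal R) : Prop where
  det : u ^ 2 + v * w ∈ Q
  comm₁ : u * b - a * v ∈ Q
  comm₂ : u * c - a * w ∈ Q
  comm₃ : b * w - c * v ∈ Q

/-- Three parameters for the six coordinates. -/
theorem exists_unipotent_params {ϖ a b c u v w a₀ b₀ c₀ : R}
    (hm : ∀ x ∈ ({a - a₀, b - b₀, c - c₀, u, v, w} : Set R), x ∈ maximalIdeal R)
    (h0 : ∀ x ∈ ({a₀, b₀, c₀, a₀ ^ 2 + b₀ * c₀} : Set R), x ∈ maximalIdeal R →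
      ∀ Q : Ideal R, Q.IsPrime → ϖ ∈ Q → x ∈ Q) :
    ∃ s : Finset R, s.card ≤ 3 ∧ (∀ x ∈ s, x ∈ maximalIdeal R) ∧
      ∀ Q : Ideal R, Q.IsPrime → ϖ ∈ Q → CommNilpotent a b c u v w Q → (∀ x ∈ s, x ∈ Q) →
        ∀ x ∈ ({a - a₀, b - b₀, c - c₀, u, v, w} : Set R), x ∈ Q := by
  classical
  simp only [Set.mem_insert_iff, Set.mem_singleton_iff, forall_eq_or_imp, forall_eq] at hm h0 ⊢
  obtain ⟨ham, hbm, hcm, hum, hvm, hwm⟩ := hm
  obtain ⟨ha0, hb0, hc0, he0⟩ := h0
  set m := maximalIdeal R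
  have hprime : m.IsPrime := (maximalIdeal.isMaximal R).isPrime
  have hcard : ∀ x y z : R, ({x, y, z} : Finset R).card ≤ 3 := fun x y z => by
    have := Finset.card_insert_le x ({y, z} : Finset R)
    have := Finset.card_insert_le y ({z} : Finset R)
    simp only [Finset.card_singleton] at this
    omega
  by_cases he : a₀ ^ 2 + b₀ * c₀ ∈ m
  swap
  · refine ⟨{a - a₀, b - b₀, c - c₀}, hcard _ _ _, by simp [ham, hbm, hcm], ?_⟩
    intro Q hQ hϖ hrel hs
    simp only [Finset.mem_insert, Finset.mem_singleton, forall_eq_or_imp, forall_eq] at hs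
    obtain ⟨ha, hb, hc⟩ := hs
    have hne : a ^ 2 + b * c ∉ Q := fun h => he (le_maximalIdeal hQ.ne_top (by
      convert sub_mem (sub_mem (sub_mem h (Q.mul_mem_left (a + a₀) ha))
        (Q.mul_mem_left b hc)) (Q.mul_mem_left c₀ hb) using 1
      ring))
    exact ⟨ha, hb, hc, inertia_mem_of_discr hrel.det hrel.comm₁ hrel.comm₂ hrel.comm₃ hne⟩
  by_cases hb : b₀ ∈ m
  swap
  · have hbu : IsUnit b := notMem_maximalIdeal.1 fun h => hb (by convert sub_mem h hbm using 1; ring)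
    refine ⟨{a - a₀, b - b₀, c - c₀ + v}, hcard _ _ _,
      by simp [ham, hbm, add_mem hcm hvm], ?_⟩
    intro Q hQ hϖ hrel hs
    simp only [Finset.mem_insert, Finset.mem_singleton, forall_eq_or_imp, forall_eq] at hs
    obtain ⟨ha, hbq, hcv⟩ := hs
    exact ⟨ha, hbq, all_mem_of_params_of_isUnit hrel.det hrel.comm₁ hrel.comm₃ hbu
      (he0 he Q hQ hϖ) ha hbq hcv⟩
  by_cases hc : c₀ ∈ m
  swap
  · have hcu : IsUnit c := notMem_maximalIdeal.1 fun h => hc (by convert sub_mem h hcm using 1; ring)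
    refine ⟨{a - a₀, c - c₀, b - b₀ + w}, hcard _ _ _, by simp [ham, hcm, add_mem hbm hwm], ?_⟩
    intro Q hQ hϖ hrel hs
    simp only [Finset.mem_insert, Finset.mem_singleton, forall_eq_or_imp, forall_eq] at hs
    obtain ⟨ha, hcq, hbw⟩ := hs
    obtain ⟨h1, h2, h3, h4⟩ := all_mem_of_params_of_isUnit (a := -a) (b := c) (c := b) (u := -u)
      (v := w) (w := v) (a₀ := -a₀) (b₀ := c₀) (c₀ := b₀)
      (by convert hrel.det using 1; ring) (by convert Q.neg_mem hrel.comm₂ using 1; ring)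
      (by convert Q.neg_mem hrel.comm₃ using 1; ring) hcu
      (by convert he0 he Q hQ hϖ using 1; ring) (by convert Q.neg_mem ha using 1; ring) hcq hbw
    exact ⟨ha, h1, hcq, by simpa using Q.neg_mem h2, h4, h3⟩
  have ha : a₀ ∈ m := hprime.mem_of_pow_mem 2 (by
    convert sub_mem he (m.mul_mem_right c₀ hb) using 1; ring)
  refine ⟨{a - a₀, b - b₀ + w, c - c₀ + v}, hcard _ _ _,
    by simp [ham, add_mem hbm hwm, add_mem hcm hvm], ?_⟩
  intro Q hQ hϖ hrel hs
  simp only [Finset.mem_insert, Finset.mem_singleton, forall_eq_or_imp, forall_eq] at hs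
  obtain ⟨h1, h2, h3⟩ := hs
  obtain ⟨ra, rb, rc, ru, rv, rw'⟩ := all_mem_of_params hrel.det hrel.comm₁ hrel.comm₂ hrel.comm₃
    (by simpa using add_mem h1 (ha0 ha Q hQ hϖ))
    (by convert add_mem h2 (hb0 hb Q hQ hϖ) using 1; ring)
    (by convert add_mem h3 (hc0 hc Q hQ hϖ) using 1; ring)
  exact ⟨h1, sub_mem rb (hb0 hb Q hQ hϖ), sub_mem rc (hc0 hc Q hQ hϖ), ru, rv, rw'⟩

end Fermat.Agent.Engine
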