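import Fermat.Agent.Engine.Assembly
import Fermat.Agent.Engine.Lower
import Fermat.Agent.Engine.UnipotentParams
import Fermat.Agent.Engine.FrameCoords

/-!
# Lowering at a prime `≡ 1 (mod p)`: from finite levels to a point of the base ring

`LoweringSystem` collects, at the auxiliary levels `n`, the module with a character of order `p` at
`v` and the one without, congruent modulo `ζ - 1`.  `exists_point` : in the base ring there is a
point of the module without character at which the tame generator at `v` is trivial.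
-/

set_option autoImplicit false
set_option linter.unusedSectionVars false

noncomputable section

namespace Fermat.Agent.Engine

open IsLocalRing Filter Patch

variable (O : Type) [CommRing O] (T : Type) (g : ℕ)
  (Λ : Type) [CommRing Λ] [IsDomain Λ] [IsLocalRing Λ] [IsNoetherianRing Λ]
  (RB : Type) [CommRing RB] (R : Type) [CommRing R] [IsLocalRing R] [IsLocalRing (LocRing O T g)] (ι : LocRing O T g →+* R)

/-- The finite level data. -/
structure LoweringSystem (qv : T → ℕ) (Φ₀ : T → Matrix (Fin 2) (Fin 2) O) (v : T)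
    (ζ ζ' : O) (l : Λ) where
  /-- relations of the level `n` coefficient ring -/
  I : ℕ → Ideal Λ
  tendsToZero : TendsToZero I
  dim : DimGE Λ (3 * Nat.card T + g + 1)
  /-- the maps to the base ring -/
  ψ : ℕ → R →+* RB
  isLocalHom_ψ : ∀ n, IsLocalHom (ψ n)
  /-- the variables of the diamond operators, and of what the local coordinates miss -/
  extra : Finset R
  generated : ∀ r : R, ∃ s, r - ι s ∈ Ideal.span (extra : Set R)
  extra_mem : ∀ z ∈ extra, z ∈ maximalIdeal R
  d : ℕ
  d_ne_zero : d ≠ 0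
  /-- the level with the character -/
  M : ℕ → Type
  /-- the level without -/
  M' : ℕ → Type
  [addCommGroup : ∀ n, AddCommGroup (M n)]
  [moduleR : ∀ n, Module R (M n)]
  [moduleΛ : ∀ n, Module Λ (M n)]
  [comm : ∀ n, SMulCommClass R Λ (M n)]
  [addCommGroup' : ∀ n, AddCommGroup (M' n)]
  [moduleR' : ∀ n, Module R (M' n)]
  [moduleΛ' : ∀ n, Module Λ (M' n)]
  [comm' : ∀ n, SMulCommClass R Λ (M' n)]
  e : ∀ n, Fin d → M n
  e' : ∀ n, Fin d → M' n
  isBasis : ∀ n, IsModBasis (I n) (e n)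
  isBasis' : ∀ n, IsModBasis (I n) (e' n)
  congr : ∀ n (r : R) i j,
    (isBasis n).matrix r i j - (isBasis' n).matrix r i j ∈ Ideal.span {l} ⊔ I n
  scalars : ∀ n (a : Λ), ∃ r : R, ∀ x : M n, r • x = a • x
  scalars' : ∀ n (a : Λ), ∃ r : R, ∀ x : M' n, r • x = a • x
  scalar_l : ∀ n (x : M n), ι (MvPowerSeries.C (ζ - 1)) • x = l • x
  /-- the base module, without character -/
  M₀ : Type
  [addCommGroup₀ : AddCommGroup M₀]
  [moduleB : Module RB M₀]
  [moduleΛ₀ : Module Λ M₀]
  [comm₀ : SMulCommClass RB Λ M₀]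
  a : Ideal Λ
  e₀ : Fin d → M₀
  isBasis₀ : IsModBasis a e₀
  π : ∀ n, M' n →ₗ[Λ] M₀
  π_smul : ∀ n (r : R) x, π n (r • x) = ψ n r • π n x
  π_e : ∀ n j, π n (e' n j) = e₀ j
  /-- powers of the extra variables are, on deep levels and modulo a given power of the maximal
  ideal of the coefficients, in the extended maximal ideal -/
  extra_nil : ∀ z ∈ extra, ∃ k : ℕ, ∀ j : ℕ, ∀ᶠ n in atTop,
    ∃ r ∈ (maximalIdeal (LocRing O T g)).map ι,
      (∀ a b, (isBasis n).matrix (z ^ k - r) a b ∈ maximalIdeal Λ ^ j ⊔ I n) ∧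
        ∀ a b, (isBasis' n).matrix (z ^ k - r) a b ∈ maximalIdeal Λ ^ j ⊔ I n
  det_frob : ∀ n r, (∀ x : M n, ι ((locFrob (g := g) Φ₀ r).det - (qv r : LocRing O T g)) • x = 0) ∧
    ∀ x : M' n, ι ((locFrob (g := g) Φ₀ r).det - (qv r : LocRing O T g)) • x = 0
  /-- with character: inertia at `v` has eigenvalues `ζ, ζ'` and commutes with Frobenius, up to
  nilpotent operators of bounded exponent -/
  comm_v : ∀ i j, ∃ k : ℕ, ∀ n (x : M n), ι ((((locFrob (g := g) Φ₀ v * locMono v -
      locMono v * locFrob (g := g) Φ₀ v) : Matrix (Fin 2) (Fin 2) (LocRing O T g)) i j) ^ k) • x = 0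
  det_v : ∀ n (x : M n), ι ((1 + locMono (g := g) (O := O) v).det - 1) • x = 0
  trace_v : ∃ k : ℕ, ∀ n (x : M n),
    ι (((1 + locMono (g := g) (O := O) v).trace - MvPowerSeries.C (ζ + ζ')) ^ k) • x = 0
  /-- with character, at the other primes: unipotent -/
  unipotent : ∀ n r, r ≠ v → ∀ x : M n, ι (locMono (g := g) (O := O) r).trace • x = 0 ∧
    ι (locMono (g := g) (O := O) r).det • x = 0
  tame : ∀ n r, r ≠ v → ∀ i j, ∀ x : M n, ι (((locFrob (g := g) Φ₀ r * locMono r -
      (qv r : LocRing O T g) • (locMono r * locFrob (g := g) Φ₀ r)) :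
        Matrix (Fin 2) (Fin 2) (LocRing O T g)) i j) • x = 0
  /-- without character: unipotent everywhere -/
  unipotent' : ∀ n r, ∀ x : M' n, ι (locMono (g := g) (O := O) r).trace • x = 0 ∧
    ι (locMono (g := g) (O := O) r).det • x = 0
  tame' : ∀ n r, ∀ i j, ∀ x : M' n, ι (((locFrob (g := g) Φ₀ r * locMono r -
      (qv r : LocRing O T g) • (locMono r * locFrob (g := g) Φ₀ r)) :
        Matrix (Fin 2) (Fin 2) (LocRing O T g)) i j) • x = 0

attribute [instance] LoweringSystem.addCommGroup LoweringSystem.moduleR LoweringSystem.moduleΛ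
  LoweringSystem.comm LoweringSystem.addCommGroup' LoweringSystem.moduleR' LoweringSystem.moduleΛ'
  LoweringSystem.comm' LoweringSystem.addCommGroup₀ LoweringSystem.moduleB
  LoweringSystem.moduleΛ₀ LoweringSystem.comm₀

variable {O T g Λ RB R ι} {qv : T → ℕ} {Φ₀ : T → Matrix (Fin 2) (Fin 2) O} {v : T}
  {ζ ζ' : O} {l : Λ}
  [IsDomain O] [IsDiscreteValuationRing O] [Finite T]
  [Finite (ResidueField Λ)] [IsAdicComplete (maximalIdeal Λ) Λ]
  [IsLocalRing (LocRing O T g)] [IsNoetherianRing (LocRing O T g)]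
  [Finite (ResidueField (LocRing O T g))]
  [IsAdicComplete (maximalIdeal (LocRing O T g)) (LocRing O T g)]
  [IsLocalRing R] [IsNoetherianRing R] [Finite (ResidueField R)]
  [IsAdicComplete (maximalIdeal R) R] [IsLocalHom ι]
  [IsLocalRing RB] [IsNoetherianRing RB] [Finite (ResidueField RB)]
  [IsAdicComplete (maximalIdeal RB) RB]

namespace LoweringSystem

variable (S : LoweringSystem O T g Λ RB R ι qv Φ₀ v ζ ζ' l)

/-- The patched action with character. -/
def act : R →+* Matrix (Fin S.d) (Fin S.d) Λ := patchAction S.isBasis S.tendsToZero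

/-- The patched action without. -/
def act' : R →+* Matrix (Fin S.d) (Fin S.d) Λ := patchAction S.isBasis' S.tendsToZero

/-- The first patched action is by scalars on the coefficient ring. -/
theorem scalarsIn_act : ScalarsIn S.act :=
  scalarsIn_patchAction S.isBasis S.tendsToZero fun n a => by
    obtain ⟨r, hr⟩ := S.scalars n a
    exact ⟨r, fun j => hr _⟩

/-- The second patched action is by scalars on the coefficient ring. -/
theorem scalarsIn_act' : ScalarsIn S.act' :=
  scalarsIn_patchAction S.isBasis' S.tendsToZero fun n a => by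
    obtain ⟨r, hr⟩ := S.scalars' n a
    exact ⟨r, fun j => hr _⟩

/-- An element killing the levels of the first family is in the kernel of its patched action. -/
theorem mem_ker {r : R} (h : ∀ n (x : S.M n), r • x = 0) : r ∈ RingHom.ker S.act :=
  patchAction_eq_zero S.isBasis S.tendsToZero h

/-- An element killing the levels of the second family is in the kernel of its patched action. -/
theorem mem_ker' {r : R} (h : ∀ n (x : S.M' n), r • x = 0) : r ∈ RingHom.ker S.act' :=
  patchAction_eq_zero S.isBasis' S.tendsToZero h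

/-- The two patched actions are congruent modulo `l`. -/
theorem congr_act (r : R) (i j : Fin S.d) : S.act r i j - S.act' r i j ∈ Ideal.span {l} :=
  ulim_sub_mem S.tendsToZero (Eventually.of_forall fun n => S.congr n r i j)

/-- The extra variables are nilpotent modulo the extended maximal ideal. -/
theorem nil_limit : ∀ z ∈ S.extra, ∃ k : ℕ, ∃ r ∈ (maximalIdeal (LocRing O T g)).map ι,
    z ^ k - r ∈ RingHom.ker S.act ⊓ RingHom.ker S.act' := by
  intro z hz
  obtain ⟨k, hk⟩ := S.extra_nil z hz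
  classical
  -- a diagonal choice of the approximations
  let P : ℕ → ℕ → Prop := fun n j => ∃ r ∈ (maximalIdeal (LocRing O T g)).map ι,
    (∀ a b, (S.isBasis n).matrix (z ^ k - r) a b ∈ maximalIdeal Λ ^ j ⊔ S.I n) ∧
      ∀ a b, (S.isBasis' n).matrix (z ^ k - r) a b ∈ maximalIdeal Λ ^ j ⊔ S.I n
  have h0 : ∀ n, P n 0 := fun n => ⟨0, zero_mem _, by simp, by simp⟩
  choose r hr hM hM' using fun n => Nat.findGreatest_spec (P := P n) (Nat.zero_le n) (h0 n)
  have hlarge : ∀ j, ∀ᶠ n in (patchFilter : Filter ℕ), j ≤ Nat.findGreatest (P n) n := fun j =>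
    ((eventually_ge j).and (patchFilter_le (hk j))).mono fun n h => Nat.le_findGreatest h.1 h.2
  have htz : TendsToZero (Λ := R) fun _ => (⊥ : Ideal R) :=
    fun _ => Eventually.of_forall fun _ => bot_le
  have hmem : ulim r ∈ (maximalIdeal (LocRing O T g)).map ι := by
    simpa [ulim_const] using ulim_sub_mem htz (f := r) (g := fun _ => (0 : R))
      (Eventually.of_forall fun n => Ideal.mem_sup_left (by simpa using hr n))
  have he : ulim (fun n => z ^ k - r n) = z ^ k - ulim r :=
    ulim_unique fun j => (ulim_spec r j).mono fun n hn => by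
      convert neg_mem hn using 1; ring
  have hzero : ∀ {X : ℕ → Matrix (Fin S.d) (Fin S.d) Λ}, (∀ n a b, X n a b ∈
      maximalIdeal Λ ^ Nat.findGreatest (P n) n ⊔ S.I n) → ulimMat X = 0 := fun {X} hX =>
    Matrix.ext fun a b => ulim_unique fun j => by
      filter_upwards [hlarge j, S.tendsToZero j] with n hn hI
      rw [Matrix.zero_apply, sub_zero]
      exact sup_le (Ideal.pow_le_pow_right hn) hI (hX n a b)
  refine ⟨k, ulim r, hmem, RingHom.mem_ker.2 ?_, RingHom.mem_ker.2 ?_⟩ <;> rw [← he]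
  · exact (patchAction_ulim S.isBasis S.tendsToZero _ _ fun n => matCong_refl _ _).trans (hzero hM)
  · exact (patchAction_ulim S.isBasis' S.tendsToZero _ _ fun n => matCong_refl _ _).trans (hzero hM')

/-- A point without character at which the tame generator at `v` is trivial. -/
theorem exists_point (h2 : IsUnit (2 : O)) (hζ : ζ * ζ' = 1) (hζ1 : ζ - 1 ∈ maximalIdeal O)
    (hζne : ζ ≠ 1) (hqv : ∀ r, (qv r : O) - 1 ∈ maximalIdeal O)
    (hdet₀ : ∀ r, (Φ₀ r).det - (qv r : O) ∈ maximalIdeal O)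
    (hsurj : ∀ n, Function.Surjective (S.ψ n)) {p₀ : Ideal Λ} [p₀.IsPrime] (hap : S.a ≤ p₀) :
    ∃ P : Ideal RB, P.IsPrime ∧ Module.annihilator RB S.M₀ ≤ P ∧
      (∀ i j, limitHom S.ψ (ι (locMono (g := g) (O := O) v i j)) ∈ P) ∧
      ∀ (r : R) (a' : Λ), (∀ n (x : S.M' n), r • x = a' • x) →
        (limitHom S.ψ r ∈ P ↔ a' ∈ p₀) := by
  classical
  have : NeZero S.d := ⟨S.d_ne_zero⟩
  have : Nonempty (Fin S.d) := ⟨⟨0, Nat.pos_of_ne_zero S.d_ne_zero⟩⟩
  -- replace `R` by its image in the two actions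
  set I₀ := RingHom.ker S.act ⊓ RingHom.ker S.act' with hI₀
  have hI₀top : I₀ ≠ ⊤ := fun h => RingHom.ker_ne_top S.act (top_le_iff.1 (h ▸ inf_le_left))
  have : Nontrivial (R ⧸ I₀) := Ideal.Quotient.nontrivial_iff.2 hI₀top
  have : IsLocalRing (R ⧸ I₀) := .of_surjective' _ Ideal.Quotient.mk_surjective
  set mk := Ideal.Quotient.mk I₀
  have : IsLocalHom mk := IsLocalHom.of_surjective _ Ideal.Quotient.mk_surjective
  set f : LocRing O T g →+* R ⧸ I₀ := mk.comp ι
  have hmf : ∀ x ∈ maximalIdeal (LocRing O T g), f x ∈ maximalIdeal (R ⧸ I₀) := fun x hx =>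
    map_nonunit mk _ (map_nonunit ι x hx)
  set ρ := Ideal.Quotient.lift I₀ S.act fun r hr => (Submodule.mem_inf.1 hr).1
  set ρ' := Ideal.Quotient.lift I₀ S.act' fun r hr => (Submodule.mem_inf.1 hr).2
  have hk : ∀ {x : LocRing O T g}, (∀ n (y : S.M n), ι x • y = 0) → f x ∈ RingHom.ker ρ :=
    fun h => RingHom.mem_ker.2 (S.mem_ker h)
  have hk' : ∀ {x : LocRing O T g}, (∀ n (y : S.M' n), ι x • y = 0) → f x ∈ RingHom.ker ρ' :=
    fun h => RingHom.mem_ker.2 (S.mem_ker' h)
  have hkr : ∀ {x : LocRing O T g}, (∃ k : ℕ, ∀ n (y : S.M n), ι (x ^ k) • y = 0) →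
      f x ∈ (RingHom.ker ρ).radical := fun {x} h => by
    obtain ⟨k, hk'⟩ := h
    exact ⟨k, map_pow f x k ▸ hk hk'⟩
  have hboth : ∀ {x : LocRing O T g}, (∀ n (y : S.M n), ι x • y = 0) →
      (∀ n (y : S.M' n), ι x • y = 0) → f x = 0 := fun h h' =>
    Ideal.Quotient.eq_zero_iff_mem.2 ⟨S.mem_ker h, S.mem_ker' h'⟩
  have hcases : ∀ Q : Ideal (R ⧸ I₀), Q.IsPrime →
      RingHom.ker ρ ≤ Q ∨ RingHom.ker ρ' ≤ Q := by
    intro Q hQ
    refine hQ.mul_le.1 (le_trans ?_ bot_le)
    rw [Ideal.mul_le]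
    intro x hx y hy
    obtain ⟨x, rfl⟩ := Ideal.Quotient.mk_surjective x
    obtain ⟨y, rfl⟩ := Ideal.Quotient.mk_surjective y
    rw [Ideal.mem_bot, ← map_mul, Ideal.Quotient.eq_zero_iff_mem]
    exact ⟨Ideal.mul_mem_right y _ hx, Ideal.mul_mem_left _ x hy⟩
  -- constants
  set c : O →+* R ⧸ I₀ := f.comp MvPowerSeries.C
  have hCm : ∀ o ∈ maximalIdeal O, (MvPowerSeries.C o : LocRing O T g) ∈
      maximalIdeal (LocRing O T g) := fun o ho => by
    rw [DefRing.mem_maximalIdeal_iff_constantCoeff, MvPowerSeries.constantCoeff_C]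
    exact ho
  have hO : ∀ Q : Ideal (R ⧸ I₀), Q.IsPrime → c (ζ - 1) ∈ Q →
      ∀ o ∈ maximalIdeal O, c o ∈ Q := by
    intro Q hQ hϖ o ho
    have hne : Q.comap c ≠ ⊥ := fun h => sub_ne_zero.2 hζne
      (Ideal.mem_bot.1 (h ▸ Ideal.mem_comap.2 hϖ))
    have := (Ideal.IsPrime.comap (K := Q) c).isMaximal hne
    exact Ideal.mem_comap.1 ((IsLocalRing.eq_maximalIdeal this).symm ▸ ho)
  have hlocal : ∀ o : O, c o ∈ maximalIdeal (R ⧸ I₀) → o ∈ maximalIdeal O := fun o ho hu =>
    ho (hu.map c)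
  obtain ⟨h, hh⟩ := h2.exists_right_inv
  have hhc : 2 * c h = 1 := by rw [← map_ofNat c 2, ← map_mul, hh, map_one]
  have hh2 : IsUnit (2 : R ⧸ I₀) := IsUnit.of_mul_eq_one _ hhc
  -- coordinates
  let Φ : T → Matrix (Fin 2) (Fin 2) (R ⧸ I₀) := fun r => (locFrob (g := g) Φ₀ r).map f
  let N : T → Matrix (Fin 2) (Fin 2) (R ⧸ I₀) := fun r => (locMono (g := g) (O := O) r).map f
  let X : T → Fin 2 → Fin 2 → R ⧸ I₀ := fun r i j => f (MvPowerSeries.X (Sum.inl (r, i, j)))
  have hΦ : ∀ r i j, Φ r i j = c (Φ₀ r i j) + X r i j := fun r i j => by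
    show f (_ + _) = _
    rw [map_add]; rfl
  have hX : ∀ r i j, X r i j ∈ maximalIdeal (R ⧸ I₀) := fun r i j =>
    hmf _ (DefRing.X_mem_maximalIdeal _)
  have hN : ∀ r i j, N r i j ∈ maximalIdeal (R ⧸ I₀) := fun r i j =>
    hmf _ (DefRing.X_mem_maximalIdeal _)
  let a₀ : T → R ⧸ I₀ := fun r => c (h * (Φ₀ r 0 0 - Φ₀ r 1 1))
  let b₀ : T → R ⧸ I₀ := fun r => c (Φ₀ r 0 1)
  let c₀ : T → R ⧸ I₀ := fun r => c (Φ₀ r 1 0)
  let dev : T → Set (R ⧸ I₀) := fun r => {halfDiff (c h) (Φ r) - a₀ r, Φ r 0 1 - b₀ r,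
    Φ r 1 0 - c₀ r, halfDiff (c h) (N r), N r 0 1, N r 1 0}
  have ha : ∀ r, halfDiff (c h) (Φ r) - a₀ r = c h * (X r 0 0 - X r 1 1) := fun r => by
    simp only [halfDiff, a₀, hΦ, map_mul, map_sub]; ring
  have hdevm : ∀ r, ∀ x ∈ dev r, x ∈ maximalIdeal (R ⧸ I₀) := by
    intro r
    simp only [dev, Set.mem_insert_iff, Set.mem_singleton_iff, forall_eq_or_imp, forall_eq, ha]
    refine ⟨Ideal.mul_mem_left _ _ (sub_mem (hX r 0 0) (hX r 1 1)), ?_, ?_,
      Ideal.mul_mem_left _ _ (sub_mem (hN r 0 0) (hN r 1 1)), hN r 0 1, hN r 1 0⟩ <;>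
    simp only [hΦ, b₀, c₀, add_sub_cancel_left, hX]
  have h0 : ∀ r, ∀ x ∈ ({a₀ r, b₀ r, c₀ r, a₀ r ^ 2 + b₀ r * c₀ r} : Set (R ⧸ I₀)),
      x ∈ maximalIdeal (R ⧸ I₀) → ∀ Q : Ideal (R ⧸ I₀), Q.IsPrime → c (ζ - 1) ∈ Q → x ∈ Q := by
    intro r x hx hxm Q hQ hϖ
    obtain ⟨o, rfl⟩ : ∃ o, c o = x := by
      rcases hx with rfl | rfl | rfl | rfl
      exacts [⟨_, rfl⟩, ⟨_, rfl⟩, ⟨_, rfl⟩,
        ⟨(h * (Φ₀ r 0 0 - Φ₀ r 1 1)) ^ 2 + Φ₀ r 0 1 * Φ₀ r 1 0, by
          simp only [a₀, b₀, c₀, map_add, map_mul, map_pow]⟩]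
    exact hO Q hQ hϖ o (hlocal o hxm)
  -- parameters
  choose s hscard hsm hsgen using fun r => exists_unipotent_params (ϖ := c (ζ - 1)) (hdevm r) (h0 r)
  let glob : Finset (R ⧸ I₀) := (Finset.univ : Finset (Fin g)).image fun i =>
    f (MvPowerSeries.X (Sum.inr (Sum.inr i)))
  have := Fintype.ofFinite T
  let s₀ : Finset (R ⧸ I₀) := (Finset.univ.erase v).biUnion s ∪ glob
  have hs₀ : ∀ x ∈ s₀, x ∈ maximalIdeal (R ⧸ I₀) := by
    intro x hx
    rcases Finset.mem_union.1 hx with hx | hx
    · obtain ⟨r, -, hr⟩ := Finset.mem_biUnion.1 hx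
      exact hsm r x hr
    · obtain ⟨i, -, rfl⟩ := Finset.mem_image.1 hx
      exact hmf _ (DefRing.X_mem_maximalIdeal _)
  have hcard : s₀.card + 4 ≤ 3 * Nat.card T + g + 1 := by
    have h1 : s₀.card ≤ ((Finset.univ.erase v).biUnion s).card + glob.card :=
      Finset.card_union_le _ _
    have h2 : ((Finset.univ.erase v).biUnion s).card ≤ (Finset.univ.erase v).card * 3 :=
      Finset.card_biUnion_le_card_mul _ _ _ fun r _ => hscard r
    have h3 : glob.card ≤ g := le_trans Finset.card_image_le (by simp)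
    have h4 : (Finset.univ.erase v).card + 1 = Nat.card T := by
      rw [Finset.card_erase_add_one (Finset.mem_univ v), Finset.card_univ,
        Nat.card_eq_fintype_card]
    omega
  have hmap : ∀ (A : Matrix (Fin 2) (Fin 2) (LocRing O T g)),
      (1 + A).map f = 1 + A.map f := fun A => by
    rw [Matrix.map_add _ (map_add f), Matrix.map_one _ (map_zero f) (map_one f)]
  -- relations at a prime other than `v`
  have hrelr : ∀ r, r ≠ v → ∀ Q : Ideal (R ⧸ I₀), Q.IsPrime → c (ζ - 1) ∈ Q →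
      (N r).trace ∈ Q ∧ CommNilpotent (halfDiff (c h) (Φ r)) (Φ r 0 1) (Φ r 1 0)
        (halfDiff (c h) (N r)) (N r 0 1) (N r 1 0) Q := by
    intro r hr Q hQ hϖ
    have htr : (N r).trace = 0 := by
      rw [show (N r).trace = f (locMono (g := g) (O := O) r).trace from
        (AddMonoidHom.map_trace f.toAddMonoidHom _).symm]
      exact hboth (fun n y => (S.unipotent n r hr y).1) fun n y => (S.unipotent' n r y).1
    have hdet : (N r).det = 0 := by
      rw [show (N r).det = f (locMono (g := g) (O := O) r).det from (RingHom.map_det f _).symm]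
      exact hboth (fun n y => (S.unipotent n r hr y).2) fun n y => (S.unipotent' n r y).2
    have htame : ∀ i k, (Φ r * N r - (qv r : R ⧸ I₀) • (N r * Φ r)) i k ∈ Q := fun i k => by
      have h := hboth (fun n y => S.tame n r hr i k y) fun n y => S.tame' n r i k y
      convert Q.zero_mem using 1
      rw [← h]
      simp [Φ, N, Matrix.sub_apply, Matrix.smul_apply, Matrix.mul_apply, map_mul]
    have hq : (qv r : R ⧸ I₀) - 1 ∈ Q := by
      have := hO Q hQ hϖ _ (hqv r)
      rwa [map_sub, map_natCast, map_one] at this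
    have hcomm := comm_mem_of_twisted hq _ _ htame
    have hz := zetaRelations_of_matrices (P := Q) hhc (Φ r) (1 + N r) (ζ := 1) (ζ' := 1)
      (by simp) (fun i k => by
        convert hcomm i k using 1
        simp [mul_add, add_mul])
      (by
        convert Q.zero_mem using 1
        have e := htr
        have e' := hdet
        simp only [Matrix.trace_fin_two] at e
        simp only [Matrix.det_fin_two] at e'
        simp [Matrix.det_fin_two]
        linear_combination e + e')
      (by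
        convert Q.zero_mem using 1
        simp [Matrix.trace_add, htr]
        norm_num)
    refine ⟨htr ▸ Q.zero_mem, ⟨?_, ?_, ?_, ?_⟩⟩
    · convert hz.det using 1; simp [halfDiff]
    · convert hz.comm₁ using 1; simp [halfDiff]
    · convert hz.comm₂ using 1; simp [halfDiff]
    · convert hz.comm₃ using 1; simp
  -- the coordinates at a prime are determined by their deviations
  have hentries : ∀ r, ∀ Q : Ideal (R ⧸ I₀), Q.IsPrime → c (ζ - 1) ∈ Q → (N r).trace ∈ Q →
      (∀ x ∈ dev r, x ∈ Q) → ∀ i j, X r i j ∈ Q ∧ N r i j ∈ Q := by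
    intro r Q hQ hϖ htr hdev
    simp only [dev, Set.mem_insert_iff, Set.mem_singleton_iff, forall_eq_or_imp, forall_eq] at hdev
    obtain ⟨hxa, hxb, hxc, hu, hv, hw⟩ := hdev
    rw [ha] at hxa
    simp only [halfDiff] at hu
    simp only [hΦ, b₀, c₀, add_sub_cancel_left] at hxb hxc
    have hhu : IsUnit (c h) := IsUnit.of_mul_eq_one _ (mul_comm (c h) 2 ▸ hhc)
    have hdiff : X r 0 0 - X r 1 1 ∈ Q := (Ideal.unit_mul_mem_iff_mem Q hhu).1 hxa
    have hNd : N r 0 0 - N r 1 1 ∈ Q := (Ideal.unit_mul_mem_iff_mem Q hhu).1 hu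
    rw [Matrix.trace_fin_two] at htr
    have hN00 : N r 0 0 ∈ Q := (Ideal.unit_mul_mem_iff_mem Q hh2).1 (by
      convert add_mem hNd htr using 1; ring)
    have hN11 : N r 1 1 ∈ Q := by simpa using sub_mem htr hN00
    have hd : (Φ r).det - (qv r : R ⧸ I₀) = 0 := by
      rw [← map_natCast f, show (Φ r).det = f (locFrob (g := g) Φ₀ r).det from
        (RingHom.map_det f _).symm, ← map_sub]
      exact hboth (fun n y => (S.det_frob n r).1 y) fun n y => (S.det_frob n r).2 y
    have hkey : X r 0 0 * (c (Φ₀ r 0 0 + Φ₀ r 1 1) + X r 0 0) ∈ Q := by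
      have h1 := hO Q hQ hϖ _ (hdet₀ r)
      rw [Matrix.det_fin_two, hΦ, hΦ, hΦ, hΦ] at hd
      simp only [Matrix.det_fin_two, map_sub, map_mul, map_natCast] at h1
      convert sub_mem (add_mem (Q.mul_mem_left (c (Φ₀ r 0 0) + X r 0 0) hdiff)
        (add_mem (Q.mul_mem_left (c (Φ₀ r 0 1) + X r 0 1) hxc)
          (Q.mul_mem_left (c (Φ₀ r 1 0)) hxb))) h1 using 1
      rw [map_add]
      linear_combination hd
    have hX00 : X r 0 0 ∈ Q := by
      rcases hQ.mem_or_mem hkey with h | h
      · exact h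
      · have hm : c (Φ₀ r 0 0 + Φ₀ r 1 1) ∈ maximalIdeal (R ⧸ I₀) := by
          simpa using sub_mem (le_maximalIdeal hQ.ne_top h) (hX r 0 0)
        simpa using sub_mem h (hO Q hQ hϖ _ (hlocal _ hm))
    have hX11 : X r 1 1 ∈ Q := by simpa using sub_mem hX00 hdiff
    intro i j
    fin_cases i <;> fin_cases j
    exacts [⟨hX00, hN00⟩, ⟨hxb, hv⟩, ⟨hxc, hw⟩, ⟨hX11, hN11⟩]
  have hσ : ∀ i j, ((1 + N v) i j : R ⧸ I₀) = if i = j then 1 + N v i j else N v i j := fun i j => by
    simp [Matrix.add_apply, Matrix.one_apply]; split_ifs <;> simp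
  have hgen : ∀ Q : Ideal (R ⧸ I₀), Q.IsPrime → (∀ x ∈ s₀, x ∈ Q) → c (ζ - 1) ∈ Q →
      halfDiff (c h) (Φ v) - a₀ v ∈ Q → Φ v 0 1 - b₀ v ∈ Q → Φ v 1 0 - c₀ v ∈ Q →
      halfDiff (c h) (1 + N v) ∈ Q → (1 + N v) 0 1 ∈ Q → (1 + N v) 1 0 ∈ Q →
      Q = maximalIdeal (R ⧸ I₀) := by
    intro Q hQ hsQ hϖ hxa hxb hxc hu hv hw
    have hall : ∀ r i j, X r i j ∈ Q ∧ N r i j ∈ Q := by
      intro r
      by_cases hr : r = v
      · subst hr
        refine hentries r Q hQ hϖ ?_ ?_
        · rcases hcases Q hQ with hle | hle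
          · have h1 := hQ.radical_le_iff.2 hle (hkr S.trace_v)
            rw [map_sub, show f (1 + locMono (g := g) (O := O) r).trace = (1 + N r).trace by
              rw [← hmap]; exact AddMonoidHom.map_trace f.toAddMonoidHom _] at h1
            have hz' : ζ' - 1 ∈ maximalIdeal O := by
              convert Ideal.mul_mem_left _ (-ζ') hζ1 using 1
              linear_combination hζ
            have h2 := add_mem h1 (add_mem (hO Q hQ hϖ _ hz') (hO Q hQ hϖ _ hζ1))
            convert h2 using 1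
            simp [c, Matrix.trace_add, map_add, map_sub]
            ring
          · rw [show (N r).trace = f (locMono (g := g) (O := O) r).trace from
              (AddMonoidHom.map_trace f.toAddMonoidHom _).symm]
            exact hle (hk' fun n y => (S.unipotent' n r y).1)
        · simp only [dev, Set.mem_insert_iff, Set.mem_singleton_iff, forall_eq_or_imp, forall_eq]
          refine ⟨hxa, hxb, hxc, ?_, ?_, ?_⟩
          · convert hu using 1; simp [halfDiff]
          · convert hv using 1; simp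
          · convert hw using 1; simp
      · obtain ⟨htr, hrel⟩ := hrelr r hr Q hQ hϖ
        refine hentries r Q hQ hϖ htr (hsgen r Q hQ hϖ hrel fun x hx => hsQ x ?_)
        exact Finset.mem_union_left _ (Finset.mem_biUnion.2 ⟨r, by simp [hr], hx⟩)
    have hJ : maximalIdeal (LocRing O T g) ≤ Q.comap f := by
      refine le_trans Deform.maximalIdeal_mvPowerSeries_le (sup_le ?_ ?_)
      · exact Ideal.map_le_iff_le_comap.2 fun o ho => hO Q hQ hϖ o ho
      · rw [Ideal.span_le]
        rintro _ ⟨i, rfl⟩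
        rcases i with ⟨r, i, j⟩ | ⟨r, i, j⟩ | i
        · exact (hall r i j).1
        · exact (hall r i j).2
        · exact hsQ _ (Finset.mem_union_right _ (Finset.mem_image_of_mem _ (Finset.mem_univ i)))
    have hz : Ideal.span (S.extra : Set R) ≤ Q.comap mk := Ideal.span_le.2 fun z hz => by
      obtain ⟨k, t, ht, hann⟩ := S.nil_limit z hz
      have h0' : mk (z ^ k - t) = 0 := Ideal.Quotient.eq_zero_iff_mem.2 hann
      have h1 : mk t ∈ Q := Ideal.mem_comap.1 <| (Ideal.map_le_iff_le_comap.2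
        fun a ha => (show a ∈ (Q.comap mk).comap ι from hJ ha)) ht
      rw [map_sub, sub_eq_zero, map_pow] at h0'
      exact hQ.mem_of_pow_mem k (h0' ▸ h1)
    have hzm : Ideal.span (S.extra : Set R) ≤ maximalIdeal R := Ideal.span_le.2 S.extra_mem
    refine le_antisymm (le_maximalIdeal hQ.ne_top) fun x hx => ?_
    obtain ⟨r, rfl⟩ := Ideal.Quotient.mk_surjective x
    obtain ⟨t, ht⟩ := S.generated r
    have hr : r ∈ maximalIdeal R := fun hu => hx (hu.map mk)
    have htm : t ∈ maximalIdeal (LocRing O T g) := fun hu => by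
      have := sub_mem hr (hzm ht)
      rw [sub_sub_cancel] at this
      exact this (hu.map ι)
    have := add_mem (show mk (r - ι t) ∈ Q from hz ht) (show mk (ι t) ∈ Q from hJ htm)
    rwa [← map_add, sub_add_cancel] at this
  -- the base module over the quotient
  let modR : Module R S.M₀ := Module.compHom _ (limitHom S.ψ)
  have hbase := sum_patchAction_base S.isBasis' S.tendsToZero S.ψ S.isBasis₀ S.π S.π_smul S.π_e
  have htors : Module.IsTorsionBySet R S.M₀ (I₀ : Set R) := by
    rintro y ⟨r, hr⟩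
    obtain ⟨cf, rfl⟩ := S.isBasis₀.exists_coeff y
    show (limitHom S.ψ r : RB) • (∑ i, cf i • S.e₀ i) = 0
    rw [Finset.smul_sum]
    refine Finset.sum_eq_zero fun j _ => ?_
    rw [smul_comm, ← hbase r j]
    have h0 : S.act' r = 0 := (Submodule.mem_inf.1 hr).2
    simp [show patchAction (R := R) S.isBasis' S.tendsToZero r = 0 from h0]
  let : Module (R ⧸ I₀) S.M₀ := htors.module
  have hmksmul : ∀ (r : R) (y : S.M₀), mk r • y = limitHom S.ψ r • y := fun r y => rfl
  have : SMulCommClass (R ⧸ I₀) Λ S.M₀ := ⟨fun x a y => by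
    obtain ⟨r, rfl⟩ := Ideal.Quotient.mk_surjective x
    exact smul_comm (limitHom S.ψ r) a y⟩
  have hζc : c ζ * c ζ' = 1 := by rw [← map_mul, hζ, map_one]
  obtain ⟨Q, hQ, hannQ, hσQ, hlQ⟩ := exists_unramified_point (ρ := ρ) (ρ' := ρ')
    (hsc := fun a => (S.scalarsIn_act a).imp' mk fun r hr => hr)
    (hsc' := fun a => (S.scalarsIn_act' a).imp' mk fun r hr => hr)
    (l := l) (ϖ := c (ζ - 1))
    (hϖ := by
      have := patchAction_ulim_scalar S.isBasis S.tendsToZero
        (fun _ => ι (MvPowerSeries.C (ζ - 1))) l S.scalar_l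
      rwa [ulim_const] at this)
    (hcong := fun x i k => by
      obtain ⟨r, rfl⟩ := Ideal.Quotient.mk_surjective x
      exact S.congr_act r i k)
    (hΛ := S.dim) (Φ := Φ v) (σ := 1 + N v) (hlf := c h) (ζ := c ζ) (ζ' := c ζ')
    (a₀ := a₀ v) (b₀ := b₀ v) (c₀ := c₀ v) (q := (qv v : R ⧸ I₀)) (hh := hhc)
    (hζ := by rw [hζc, sub_self]; exact Submodule.zero_mem _)
    (hcomm := fun i k => by
      convert hkr (S.comm_v i k) using 1
      simp [Φ, N, Matrix.sub_apply, Matrix.mul_apply, mul_add, add_mul, map_mul])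
    (hdet := by
      convert hk (fun n y => S.det_v n y) using 1
      rw [map_sub, map_one, RingHom.map_det, RingHom.mapMatrix_apply, hmap])
    (htr := by
      convert hkr S.trace_v using 1
      rw [map_sub, show f (1 + locMono (g := g) (O := O) v).trace = (1 + N v).trace by
        rw [← hmap]; exact AddMonoidHom.map_trace f.toAddMonoidHom _]
      simp [c])
    (hπ := fun Q hQ => by
      have hu : IsUnit (c (h * ζ' * (ζ + 1))) := by
        refine IsUnit.map c (((IsUnit.of_mul_eq_one _ (mul_comm h 2 ▸ hh)).mul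
          (IsUnit.of_mul_eq_one _ (mul_comm ζ' ζ ▸ hζ))).mul ?_)
        by_contra hnu
        exact (show (2 : O) ∉ maximalIdeal O from fun hm => hm h2) (by
          convert sub_mem (show ζ + 1 ∈ maximalIdeal O from hnu) hζ1 using 1; ring)
      rw [show c h * (c ζ - c ζ') = c (h * ζ' * (ζ + 1)) * c (ζ - 1) by
        simp only [map_mul, map_add, map_sub, map_one]
        linear_combination (-(c h * c ζ)) * hζc]
      exact Ideal.unit_mul_mem_iff_mem Q hu)
    (hϖm := hmf _ (hCm _ hζ1))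
    (hq := fun M hM hϖ => by
      have := hO M hM hϖ _ (hqv v)
      rwa [map_sub, map_natCast, map_one] at this)
    (hm := by
      have := hdevm v
      simp only [dev, Set.mem_insert_iff, Set.mem_singleton_iff, forall_eq_or_imp,
        forall_eq] at this ⊢
      simpa [halfDiff] using this)
    (h0 := h0 v) (s := s₀) (hs := hs₀) (hcard := hcard) (hgen := hgen)
    (htr' := by
      convert hk' (fun n y => (S.unipotent' n v y).1) using 1
      rw [add_sub_cancel_left]
      exact (AddMonoidHom.map_trace f.toAddMonoidHom _).symm)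
    (hdet' := by
      convert hk' (fun n y => (S.unipotent' n v y).2) using 1
      rw [add_sub_cancel_left]
      exact (RingHom.map_det f _).symm)
    (hrel' := fun i k => by
      convert hk' (fun n y => S.tame' n v i k y) using 1
      simp [Φ, N, Matrix.sub_apply, Matrix.smul_apply, Matrix.mul_apply, map_mul])
    (he₀ := S.isBasis₀)
    (hbase := fun x j => by
      obtain ⟨r, rfl⟩ := Ideal.Quotient.mk_surjective x
      exact hbase r j)
    (hap := hap)
  set ψ := limitHom S.ψ
  have hψsurj : Function.Surjective ψ := fun b => by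
    choose r hr using fun n => hsurj n b
    exact ⟨ulim r, limitHom_ulim S.ψ S.isLocalHom_ψ r hr⟩
  set Q' := Q.comap mk
  have hker : RingHom.ker ψ ≤ Q' := fun r hr =>
    hannQ (Module.mem_annihilator.2 fun y => by
      rw [hmksmul, show ψ r = 0 from hr, zero_smul])
  have hmem : ∀ r, ψ r ∈ Q'.map ψ ↔ r ∈ Q' := fun r => by
    rw [← Ideal.mem_comap, Ideal.comap_map_of_surjective ψ hψsurj, ← RingHom.ker_eq_comap_bot,
      sup_eq_left.2 hker]
  refine ⟨Q'.map ψ, Ideal.map_isPrime_of_surjective hψsurj hker, fun b hb => ?_,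
    fun i j => (hmem _).2
      (show mk (ι _) ∈ Q from (by simpa using hσQ i j : N v i j ∈ Q)),
    fun r a' hr => (hmem r).trans ?_⟩
  · obtain ⟨r, rfl⟩ := hψsurj b
    exact (hmem r).2 (hannQ (Module.mem_annihilator.2 fun y => by
      rw [hmksmul]; exact Module.mem_annihilator.1 hb y))
  · have := patchAction_ulim_scalar S.isBasis' S.tendsToZero (fun _ => r) a' hr
    rw [ulim_const] at this
    exact hlQ (mk r) a' this

end LoweringSystem

end Fermat.Agent.Engine
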