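import Fermat.Agent.Engine.TwChar
import Fermat.Agent.GalCoh.Descent.LocalClass

/-!
# The characters of one lowering level

Universal characters at the auxiliary primes and a character of order `p` at the prime `v`.
-/

set_option autoImplicit false
set_option linter.unusedSectionVars false

noncomputable section

namespace Fermat.Agent.Engine

open IsLocalRing Fermat.Agent.Deform Fermat.Agent.DefRing

local notation "Qbar" => AlgebraicClosure ℚ
local notation "GQ" => AlgebraicClosure ℚ ≃ₐ[ℚ] AlgebraicClosure ℚ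

variable {O : Type} [CommRing O] {p : ℕ} [Fact p.Prime]

/-- The framed tame elements are tame generators. -/
theorem exists_isTameGenerator [IsLocalRing O] {L₀ : LevelData O} {T : Type} {qv : T → ℕ}
    {frob tame : T → GQ} (hF : FramedPrimes p L₀ qv frob tame) (w : T) :
    ∃ A : ValuationSubring Qbar, A.LiesOverPrime (qv w) ∧
      TameInertia.IsTameGenerator A p (qv w) (tame w) := by
  obtain ⟨A, hA, -, ht, x, hx, hne⟩ := hF.place w
  refine ⟨A, hA, ht, fun y hy hfix => hne ?_⟩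
  have hp0 : p ≠ 0 := (Fact.out : p.Prime).ne_zero
  have hx0 : x ≠ 0 := fun h => by
    rw [h, zero_pow hp0] at hx
    exact Nat.cast_ne_zero.mpr (hF.prime w).ne_zero hx.symm
  have hμ : (x / y) ^ p = 1 := by
    rw [div_pow, hx, hy, div_self (Nat.cast_ne_zero.mpr (hF.prime w).ne_zero)]
  have hy0 : y ≠ 0 := fun h => by
    rw [h, zero_pow hp0] at hy
    exact Nat.cast_ne_zero.mpr (hF.prime w).ne_zero hy.symm
  have h := GalCoh.Descent.inertia_fixes_root (hF.prime w) hA (fun h => hF.ne_p w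
    ((Nat.prime_dvd_prime_iff_eq (hF.prime w) Fact.out).mp h)) ht hμ
  rw [map_div₀, hfix] at h
  rwa [div_left_inj' hy0] at h

variable (O) in
/-- **The characters of one level.** -/
theorem exists_levelChars [IsLocalRing O] {r : ℕ} (n : ℕ) (Q : Fin r → ℕ)
    (hinj : Function.Injective Q) (hQ : ∀ i, (Q i).Prime ∧ Q i ≠ p ∧ p ^ (n + 1) ∣ Q i - 1)
    (tw : Fin r → GQ)
    (htw : ∀ i, ∃ A : ValuationSubring Qbar, A.LiesOverPrime (Q i) ∧
      TameInertia.IsTameGenerator A p (Q i) (tw i))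
    {v : ℕ} (hv : v.Prime) (hvp : v ≠ p) (hv1 : p ∣ v - 1) (hvQ : ∀ i, Q i ≠ v) {σv : GQ}
    (hσv : ∃ A : ValuationSubring Qbar, A.LiesOverPrime v ∧ TameInertia.IsTameGenerator A p v σv)
    {ζ : O} (hζ : ζ ^ p = 1) :
    ∃ ψ : ∀ q : ℕ, (ZMod q)ˣ →* TwQuot O p r n,
      (∀ q, ∀ u, ∃ k : ℕ, ψ q u ^ p ^ k = 1) ∧
      (∀ i, ∀ u, twAug O p r n (ψ (Q i) u) = 1) ∧
      (∀ u, ψ v u - 1 ∈ Ideal.span {twConst O p r n (ζ - 1)}) ∧
      (∀ i, ∃ e : (ZMod (Q i))ˣ, (∀ μ : Qbar, μ ^ Q i = 1 → tw i μ = μ ^ (e : ZMod (Q i)).val) ∧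
        ψ (Q i) e = 1 + twVar O p r n i) ∧
      ∃ e : (ZMod v)ˣ, (∀ μ : Qbar, μ ^ v = 1 → σv μ = μ ^ (e : ZMod v).val) ∧
        ψ v e = twConst O p r n ζ := by
  classical
  have hone : ∀ q, ∃ χ : (ZMod q)ˣ →* TwQuot O p r n, (∀ u, ∃ k : ℕ, χ u ^ p ^ k = 1) ∧
      (∀ i, Q i = q → (∀ u, twAug O p r n (χ u) = 1) ∧ ∃ e : (ZMod q)ˣ,
        (∀ μ : Qbar, μ ^ q = 1 → tw i μ = μ ^ (e : ZMod q).val) ∧ χ e = 1 + twVar O p r n i) ∧
      (q = v → (∀ u, χ u - 1 ∈ Ideal.span {twConst O p r n (ζ - 1)}) ∧ ∃ e : (ZMod q)ˣ,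
        (∀ μ : Qbar, μ ^ q = 1 → σv μ = μ ^ (e : ZMod q).val) ∧ χ e = twConst O p r n ζ) := by
    intro q
    by_cases h : ∃ i, Q i = q
    · obtain ⟨i, rfl⟩ := h
      have : NeZero (Q i) := ⟨(hQ i).1.ne_zero⟩
      obtain ⟨c, hc⟩ := exists_isCycloMod (Q i)
      obtain ⟨A, hA, hτ⟩ := htw i
      obtain ⟨χ, hχ, hpow⟩ := exists_twChar O (r := r) (Fact.out : p.Prime) n (hQ i).1
        (Ne.symm (hQ i).2.1) (hQ i).2.2 hc hA hτ i
      refine ⟨χ, fun u => ⟨n + 1, hpow u⟩, fun j hj => ?_, fun hqv => absurd hqv (hvQ i)⟩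
      obtain rfl := hinj hj
      refine ⟨fun u => ?_, c (tw j), fun μ hμ => hc _ μ hμ, hχ⟩
      obtain ⟨k, w, rfl⟩ := exists_zpow_mul_pow (Fact.out : p.Prime) (hQ j).1 (Ne.symm (hQ j).2.1)
        hc hA hτ (n + 1) u
      rw [map_mul, map_pow, map_pow, hχ, hpow w, mul_one, map_pow, twAug_one_add, one_pow]
    by_cases hqv : q = v
    · subst hqv
      have : NeZero q := ⟨hv.ne_zero⟩
      obtain ⟨c, hc⟩ := exists_isCycloMod q
      obtain ⟨A, hA, hτ⟩ := hσv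
      obtain ⟨χ, hχ, hpow⟩ := exists_char_tame (Fact.out : p.Prime) hv (Ne.symm hvp) (k := 1)
        (by rwa [pow_one]) hc hA hτ (twConst O p r n ζ) (by rw [pow_one, ← map_pow, hζ, map_one])
      refine ⟨χ, fun u => ⟨1, hpow u⟩, fun i hi => absurd ⟨i, hi⟩ h,
        fun _ => ⟨fun u => ?_, c σv, fun μ hμ => hc _ μ hμ, hχ⟩⟩
      obtain ⟨k, w, rfl⟩ := exists_zpow_mul_pow (Fact.out : p.Prime) hv (Ne.symm hvp) hc hA hτ 1 u
      rw [map_mul, map_pow, map_pow, hχ, hpow w, mul_one, ← map_pow, ← map_one (twConst O p r n),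
        ← map_sub]
      refine Ideal.mem_span_singleton.mpr ((twConst O p r n).map_dvd ?_)
      simpa using sub_dvd_pow_sub_pow ζ 1 k
    exact ⟨1, fun u => ⟨0, by simp⟩, fun i hi => absurd ⟨i, hi⟩ h, fun hv' => absurd hv' hqv⟩
  choose ψ hψ using hone
  exact ⟨ψ, fun q => (hψ q).1, fun i => ((hψ (Q i)).2.1 i rfl).1, ((hψ v).2.2 rfl).1,
    fun i => ((hψ (Q i)).2.1 i rfl).2, ((hψ v).2.2 rfl).2⟩

end Fermat.Agent.Engine
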