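import Fermat.Agent.Engine.LoweringGeneral
import Fermat.Agent.Engine.LoweringChars

/-!
# The actions at one lowering level

The two families at level `n`, in bases lifting a basis at the base level: the untwisted one is the
base action modulo the augmentation, the two agree modulo `ζ - 1`, inertia has the expected traces.
-/

set_option autoImplicit false
set_option linter.unusedSectionVars false
set_option linter.style.haveILetI false

noncomputable section

namespace Fermat.Agent.Engine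

open EigenRep HeckeModule IsLocalRing DefRing Deform EigenSystems TRep FlatJ0

local notation "Qbar" => AlgebraicClosure ℚ

variable {p : ℕ} [Fact p.Prime] {O : Type} [CommRing O] [IsDomain O]
  [IsDiscreteValuationRing O] [IsAdicComplete (maximalIdeal O) O] [Finite (ResidueField O)]
  [CharZero O] {ι₀ : ℤ_[p] →+* O} {N₀ : ℕ} [NeZero N₀] {lam : ℕ → O} {r : ℕ} {T : Type} [Fintype T]
  {r₀ : T} {qv : T → ℕ} {frob tame : T → GQ} {Φ₀ : T → Matrix (Fin 2) (Fin 2) O}
  {L₀ : LevelData O} {PB : L₀.RepRing} {v : T} {ζ ζ' : O}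
  [Fact ((p : O) ∈ maximalIdeal O)]

/-- What the families of one level give. -/
structure LevelAct (p : ℕ) [Fact p.Prime] [Fact ((p : O) ∈ maximalIdeal O)] (N₀ : ℕ)
    (X : AuxLevels r r₀ frob tame Φ₀ L₀ PB) (Qn : Finset ℕ) (qv : T → ℕ) (v : T) (ζ ζ' : O)
    (d : ℕ) (act₀ : PB.R →+* Matrix (Fin d) (Fin d) O) (n : ℕ) where
  /-- the twisted algebra -/
  C : Type
  /-- the untwisted algebra -/
  C' : Type
  [commRing : CommRing C]
  [commRing' : CommRing C']
  [algebra : Algebra O C]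
  [algebra' : Algebra O C']
  [isIntegral : Algebra.IsIntegral O C]
  [isIntegral' : Algebra.IsIntegral O C']
  φ : (X.P n).R →ₐ[O] C
  φ' : (X.P n).R →ₐ[O] C'
  π : C →ₐ[O] Matrix (Fin d) (Fin d) (TwQuot O p r n)
  π' : C' →ₐ[O] Matrix (Fin d) (Fin d) (TwQuot O p r n)
  act'_base : ∀ x, (π' (φ' x)).map (twAug O p r n) = act₀ (X.toBase n x)
  congr : ∀ x i j, π (φ x) i j - π' (φ' x) i j ∈ Ideal.span {twConst O p r n (ζ - 1)}
  square : ∀ i, (twVar O p r n i ^ 2 • (1 : Matrix (Fin d) (Fin d) (TwQuot O p r n)) -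
    (1 + twVar O p r n i) • π (φ (((X.P n).rep (X.tw n i)).trace - 2))) ^ d = 0
  square' : ∀ i, (twVar O p r n i ^ 2 • (1 : Matrix (Fin d) (Fin d) (TwQuot O p r n)) -
    (1 + twVar O p r n i) • π' (φ' (((X.P n).rep (X.tw n i)).trace - 2))) ^ d = 0
  trace_v : (π (φ (((X.P n).rep (tame v)).trace)) -
    twConst O p r n (ζ + ζ') • (1 : Matrix (Fin d) (Fin d) (TwQuot O p r n))) ^ d = 0
  unipotent : ∀ w, w ≠ v → π (φ (((X.P n).rep (tame w)).trace - 2)) = 0
  unipotent' : ∀ w, π' (φ' (((X.P n).rep (tame w)).trace - 2)) = 0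
  flat : ∀ (A : ValuationSubring Qbar) (σ : GQ), L₀.D.rbar σ = 1 →
    (∀ (M : ℕ) [NeZero M], IsTopLevel N₀ Qn (qv v) M → σ ∈ torsionKer A p (ModularCurve.JZero M)) →
    ∀ a b, ((X.P n).rep σ - 1) a b ∈ flatIdeal p φ ∧ ((X.P n).rep σ - 1) a b ∈ flatIdeal p φ'

/-- Square relations from a trace of inertia. -/
theorem square_matrix {Λ : Type} [CommRing Λ] {d k : ℕ} {t : Matrix (Fin d) (Fin d) Λ} {s y : Λ}
    (hy : (1 + s) * y = 1) (h : (t - algebraMap Λ _ (1 + s + y)) ^ k = 0) :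
    (s ^ 2 • (1 : Matrix (Fin d) (Fin d) Λ) - (1 + s) • (t - 2)) ^ k = 0 := by
  have e : s ^ 2 • (1 : Matrix (Fin d) (Fin d) Λ) - (1 + s) • (t - 2) =
      (-(1 + s)) • (t - algebraMap Λ _ (1 + s + y)) := by
    rw [Algebra.algebraMap_eq_smul_one, show (2 : Matrix (Fin d) (Fin d) Λ) = (2 : Λ) • 1 by
      rw [two_smul, one_add_one_eq_two], smul_sub, smul_sub, smul_smul, smul_smul, neg_smul,
      show -(1 + s) * (1 + s + y) = -((1 + s) * 2 + s ^ 2) by linear_combination -hy, neg_smul]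
    module
  rw [e, smul_pow, h, smul_zero]

/-- Square relations through two algebra maps. -/
theorem square_matrix_comp {O' R C Λ : Type} [CommRing O'] [CommRing R] [Algebra O' R] [CommRing C]
    [Algebra O' C] [CommRing Λ] [Algebra O' Λ] {d k : ℕ} (φ : R →ₐ[O'] C)
    (G : C →ₐ[O'] Matrix (Fin d) (Fin d) Λ) {t : R} {s y : Λ}
    (hy : (1 + s) * y = 1) (h : (G (φ t) - algebraMap Λ _ (1 + s + y)) ^ k = 0) :
    (s ^ 2 • (1 : Matrix (Fin d) (Fin d) Λ) - (1 + s) • G (φ (t - 2))) ^ k = 0 := by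
  rw [map_sub, map_sub, map_ofNat, map_ofNat]
  exact square_matrix hy h

/-- Trace relations through two algebra maps. -/
theorem trace_matrix_comp {O' R C Λ : Type} [CommRing O'] [CommRing R] [Algebra O' R] [CommRing C]
    [Algebra O' C] [CommRing Λ] [Algebra O' Λ] {d k : ℕ} (φ : R →ₐ[O'] C)
    (G : C →ₐ[O'] Matrix (Fin d) (Fin d) Λ) {t : R} {u u' y : Λ}
    (hy : u * y = 1) (hu : u' * u = 1) (h : (G (φ t) - algebraMap Λ _ (u + y)) ^ k = 0) :
    (G (φ t) - (u + u') • (1 : Matrix (Fin d) (Fin d) Λ)) ^ k = 0 := by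
  have hy' : y = u' := by
    calc y = u' * u * y := by rw [hu, one_mul]
      _ = u' := by rw [mul_assoc, hy, mul_one]
  rwa [← Algebra.algebraMap_eq_smul_one, ← hy']

/-- Vanishing through two algebra maps. -/
theorem map_comp_sub_two {O' R C Λ : Type} [CommRing O'] [CommRing R] [Algebra O' R] [CommRing C]
    [Algebra O' C] [CommRing Λ] [Algebra O' Λ] {d : ℕ} (φ : R →ₐ[O'] C)
    (G : C →ₐ[O'] Matrix (Fin d) (Fin d) Λ) {t : R} (h : φ t = 2) : G (φ (t - 2)) = 0 := by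
  rw [map_sub, h, map_ofNat, sub_self, map_zero]

variable (H : LoweringSetting p ι₀ N₀ lam qv L₀ frob tame v ζ ζ')
  (hplace : TopPlaceHyp p ι₀ N₀ lam L₀)
  (hneb : ∀ (O' : Type) [CommRing O'] [IsDomain O'] [IsDiscreteValuationRing O']
    [IsAdicComplete (maximalIdeal O') O'] [Finite (ResidueField O')] [CharZero O'],
    (p : O') ∈ maximalIdeal O' → ∀ N : ℕ, N ≠ 0 → ∀ q, NebentypusInertia O' p N q)

include H hplace hneb

/-- **The two actions of one level.** -/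
theorem LoweringSetting.exists_levelAct {X : AuxLevels r r₀ frob tame Φ₀ L₀ PB}
    {Q : ℕ → Fin r → ℕ} (hX : AuxPrimes p X Q) {d : ℕ} (hd : d ≠ 0)
    (b₀ : Module.Basis (Fin d) O (CohLoc
      (awayMonoid (lamIdeal (Λ := O) (residue_surjective (R := O)) L₀.Sigma lam))
      (scalarRep (1 : (ZMod N₀)ˣ →* O) O)))
    [Nontrivial (TwAlg (Λ := O) (residue_surjective (R := O)) L₀.Sigma lam (fun _ => 1) ∅
      (fun _ : Unit => N₀))]
    (G₀ : TwAlg (Λ := O) (residue_surjective (R := O)) L₀.Sigma lam (fun _ => 1) ∅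
      (fun _ : Unit => N₀) →ₐ[O] Matrix (Fin d) (Fin d) O)
    (hG₀ : ∀ l : AwayIndex (↑L₀.Sigma : Set ℕ),
      G₀ (twClass (Λ := O) (residue_surjective (R := O)) L₀.Sigma lam (fun _ => 1) ∅
          (fun _ : Unit => N₀) (MvPolynomial.X l)) =
        LinearMap.toMatrix b₀ b₀ (Algebra.lsmul O O (CohLoc
          (awayMonoid (lamIdeal (Λ := O) (residue_surjective (R := O)) L₀.Sigma lam))
          (scalarRep (1 : (ZMod N₀)ˣ →* O) O)) (A := HeckePoly O) (MvPolynomial.X l.1)))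
    (φ₀ : PB.R →ₐ[O] TwAlg (Λ := O) (residue_surjective (R := O)) L₀.Sigma lam (fun _ => 1) ∅
      (fun _ : Unit => N₀))
    (hφ₀ : IsLocalHom (φ₀ : PB.R →+* TwAlg (Λ := O) (residue_surjective (R := O)) L₀.Sigma lam
      (fun _ => 1) ∅ (fun _ : Unit => N₀)))
    (hfrob₀ : ∀ (ℓ : ℕ) (hℓ : ℓ.Prime) (hℓS : ℓ ∉ (↑L₀.Sigma : Set ℕ)),
      ∀ A : ValuationSubring Qbar, A.LiesOverPrime ℓ → ∀ σ : GQ, A.IsFrobeniusAt σ ℓ →
      φ₀ (PB.rep σ).trace = twClass (Λ := O) (residue_surjective (R := O)) L₀.Sigma lam (fun _ => 1)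
        ∅ (fun _ : Unit => N₀) (MvPolynomial.X ⟨⟨ℓ, hℓ⟩, hℓS⟩))
    (n : ℕ) :
    Nonempty (LevelAct p N₀ X (Finset.univ.image (Q n)) qv v ζ ζ' d
      ((G₀.comp φ₀).toRingHom) n) := by
  classical
  haveI : NeZero d := ⟨hd⟩
  haveI : Nonempty (Fin d) := ⟨0⟩
  haveI : CharP (ResidueField O) p := (CharP.charP_iff_prime_eq_zero Fact.out).mpr (by
    rw [← map_natCast (residue O)]; exact (residue_eq_zero_iff _).mpr H.p_mem)
  set Qn := Finset.univ.image (Q n) with hQn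
  have hQmem : ∀ q ∈ Qn, ∃ i, Q n i = q := fun q hq => by
    obtain ⟨i, -, rfl⟩ := Finset.mem_image.mp hq
    exact ⟨i, rfl⟩
  have hQ : ∀ q ∈ Qn, q.Prime ∧ q ≠ p ∧ q ∉ L₀.Sigma := fun q hq => by
    obtain ⟨i, rfl⟩ := hQmem q hq
    exact ⟨hX.prime n i, hX.ne_p n i, hX.not_mem n i⟩
  have hQ1 : ∀ q ∈ Qn, q.Prime ∧ q ≠ p ∧ q ∉ L₀.Sigma ∧ p ∣ q - 1 := fun q hq => by
    obtain ⟨i, rfl⟩ := hQmem q hq
    exact ⟨hX.prime n i, hX.ne_p n i, hX.not_mem n i,
      (dvd_pow_self p n.succ_ne_zero).trans (hX.dvd_sub_one n i)⟩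
  have hQi : ∀ i, Q n i ∈ Qn := fun i => Finset.mem_image_of_mem _ (Finset.mem_univ i)
  -- the coefficient ring and the characters
  have hCo : ∀ o : O, twAug O p r n (algebraMap O (TwQuot O p r n) o) = o := fun o =>
    (Ideal.Quotient.lift_mk (twIdeal O p r n) _ _).trans (MvPowerSeries.constantCoeff_C o)
  let Λ := TwQuot O p r n
  have hlocΛ : IsLocalHom (algebraMap O Λ) := ⟨fun o ho => by
    have := ho.map (twAug O p r n)
    rwa [hCo] at this⟩
  haveI := hlocΛ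
  let σ : Λ →ₐ[O] O := { twAug O p r n with
    commutes' := hCo }
  have hσs : Function.Surjective σ := fun o => ⟨algebraMap O Λ o, σ.commutes o⟩
  have hσ : IsLocalHom (σ : Λ →+* O) := isLocalHom_of_finite inferInstance σ
  let hsO : Function.Surjective (residue O ∘ algebraMap O O) := residue_surjective (R := O)
  have hsΛ : Function.Surjective (residue Λ ∘ algebraMap O Λ) := by
    intro y
    obtain ⟨x, rfl⟩ := Ideal.Quotient.mk_surjective y
    refine ⟨σ x, (Ideal.Quotient.mk_eq_mk_iff_sub_mem _ _).mpr fun hu => ?_⟩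
    have := hu.map σ
    rw [map_sub, AlgHom.commutes, Algebra.algebraMap_self, RingHom.id_apply, sub_self] at this
    exact not_isUnit_zero this
  obtain ⟨ψ, hψp, hψQ, hψv, hψe, hψve⟩ := exists_levelChars O (p := p) n (Q n) (hX.injective n)
    (fun i => ⟨hX.prime n i, hX.ne_p n i, hX.dvd_sub_one n i⟩) (X.tw n) (hX.tame_generator n)
    (H.framed.prime v) (H.framed.ne_p v) H.one_mod
    (fun i h => H.v_not_mem hQ (h ▸ hQi i)) (exists_isTameGenerator H.framed v) H.zeta_pow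
  have hψσ : ∀ q ∈ Qn, ∀ u, σ (ψ q u) = 1 := fun q hq u => by
    obtain ⟨i, rfl⟩ := hQmem q hq
    exact hψQ i u
  -- the reduction modulo `ζ - 1`
  let I : Ideal Λ := Ideal.span {twConst O p r n (ζ - 1)}
  have hI : I ≤ maximalIdeal Λ := (Ideal.span_singleton_le_iff_mem _).mpr fun hu =>
    H.zeta_mem (hlocΛ.map_nonunit _ hu)
  letI : CommRing (Λ ⧸ I) := Ideal.Quotient.commRing I
  haveI : Nontrivial (Λ ⧸ I) := Ideal.Quotient.nontrivial_iff.mpr fun h =>
    (maximalIdeal.isMaximal Λ).ne_top (top_le_iff.mp (h ▸ hI))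
  haveI : IsLocalRing (Λ ⧸ I) := IsLocalRing.of_surjective' _ Ideal.Quotient.mk_surjective
  haveI := isAdicComplete_maximalIdeal_of_finite Λ (Λ ⧸ I)
  let π : Λ →ₐ[O] Λ ⧸ I := Ideal.Quotient.mkₐ O I
  have hπs : Function.Surjective π := Ideal.Quotient.mkₐ_surjective O I
  have hπl : IsLocalHom (π : Λ →+* Λ ⧸ I) :=
    ⟨fun a ha => by
      obtain ⟨b', hb'⟩ := ha.exists_right_inv
      obtain ⟨b, rfl⟩ := hπs b'
      have h1 : a * b - 1 ∈ I := (Ideal.Quotient.mk_eq_mk_iff_sub_mem _ _).mp (by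
        rw [map_mul, map_one]; exact hb')
      by_contra hna
      refine (maximalIdeal.isMaximal Λ).ne_top ((Ideal.eq_top_iff_one _).mpr ?_)
      have := sub_mem (Ideal.mul_mem_right b _ hna) (hI h1)
      rwa [sub_sub_cancel] at this⟩
  haveI : IsLocalHom (algebraMap O (Λ ⧸ I)) := ⟨fun o ho => hlocΛ.map_nonunit o
    (hπl.map_nonunit _ (show IsUnit (π (algebraMap O Λ o)) by rwa [π.commutes]))⟩
  have hsπ : Function.Surjective (residue (Λ ⧸ I) ∘ algebraMap O (Λ ⧸ I)) := by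
    intro y
    obtain ⟨x, rfl⟩ := Ideal.Quotient.mk_surjective y
    obtain ⟨x, rfl⟩ := hπs x
    obtain ⟨o, ho⟩ := hsΛ (residue Λ x)
    refine ⟨o, (Ideal.Quotient.mk_eq_mk_iff_sub_mem _ _).mpr fun hu => ?_⟩
    rw [← π.commutes, ← map_sub] at hu
    exact (Ideal.Quotient.mk_eq_mk_iff_sub_mem _ _).mp ho (hπl.map_nonunit _ hu)
  have hπv : ∀ u, π (ψ (qv v) u) = 1 := fun u => by
    rw [← map_one π]
    exact (Ideal.Quotient.mk_eq_mk_iff_sub_mem _ _).mpr (hψv u)
  obtain ⟨W⟩ := H.exists_generalAct hplace hneb hsΛ hsπ σ hσs π hπl hπs (Qn := Qn) hQ1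
    (fun q hq => by obtain ⟨i, rfl⟩ := hQmem q hq; exact hX.distinct n i)
    (X.P n) (hX.sigma_eq n).ge (X.toBase n) (X.toBase_isLocalHom n)
    (fun τ => by
      rw [← X.toBase_rep n τ]
      exact AddMonoidHom.map_trace (X.toBase n).toRingHom.toAddMonoidHom _)
    ψ hψp hψσ hπv hd hsO b₀ G₀ hG₀ φ₀ hφ₀ hfrob₀
  letI := W.commRing
  letI := W.commRing'
  letI := W.algebra
  letI := W.algebra'
  haveI := W.isIntegral
  haveI := W.isIntegral'
  have hcongr : ∀ x i j, W.G (W.φ x) i j - W.G' (W.φ' x) i j ∈ I := fun x i j =>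
    (Ideal.Quotient.mk_eq_mk_iff_sub_mem _ _).mp (congrFun (congrFun (W.congr_eq x) i) j)
  have hsq : ∀ i, (twVar O p r n i ^ 2 • (1 : Matrix (Fin d) (Fin d) (TwQuot O p r n)) -
      (1 + twVar O p r n i) • W.G (W.φ (((X.P n).rep (X.tw n i)).trace - 2))) ^ d = 0 := fun i => by
    obtain ⟨A, hPl, hτ⟩ := hX.tame_generator n i
    obtain ⟨e, he, heψ⟩ := hψe i
    obtain ⟨y, hy, h⟩ := W.char (Q n i) (Finset.mem_insert_of_mem (hQi i)) A hPl _ hτ.1 e he
    rw [heψ] at hy h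
    exact square_matrix_comp W.φ W.G hy h
  have hsq' : ∀ i, (twVar O p r n i ^ 2 • (1 : Matrix (Fin d) (Fin d) (TwQuot O p r n)) -
      (1 + twVar O p r n i) • W.G' (W.φ' (((X.P n).rep (X.tw n i)).trace - 2))) ^ d = 0 :=
    fun i => by
    obtain ⟨A, hPl, hτ⟩ := hX.tame_generator n i
    obtain ⟨e, he, heψ⟩ := hψe i
    obtain ⟨y, hy, h⟩ := W.char' (Q n i) (hQi i) A hPl _ hτ.1 e he
    rw [heψ] at hy h
    exact square_matrix_comp W.φ' W.G' hy h
  have htv : (W.G (W.φ (((X.P n).rep (tame v)).trace)) -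
      twConst O p r n (ζ + ζ') • (1 : Matrix (Fin d) (Fin d) (TwQuot O p r n))) ^ d = 0 := by
    obtain ⟨A, hPl, hτ⟩ := exists_isTameGenerator H.framed v
    obtain ⟨e, he, heψ⟩ := hψve
    obtain ⟨y, hy, h⟩ := W.char (qv v) (Finset.mem_insert_self _ _) A hPl _ hτ.1 e he
    rw [heψ] at hy h
    rw [map_add]
    exact trace_matrix_comp W.φ W.G hy
      (by rw [← map_mul, mul_comm ζ', H.zeta_mul, map_one]) h
  exact ⟨{
    C := W.C
    C' := W.C'
    φ := W.φ
    φ' := W.φ'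
    π := W.G
    π' := W.G'
    act'_base := fun x => W.base_eq x
    congr := hcongr
    square := hsq
    square' := hsq'
    trace_v := htv
    unipotent := fun w hw => map_comp_sub_two W.φ W.G (by
      obtain ⟨A, hPl, hτ⟩ := exists_isTameGenerator H.framed w
      exact W.exact_trace (qv w) (H.framed.prime w) (H.framed.ne_p w) (H.not_sq w)
        (fun h => (hQ _ h).2.2 (H.sigma_qv w)) (fun h => hw (H.qv_inj h)) A hPl _ hτ.1)
    unipotent' := fun w => map_comp_sub_two W.φ' W.G' (by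
      obtain ⟨A, hPl, hτ⟩ := exists_isTameGenerator H.framed w
      exact W.exact_trace' (qv w) (H.framed.prime w) (H.framed.ne_p w) (H.not_sq w)
        (fun h => (hQ _ h).2.2 (H.sigma_qv w)) A hPl _ hτ.1)
    flat := fun A τ hτ hM a b => W.flat A τ hτ hM a b }⟩

end Fermat.Agent.Engine
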