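import Fermat.Agent.Engine.LoweringLevelData
import Fermat.Agent.Engine.FlatLevels

/-!
# Arithmetic of the lowering levels

Level `n` is `M = N₀ ∏ q`, with characters at the auxiliary primes and, for the twisted family, at
the prime `qv v` as well.  Also: images of the characters under a map trivialising them.
-/

set_option autoImplicit false
set_option linter.unusedSectionVars false

noncomputable section

namespace Fermat.Agent.Engine

open EigenRep HeckeModule IsLocalRing DefRing Deform EigenSystems TRep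

local notation "Qbar" => AlgebraicClosure ℚ

/-- Characters trivialised by a map have trivial squares of products. -/
theorem map_charSq_eq_one {R S : Type} [CommRing R] [CommRing S] (f : R →+* S)
    (ψ : ∀ q : ℕ, (ZMod q)ˣ →* R) (Q : Finset ℕ) (h : ∀ q ∈ Q, ∀ u, f (ψ q u) = 1) (M : ℕ)
    (u : (ZMod M)ˣ) : f (charSq ψ Q M u) = 1 := by
  rw [charSq_apply, map_prod]
  refine Finset.prod_eq_one fun q hq => ?_
  unfold charOn
  split
  · rw [map_pow, MonoidHom.comp_apply, h q hq, one_pow]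
  · simp

/-- Characters trivialised by a map have trivial products at primes. -/
theorem map_charProd_eq_one {R S : Type} [CommRing R] [CommRing S] (f : R →+* S)
    (ψ : ∀ q : ℕ, (ZMod q)ˣ →* R) (Q : Finset ℕ) (h : ∀ q ∈ Q, ∀ u, f (ψ q u) = 1) (ℓ : ℕ) :
    f (charProd ψ Q ℓ) = 1 := by
  rw [charProd, map_prod]
  refine Finset.prod_eq_one fun q hq => ?_
  unfold charAt
  split
  · exact h q hq _
  · exact map_one f

/-- A nilpotent matrix over a reduced ring. -/
theorem matrix_pow_eq_zero {Λ : Type} [CommRing Λ] [IsReduced Λ] [Nontrivial Λ] {d : ℕ}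
    {A : Matrix (Fin d) (Fin d) Λ} (hA : IsNilpotent A) : A ^ d = 0 := by
  have h := pow_eq_zero_of_isNilpotent_end (hA.map Matrix.toLinAlgEquiv')
    (D := d) (by simp)
  rw [← map_pow] at h
  exact (map_eq_zero_iff _ (Matrix.toLinAlgEquiv' (R := Λ) (n := Fin d)).injective).mp h

/-- The image of a scaled matrix. -/
theorem map_algebraMap_mul {R S : Type} [CommRing R] [CommRing S] (f : R →+* S) {d : ℕ} (c : R)
    (A : Matrix (Fin d) (Fin d) R) :
    (algebraMap R (Matrix (Fin d) (Fin d) R) c * A).map f = f c • A.map f := by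
  rw [← Algebra.smul_def]
  ext i j
  simp

/-- The determinant of the residual representation is the cyclotomic character modulo `p`. -/
theorem isCyclotomicModP_residue {O : Type} [CommRing O] [IsLocalRing O] {p : ℕ} [Fact p.Prime]
    [CharP (ResidueField O) p] (ι₀ : ℤ_[p] →+* O) :
    IsCyclotomicModP p fun σ => residue O (ι₀ (epsilonPadic p σ : ℤ_[p])) := by
  intro σ a ha
  obtain ⟨ζ, hζ⟩ := exists_primitiveRoot (p := p) 1
  have h := toZModPow_epsilon_eq hζ (ha ζ (by simpa using hζ.pow_eq_one))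
  rw [← map_natCast (PadicInt.toZModPow (p := p) 1), ← sub_eq_zero, ← map_sub, ← RingHom.mem_ker,
    PadicInt.ker_toZModPow, Ideal.mem_span_singleton] at h
  obtain ⟨c, hc⟩ := h
  have h1 := congrArg (fun z => residue O (ι₀ z)) hc
  simp only [map_sub, map_natCast, map_mul, pow_one, CharP.cast_eq_zero (ResidueField O) p,
    zero_mul, sub_eq_zero] at h1
  exact h1

/-- A matrix action of a nonzero size makes the algebra nontrivial. -/
theorem nontrivial_of_action {Λ : Type} [CommRing Λ] [Nontrivial Λ] {C : Type} [Ring C]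
    [Algebra Λ C] {d : ℕ} (hd : d ≠ 0) (G : C →ₐ[Λ] Matrix (Fin d) (Fin d) Λ) : Nontrivial C :=
  haveI : NeZero d := ⟨hd⟩
  haveI : Nonempty (Fin d) := ⟨0⟩
  G.toRingHom.domain_nontrivial

section Arith

variable {p : ℕ} [Fact p.Prime] {O : Type} [CommRing O] [IsLocalRing O] {ι₀ : ℤ_[p] →+* O}
  {N₀ : ℕ} [NeZero N₀] {lam : ℕ → O} {T : Type} {qv : T → ℕ} {L₀ : LevelData O}
  {frob tame : T → GQ} {v : T} {ζ ζ' : O}
  (H : LoweringSetting p ι₀ N₀ lam qv L₀ frob tame v ζ ζ') {Qn : Finset ℕ}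
  (hQ : ∀ q ∈ Qn, q.Prime ∧ q ≠ p ∧ q ∉ L₀.Sigma)

include H hQ

/-- The prime `v` is not auxiliary. -/
theorem LoweringSetting.v_not_mem : qv v ∉ Qn := fun h => (hQ _ h).2.2 (H.sigma_qv v)

/-- A prime outside `Qn` does not divide their product. -/
theorem LoweringSetting.not_dvd_prod {q : ℕ} (hq : q.Prime) (h : q ∉ Qn) :
    ¬ q ∣ ∏ x ∈ Qn, x := fun hd => by
  obtain ⟨x, hx, hd⟩ := (Prime.dvd_finsetProd_iff hq.prime _).mp hd
  exact h ((Nat.prime_dvd_prime_iff_eq hq (hQ x hx).1).mp hd ▸ hx)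

/-- The primes dividing a level lie in `Sigma` or `Qn`. -/
theorem LoweringSetting.prime_dvd_level {ℓ : ℕ} (hℓ : ℓ.Prime) {W : Finset ℕ}
    (hW : W ⊆ insert (qv v) Qn) (h : ℓ ∣ ((∏ x ∈ Qn, x) * N₀) * (∏ x ∈ W, x) * p) :
    ℓ ∈ L₀.Sigma ∪ Qn := by
  rcases hℓ.dvd_mul.mp h with h | h
  · rcases hℓ.dvd_mul.mp h with h | h
    · rcases hℓ.dvd_mul.mp h with h | h
      · by_contra hn
        exact H.not_dvd_prod hQ hℓ (fun hm => hn (Finset.mem_union_right _ hm)) h
      · exact Finset.mem_union_left _ (H.sigma ℓ hℓ (h.mul_right p))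
    · obtain ⟨x, hx, hd⟩ := (Prime.dvd_finsetProd_iff hℓ.prime _).mp h
      rcases Finset.mem_insert.mp (hW hx) with rfl | hxQ
      · rw [(Nat.prime_dvd_prime_iff_eq hℓ (H.framed.prime v)).mp hd]
        exact Finset.mem_union_left _ (H.sigma_qv v)
      · rw [(Nat.prime_dvd_prime_iff_eq hℓ (hQ x hxQ).1).mp hd]
        exact Finset.mem_union_right _ hxQ
  · exact Finset.mem_union_left _ (H.sigma ℓ hℓ (h.trans (dvd_mul_left p N₀)))

/-- A prime outside `Qn`, other than `qv v` when `qv v` is a character prime, stays exact. -/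
theorem LoweringSetting.not_sq_dvd_level {q : ℕ} (hq : q.Prime) (hqQ : q ∉ Qn)
    (h2 : ¬ q * q ∣ N₀) {W : Finset ℕ} (hW : W ⊆ insert (qv v) Qn) (hqW : q ∉ W) :
    ¬ q * q ∣ ((∏ x ∈ Qn, x) * N₀) * ∏ x ∈ W, x := by
  intro h
  have hWq : ¬ q ∣ ∏ x ∈ W, x := fun hd => by
    obtain ⟨x, hx, hd⟩ := (Prime.dvd_finsetProd_iff hq.prime _).mp hd
    refine hqW ?_
    rcases Finset.mem_insert.mp (hW hx) with rfl | hxQ
    · exact (Nat.prime_dvd_prime_iff_eq hq (H.framed.prime v)).mp hd ▸ hx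
    · exact (Nat.prime_dvd_prime_iff_eq hq (hQ x hxQ).1).mp hd ▸ hx
  have hc1 := (Nat.Prime.coprime_iff_not_dvd hq).mpr hWq
  have hc2 := (Nat.Prime.coprime_iff_not_dvd hq).mpr (H.not_dvd_prod hQ hq hqQ)
  exact h2 ((Nat.Coprime.mul_left hc2 hc2).dvd_of_dvd_mul_left
    ((Nat.Coprime.mul_left hc1 hc1).dvd_of_dvd_mul_right h))

/-- The two families of one level. -/
theorem LoweringSetting.levelArith {Λ : Type} [CommRing Λ] (ψ : ∀ q : ℕ, (ZMod q)ˣ →* Λ)
    (hψ : ∀ q, ∀ u, ∃ k : ℕ, ψ q u ^ p ^ k = 1) {W : Finset ℕ} (hW : W ⊆ insert (qv v) Qn) :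
    LevelArith p N₀ L₀ (L₀.Sigma ∪ Qn) W ((∏ x ∈ Qn, x) * N₀) ψ where
  dvd := (dvd_mul_left _ _).mul_right _
  p_not_dvd := by
    rw [mul_right_comm, Nat.mul_div_cancel _ (Nat.pos_of_ne_zero (NeZero.ne N₀))]
    intro h
    rcases (Fact.out : p.Prime).dvd_mul.mp h with h | h
    · exact H.not_dvd_prod hQ Fact.out (fun hp => (hQ p hp).2.1 rfl) h
    · obtain ⟨x, hx, hd⟩ := (Prime.dvd_finsetProd_iff (Fact.out : p.Prime).prime _).mp h
      rcases Finset.mem_insert.mp (hW hx) with rfl | hxQ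
      · exact H.framed.ne_p v ((Nat.prime_dvd_prime_iff_eq Fact.out (H.framed.prime v)).mp hd).symm
      · exact (hQ x hxQ).2.1 ((Nat.prime_dvd_prime_iff_eq Fact.out (hQ x hxQ).1).mp hd).symm
  aux q hq := by
    rcases Finset.mem_insert.mp (hW hq) with rfl | hqQ
    · have hc := (Nat.Prime.coprime_iff_not_dvd (H.framed.prime v)).mpr
        (H.not_dvd_prod hQ (H.framed.prime v) (H.v_not_mem hQ))
      exact ⟨H.framed.prime v, H.dvd.mul_left _, fun h =>
        H.not_sq v ((hc.mul_left hc).dvd_of_dvd_mul_left h)⟩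
    · refine ⟨(hQ q hqQ).1, (Finset.dvd_prod_of_mem _ hqQ).mul_right _, fun h => ?_⟩
      have hqN : ¬ q ∣ N₀ := fun h => (hQ q hqQ).2.2 (H.sigma q (hQ q hqQ).1 (h.mul_right p))
      have hqE : ¬ q ∣ ∏ x ∈ Qn.erase q, x := fun hd => by
        obtain ⟨x, hx, hd⟩ := (Prime.dvd_finsetProd_iff (hQ q hqQ).1.prime _).mp hd
        exact Finset.ne_of_mem_erase hx ((Nat.prime_dvd_prime_iff_eq (hQ q hqQ).1
          (hQ x (Finset.mem_of_mem_erase hx)).1).mp hd).symm
      rw [← Finset.mul_prod_erase Qn (fun x => x) hqQ, mul_assoc] at h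
      rcases ((hQ q hqQ).1.dvd_mul.mp (Nat.dvd_of_mul_dvd_mul_left (hQ q hqQ).1.pos h)) with h | h
      exacts [hqE h, hqN h]
  sub := Finset.subset_union_left
  mem_S ℓ hℓ h := H.prime_dvd_level hQ hℓ hW h
  smin q hq := by
    obtain ⟨hqp, -, hq2, hqS⟩ := H.smin q hq
    have hqQ : q ∉ Qn := fun h => (hQ q h).2.2 hqS
    refine H.not_sq_dvd_level hQ hqp hqQ hq2 hW fun h => ?_
    rcases Finset.mem_insert.mp (hW h) with rfl | h'
    exacts [H.smin_v hq, hqQ h']
  pow_one q _ u := hψ q u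

end Arith

end Fermat.Agent.Engine
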