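import Fermat.Agent.Engine.LiftingFraming
import Fermat.Agent.Engine.Lowering

/-!
# Lowering from the modules of auxiliary levels

`LoweringLevels.exists_prime`: a prime of the base ring, over zero in `O`, of the module without
character at which the tame generator at `v` is trivial.
-/

set_option autoImplicit false

noncomputable section

namespace Fermat.Agent.Engine

open IsLocalRing Filter Patch Fermat.Agent.Deform Fermat.Agent.DefRing

section Congr

/-- Evaluations congruent on constants are congruent. -/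
theorem matEval_congr {B : Type} [CommRing B] {σ : Type} [Finite σ] {A : Type} [CommRing A]
    [IsLocalRing A] [IsNoetherianRing A] {d : ℕ}
    {Φ Ψ : MvPowerSeries σ B →+* Matrix (Fin d) (Fin d) A} (c : σ → A)
    (hc : ∀ i, c i ∈ maximalIdeal A)
    (hΦ : ∀ i, Φ (MvPowerSeries.X i) = c i • (1 : Matrix (Fin d) (Fin d) A))
    (hΨ : ∀ i, Ψ (MvPowerSeries.X i) = c i • (1 : Matrix (Fin d) (Fin d) A))
    {J : Ideal A} (hJ : J ≠ ⊤)
    (hC : ∀ b i j, Φ (MvPowerSeries.C b) i j - Ψ (MvPowerSeries.C b) i j ∈ J)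
    (f : MvPowerSeries σ B) (i j : Fin d) : Φ f i j - Ψ f i j ∈ J := by
  have : Nontrivial (A ⧸ J) := Ideal.Quotient.nontrivial_iff.2 hJ
  have : IsLocalRing (A ⧸ J) := .of_surjective' _ Ideal.Quotient.mk_surjective
  have : IsLocalHom (Ideal.Quotient.mk J) :=
    IsLocalHom.of_surjective _ Ideal.Quotient.mk_surjective
  have hs : ∀ a : A, (Ideal.Quotient.mk J).mapMatrix (a • (1 : Matrix (Fin d) (Fin d) A)) =
      Ideal.Quotient.mk J a • 1 := fun a => by
    ext i j
    simp [Matrix.one_apply, apply_ite (Ideal.Quotient.mk J)]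
  have h := matEval_unique (Φ := (Ideal.Quotient.mk J).mapMatrix.comp Φ)
    (Ψ := (Ideal.Quotient.mk J).mapMatrix.comp Ψ) (fun k => Ideal.Quotient.mk J (c k))
    (fun k => map_nonunit (Ideal.Quotient.mk J) _ (hc k))
    (fun k => by rw [RingHom.comp_apply, hΦ, hs]) (fun k => by rw [RingHom.comp_apply, hΨ, hs])
    fun b => Matrix.ext fun i j => Ideal.Quotient.eq.2 (hC b i j)
  exact Ideal.Quotient.eq.1 (congrFun (congrFun (RingHom.congr_fun h f) i) j)

end Congr

section Nilpotent

/-- Generators with powers in an ideal generate with bounded nilpotency over it. -/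
theorem sup_span_image_pow_le {R : Type*} [CommRing R] (J : Ideal R) {α : Type*} (f : α → R)
    (k : α → ℕ) (s : Finset α) (h : ∀ a ∈ s, f a ^ k a ∈ J) :
    (J ⊔ Ideal.span (f '' (s : Set α))) ^ (∑ a ∈ s, k a + 1) ≤ J := by
  classical
  induction s using Finset.induction_on with
  | empty => simp
  | insert a s ha ih =>
    rw [Finset.coe_insert, Set.image_insert_eq, Finset.sum_insert ha, Ideal.span_insert,
      sup_left_comm, add_assoc]
    refine (Ideal.sup_pow_add_le_pow_sup_pow).trans (sup_le ?_ (ih fun b hb => h b (by simp [hb])))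
    rw [Ideal.span_singleton_pow, Ideal.span_le, Set.singleton_subset_iff]
    exact h a (by simp)

end Nilpotent

namespace AuxLevels

variable {O : Type} [CommRing O] [IsDomain O] [IsDiscreteValuationRing O]
  [IsAdicComplete (maximalIdeal O) O] {r : ℕ} {T : Type} [Fintype T] {r₀ : T}
  {frob tame : T → GQ} {Φ₀ : T → Matrix (Fin 2) (Fin 2) O} {L₀ : LevelData O} {PB : L₀.RepRing}
  (X : AuxLevels r r₀ frob tame Φ₀ L₀ PB) (n p : ℕ)

/-- Congruent actions stay congruent with frames. -/
theorem fullAct_congr {d : ℕ} {act act' : (X.P n).R →+* Matrix (Fin d) (Fin d) (TwQuot O p r n)}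
    {c : O} (hc : c ∈ maximalIdeal O)
    (h : ∀ b i j, act b i j - act' b i j ∈ Ideal.span {twConst O p r n c})
    (t : ExtRing O T r X.nExtra X.g) (i j : Fin d) :
    X.fullAct n p act t i j - X.fullAct n p act' t i j ∈
      Ideal.span {Ideal.Quotient.mk (levelIdeal O p r r₀ n) (MvPowerSeries.C c)} := by
  set J : Ideal (Coeff (O := O) (r := r) (r₀ := r₀) n p) :=
    Ideal.span {Ideal.Quotient.mk (levelIdeal O p r r₀ n) (MvPowerSeries.C c)}
  have hJ : J ≠ ⊤ := by
    rw [Ne, Ideal.span_singleton_eq_top]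
    have : IsLocalHom (Ideal.Quotient.mk (levelIdeal O p r r₀ n)) :=
      IsLocalHom.of_surjective _ Ideal.Quotient.mk_surjective
    refine map_nonunit (Ideal.Quotient.mk (levelIdeal O p r r₀ n)) _ ?_
    rw [DefRing.mem_maximalIdeal_iff_constantCoeff, MvPowerSeries.constantCoeff_C]
    exact hc
  have h2 : ∀ f i j, X.framedAct n p act f i j - X.framedAct n p act' f i j ∈ J :=
    matEval_congr _ (by exact fun y => mk_X_mem n p (Sum.inr y)) (X.framedAct_X n p act)
      (X.framedAct_X n p act') hJ fun b i j => by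
        rw [framedAct_C, framedAct_C, Matrix.map_apply, Matrix.map_apply, ← map_sub]
        obtain ⟨w, hw⟩ := Ideal.mem_span_singleton'.1 (h b i j)
        rw [← hw, map_mul, twEmbed_const]
        exact Ideal.mul_mem_left _ _ (Ideal.mem_span_singleton_self _)
  exact matEval_congr _ (by exact fun y => mk_X_mem n p (Sum.inl y))
    (X.exists_diamondAct n p act).choose_spec.2 (X.exists_diamondAct n p act').choose_spec.2 hJ
    (fun f i j => by
      rw [(X.exists_diamondAct n p act).choose_spec.1, (X.exists_diamondAct n p act').choose_spec.1]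
      exact h2 f i j) (X.extMap n t) i j

/-- The reduction of a maximal element of the auxiliary coefficient ring is maximal. -/
theorem twEmbed_mem_maximalIdeal {x : TwQuot O p r n} (hx : twAug O p r n x ∈ maximalIdeal O) :
    twEmbed (r₀ := r₀) n p x ∈ maximalIdeal (Coeff (O := O) (r := r) (r₀ := r₀) n p) := by
  obtain ⟨f, rfl⟩ := Ideal.Quotient.mk_surjective x
  have hf : f ∈ maximalIdeal (MvPowerSeries (Fin r) O) :=
    (DefRing.mem_maximalIdeal_iff_constantCoeff f).2 hx
  suffices key : (maximalIdeal (MvPowerSeries (Fin r) O)).map ((twEmbed (r₀ := r₀) n p).comp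
      (Ideal.Quotient.mk (twIdeal O p r n))) ≤
        maximalIdeal (Coeff (O := O) (r := r) (r₀ := r₀) n p) from
    key (Ideal.mem_map_of_mem _ hf)
  refine (Ideal.map_mono maximalIdeal_mvPowerSeries_le).trans ?_
  rw [Ideal.map_sup, Ideal.map_map, Ideal.map_span]
  refine sup_le (Ideal.map_le_iff_le_comap.2 fun o ho => ?_) (Ideal.span_le.2 ?_)
  · show twEmbed (r₀ := r₀) n p (twConst O p r n o) ∈
      maximalIdeal (Coeff (O := O) (r := r) (r₀ := r₀) n p)
    rw [twEmbed_const]
    have : IsLocalHom (Ideal.Quotient.mk (levelIdeal O p r r₀ n)) :=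
      IsLocalHom.of_surjective _ Ideal.Quotient.mk_surjective
    refine map_nonunit (Ideal.Quotient.mk (levelIdeal O p r r₀ n)) _ ?_
    rw [DefRing.mem_maximalIdeal_iff_constantCoeff, MvPowerSeries.constantCoeff_C]
    exact ho
  · rintro _ ⟨_, ⟨i, rfl⟩, rfl⟩
    show twEmbed (r₀ := r₀) n p (twVar O p r n i) ∈
      maximalIdeal (Coeff (O := O) (r := r) (r₀ := r₀) n p)
    rw [twEmbed_var]
    exact mk_X_mem n p _

/-- The elements acting into the `j`-th power of the maximal ideal. -/
def smallIdeal {d : ℕ} (act : (X.P n).R →+* Matrix (Fin d) (Fin d) (TwQuot O p r n)) (j : ℕ) :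
    Ideal (ExtRing O T r X.nExtra X.g) :=
  RingHom.ker (((Ideal.Quotient.mk
    (maximalIdeal (Coeff (O := O) (r := r) (r₀ := r₀) n p) ^ j)).mapMatrix).comp
      (X.fullAct n p act))

/-- Membership in the ideal of elements acting by small matrices. -/
theorem mem_smallIdeal {d : ℕ} {act : (X.P n).R →+* Matrix (Fin d) (Fin d) (TwQuot O p r n)}
    {j : ℕ} {t : ExtRing O T r X.nExtra X.g} :
    t ∈ X.smallIdeal n p act j ↔ ∀ a b, X.fullAct n p act t a b ∈
      maximalIdeal (Coeff (O := O) (r := r) (r₀ := r₀) n p) ^ j := by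
  simp only [smallIdeal, RingHom.mem_ker, RingHom.comp_apply, RingHom.mapMatrix_apply,
    ← Matrix.ext_iff, Matrix.map_apply, Matrix.zero_apply, Ideal.Quotient.eq_zero_iff_mem]

omit [IsAdicComplete (maximalIdeal O) O] [Fintype T] in
/-- Membership in the powers of the maximal ideal, read in the coefficient ring. -/
theorem mem_pow_sup_of_mk {j : ℕ} {a : CoeffRing O r T r₀}
    (h : Ideal.Quotient.mk (levelIdeal O p r r₀ n) a ∈
      maximalIdeal (Coeff (O := O) (r := r) (r₀ := r₀) n p) ^ j) :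
    a ∈ maximalIdeal (CoeffRing O r T r₀) ^ j ⊔ levelIdeal O p r r₀ n := by
  have e : maximalIdeal (Coeff (O := O) (r := r) (r₀ := r₀) n p) =
      (maximalIdeal (CoeffRing O r T r₀)).map (Ideal.Quotient.mk (levelIdeal O p r r₀ n)) := by
    refine le_antisymm (fun y hy => ?_) (Ideal.map_le_iff_le_comap.2 fun y hy => ?_)
    · obtain ⟨y, rfl⟩ := Ideal.Quotient.mk_surjective y
      exact Ideal.mem_map_of_mem _ fun hu => hy (hu.map _)
    · have : IsLocalHom (Ideal.Quotient.mk (levelIdeal O p r r₀ n)) :=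
        IsLocalHom.of_surjective _ Ideal.Quotient.mk_surjective
      exact map_nonunit (Ideal.Quotient.mk (levelIdeal O p r r₀ n)) y hy
  rw [e, ← Ideal.map_pow, ← Ideal.mem_comap,
    Ideal.comap_map_of_surjective _ Ideal.Quotient.mk_surjective, ← RingHom.ker_eq_comap_bot,
    Ideal.mk_ker] at h
  exact h

/-- Multiples of maximal local coordinates lift to the extended maximal ideal. -/
theorem exists_lift_of_mem_span {f : (X.P n).Framed r₀}
    (hf : f ∈ Ideal.span (Set.image (X.θ n)
      {x : LocRing O T X.g | MvPowerSeries.constantCoeff x ∈ maximalIdeal O})) :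
    ∃ t ∈ (maximalIdeal (LocRing O T X.g)).map
      (MvPowerSeries.C : LocRing O T X.g →+* ExtRing O T r X.nExtra X.g),
      X.extMap n t = MvPowerSeries.C f := by
  induction hf using Submodule.span_induction with
  | mem f hf =>
    obtain ⟨x, hx, rfl⟩ := hf
    exact ⟨MvPowerSeries.C x,
      Ideal.mem_map_of_mem _ ((DefRing.mem_maximalIdeal_iff_constantCoeff x).2 hx), X.extMap_C n x⟩
  | zero => exact ⟨0, zero_mem _, by rw [map_zero, map_zero]⟩
  | add a b _ _ ha hb =>
    obtain ⟨s, hs, hs'⟩ := ha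
    obtain ⟨t, ht, ht'⟩ := hb
    exact ⟨s + t, add_mem hs ht, by rw [map_add, hs', ht', map_add]⟩
  | smul a b _ hb =>
    obtain ⟨t, ht, ht'⟩ := hb
    obtain ⟨s, hs, -⟩ := X.exists_extMap_eq n a
    exact ⟨s * t, Ideal.mul_mem_left _ _ ht, by rw [map_mul, hs, ht', smul_eq_mul, map_mul]⟩

/-- What is killed by the framed action up to the `j`-th power lifts to the small ideal. -/
theorem mem_smallIdeal_of_mem_map {d : ℕ}
    {act : (X.P n).R →+* Matrix (Fin d) (Fin d) (TwQuot O p r n)} {j : ℕ} {A : Ideal (X.P n).R}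
    (hA : ∀ b ∈ A, ∀ i k, act b i k ∈ ((maximalIdeal O).comap (twAug O p r n)) ^ j)
    {f : (X.P n).Framed r₀}
    (hf : f ∈ A.map (MvPowerSeries.C : (X.P n).R →+* (X.P n).Framed r₀))
    {t : ExtRing O T r X.nExtra X.g} (ht : X.extMap n t = MvPowerSeries.C f) :
    t ∈ X.smallIdeal n p act j := by
  set q := Ideal.Quotient.mk (maximalIdeal (Coeff (O := O) (r := r) (r₀ := r₀) n p) ^ j)
  have hle : A.map (MvPowerSeries.C : (X.P n).R →+* (X.P n).Framed r₀) ≤
      RingHom.ker ((q.mapMatrix).comp (X.framedAct n p act)) := by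
    refine Ideal.map_le_iff_le_comap.2 fun b hb => ?_
    rw [Ideal.mem_comap, RingHom.mem_ker, RingHom.comp_apply, framedAct_C]
    refine Matrix.ext fun i k => Ideal.Quotient.eq_zero_iff_mem.2 ?_
    have h1 : ((maximalIdeal O).comap (twAug O p r n)).map (twEmbed (O := O) (r := r) (r₀ := r₀) n p) ≤
        maximalIdeal (Coeff (O := O) (r := r) (r₀ := r₀) n p) :=
      Ideal.map_le_iff_le_comap.2 fun x hx => twEmbed_mem_maximalIdeal (r₀ := r₀) n p hx
    exact Ideal.pow_right_mono h1 j (Ideal.map_pow (twEmbed (O := O) (r := r) (r₀ := r₀) n p) _ j ▸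
      Ideal.mem_map_of_mem _ (hA b hb i k))
  have h := RingHom.mem_ker.1 (hle hf)
  rw [smallIdeal, RingHom.mem_ker, RingHom.comp_apply, fullAct_of_extMap X n p act ht]
  exact h

/-- The diamond variable squared, minus the trace of inertia, up to a unit, acts nilpotently. -/
theorem fullAct_square [Finite (ResidueField O)] [Fact p.Prime] [CharP (ResidueField O) p] {d : ℕ} (act : (X.P n).R →+* Matrix (Fin d) (Fin d) (TwQuot O p r n))
    (i : Fin r) {t : ExtRing O T r X.nExtra X.g} {k : ℕ}
    (ht : X.extMap n t =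
      MvPowerSeries.C (MvPowerSeries.C (((X.P n).rep (X.tw n i)).trace - 2)))
    (hk : (twVar O p r n i ^ 2 • (1 : Matrix (Fin d) (Fin d) (TwQuot O p r n)) -
      (1 + twVar O p r n i) • act (((X.P n).rep (X.tw n i)).trace - 2)) ^ k = 0) :
    X.fullAct n p act ((MvPowerSeries.X (Sum.inl i) ^ 2 -
      (1 + MvPowerSeries.X (Sum.inl i)) * t) ^ k) = 0 := by
  have e : ∀ (a : Coeff (O := O) (r := r) (r₀ := r₀) n p)
      (M : Matrix (Fin d) (Fin d) (Coeff (O := O) (r := r) (r₀ := r₀) n p)),
      (a • 1) * M = a • M := fun a M => by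
    rw [Matrix.smul_one_eq_diagonal, ← Matrix.smul_eq_diagonal_mul]
  have h1 := LiftingLevels.mul_twEmbed_map (O := O) (r := r) (r₀ := r₀) n act i
    (((X.P n).rep (X.tw n i)).trace - 2)
  rw [add_smul, one_smul] at h1
  rw [map_pow, sq, map_sub, map_mul, map_mul, map_add, map_one, X.fullAct_inl,
    X.fullAct_of_extMap n p act ht, X.framedAct_C, e, add_mul, one_mul, e, h1,
    ← RingHom.mapMatrix_apply, ← map_pow, hk, map_zero]

/-- Every variable of the extended ring has a bounded power in the extended maximal ideal of the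
local coordinates, up to elements acting into high powers. -/
theorem exists_pow_mem_sup [Finite (ResidueField O)] (p : ℕ) [Fact p.Prime]
    [CharP (ResidueField O) p] {d d' : ℕ}
    (act : ∀ n, (X.P n).R →+* Matrix (Fin d) (Fin d) (TwQuot O p r n))
    (act' : ∀ n, (X.P n).R →+* Matrix (Fin d') (Fin d') (TwQuot O p r n))
    (hsq : ∃ k : ℕ, ∀ n i, (twVar O p r n i ^ 2 • (1 : Matrix (Fin d) (Fin d) (TwQuot O p r n)) -
      (1 + twVar O p r n i) • act n (((X.P n).rep (X.tw n i)).trace - 2)) ^ k = 0)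
    (hsq' : ∃ k : ℕ, ∀ n i, (twVar O p r n i ^ 2 • (1 : Matrix (Fin d') (Fin d') (TwQuot O p r n)) -
      (1 + twVar O p r n i) • act' n (((X.P n).rep (X.tw n i)).trace - 2)) ^ k = 0)
    (A : ∀ n, ℕ → Ideal (X.P n).R)
    (hA : ∀ n j, ∀ b ∈ A n j, (∀ a c, act n b a c ∈ ((maximalIdeal O).comap (twAug O p r n)) ^ j) ∧
      ∀ a c, act' n b a c ∈ ((maximalIdeal O).comap (twAug O p r n)) ^ j)
    (hextra : ∀ i, ∃ k : ℕ, ∀ j, ∃ n₀, ∀ n ≥ n₀,
      (MvPowerSeries.C (X.extra n i) : (X.P n).Framed r₀) ^ k ∈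
        Ideal.span (Set.image (X.θ n)
          {x : LocRing O T X.g | MvPowerSeries.constantCoeff x ∈ maximalIdeal O}) ⊔
          (A n j).map MvPowerSeries.C)
    (idx : Fin r ⊕ Fin X.nExtra) :
    ∃ K : ℕ, ∀ j, ∃ n₀, ∀ n ≥ n₀,
      (MvPowerSeries.X idx : ExtRing O T r X.nExtra X.g) ^ K ∈
        (maximalIdeal (LocRing O T X.g)).map MvPowerSeries.C ⊔
          (X.smallIdeal n p (act n) j ⊓ X.smallIdeal n p (act' n) j) := by
  classical
  choose k hk using hextra
  choose n₀ hn₀ using hk
  have hinr : ∀ i j, ∀ n ≥ n₀ i j,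
      (MvPowerSeries.X (Sum.inr i) : ExtRing O T r X.nExtra X.g) ^ k i ∈
        (maximalIdeal (LocRing O T X.g)).map MvPowerSeries.C ⊔
          (X.smallIdeal n p (act n) j ⊓ X.smallIdeal n p (act' n) j) := fun i j n hn => by
    obtain ⟨f, hf, g, hg, hfg⟩ := Submodule.mem_sup.1 (hn₀ i j n hn)
    obtain ⟨t, ht, ht'⟩ := X.exists_lift_of_mem_span n hf
    refine Submodule.mem_sup.2 ⟨t, ht, MvPowerSeries.X (Sum.inr i) ^ k i - t, ?_,
      add_sub_cancel _ _⟩
    have he : X.extMap n (MvPowerSeries.X (Sum.inr i) ^ k i - t) = MvPowerSeries.C g := by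
      rw [map_sub, map_pow, X.extMap_inr, ht', ← map_pow, ← map_sub]
      congr 1
      rw [sub_eq_iff_eq_add', hfg]
    exact ⟨X.mem_smallIdeal_of_mem_map n p (fun b hb => (hA n j b hb).1) hg he,
      X.mem_smallIdeal_of_mem_map n p (fun b hb => (hA n j b hb).2) hg he⟩
  rcases idx with i | i
  · obtain ⟨k₁, hk₁⟩ := hsq
    obtain ⟨k₂, hk₂⟩ := hsq'
    refine ⟨2 * (∑ o : Option (Fin X.nExtra), o.elim (k₁ + k₂) k + 1), fun j =>
      ⟨Finset.univ.sup fun i => n₀ i j, fun n hn => ?_⟩⟩
    set J := (maximalIdeal (LocRing O T X.g)).map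
      (MvPowerSeries.C : LocRing O T X.g →+* ExtRing O T r X.nExtra X.g) ⊔
        (X.smallIdeal n p (act n) j ⊓ X.smallIdeal n p (act' n) j)
    have htm : (MvPowerSeries.C (((X.P n).rep (X.tw n i)).trace - 2) : (X.P n).Framed r₀) ∈
        maximalIdeal _ := by
      rw [DefRing.mem_maximalIdeal_iff_constantCoeff, MvPowerSeries.constantCoeff_C]
      intro hu
      have h0 := hu.map (X.toBase n : (X.P n).R →+* PB.R)
      rw [map_sub, map_ofNat, ← trace_mapMatrix, RingHom.mapMatrix_apply] at h0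
      have e : ((X.P n).rep (X.tw n i)).map (X.toBase n : (X.P n).R →+* PB.R) =
          PB.rep (X.tw n i) := X.toBase_rep n _
      rw [e, X.tw_base, sub_self] at h0
      exact not_isUnit_zero h0
    obtain ⟨t, ht, htmem⟩ :=
      X.exists_extMap_eq n (MvPowerSeries.C (((X.P n).rep (X.tw n i)).trace - 2))
    set ω := (MvPowerSeries.X (Sum.inl i) : ExtRing O T r X.nExtra X.g) ^ 2 -
      (1 + MvPowerSeries.X (Sum.inl i)) * t
    let f : Option (Fin X.nExtra) → ExtRing O T r X.nExtra X.g :=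
      fun o => o.elim ω fun i => MvPowerSeries.X (Sum.inr i)
    have hgen : ∀ o ∈ (Finset.univ : Finset (Option (Fin X.nExtra))),
        f o ^ o.elim (k₁ + k₂) k ∈ J := by
      rintro (_ | l) -
      · refine Ideal.mem_sup_right ⟨?_, ?_⟩
        · rw [SetLike.mem_coe, smallIdeal, RingHom.mem_ker, RingHom.comp_apply]
          show ((Ideal.Quotient.mk _).mapMatrix) (X.fullAct n p (act n) (ω ^ (k₁ + k₂))) = 0
          rw [pow_add, map_mul, X.fullAct_square n p (act n) i ht (hk₁ n i), zero_mul, map_zero]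
        · rw [SetLike.mem_coe, smallIdeal, RingHom.mem_ker, RingHom.comp_apply]
          show ((Ideal.Quotient.mk _).mapMatrix) (X.fullAct n p (act' n) (ω ^ (k₁ + k₂))) = 0
          rw [pow_add, map_mul, X.fullAct_square n p (act' n) i ht (hk₂ n i), mul_zero, map_zero]
      · exact hinr l j n ((Finset.le_sup (Finset.mem_univ l)).trans hn)
    have hz : (MvPowerSeries.X (Sum.inl i) : ExtRing O T r X.nExtra X.g) ^ 2 ∈
        J ⊔ Ideal.span (f '' (Finset.univ : Finset (Option (Fin X.nExtra)))) := by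
      rw [show (MvPowerSeries.X (Sum.inl i) : ExtRing O T r X.nExtra X.g) ^ 2 =
        ω + (1 + MvPowerSeries.X (Sum.inl i)) * t from (sub_add_cancel _ _).symm]
      refine add_mem (Ideal.mem_sup_right (Ideal.subset_span ⟨none, by simp, rfl⟩))
        (Ideal.mul_mem_left _ _ (SetLike.le_def.1 (sup_le_sup (le_sup_left : _ ≤ J) ?_) (htmem htm)))
      refine Ideal.span_mono ?_
      rintro _ ⟨l, rfl⟩
      exact ⟨some l, by simp, rfl⟩
    rw [pow_mul]
    exact sup_span_image_pow_le J f (fun o => o.elim (k₁ + k₂) k) Finset.univ hgen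
      (Ideal.pow_mem_pow hz _)
  · exact ⟨k i, fun j => ⟨n₀ i j, hinr i j⟩⟩

end AuxLevels

namespace LoweringLevels

variable {O : Type} [CommRing O] [IsDomain O] [IsDiscreteValuationRing O]
  [IsAdicComplete (maximalIdeal O) O] [Finite (ResidueField O)] {p : ℕ} [Fact p.Prime]
  [CharP (ResidueField O) p] {r : ℕ} {T : Type} [Fintype T] {r₀ : T}
  {frob tame : T → GQ} {Φ₀ : T → Matrix (Fin 2) (Fin 2) O} {L₀ : LevelData O} {PB : L₀.RepRing}
  {qv : T → ℕ} {X : AuxLevels r r₀ frob tame Φ₀ L₀ PB} {v : T} {ζ ζ' : O}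
  (H : LoweringLevels p X v ζ ζ')

omit [IsAdicComplete (maximalIdeal O) O] [Finite (ResidueField O)] in
/-- A root of unity congruent to `1` and different from it is not its inverse. -/
theorem zeta_ne (h2 : IsUnit (2 : O)) (hζ : ζ * ζ' = 1) (hζ1 : ζ - 1 ∈ maximalIdeal O)
    (hne : ζ ≠ 1) : ζ ≠ ζ' := by
  rintro rfl
  rcases (sq_eq_one_iff (R := O)).1 (by rw [sq]; exact hζ) with h | h
  · exact hne h
  · refine (show (2 : O) ∉ maximalIdeal O from fun hm => hm h2) ?_
    convert neg_mem hζ1 using 1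
    rw [h]; ring

/-- The finite level data for patching. -/
def toSystem (hF : FramedPrimes p L₀ qv frob tame) (h2 : IsUnit (2 : O)) (hζ : ζ * ζ' = 1)
    (hζp : ζ ^ p = 1) (hζ1 : ζ - 1 ∈ maximalIdeal O) (hne : ζ ≠ 1)
    (hqv : ∀ w, (qv w : O) - 1 ∈ maximalIdeal O) :
    LoweringSystem O T X.g (CoeffRing O r T r₀) PB.R (ExtRing O T r X.nExtra X.g)
      MvPowerSeries.C qv Φ₀ v ζ ζ' (MvPowerSeries.C (ζ - 1)) where
  I := levelIdeal O p r r₀
  tendsToZero := tendsToZero_levelIdeal O p r r₀ p_mem_maximalIdeal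
  dim := (dimGE_coeffRing O r r₀).mono (by
    have := X.g_eq
    rw [Nat.card_eq_fintype_card]
    omega)
  ψ := X.baseMap
  isLocalHom_ψ := X.isLocalHom_baseMap
  extra := by
    classical exact Finset.univ.image MvPowerSeries.X
  generated f := by
    classical
    refine ⟨MvPowerSeries.constantCoeff f, (Ideal.span_mono ?_) (sub_C_constantCoeff_mem f)⟩
    rintro _ ⟨i, rfl⟩
    simp
  extra_mem z hz := by
    classical
    simp only [Finset.mem_image, Finset.mem_univ, true_and] at hz
    obtain ⟨i, rfl⟩ := hz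
    exact DefRing.X_mem_maximalIdeal i
  d := H.rank
  d_ne_zero := H.rank_ne_zero
  M n := LevelMod (X.fullAct n p (H.act n))
  M' n := LevelMod (X.fullAct n p (H.act' n))
  e n := levelBasis (X.fullAct n p (H.act n))
  e' n := levelBasis (X.fullAct n p (H.act' n))
  isBasis n := isModBasis_levelBasis _
  isBasis' n := isModBasis_levelBasis _
  congr n t i j := by
    have h := X.fullAct_congr n p hζ1 (H.congr n) t i j
    rw [← mk_matrix (X.fullAct n p (H.act n)) t i j, ← mk_matrix (X.fullAct n p (H.act' n)) t i j,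
      ← map_sub, ← Set.image_singleton, ← Ideal.map_span, ← Ideal.mem_comap,
      Ideal.comap_map_of_surjective _ Ideal.Quotient.mk_surjective, ← RingHom.ker_eq_comap_bot,
      Ideal.mk_ker] at h
    exact h
  scalars n l := by
    obtain ⟨ℓ, -, hℓ⟩ := X.exists_scalarLift n p
    exact ⟨ℓ l, smul_eq_of_eq_scalar _ (hℓ _ (H.act_const n) l)⟩
  scalars' n l := by
    obtain ⟨ℓ, -, hℓ⟩ := X.exists_scalarLift n p
    exact ⟨ℓ l, smul_eq_of_eq_scalar _ (hℓ _ (H.act'_const n) l)⟩
  scalar_l n := smul_eq_of_eq_scalar _ (by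
    rw [X.fullAct_C, show (MvPowerSeries.C (ζ - 1) : LocRing O T X.g) = algebraMap O _ (ζ - 1)
      from rfl, AlgHom.commutes]
    exact X.framedAct_algebraMap n p _ (H.act_const n) _)
  M₀ := AuxLevels.BaseMod r r₀ H.act₀'
  a := augIdeal O r r₀
  e₀ := levelBasis (AuxLevels.baseAct (O := O) (PB := PB) (d := H.rank) r r₀ H.act₀')
  isBasis₀ := isModBasis_levelBasis _
  π n := X.levelProj n p (H.act' n) H.act₀'
  π_smul n t x := X.levelProj_smul n p _ _ (H.act'_base n) t x
  π_e n j := AuxLevels.base_ext fun i => X.levelProj_basis n p _ _ j i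
  extra_nil z hz := by
    classical
    simp only [Finset.mem_image, Finset.mem_univ, true_and] at hz
    obtain ⟨idx, rfl⟩ := hz
    obtain ⟨K, hK⟩ := X.exists_pow_mem_sup p H.act H.act' H.square H.square'
      (fun n j =>
        RingHom.ker ((Ideal.Quotient.mk (((maximalIdeal O).comap (twAug O p r n)) ^ j)).mapMatrix.comp
            (H.act n)) ⊓
          RingHom.ker ((Ideal.Quotient.mk
            (((maximalIdeal O).comap (twAug O p r n)) ^ j)).mapMatrix.comp (H.act' n)))
      (fun n j b hb => by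
        rw [Submodule.mem_inf, RingHom.mem_ker, RingHom.mem_ker] at hb
        simp only [RingHom.comp_apply, RingHom.mapMatrix_apply, ← Matrix.ext_iff, Matrix.map_apply,
          Matrix.zero_apply, Ideal.Quotient.eq_zero_iff_mem] at hb
        exact hb) H.extra_nil idx
    refine ⟨K, fun j => ?_⟩
    obtain ⟨n₀, hn₀⟩ := hK j
    refine Filter.eventually_atTop.2 ⟨n₀, fun n hn => ?_⟩
    obtain ⟨t, ht, s, hs, hts⟩ := Submodule.mem_sup.1 (hn₀ n hn)
    rw [show s = MvPowerSeries.X idx ^ K - t from eq_sub_of_add_eq' hts] at hs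
    refine ⟨t, ht, fun a b => ?_, fun a b => ?_⟩
    · apply AuxLevels.mem_pow_sup_of_mk n p
      rw [mk_matrix]
      exact (X.mem_smallIdeal n p).1 hs.1 a b
    · apply AuxLevels.mem_pow_sup_of_mk n p
      rw [mk_matrix]
      exact (X.mem_smallIdeal n p).1 hs.2 a b
  det_frob n w := ⟨fun x => X.smul_C_eq_zero n p _ (by rw [X.θ_det_frob n hF, map_zero]) x,
    fun x => X.smul_C_eq_zero n p _ (by rw [X.θ_det_frob n hF, map_zero]) x⟩
  comm_v i j := by
    obtain ⟨k, hk⟩ := H.trace_v
    exact ⟨k, fun n x => X.smul_C_eq_zero n p _ (X.framedAct_comm n p _ hF v (hqv v)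
      (zeta_ne h2 hζ hζ1 hne) hζp hζ (H.act_const n) (hk n) i j) x⟩
  det_v n x := X.smul_C_eq_zero n p _ (by
    have e : (1 + locMono (g := X.g) (O := O) v).det - 1 =
        (locMono (g := X.g) (O := O) v).trace + (locMono (g := X.g) (O := O) v).det := by
      simp [Matrix.det_fin_two, Matrix.trace_fin_two]
      ring
    rw [e, map_add, X.θ_trace_mono, X.θ_det_mono n hF, add_neg_cancel, map_zero]) x
  trace_v := by
    obtain ⟨k, hk⟩ := H.trace_v
    refine ⟨k, fun n x => X.smul_C_eq_zero n p _ ?_ x⟩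
    have e : X.θ n ((1 + locMono (g := X.g) (O := O) v).trace - MvPowerSeries.C (ζ + ζ')) =
        MvPowerSeries.C (((X.P n).rep (tame v)).trace - algebraMap O _ (ζ + ζ')) := by
      rw [show (MvPowerSeries.C (ζ + ζ') : LocRing O T X.g) = algebraMap O _ (ζ + ζ') from rfl,
        map_sub, AlgHom.commutes, Matrix.trace_add, map_add, X.θ_trace_mono, Matrix.trace_one,
        Fintype.card_fin, map_natCast, MvPowerSeries.algebraMap_apply, map_sub, map_sub, map_ofNat]
      norm_num
    rw [map_pow, e, map_pow, X.framedAct_C, ← RingHom.mapMatrix_apply, ← map_pow, map_sub,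
      H.act_const, hk n, map_zero]
  unipotent n w hw x := ⟨
    X.smul_C_eq_zero n p _ (by
      rw [X.θ_trace_mono, X.framedAct_C_eq_zero n p _ (H.unipotent n w hw)]) x,
    X.smul_C_eq_zero n p _ (by
      rw [X.θ_det_mono n hF, map_neg, X.framedAct_C_eq_zero n p _ (H.unipotent n w hw),
        neg_zero]) x⟩
  tame n w hw i j x :=
    X.smul_C_eq_zero n p _ (X.framedAct_tame n p _ hF w (H.unipotent n w hw) i j) x
  unipotent' n w x := ⟨
    X.smul_C_eq_zero n p _ (by
      rw [X.θ_trace_mono, X.framedAct_C_eq_zero n p _ (H.unipotent' n w)]) x,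
    X.smul_C_eq_zero n p _ (by
      rw [X.θ_det_mono n hF, map_neg, X.framedAct_C_eq_zero n p _ (H.unipotent' n w),
        neg_zero]) x⟩
  tame' n w i j x :=
    X.smul_C_eq_zero n p _ (X.framedAct_tame n p _ hF w (H.unipotent' n w) i j) x

/-- **Lowering.** A prime of the base ring over zero in `O`, of the module without character, at
which the tame generator at `v` is trivial. -/
theorem exists_prime (hF : FramedPrimes p L₀ qv frob tame) (h2 : IsUnit (2 : O))
    (hζ : ζ * ζ' = 1) (hζp : ζ ^ p = 1) (hζ1 : ζ - 1 ∈ maximalIdeal O) (hne : ζ ≠ 1)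
    (hqv : ∀ w, (qv w : O) - 1 ∈ maximalIdeal O) :
    ∃ Q : Ideal PB.R, Q.IsPrime ∧ RingHom.ker H.act₀' ≤ Q ∧
      (∀ i j, (PB.rep (tame v) - 1) i j ∈ Q) ∧
      ∀ o : O, algebraMap O PB.R o ∈ Q ↔ o = 0 := by
  have : IsAdicComplete (maximalIdeal (CoeffRing O r T r₀)) (CoeffRing O r T r₀) :=
    DefRing.isAdicComplete_mvPowerSeries
  have : Finite (ResidueField (CoeffRing O r T r₀)) := finite_residueField_series
  have : IsAdicComplete (maximalIdeal (LocRing O T X.g)) (LocRing O T X.g) :=
    DefRing.isAdicComplete_mvPowerSeries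
  have : Finite (ResidueField (LocRing O T X.g)) := finite_residueField_series
  have : IsAdicComplete (maximalIdeal (ExtRing O T r X.nExtra X.g))
      (ExtRing O T r X.nExtra X.g) := DefRing.isAdicComplete_mvPowerSeries
  have : Finite (ResidueField (ExtRing O T r X.nExtra X.g)) := finite_residueField_series
  have : Finite (ResidueField PB.R) :=
    (residue_facts (p := p) PB.instIsLocalHom PB.residue_surjective).1
  have : IsLocalHom (MvPowerSeries.C : LocRing O T X.g →+* ExtRing O T r X.nExtra X.g) :=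
    ⟨fun a ha => by simpa [MvPowerSeries.isUnit_iff_constantCoeff] using ha⟩
  have := isPrime_augIdeal O r r₀
  have hdet₀ : ∀ w, (Φ₀ w).det - (qv w : O) ∈ maximalIdeal O := fun w => by
    have : IsLocalHom (X.θ 0 : LocRing O T X.g →+* (X.P 0).Framed r₀) := X.θ_isLocalHom 0
    have h : (locFrob (g := X.g) Φ₀ w).det - (qv w : LocRing O T X.g) ∈ maximalIdeal _ :=
      fun hu => not_isUnit_zero (M₀ := (X.P 0).Framed r₀)
        ((X.θ_det_frob 0 hF w) ▸ hu.map (X.θ 0))
    rw [DefRing.mem_maximalIdeal_iff_constantCoeff, map_sub, map_natCast, RingHom.map_det,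
      RingHom.mapMatrix_apply, constantCoeff_locFrob] at h
    exact h
  set S := H.toSystem hF h2 hζ hζp hζ1 hne hqv
  obtain ⟨P, hP, hann, hσ, hiff⟩ := S.exists_point h2 hζ hζ1 hne hqv hdet₀ X.surjective_baseMap
    (p₀ := augIdeal O r r₀) le_rfl
  refine ⟨P, hP, fun b hb => hann (AuxLevels.mem_annihilator_baseAct (RingHom.mem_ker.1 hb)),
    fun i j => ?_, fun o => ?_⟩
  · have h := hσ i j
    rwa [limitHom_eq_of_forall S.ψ fun n => congrFun (congrFun (X.baseMap_mono n v) i) j] at h
  · have h := hiff (MvPowerSeries.C (MvPowerSeries.C o)) (MvPowerSeries.C o) fun n x =>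
      smul_eq_of_eq_scalar _ (by
        rw [X.fullAct_C, show (MvPowerSeries.C o : LocRing O T X.g) = algebraMap O _ o from rfl,
          AlgHom.commutes]
        exact X.framedAct_algebraMap n p _ (H.act'_const n) _) x
    rw [limitHom_eq_of_forall S.ψ (s := algebraMap O PB.R o) fun n => ?_] at h
    · exact h.trans (C_mem_augIdeal_iff O r r₀)
    · show X.baseMap n _ = _
      rw [X.baseMap_C, show (MvPowerSeries.C o : LocRing O T X.g) = algebraMap O _ o from rfl,
        AlgHom.commutes, MvPowerSeries.algebraMap_apply, AuxLevels.framedBase, RingHom.comp_apply,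
        MvPowerSeries.constantCoeff_C]
      exact (X.toBase n).commutes o

end LoweringLevels

/-- Modulo a prime at which the tame generator is trivial all of inertia is trivial. -/
theorem inertia_sub_one_mem {O : Type} [CommRing O] [IsLocalRing O] [Finite (ResidueField O)]
    {p : ℕ} [Fact p.Prime] [CharP (ResidueField O) p] {T : Type} {qv : T → ℕ} {frob tame : T → GQ}
    {L₀ : LevelData O} {PB : L₀.RepRing} (hF : FramedPrimes p L₀ qv frob tame) (v : T)
    {Q : Ideal PB.R} (hQ : Q ≠ ⊤) (h : ∀ i j, (PB.rep (tame v) - 1) i j ∈ Q)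
    {Pl : ValuationSubring (AlgebraicClosure ℚ)} (hPl : Pl.LiesOverPrime (qv v))
    {σ : GQ} (hσ : σ ∈ Pl.inertiaSubgroupIn ℚ) (i j : Fin 2) :
    (PB.rep σ - 1) i j ∈ Q := by
  obtain ⟨P₀, hP₀, hfr, hta, hgen⟩ := hF.place v
  have : Nontrivial (PB.R ⧸ Q) := Ideal.Quotient.nontrivial_iff.2 hQ
  have : IsLocalRing (PB.R ⧸ Q) := .of_surjective' _ Ideal.Quotient.mk_surjective
  have hloc : IsLocalHom (Ideal.Quotient.mk Q) :=
    IsLocalHom.of_surjective _ Ideal.Quotient.mk_surjective
  obtain ⟨hfin, hchar⟩ := residue_facts (p := p) PB.instIsLocalHom PB.residue_surjective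
  have hmap : (maximalIdeal PB.R).map (algebraMap PB.R (PB.R ⧸ Q)) = maximalIdeal (PB.R ⧸ Q) := by
    refine le_antisymm (Ideal.map_le_iff_le_comap.2 fun x hx =>
      map_nonunit (Ideal.Quotient.mk Q) x hx) fun y hy => ?_
    obtain ⟨x, rfl⟩ := Ideal.Quotient.mk_surjective y
    exact Ideal.mem_map_of_mem _ fun hu => hy (hu.map _)
  have : IsAdicComplete (maximalIdeal (PB.R ⧸ Q)) (PB.R ⧸ Q) :=
    hmap ▸ isAdicComplete_of_finite (C := PB.R ⧸ Q) PB.R
  have : Finite (ResidueField (PB.R ⧸ Q)) :=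
    Finite.of_surjective (ResidueField.map (Ideal.Quotient.mk Q)) fun y => by
      obtain ⟨y, rfl⟩ := residue_surjective y
      obtain ⟨x, rfl⟩ := Ideal.Quotient.mk_surjective y
      exact ⟨residue _ x, rfl⟩
  have : CharP (ResidueField (PB.R ⧸ Q)) p :=
    charP_of_injective_ringHom (RingHom.injective (ResidueField.map (Ideal.Quotient.mk Q))) p
  have hN := (frob_tame_relation p (mapRep (Ideal.Quotient.mk Q) PB.rep)
    (PB.isLift.cont.map _ hloc) (hF.prime v) (hF.ne_p v) P₀ hP₀
    (fun τ hτ a b => by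
      have h1 : Ideal.Quotient.mk Q ((PB.rep τ - 1) a b) ∈ maximalIdeal (PB.R ⧸ Q) :=
        map_nonunit (Ideal.Quotient.mk Q) _
          (sub_one_mem_of_residual PB.isLift (hF.residual v P₀ hP₀ τ hτ) a b)
      rwa [Matrix.sub_apply, map_sub, ← Matrix.map_apply (f := Ideal.Quotient.mk Q),
        ← Matrix.map_apply (f := Ideal.Quotient.mk Q) (M := (1 : Matrix (Fin 2) (Fin 2) PB.R)),
        Matrix.map_one _ (map_zero _) (map_one _)] at h1)
    (frob v) (tame v) hfr hta hgen).2
    (Matrix.ext fun a b => by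
      rw [mapRep_apply, Matrix.map_apply]
      have h1 := Ideal.Quotient.eq.2 (show PB.rep (tame v) a b - (1 : Matrix _ _ PB.R) a b ∈ Q from
        h a b)
      rw [h1, Matrix.one_apply, Matrix.one_apply]
      split_ifs <;> simp) Pl hPl σ hσ
  rw [Matrix.sub_apply, ← Ideal.Quotient.eq]
  have h2 := congrFun (congrFun hN i) j
  rw [mapRep_apply, Matrix.map_apply] at h2
  rw [h2, Matrix.one_apply, Matrix.one_apply]
  split_ifs <;> simp

end Fermat.Agent.Engine
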