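import Fermat.Agent.Engine.LoweringPair
import Fermat.Agent.Engine.TRep.FlatEntries

/-!
# The two actions of one lowering level over a general coefficient ring

`exists_generalAct`: for coefficients `Λ` with a map `σ` trivialising the auxiliary characters and a
map `π` trivialising the one at `qv v`, the two families act on the level ring through matrices
equal to the base ones under `σ`, equal to each other under `π`, with the traces of inertia.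
-/

set_option autoImplicit false
set_option linter.unusedSectionVars false

noncomputable section

namespace Fermat.Agent.Engine

open EigenRep HeckeModule IsLocalRing DefRing Deform EigenSystems TRep FlatJ0

local notation "Qbar" => AlgebraicClosure ℚ

/-- The top levels of the two families. -/
def IsTopLevel (N₀ : ℕ) (Qn : Finset ℕ) (q : ℕ) (M : ℕ) : Prop :=
  M = N₀ * (∏ x ∈ Qn, x) * (∏ x ∈ Qn, x) ∨ M = N₀ * (∏ x ∈ Qn, x) * ((∏ x ∈ Qn, x) * q)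

variable {p : ℕ} [Fact p.Prime] {O : Type} [CommRing O] [IsDomain O]
  [IsDiscreteValuationRing O] [IsAdicComplete (maximalIdeal O) O] [Finite (ResidueField O)]
  [CharZero O] {ι₀ : ℤ_[p] →+* O} {N₀ : ℕ} [NeZero N₀] {lam : ℕ → O} {T : Type} [Fintype T]
  {qv : T → ℕ} {frob tame : T → GQ} {L₀ : LevelData O} {PB : L₀.RepRing} {v : T} {ζ ζ' : O}

/-- The conclusion for a pair of families. -/
structure GeneralAct (p : ℕ) [Fact p.Prime] (Qn : Finset ℕ) (q₀ : ℕ) (N₀ : ℕ) {Sig : Finset ℕ}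
    (P : (L₀.withSigma Sig).RepRing) {Λ : Type} [CommRing Λ] [Algebra O Λ] {Λ' : Type}
    [CommRing Λ'] [Algebra O Λ'] (σ : Λ →ₐ[O] O) (π : Λ →ₐ[O] Λ') (ψ : ∀ q : ℕ, (ZMod q)ˣ →* Λ)
    (d : ℕ) (base : P.R → Matrix (Fin d) (Fin d) O) where
  /-- the twisted algebra -/
  C : Type
  /-- the untwisted algebra -/
  C' : Type
  [commRing : CommRing C]
  [commRing' : CommRing C']
  [algebra : Algebra O C]
  [algebra' : Algebra O C']
  [isIntegral : Algebra.IsIntegral O C]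
  [isIntegral' : Algebra.IsIntegral O C']
  φ : P.R →ₐ[O] C
  φ' : P.R →ₐ[O] C'
  G : C →ₐ[O] Matrix (Fin d) (Fin d) Λ
  G' : C' →ₐ[O] Matrix (Fin d) (Fin d) Λ
  base_eq : ∀ x, (G' (φ' x)).map σ = base x
  congr_eq : ∀ x, (G (φ x)).map π = (G' (φ' x)).map π
  char : ∀ q ∈ insert q₀ Qn, ∀ (A : ValuationSubring Qbar), A.LiesOverPrime q →
    ∀ τ ∈ A.inertiaSubgroupIn ℚ, ∀ e : (ZMod q)ˣ,
    (∀ μ : Qbar, μ ^ q = 1 → τ μ = μ ^ (e : ZMod q).val) →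
    ∃ y : Λ, ψ q e * y = 1 ∧ (G (φ (P.rep τ).trace) - algebraMap Λ _ (ψ q e + y)) ^ d = 0
  char' : ∀ q ∈ Qn, ∀ (A : ValuationSubring Qbar), A.LiesOverPrime q →
    ∀ τ ∈ A.inertiaSubgroupIn ℚ, ∀ e : (ZMod q)ˣ,
    (∀ μ : Qbar, μ ^ q = 1 → τ μ = μ ^ (e : ZMod q).val) →
    ∃ y : Λ, ψ q e * y = 1 ∧ (G' (φ' (P.rep τ).trace) - algebraMap Λ _ (ψ q e + y)) ^ d = 0
  exact_trace : ∀ q : ℕ, q.Prime → q ≠ p → ¬ q * q ∣ N₀ → q ∉ Qn → q ≠ q₀ →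
    ∀ (A : ValuationSubring Qbar), A.LiesOverPrime q → ∀ τ ∈ A.inertiaSubgroupIn ℚ,
      φ (P.rep τ).trace = 2
  exact_trace' : ∀ q : ℕ, q.Prime → q ≠ p → ¬ q * q ∣ N₀ → q ∉ Qn →
    ∀ (A : ValuationSubring Qbar), A.LiesOverPrime q → ∀ τ ∈ A.inertiaSubgroupIn ℚ,
      φ' (P.rep τ).trace = 2
  flat : ∀ (A : ValuationSubring Qbar) (τ : GQ), L₀.D.rbar τ = 1 →
    (∀ (M : ℕ) [NeZero M], IsTopLevel N₀ Qn q₀ M → τ ∈ torsionKer A p (ModularCurve.JZero M)) →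
    ∀ a b, (P.rep τ - 1) a b ∈ flatIdeal p φ ∧ (P.rep τ - 1) a b ∈ flatIdeal p φ'

/-- Trace of inertia at a character prime, in matrices. -/
theorem LoweringSetting.matrix_trace_char (H : LoweringSetting p ι₀ N₀ lam qv L₀ frob tame v ζ ζ')
    (hneb : ∀ (O' : Type) [CommRing O'] [IsDomain O'] [IsDiscreteValuationRing O']
      [IsAdicComplete (maximalIdeal O') O'] [Finite (ResidueField O')] [CharZero O'],
      (p : O') ∈ maximalIdeal O' → ∀ N : ℕ, N ≠ 0 → ∀ q, NebentypusInertia O' p N q)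
    {Λ : Type} [CommRing Λ] [IsLocalRing Λ] [IsNoetherianRing Λ]
    [IsAdicComplete (maximalIdeal Λ) Λ] [Algebra O Λ] [IsLocalHom (algebraMap O Λ)]
    [Module.Finite O Λ] [IsReduced Λ] [Module.IsTorsionFree ℤ Λ]
    {hsΛ : Function.Surjective (residue Λ ∘ algebraMap O Λ)} {S Q : Finset ℕ} {M : ℕ} [NeZero M]
    {ψ : ∀ q : ℕ, (ZMod q)ˣ →* Λ} (hA : LevelArith p N₀ L₀ S Q M ψ) {d : ℕ}
    [Nontrivial (TwAlg hsΛ S lam ψ Q (fun _ : Unit => M))]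
    (G : TwAlg hsΛ S lam ψ Q (fun _ : Unit => M) →ₐ[Λ] Matrix (Fin d) (Fin d) Λ)
    {Sig : Finset ℕ} (P : (L₀.withSigma Sig).RepRing)
    (φ : P.R →ₐ[O] TwAlg hsΛ S lam ψ Q (fun _ : Unit => M))
    (hφ : IsLocalHom (φ : P.R →+* TwAlg hsΛ S lam ψ Q (fun _ : Unit => M)))
    (hfrob : ∀ (ℓ : ℕ) (hℓ : ℓ.Prime) (hℓS : ℓ ∉ (↑S : Set ℕ)), ∀ A : ValuationSubring Qbar,
      A.LiesOverPrime ℓ → ∀ σ : GQ, A.IsFrobeniusAt σ ℓ → φ (P.rep σ).trace =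
        twClass hsΛ S lam ψ Q (fun _ : Unit => M) (MvPolynomial.C (invChar ψ Q S ⟨⟨ℓ, hℓ⟩, hℓS⟩) *
          MvPolynomial.X ⟨⟨ℓ, hℓ⟩, hℓS⟩))
    {q : ℕ} (hq : q ∈ Q) (hqp : q ≠ p) {A : ValuationSubring Qbar} (hPl : A.LiesOverPrime q)
    {σ : GQ} (hσ : σ ∈ A.inertiaSubgroupIn ℚ) {e : (ZMod q)ˣ}
    (he : ∀ μ : Qbar, μ ^ q = 1 → σ μ = μ ^ (e : ZMod q).val) :
    ∃ y : Λ, ψ q e * y = 1 ∧ (G (φ (P.rep σ).trace) - algebraMap Λ _ (ψ q e + y)) ^ d = 0 := by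
  have : NeZero (M * ∏ q ∈ Q, q) := ⟨mul_ne_zero (NeZero.ne M)
    (Finset.prod_ne_zero_iff.mpr fun x hx => (hA.aux x hx).1.ne_zero)⟩
  refine ⟨ψ q e⁻¹, by rw [← map_mul, mul_inv_cancel, map_one], matrix_pow_eq_zero ?_⟩
  have h := (H.toBaseSetting.twistData hA).pow_trace_sub_eq_zero hsΛ
    (fun _ => H.toBaseSetting.exactHyp_family hsΛ hA) (L₀.withSigma Sig) P H.span H.cont
    (H.toBaseSetting.trace_frob' hA) ι₀ H.detbar
    (fun σ => (P.isLift.eqs.det σ).trans (congrArg _ (H.det σ)))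
    φ hφ hfrob hq hqp (fun O' _ _ _ _ _ _ hp N hN => hneb O' hp N hN q) hPl hσ he
    (D := Module.finrank Λ (LevelCoh hsΛ S lam ψ Q (fun _ : Unit => M) ())) (fun _ => le_rfl)
  refine ⟨Module.finrank Λ (LevelCoh hsΛ S lam ψ Q (fun _ : Unit => M) ()), ?_⟩
  rw [← G.commutes, ← map_sub, ← map_pow, h, map_zero]

variable (H : LoweringSetting p ι₀ N₀ lam qv L₀ frob tame v ζ ζ')
  (hplace : TopPlaceHyp p ι₀ N₀ lam L₀)
  (hneb : ∀ (O' : Type) [CommRing O'] [IsDomain O'] [IsDiscreteValuationRing O']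
    [IsAdicComplete (maximalIdeal O') O'] [Finite (ResidueField O')] [CharZero O'],
    (p : O') ∈ maximalIdeal O' → ∀ N : ℕ, N ≠ 0 → ∀ q, NebentypusInertia O' p N q)

include H hplace hneb

/-- **The two actions over a general coefficient ring.** -/
theorem LoweringSetting.exists_generalAct {Λ : Type} [CommRing Λ] [IsLocalRing Λ]
    [IsNoetherianRing Λ] [IsAdicComplete (maximalIdeal Λ) Λ] [Algebra O Λ]
    [IsLocalHom (algebraMap O Λ)] [Module.Finite O Λ] [IsReduced Λ] [Module.IsTorsionFree ℤ Λ]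
    (hsΛ : Function.Surjective (residue Λ ∘ algebraMap O Λ)) {Λ' : Type} [CommRing Λ']
    [IsLocalRing Λ'] [IsNoetherianRing Λ'] [IsAdicComplete (maximalIdeal Λ') Λ'] [Algebra O Λ']
    [IsLocalHom (algebraMap O Λ')] (hs' : Function.Surjective (residue Λ' ∘ algebraMap O Λ'))
    (σ : Λ →ₐ[O] O) (hσs : Function.Surjective σ) (π : Λ →ₐ[O] Λ')
    (hπl : IsLocalHom (π : Λ →+* Λ')) (hπs : Function.Surjective π)
    {Qn : Finset ℕ} (hQ1 : ∀ q ∈ Qn, q.Prime ∧ q ≠ p ∧ q ∉ L₀.Sigma ∧ p ∣ q - 1)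
    (hdist : ∀ q ∈ Qn, ∀ A : ValuationSubring Qbar, A.LiesOverPrime q → ∀ φ : GQ,
      A.IsFrobeniusAt φ q → (L₀.D.rbar φ).trace ^ 2 ≠ 4 * (L₀.D.rbar φ).det)
    {Sig : Finset ℕ} (P : (L₀.withSigma Sig).RepRing) (hSig : L₀.Sigma ∪ Qn ⊆ Sig)
    (toB : P.R →ₐ[O] PB.R) (htoBl : IsLocalHom (toB : P.R →+* PB.R))
    (htoB : ∀ τ, toB (P.rep τ).trace = (PB.rep τ).trace)
    (ψ : ∀ q : ℕ, (ZMod q)ˣ →* Λ) (hψp : ∀ q, ∀ u, ∃ k : ℕ, ψ q u ^ p ^ k = 1)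
    (hψσ : ∀ q ∈ Qn, ∀ u, σ (ψ q u) = 1) (hψπ : ∀ u, π (ψ (qv v) u) = 1) {d : ℕ} (hd : d ≠ 0)
    (hsO : Function.Surjective (residue O ∘ algebraMap O O))
    (b₀ : Module.Basis (Fin d) O (CohLoc (awayMonoid (lamIdeal hsO L₀.Sigma lam))
      (scalarRep (1 : (ZMod N₀)ˣ →* O) O)))
    [Nontrivial (TwAlg hsO L₀.Sigma lam (fun _ => 1) ∅ (fun _ : Unit => N₀))]
    (G₀ : TwAlg hsO L₀.Sigma lam (fun _ => 1) ∅ (fun _ : Unit => N₀) →ₐ[O]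
      Matrix (Fin d) (Fin d) O)
    (hG₀ : ∀ l : AwayIndex (↑L₀.Sigma : Set ℕ),
      G₀ (twClass hsO L₀.Sigma lam (fun _ => 1) ∅ (fun _ : Unit => N₀) (MvPolynomial.X l)) =
        LinearMap.toMatrix b₀ b₀ (Algebra.lsmul O O (CohLoc
          (awayMonoid (lamIdeal hsO L₀.Sigma lam))
          (scalarRep (1 : (ZMod N₀)ˣ →* O) O)) (A := HeckePoly O) (MvPolynomial.X l.1)))
    (φ₀ : PB.R →ₐ[O] TwAlg hsO L₀.Sigma lam (fun _ => 1) ∅ (fun _ : Unit => N₀))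
    (hφ₀ : IsLocalHom (φ₀ : PB.R →+* TwAlg hsO L₀.Sigma lam (fun _ => 1) ∅ (fun _ : Unit => N₀)))
    (hfrob₀ : ∀ (ℓ : ℕ) (hℓ : ℓ.Prime) (hℓS : ℓ ∉ (↑L₀.Sigma : Set ℕ)),
      ∀ A : ValuationSubring Qbar, A.LiesOverPrime ℓ → ∀ τ : GQ, A.IsFrobeniusAt τ ℓ →
      φ₀ (PB.rep τ).trace = twClass hsO L₀.Sigma lam (fun _ => 1) ∅ (fun _ : Unit => N₀)
        (MvPolynomial.X ⟨⟨ℓ, hℓ⟩, hℓS⟩)) :
    Nonempty (GeneralAct p Qn (qv v) N₀ P σ π ψ d fun x => G₀ (φ₀ (toB x))) := by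
  classical
  have : CharP (ResidueField O) p := (CharP.charP_iff_prime_eq_zero Fact.out).mpr (by
    rw [← map_natCast (residue O)]; exact (residue_eq_zero_iff _).mpr H.p_mem)
  have hQ : ∀ q ∈ Qn, q.Prime ∧ q ≠ p ∧ q ∉ L₀.Sigma := fun q hq =>
    ⟨(hQ1 q hq).1, (hQ1 q hq).2.1, (hQ1 q hq).2.2.1⟩
  have hσ : IsLocalHom (σ : Λ →+* O) := isLocalHom_of_finite inferInstance σ
  have : NeZero ((∏ x ∈ Qn, x) * N₀) := ⟨mul_ne_zero (Finset.prod_ne_zero_iff.mpr fun q hq =>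
    (hQ q hq).1.ne_zero) (NeZero.ne N₀)⟩
  have hA' : LevelArith p N₀ L₀ (L₀.Sigma ∪ Qn) Qn ((∏ x ∈ Qn, x) * N₀) ψ :=
    H.levelArith hQ ψ hψp (Finset.subset_insert _ _)
  have hA : LevelArith p N₀ L₀ (L₀.Sigma ∪ Qn) (insert (qv v) Qn) ((∏ x ∈ Qn, x) * N₀) ψ :=
    H.levelArith hQ ψ hψp subset_rfl
  obtain ⟨α, c, hc⟩ := H.toBaseSetting.exists_levelBasis hplace P Qn hQ1 hdist hSig
    ((∏ x ∈ Qn, x) * N₀) rfl b₀
  obtain ⟨G, G', hGG⟩ := exists_pairMatrices hsΛ hs' hsO σ hσ hσs π hπl hπs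
    (S₀ := L₀.Sigma) Finset.subset_union_left lam α ψ (H.v_not_mem hQ) hψσ hψπ
    (H.toBaseSetting.exactHyp_family hsΛ hA') (H.toBaseSetting.exactHyp_family hsΛ hA) c
  have := nontrivial_of_action hd G
  have := nontrivial_of_action hd G'
  obtain ⟨φ, hφl, hφF, -, hφ2, hφT⟩ := H.toBaseSetting.exists_familyAction hsΛ hA hplace
    (fun ℓ hℓ h => hSig (hA.mem_S ℓ hℓ h)) P
  obtain ⟨φ', hφ'l, hφ'F, -, hφ'2, hφ'T⟩ := H.toBaseSetting.exists_familyAction hsΛ hA' hplace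
    (fun ℓ hℓ h => hSig (hA'.mem_S ℓ hℓ h)) P
  have := hφ₀
  have := htoBl
  have hbase := action_base hsΛ hd P H.span hsO σ Finset.subset_union_left hψσ G' G₀
    (fun l hl => by
      rw [(hGG l hl).1, hc l (fun h => hl (Finset.mem_coe.mpr h)), hG₀])
    φ' hφ'l hφ'F (φ₀.comp toB)
    (RingHom.isLocalHom_comp (φ₀ : PB.R →+* TwAlg hsO L₀.Sigma lam (fun _ => 1) ∅
      (fun _ : Unit => N₀)) (toB : P.R →+* PB.R))
    (fun ℓ hℓ hℓS A hPl τ hτ => by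
      rw [AlgHom.comp_apply, htoB]
      exact hfrob₀ ℓ hℓ hℓS A hPl τ hτ)
  have hcongr := action_congr hsΛ hs' hd P H.span π hπs (H.v_not_mem hQ) hψπ G G'
    (fun l hl => (hGG l hl).2) φ hφl hφF φ' hφ'l hφ'F
  have : @Module.Finite O (TwAlg hsΛ (L₀.Sigma ∪ Qn) lam ψ (insert (qv v) Qn)
      (fun _ : Unit => (∏ x ∈ Qn, x) * N₀)) _ _ Algebra.toModule :=
    Module.Finite.trans Λ _
  have : @Module.Finite O (TwAlg hsΛ (L₀.Sigma ∪ Qn) lam ψ Qn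
      (fun _ : Unit => (∏ x ∈ Qn, x) * N₀)) _ _ Algebra.toModule :=
    Module.Finite.trans Λ _
  have : Algebra.IsIntegral O (TwAlg hsΛ (L₀.Sigma ∪ Qn) lam ψ (insert (qv v) Qn)
      (fun _ : Unit => (∏ x ∈ Qn, x) * N₀)) := Algebra.IsIntegral.of_finite O _
  have : Algebra.IsIntegral O (TwAlg hsΛ (L₀.Sigma ∪ Qn) lam ψ Qn
      (fun _ : Unit => (∏ x ∈ Qn, x) * N₀)) := Algebra.IsIntegral.of_finite O _
  refine ⟨{
    C := TwAlg hsΛ (L₀.Sigma ∪ Qn) lam ψ (insert (qv v) Qn)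
      (fun _ : Unit => (∏ x ∈ Qn, x) * N₀)
    C' := TwAlg hsΛ (L₀.Sigma ∪ Qn) lam ψ Qn (fun _ : Unit => (∏ x ∈ Qn, x) * N₀)
    φ := φ
    φ' := φ'
    G := G.restrictScalars O
    G' := G'.restrictScalars O
    base_eq := hbase
    congr_eq := hcongr
    char := fun q hq A hPl τ hτ e he =>
      H.matrix_trace_char hneb hA G P φ hφl hφF hq ((Finset.mem_insert.mp hq).elim
        (fun h => h ▸ H.framed.ne_p v) fun h => (hQ q h).2.1) hPl hτ he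
    char' := fun q hq A hPl τ hτ e he =>
      H.matrix_trace_char hneb hA' G' P φ' hφ'l hφ'F hq (hQ q hq).2.1 hPl hτ he
    exact_trace := fun q hq hqp hq2 hqQ hqv A hPl τ hτ => hφ2 q hq hqp
      (H.not_sq_dvd_level hQ hq hqQ hq2 subset_rfl fun h =>
        (Finset.mem_insert.mp h).elim hqv hqQ) A hPl τ hτ
    exact_trace' := fun q hq hqp hq2 hqQ A hPl τ hτ => hφ'2 q hq hqp
      (H.not_sq_dvd_level hQ hq hqQ hq2 (Finset.subset_insert _ _) hqQ) A hPl τ hτ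
    flat := fun A τ hτ hM a b => ?_ }⟩
  have : NeZero (((∏ x ∈ Qn, x) * N₀) * ∏ x ∈ insert (qv v) Qn, x) :=
    ⟨mul_ne_zero (NeZero.ne _)
      (Finset.prod_ne_zero_iff.mpr fun x hx => (hA.aux x hx).1.ne_zero)⟩
  have : NeZero (((∏ x ∈ Qn, x) * N₀) * ∏ x ∈ Qn, x) := ⟨mul_ne_zero (NeZero.ne _)
    (Finset.prod_ne_zero_iff.mpr fun x hx => (hQ x hx).1.ne_zero)⟩
  obtain ⟨F, hF⟩ := hφT (SemistableRed.allRelations _ p)
  obtain ⟨F', hF'⟩ := hφ'T (SemistableRed.allRelations _ p)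
  have hMv := hM (((∏ x ∈ Qn, x) * N₀) * ∏ x ∈ insert (qv v) Qn, x) (Or.inr (by
    rw [Finset.prod_insert (H.v_not_mem hQ)]; ring))
  have hMn := hM (((∏ x ∈ Qn, x) * N₀) * ∏ x ∈ Qn, x) (Or.inl (by ring))
  exact ⟨entries_mem_flatIdeal_of_torsionKer (stdInputs (SemistableRed.allRelations _ p))
      ((algebraMap O Λ).comp ι₀) (L₀.Sigma ∪ Qn) (lamIdeal hsΛ (L₀.Sigma ∪ Qn) lam) P H.span
      (isCyclotomicModP_residue ι₀) H.detbar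
      (F : _ →+* TwAlg hsΛ (L₀.Sigma ∪ Qn) lam ψ (insert (qv v) Qn)
        (fun _ : Unit => (∏ x ∈ Qn, x) * N₀)) φ hF hMv hτ a b,
    entries_mem_flatIdeal_of_torsionKer (stdInputs (SemistableRed.allRelations _ p))
      ((algebraMap O Λ).comp ι₀) (L₀.Sigma ∪ Qn) (lamIdeal hsΛ (L₀.Sigma ∪ Qn) lam) P H.span
      (isCyclotomicModP_residue ι₀) H.detbar
      (F' : _ →+* TwAlg hsΛ (L₀.Sigma ∪ Qn) lam ψ Qn (fun _ : Unit => (∏ x ∈ Qn, x) * N₀))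
      φ' hF' hMn hτ a b⟩

end Fermat.Agent.Engine
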