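import Fermat.Agent.Engine.LoweringFamily
import Fermat.Agent.Engine.TRep.BaseLevel
import Fermat.Agent.Engine.TRep.MatAction
import Fermat.Agent.Engine.AuxLevels
import Fermat.Agent.Frobenius.Exists
import Mathlib.RingTheory.Finiteness.Ideal

/-!
# The auxiliary levels localised at `U_q = α_q`

`exists_roots`: lifts of the residual eigenvalues at a Taylor–Wiles prime.  `nil_pred`: the Hecke
operator at a prime outside the level is congruent to the residual trace modulo nilpotents.
`relMonoid`: the finer localisation, compatible with change of coefficients.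
-/

set_option autoImplicit false
set_option linter.unusedSectionVars false

noncomputable section

namespace Fermat.Agent.Engine

open EigenRep HeckeModule IsLocalRing DefRing Deform EigenSystems TRep TwoAdic

local notation "Qbar" => AlgebraicClosure ℚ

section Monoid

variable {O : Type} [CommRing O] [IsLocalRing O] {Λ : Type} [CommRing Λ] [IsLocalRing Λ]
  [IsNoetherianRing Λ] [IsAdicComplete (maximalIdeal Λ) Λ] [Algebra O Λ]
  [IsLocalHom (algebraMap O Λ)] (hsΛ : Function.Surjective (residue Λ ∘ algebraMap O Λ))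
  (S : Finset ℕ) (lam : ℕ → O) (S₀ : Finset ℕ) (α : ℕ → O)

/-- The localisation at `U_q = α q`, `q ∈ S \ S₀`. -/
def relMonoid : Submonoid (HeckePoly Λ) :=
  awayMonoid (relaxIdeal (lamIdeal hsΛ S lam) (↑S₀ : Set ℕ) fun x => algebraMap O Λ (α x))

/-- The monoid away from `lamIdeal` lies in the relaxed monoid. -/
theorem lamIdeal_le_relMonoid (hS : S₀ ⊆ S) :
    awayMonoid (lamIdeal hsΛ S lam) ≤ relMonoid hsΛ S lam S₀ α :=
  awayMonoid_le_relax (Finset.coe_subset.mpr hS) _ _

/-- The relaxed localised cohomology is finite. -/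
theorem finite_relCoh {N : ℕ} [NeZero N] (χ : (ZMod N)ˣ →* Λ) :
    Module.Finite Λ (CohLoc (relMonoid hsΛ S lam S₀ α) (scalarRep χ Λ)) :=
  finite_cohLoc _ _ (le_relaxIdeal _ _ (maximalIdeal_le_lamIdeal hsΛ S lam))

/-- Exactness passes to the relaxed monoid. -/
theorem exactHyp_relMonoid (hS : S₀ ⊆ S) {N : ℕ} {χ : (ZMod N)ˣ →* Λ}
    (h : ExactHyp (awayMonoid (lamIdeal hsΛ S lam)) χ) :
    ExactHyp (relMonoid hsΛ S lam S₀ α) χ := by
  obtain ⟨r, hr, hr1, hrm⟩ := h.nonEisenstein
  exact ⟨⟨r, hr, hr1, lamIdeal_le_relMonoid hsΛ S lam S₀ α hS hrm⟩, h.liftable, h.even⟩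

variable {Λ' : Type} [CommRing Λ'] [IsLocalRing Λ'] [IsNoetherianRing Λ']
  [IsAdicComplete (maximalIdeal Λ') Λ'] [Algebra O Λ'] [IsLocalHom (algebraMap O Λ')]
  (hsΛ' : Function.Surjective (residue Λ' ∘ algebraMap O Λ')) (σ : Λ →ₐ[O] Λ')
  (hσ : IsLocalHom (σ : Λ →+* Λ'))

/-- The relaxed homomorphism commutes with a change of coefficients. -/
theorem map_relaxHom (a : AwayPoly Λ (↑S₀ : Set ℕ)) :
    relaxHom Λ' (↑S : Set ℕ) ↑S₀ (fun x => algebraMap O Λ' (α x))
        (MvPolynomial.map (σ : Λ →+* Λ') a) =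
      MvPolynomial.map (σ : Λ →+* Λ')
        (relaxHom Λ (↑S : Set ℕ) ↑S₀ (fun x => algebraMap O Λ (α x)) a) := by
  induction a using MvPolynomial.induction_on with
  | C r =>
    rw [MvPolynomial.map_C, ← MvPolynomial.algebraMap_eq, ← MvPolynomial.algebraMap_eq,
      AlgHom.commutes, AlgHom.commutes, MvPolynomial.algebraMap_eq, MvPolynomial.algebraMap_eq,
      MvPolynomial.map_C]
  | add a b ha hb => rw [map_add, map_add, map_add, map_add, ha, hb]
  | mul_X a l ha =>
    rw [map_mul, map_mul, MvPolynomial.map_X, map_mul, map_mul, ha]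
    congr 1
    simp only [relaxHom, MvPolynomial.aeval_X]
    split
    · rw [MvPolynomial.map_C]
      exact congrArg MvPolynomial.C (σ.commutes _).symm
    · rw [MvPolynomial.map_X]

/-- The inclusion of the Hecke polynomials commutes with a change of coefficients. -/
theorem map_awayIncl {T : Set ℕ} (σ' : Λ →+* Λ') (a : AwayPoly Λ T) :
    MvPolynomial.map σ' (awayIncl Λ T a) = awayIncl Λ' T (MvPolynomial.map σ' a) :=
  MvPolynomial.map_rename _ _ a

include hσ in
/-- The relaxed ideal pulls back along a change of coefficients. -/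
theorem mem_relax_iff (a : AwayPoly Λ (↑S₀ : Set ℕ)) :
    MvPolynomial.map (σ : Λ →+* Λ') a ∈
        relaxIdeal (lamIdeal hsΛ' S lam) (↑S₀ : Set ℕ) (fun x => algebraMap O Λ' (α x)) ↔
      a ∈ relaxIdeal (lamIdeal hsΛ S lam) (↑S₀ : Set ℕ) fun x => algebraMap O Λ (α x) := by
  rw [Ideal.mem_comap, Ideal.mem_comap, map_relaxHom, lamIdeal, lamIdeal, RingHom.mem_ker,
    RingHom.mem_ker, lamHom_map hsΛ hsΛ' σ hσ]

include hσ in
/-- The relaxed monoid maps into the relaxed monoid. -/
theorem map_mem_relMonoid {s : HeckePoly Λ} (hs : s ∈ relMonoid hsΛ S lam S₀ α) :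
    MvPolynomial.map (σ : Λ →+* Λ') s ∈ relMonoid hsΛ' S lam S₀ α := by
  obtain ⟨a, ha, hae⟩ := hs
  replace hae : awayIncl Λ (↑S₀ : Set ℕ) a = s := hae
  subst hae
  rw [map_awayIncl]
  exact mem_awayMonoid fun h => ha ((mem_relax_iff hsΛ S lam S₀ α hsΛ' σ hσ a).mp h)

include hσ in
/-- The relaxed monoid surjects along a surjective change of coefficients. -/
theorem exists_map_relMonoid (hσs : Function.Surjective σ) {t : HeckePoly Λ'}
    (ht : t ∈ relMonoid hsΛ' S lam S₀ α) :
    ∃ s ∈ relMonoid hsΛ S lam S₀ α, MvPolynomial.map (σ : Λ →+* Λ') s = t := by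
  obtain ⟨b, hb, hbe⟩ := ht
  replace hbe : awayIncl Λ' (↑S₀ : Set ℕ) b = t := hbe
  subst hbe
  obtain ⟨a, rfl⟩ := MvPolynomial.map_surjective (σ : Λ →+* Λ') hσs b
  exact ⟨_, mem_awayMonoid fun h => hb ((mem_relax_iff hsΛ S lam S₀ α hsΛ' σ hσ a).mpr h),
    map_awayIncl _ a⟩

end Monoid

variable {p : ℕ} [Fact p.Prime] {O : Type} [CommRing O] [IsDomain O]
  [IsDiscreteValuationRing O] [IsAdicComplete (maximalIdeal O) O] [Finite (ResidueField O)]
  [CharZero O] {ι₀ : ℤ_[p] →+* O} {N₀ : ℕ} {lam : ℕ → O} {L₀ : LevelData O}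
  (H : BaseSetting p ι₀ N₀ lam L₀)

include H

/-- Lifts of the residual eigenvalues at a Taylor–Wiles prime. -/
theorem BaseSetting.exists_roots {q : ℕ} (hq : q.Prime) (hqp : q ≠ p) (hqS : q ∉ L₀.Sigma)
    (hq1 : p ∣ q - 1)
    (hdist : ∀ A : ValuationSubring Qbar, A.LiesOverPrime q → ∀ φ : GQ, A.IsFrobeniusAt φ q →
      (L₀.D.rbar φ).trace ^ 2 ≠ 4 * (L₀.D.rbar φ).det) :
    ∃ α β : O, α + β - lam q ∈ maximalIdeal O ∧ α * β - q ∈ maximalIdeal O ∧ IsUnit (α - β) ∧
      IsUnit (α * α - 1) ∧ IsUnit (((q : O) + 1) * ((q : O) + 1) - (α + β) * (α + β)) := by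
  obtain ⟨A, hA⟩ := Frobenius.exists_liesOverPrime Qbar hq
  obtain ⟨σ, hσ⟩ := Frobenius.exists_isFrobeniusAt_qbar hq hA
  obtain ⟨a, b, htr, hdet⟩ := H.split σ
  obtain ⟨α, rfl⟩ := residue_surjective (R := O) a
  obtain ⟨β, rfl⟩ := residue_surjective (R := O) b
  have hd := hdist A hA σ hσ
  have hdq : (L₀.D.rbar σ).det = (q : ResidueField O) := H.detbar_frob hq hqp hA hσ
  have hq1' : (q : ResidueField O) = 1 := by
    obtain ⟨c, hc⟩ := hq1
    rw [show q = p * c + 1 by have := hq.one_lt; omega, Nat.cast_add, Nat.cast_mul,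
      show (p : ResidueField O) = 0 by
        rw [← map_natCast (residue O)]; exact (residue_eq_zero_iff _).mpr H.p_mem]
    simp
  rw [htr, hdet] at hd
  rw [hdet, hq1'] at hdq
  have hne : residue O α ≠ residue O β := fun h => hd (by rw [h]; ring)
  refine ⟨α, β, ?_, ?_, ?_, ?_, ?_⟩
  · rw [← residue_eq_zero_iff, map_sub, map_add, ← htr, H.trace_frob q hq hqS A hA σ hσ, sub_self]
  · rw [← residue_eq_zero_iff, map_sub, map_mul, hdq, map_natCast, hq1', sub_self]
  · rw [← notMem_maximalIdeal, ← residue_eq_zero_iff, map_sub, sub_eq_zero]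
    exact hne
  · rw [← notMem_maximalIdeal, ← residue_eq_zero_iff, map_sub, map_mul, map_one, sub_eq_zero]
    intro h
    refine hne ?_
    calc residue O α = residue O α * (residue O α * residue O β) := by rw [hdq, mul_one]
      _ = residue O β := by rw [← mul_assoc, h, one_mul]
  · rw [← notMem_maximalIdeal, ← residue_eq_zero_iff]
    simp only [map_sub, map_mul, map_add, map_natCast, map_one, hq1', sub_eq_zero]
    intro h
    exact hd (by linear_combination -h - 4 * hdq)

variable (hplace : TopPlaceHyp p ι₀ N₀ lam L₀)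

include hplace

/-- **The Hecke operator at a prime outside the level.** -/
theorem BaseSetting.nil_pred {S Sig : Finset ℕ} (P : (L₀.withSigma Sig).RepRing) {M : ℕ}
    [NeZero M] (hdvd : N₀ ∣ M) (hpM : ¬ p ∣ M / N₀) (hsub : L₀.Sigma ⊆ S)
    (hS : ∀ ℓ : ℕ, ℓ.Prime → ℓ ∣ M * p → ℓ ∈ S) (hSig : ∀ ℓ : ℕ, ℓ.Prime → ℓ ∣ M * p → ℓ ∈ Sig)
    (hsmin : ∀ q ∈ L₀.Smin, ¬ q * q ∣ M) {l : Nat.Primes} (hl : ¬ (l : ℕ) ∣ M * p)
    (hlS : (l : ℕ) ∉ L₀.Sigma) {c : O} (hc : c - lam l ∈ maximalIdeal O) :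
    MvPolynomial.X l - MvPolynomial.C c ∈ nilModIdeal (CohLoc
      (awayMonoid (lamIdeal (Λ := O) (residue_surjective (R := O)) S lam))
      (scalarRep (1 : (ZMod M)ˣ →* O) O)) := by
  classical
  let hsO : Function.Surjective (residue O ∘ algebraMap O O) := residue_surjective (R := O)
  let ψ : ∀ x : ℕ, (ZMod x)ˣ →* O := fun _ => 1
  have hA : LevelArith p N₀ L₀ S ∅ M ψ := by
    constructor <;> simp_all
  have hχ : charSq ψ ∅ M = (1 : (ZMod M)ˣ →* O) := MonoidHom.ext fun u => by
    rw [charSq_apply, Finset.prod_empty]; rfl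
  rw [← hχ]
  have := finite_cohLoc (scalarRep (charSq ψ ∅ M) O) _ (maximalIdeal_le_lamIdeal hsO S lam)
  rcases subsingleton_or_nontrivial (LevelCoh hsO S lam ψ ∅ (fun _ : Unit => M) ()) with hV | hV
  · exact (mem_nilModIdeal _).mpr ⟨0, fun x => by rw [Subsingleton.elim (α := LevelCoh hsO S lam ψ ∅ (fun _ : Unit => M) ()) x 0, smul_zero]; exact zero_mem _⟩
  obtain ⟨x, hx⟩ := exists_ne (0 : LevelCoh hsO S lam ψ ∅ (fun _ : Unit => M) ())
  set C := TwAlg hsO S lam ψ ∅ (fun _ : Unit => M)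
  have : Nontrivial C := ⟨⟨1, 0, fun h => hx (congrArg (fun z : C =>
    (Subtype.val z) () x) h)⟩⟩
  obtain ⟨φ, hφl, -, h2, -⟩ := H.exists_familyAction hsO hA hplace
    (fun ℓ hℓ h => hSig ℓ hℓ (by simpa using h)) P
  obtain ⟨A, hPl⟩ := Frobenius.exists_liesOverPrime Qbar l.2
  obtain ⟨σ, hσ⟩ := Frobenius.exists_isFrobeniusAt_qbar l.2 hPl
  have hact := fun u => (h2 l l.2 (by simpa using hl) A hPl).2 σ hσ () u
  set y : C := φ (P.rep σ).trace - algebraMap O C c
  have hlh := isLocalHom_algebraMap_twAlg hsO S lam ψ ∅ (fun _ : Unit => M)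
  have hsr := surjective_residue_twAlg hsO S lam ψ ∅ (fun _ : Unit => M)
  have hy : y ∈ maximalIdeal C := by
    rw [← toResidue_eq_zero_iff hlh hsr, map_sub, toResidue_trace H P hlh hsr φ hφl,
      AlgHom.commutes, H.trace_frob l l.2 hlS A hPl σ hσ,
      show algebraMap O (ResidueField O) c = residue O c from rfl, ← map_sub, residue_eq_zero_iff]
    simpa using neg_mem hc
  have hrad : maximalIdeal C ≤ ((maximalIdeal O).map (algebraMap O C)).radical := by
    have : @Module.Finite O C _ _ (Algebra.toModule) := Module.Finite.trans O C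
    have : Algebra.IsIntegral O C := Algebra.IsIntegral.of_finite O C
    rw [Ideal.radical_eq_sInf]
    refine le_sInf fun Pr ⟨hPr, hPp⟩ => ?_
    have := hPp
    have hcomap : Pr.comap (algebraMap O C) = maximalIdeal O :=
      ((maximalIdeal.isMaximal O).eq_of_le (Ideal.comap_ne_top _ hPp.ne_top)
        (Ideal.map_le_iff_le_comap.mp hPr)).symm
    rw [IsLocalRing.eq_maximalIdeal (Ideal.isMaximal_of_isIntegral_of_isMaximal_comap (R := O) Pr
      (by rw [hcomap]; infer_instance))]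
  obtain ⟨k, hk⟩ := hrad hy
  let W := LevelCoh hsO S lam ψ ∅ (fun _ : Unit => M) ()
  have key : ∀ z ∈ (maximalIdeal O).map (algebraMap O C), ∀ u : W,
      (Subtype.val z) () u ∈
        maximalIdeal O • (⊤ : Submodule O W) := by
    intro z hz u
    induction hz using Submodule.span_induction generalizing u with
    | mem z hz =>
      obtain ⟨o, ho, rfl⟩ := hz
      exact Submodule.smul_mem_smul ho Submodule.mem_top
    | zero => exact zero_mem _
    | add a b _ _ ha hb => exact add_mem (ha u) (hb u)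
    | smul a z _ hz => exact map_mem_smul_top ((Subtype.val a) ()) _ (hz u)
  have hyu : ∀ u : W, (Subtype.val y) () u =
      (MvPolynomial.X l - MvPolynomial.C c : HeckePoly O) • u := fun u => by
    rw [sub_smul, ← MvPolynomial.algebraMap_eq, algebraMap_smul]
    show (Subtype.val (φ (P.rep σ).trace)) () u - c • u = _
    rw [hact u]
    simp [charProd]
  have hypow : ∀ (j : ℕ) (u : W), (Subtype.val (y ^ j : C)) () u =
      (MvPolynomial.X l - MvPolynomial.C c : HeckePoly O) ^ j • u := by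
    intro j
    induction j with
    | zero => intro u; rw [pow_zero, pow_zero, one_smul]; rfl
    | succ j ih =>
      intro u
      rw [pow_succ, pow_succ, mul_smul, ← hyu u, ← ih]
      rfl
  exact (mem_nilModIdeal _).mpr ⟨k, fun u => hypow k u ▸ key _ hk u⟩

end Fermat.Agent.Engine
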