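import Fermat.Agent.Engine.LoweringArith

/-!
# Pairs of actions over a general coefficient ring

`exists_pairMatrices`: matrix actions of the two families of one level, whose Hecke matrices are the
base ones under `σ` and equal under `π`.  `action_base`, `action_congr`: the corresponding actions of
the level rings are then equal after `σ`, respectively `π`.
-/

set_option autoImplicit false
set_option linter.unusedSectionVars false

noncomputable section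

namespace Fermat.Agent.Engine

open EigenRep HeckeModule IsLocalRing DefRing Deform EigenSystems TRep

local notation "Qbar" => AlgebraicClosure ℚ

section Generic

variable {O : Type} [CommRing O] [IsLocalRing O] [IsNoetherianRing O]
  [IsAdicComplete (maximalIdeal O) O] {Λ : Type} [CommRing Λ] [IsLocalRing Λ]
  [IsNoetherianRing Λ] [IsAdicComplete (maximalIdeal Λ) Λ] [Algebra O Λ]
  [IsLocalHom (algebraMap O Λ)] [Module.Finite O Λ]
  (hsΛ : Function.Surjective (residue Λ ∘ algebraMap O Λ))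

/-- The image of the Frobenius trace of a family. -/
theorem map_frob_matrix {S Q : Finset ℕ} {lam : ℕ → O} {ψ : ∀ q : ℕ, (ZMod q)ˣ →* Λ} {M : ℕ}
    [NeZero M] {d : ℕ}
    (G : TwAlg hsΛ S lam ψ Q (fun _ : Unit => M) →ₐ[Λ] Matrix (Fin d) (Fin d) Λ) {Λ' : Type}
    [CommRing Λ'] (f : Λ →+* Λ') (c : Λ) (l : AwayIndex (↑S : Set ℕ)) :
    (G (twClass hsΛ S lam ψ Q (fun _ : Unit => M) (MvPolynomial.C c * MvPolynomial.X l))).map f =
      f c • (G (twClass hsΛ S lam ψ Q (fun _ : Unit => M) (MvPolynomial.X l))).map f := by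
  rw [map_mul, ← MvPolynomial.algebraMap_eq, AlgHom.commutes, map_mul, AlgHom.commutes]
  exact map_algebraMap_mul f c _

/-- Characters trivialised by a map have trivial inverse products. -/
theorem map_invChar_eq_one {Λ' : Type} [CommRing Λ'] (f : Λ →+* Λ') (ψ : ∀ q : ℕ, (ZMod q)ˣ →* Λ)
    (Q S : Finset ℕ) (h : ∀ q ∈ Q, ∀ u, f (ψ q u) = 1) (l : AwayIndex (↑S : Set ℕ)) :
    f (invChar ψ Q S l) = 1 :=
  map_charProd_eq_one f (fun q => (ψ q).comp invMonoidHom) Q (fun q hq _ => h q hq _) _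

/-- Adding a character trivialised by a map does not change the inverse product. -/
theorem map_invChar_insert {Λ' : Type} [CommRing Λ'] (f : Λ →+* Λ') (ψ : ∀ q : ℕ, (ZMod q)ˣ →* Λ)
    {Q : Finset ℕ} (S : Finset ℕ) {w : ℕ} (hw : w ∉ Q) (h : ∀ u, f (ψ w u) = 1)
    (l : AwayIndex (↑S : Set ℕ)) :
    f (invChar ψ (insert w Q) S l) = f (invChar ψ Q S l) := by
  rw [invChar, invChar, charProd, charProd, Finset.prod_insert hw, map_mul]
  refine (congrArg (· * _) ?_).trans (one_mul _)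
  have h1 := map_charProd_eq_one f (fun q => (ψ q).comp invMonoidHom) {w}
    (fun q hq u => by
      rw [Finset.mem_singleton] at hq
      subst hq
      exact h _) ((l : Nat.Primes) : ℕ)
  rwa [charProd, Finset.prod_singleton] at h1

variable {Λ' : Type} [CommRing Λ'] [IsLocalRing Λ'] [IsNoetherianRing Λ']
  [IsAdicComplete (maximalIdeal Λ') Λ'] [Algebra O Λ'] [IsLocalHom (algebraMap O Λ')]
  (hs' : Function.Surjective (residue Λ' ∘ algebraMap O Λ'))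

include hs' in
/-- **Bases and matrix actions of the two families.** -/
theorem exists_pairMatrices (hsO : Function.Surjective (residue O ∘ algebraMap O O))
    (σ : Λ →ₐ[O] O) (hσ : IsLocalHom (σ : Λ →+* O)) (hσs : Function.Surjective σ)
    (π : Λ →ₐ[O] Λ') (hπ : IsLocalHom (π : Λ →+* Λ')) (hπs : Function.Surjective π)
    {S S₀ : Finset ℕ} (hS : S₀ ⊆ S) (lam : ℕ → O) (α : ℕ → O)
    (ψ : ∀ q : ℕ, (ZMod q)ˣ →* Λ) {Q : Finset ℕ} {w : ℕ} (hw : w ∉ Q) {M : ℕ} [NeZero M]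
    (hψσ : ∀ q ∈ Q, ∀ u, σ (ψ q u) = 1) (hψπ : ∀ u, π (ψ w u) = 1)
    (hex' : ExactHyp (awayMonoid (lamIdeal hsΛ S lam)) (charSq ψ Q M))
    (hex : ExactHyp (awayMonoid (lamIdeal hsΛ S lam)) (charSq ψ (insert w Q) M)) {d : ℕ}
    (c : Module.Basis (Fin d) O
      (CohLoc (relMonoid hsO S lam S₀ α) (scalarRep (1 : (ZMod M)ˣ →* O) O))) :
    ∃ (G : TwAlg hsΛ S lam ψ (insert w Q) (fun _ : Unit => M) →ₐ[Λ] Matrix (Fin d) (Fin d) Λ)
      (G' : TwAlg hsΛ S lam ψ Q (fun _ : Unit => M) →ₐ[Λ] Matrix (Fin d) (Fin d) Λ),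
      ∀ (l : Nat.Primes) (hl : (l : ℕ) ∉ (↑S : Set ℕ)),
        (G' (twClass hsΛ S lam ψ Q (fun _ : Unit => M) (MvPolynomial.X ⟨l, hl⟩))).map σ =
            LinearMap.toMatrix c c (Algebra.lsmul O O (CohLoc (relMonoid hsO S lam S₀ α)
              (scalarRep (1 : (ZMod M)ˣ →* O) O)) (A := HeckePoly O) (MvPolynomial.X l)) ∧
          (G (twClass hsΛ S lam ψ (insert w Q) (fun _ : Unit => M)
              (MvPolynomial.X ⟨l, hl⟩))).map π =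
            (G' (twClass hsΛ S lam ψ Q (fun _ : Unit => M) (MvPolynomial.X ⟨l, hl⟩))).map π := by
  have hex₁ := exactHyp_relMonoid hsΛ S lam S₀ α hS hex'
  have hex₂ := exactHyp_relMonoid hsΛ S lam S₀ α hS hex
  obtain ⟨b', hb'⟩ := exists_liftBasis hsΛ hsO σ hσ hσs S lam S₀ α
    (χ := charSq ψ Q M) (χ' := 1)
    (fun u => map_charSq_eq_one (σ : Λ →+* O) ψ Q hψσ M u) hex₁ c
  obtain ⟨bb, hbb⟩ := exists_downBasis hsΛ hs' π hπ hπs S lam S₀ α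
    (χ := charSq ψ Q M) (χ' := (π : Λ →+* Λ').toMonoidHom.comp (charSq ψ Q M))
    (fun _ => rfl) hex₁ b'
  obtain ⟨b, hb⟩ := exists_liftBasis hsΛ hs' π hπ hπs S lam S₀ α
    (χ := charSq ψ (insert w Q) M) (χ' := (π : Λ →+* Λ').toMonoidHom.comp (charSq ψ Q M))
    (fun u => by
      show π (charSq ψ (insert w Q) M u) = π (charSq ψ Q M u)
      rw [charSq_apply, charSq_apply, Finset.prod_insert hw, map_mul]
      refine (congrArg (· * _) ?_).trans (one_mul _)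
      have h1 := map_charSq_eq_one (π : Λ →+* Λ') ψ {w}
        (fun q hq u => by
          rw [Finset.mem_singleton] at hq
          subst hq
          exact hψπ _) M u
      rwa [charSq_apply, Finset.prod_singleton] at h1) hex₂ bb
  have hP := lamIdeal_le_relMonoid hsΛ S lam S₀ α hS
  obtain ⟨G, hG⟩ := exists_matAction hsΛ S lam ψ (insert w Q) (fun _ : Unit => M) hP () b
  obtain ⟨G', hG'⟩ := exists_matAction hsΛ S lam ψ Q (fun _ : Unit => M) hP () b'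
  refine ⟨G, G', fun l hl => ?_⟩
  rw [hG, hG', awayIncl_X]
  exact ⟨hb' l, (hb l).trans (hbb l).symm⟩

variable {lam : ℕ → O} {ψ : ∀ q : ℕ, (ZMod q)ˣ →* Λ} {S : Finset ℕ} {M : ℕ} [NeZero M] {d : ℕ}
  (hd : d ≠ 0) {L : LevelData O} (P : L.RepRing)
  (hspan : Submodule.span (ResidueField O) (Set.range L.D.rbar) = ⊤)

include hd hspan in
/-- **Equal actions modulo the augmentation.** -/
theorem action_base (hsO : Function.Surjective (residue O ∘ algebraMap O O)) (σ : Λ →ₐ[O] O)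
    {Q S₀ : Finset ℕ} (hS : S₀ ⊆ S) (hψσ : ∀ q ∈ Q, ∀ u, σ (ψ q u) = 1) {N₀ : ℕ} [NeZero N₀]
    [Nontrivial (TwAlg hsΛ S lam ψ Q (fun _ : Unit => M))]
    [Nontrivial (TwAlg hsO S₀ lam (fun _ => 1) ∅ (fun _ : Unit => N₀))]
    (G' : TwAlg hsΛ S lam ψ Q (fun _ : Unit => M) →ₐ[Λ] Matrix (Fin d) (Fin d) Λ)
    (G₀ : TwAlg hsO S₀ lam (fun _ => 1) ∅ (fun _ : Unit => N₀) →ₐ[O] Matrix (Fin d) (Fin d) O)
    (hX : ∀ (l : Nat.Primes) (hl : (l : ℕ) ∉ (↑S : Set ℕ)),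
      (G' (twClass hsΛ S lam ψ Q (fun _ : Unit => M) (MvPolynomial.X ⟨l, hl⟩))).map σ =
        G₀ (twClass hsO S₀ lam (fun _ => 1) ∅ (fun _ : Unit => N₀)
          (MvPolynomial.X ⟨l, fun h => hl (Finset.coe_subset.mpr hS h)⟩)))
    (φ' : P.R →ₐ[O] TwAlg hsΛ S lam ψ Q (fun _ : Unit => M))
    (hφ' : IsLocalHom (φ' : P.R →+* TwAlg hsΛ S lam ψ Q (fun _ : Unit => M)))
    (hF : ∀ (ℓ : ℕ) (hℓ : ℓ.Prime) (hℓS : ℓ ∉ (↑S : Set ℕ)), ∀ A : ValuationSubring Qbar,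
      A.LiesOverPrime ℓ → ∀ τ : GQ, A.IsFrobeniusAt τ ℓ → φ' (P.rep τ).trace =
        twClass hsΛ S lam ψ Q (fun _ : Unit => M) (MvPolynomial.C (invChar ψ Q S ⟨⟨ℓ, hℓ⟩, hℓS⟩) *
          MvPolynomial.X ⟨⟨ℓ, hℓ⟩, hℓS⟩))
    (φ₀ : P.R →ₐ[O] TwAlg hsO S₀ lam (fun _ => 1) ∅ (fun _ : Unit => N₀))
    (hφ₀ : IsLocalHom (φ₀ : P.R →+* TwAlg hsO S₀ lam (fun _ => 1) ∅ (fun _ : Unit => N₀)))
    (hF₀ : ∀ (ℓ : ℕ) (hℓ : ℓ.Prime) (hℓS : ℓ ∉ (↑S₀ : Set ℕ)), ∀ A : ValuationSubring Qbar,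
      A.LiesOverPrime ℓ → ∀ τ : GQ, A.IsFrobeniusAt τ ℓ → φ₀ (P.rep τ).trace =
        twClass hsO S₀ lam (fun _ => 1) ∅ (fun _ : Unit => N₀) (MvPolynomial.X ⟨⟨ℓ, hℓ⟩, hℓS⟩))
    (x : P.R) : (G' (φ' x)).map σ = G₀ (φ₀ x) := by
  have key := eq_of_frobenius hsΛ hsO hsO lam hd σ (AlgHom.id O O) Function.surjective_id
    (S₁ := S) (S₂ := S₀) (Finset.coe_subset.mpr hS) G' G₀
    (fun l hl => (hX l hl).trans (Matrix.map_id _).symm) L P hspan φ' hφ' φ₀ hφ₀ S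
    (fun ℓ hℓ hℓS Pl hPl τ hτ => by
      rw [hF ℓ hℓ hℓS Pl hPl τ hτ, hF₀ ℓ hℓ (fun h => hℓS (hS h)) Pl hPl τ hτ]
      refine (map_frob_matrix hsΛ G' (σ : Λ →+* O) _ _).trans ?_
      rw [map_invChar_eq_one (σ : Λ →+* O) ψ Q S hψσ, one_smul]
      exact (hX ⟨ℓ, hℓ⟩ hℓS).trans (Matrix.map_id _).symm) x
  exact key.trans (Matrix.map_id _)

include hd hspan hs' in
/-- **Congruent actions.** -/
theorem action_congr (π : Λ →ₐ[O] Λ') (hπs : Function.Surjective π) {Q : Finset ℕ} {w : ℕ}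
    (hw : w ∉ Q) (hψπ : ∀ u, π (ψ w u) = 1)
    [Nontrivial (TwAlg hsΛ S lam ψ (insert w Q) (fun _ : Unit => M))]
    [Nontrivial (TwAlg hsΛ S lam ψ Q (fun _ : Unit => M))]
    (G : TwAlg hsΛ S lam ψ (insert w Q) (fun _ : Unit => M) →ₐ[Λ] Matrix (Fin d) (Fin d) Λ)
    (G' : TwAlg hsΛ S lam ψ Q (fun _ : Unit => M) →ₐ[Λ] Matrix (Fin d) (Fin d) Λ)
    (hX : ∀ (l : Nat.Primes) (hl : (l : ℕ) ∉ (↑S : Set ℕ)),
      (G (twClass hsΛ S lam ψ (insert w Q) (fun _ : Unit => M) (MvPolynomial.X ⟨l, hl⟩))).map π =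
        (G' (twClass hsΛ S lam ψ Q (fun _ : Unit => M) (MvPolynomial.X ⟨l, hl⟩))).map π)
    (φ : P.R →ₐ[O] TwAlg hsΛ S lam ψ (insert w Q) (fun _ : Unit => M))
    (hφ : IsLocalHom (φ : P.R →+* TwAlg hsΛ S lam ψ (insert w Q) (fun _ : Unit => M)))
    (hF : ∀ (ℓ : ℕ) (hℓ : ℓ.Prime) (hℓS : ℓ ∉ (↑S : Set ℕ)), ∀ A : ValuationSubring Qbar,
      A.LiesOverPrime ℓ → ∀ τ : GQ, A.IsFrobeniusAt τ ℓ → φ (P.rep τ).trace =
        twClass hsΛ S lam ψ (insert w Q) (fun _ : Unit => M)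
          (MvPolynomial.C (invChar ψ (insert w Q) S ⟨⟨ℓ, hℓ⟩, hℓS⟩) *
            MvPolynomial.X ⟨⟨ℓ, hℓ⟩, hℓS⟩))
    (φ' : P.R →ₐ[O] TwAlg hsΛ S lam ψ Q (fun _ : Unit => M))
    (hφ' : IsLocalHom (φ' : P.R →+* TwAlg hsΛ S lam ψ Q (fun _ : Unit => M)))
    (hF' : ∀ (ℓ : ℕ) (hℓ : ℓ.Prime) (hℓS : ℓ ∉ (↑S : Set ℕ)), ∀ A : ValuationSubring Qbar,
      A.LiesOverPrime ℓ → ∀ τ : GQ, A.IsFrobeniusAt τ ℓ → φ' (P.rep τ).trace =
        twClass hsΛ S lam ψ Q (fun _ : Unit => M) (MvPolynomial.C (invChar ψ Q S ⟨⟨ℓ, hℓ⟩, hℓS⟩) *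
          MvPolynomial.X ⟨⟨ℓ, hℓ⟩, hℓS⟩))
    (x : P.R) : (G (φ x)).map π = (G' (φ' x)).map π :=
  eq_of_frobenius hsΛ hsΛ hs' lam hd π π hπs (S₁ := S) (S₂ := S) subset_rfl G G' hX L P hspan
    φ hφ φ' hφ' S
    (fun ℓ hℓ hℓS Pl hPl τ hτ => by
      rw [hF ℓ hℓ hℓS Pl hPl τ hτ, hF' ℓ hℓ hℓS Pl hPl τ hτ]
      refine (map_frob_matrix hsΛ G (π : Λ →+* Λ') _ _).trans
        (Eq.trans ?_ (map_frob_matrix hsΛ G' (π : Λ →+* Λ') _ _).symm)
      rw [map_invChar_insert (π : Λ →+* Λ') ψ S hw hψπ]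
      exact congrArg _ (hX ⟨ℓ, hℓ⟩ hℓS)) x

end Generic

end Fermat.Agent.Engine
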