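import Fermat.Agent.Patch.Reach
import Fermat.Agent.Patch.Support

/-!
# Raising the level after patching

`A` is the old patched module (two copies of the one without `v`), `B` the one with `v`, `F` the
degeneracy map, `G` a combination of the two traces surjecting onto one copy `M`, `e` an element
killing the new part.  If `G ∘ F` maps into `P M` for a prime `P` of the support of `M`, then `P`
lies on a component of the new part on which inertia at `v` is non-trivial.
-/

set_option autoImplicit false

noncomputable section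

namespace Fermat.Agent.Engine

open IsLocalRing Patch

variable {R : Type*} [CommRing R] [IsNoetherianRing R]
  {Λ : Type*} [CommRing Λ] [IsDomain Λ] [IsLocalRing Λ] [IsNoetherianRing Λ]
  {A B : Type*} [AddCommGroup A] [Module R A] [Module Λ A] [AddCommGroup B] [Module R B]
  [Module Λ B] [SMulCommClass R Λ B] [Module.Free Λ B] [Module.Finite Λ B] 

omit [IsNoetherianRing R] in
/-- The new component reached through `P`. -/
theorem exists_new_component {M : Type*} [AddCommGroup M] [Module R M] [Module.Finite R M]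
    (F : A →ₗ[R] B) (FΛ : A →ₗ[Λ] B) (hFΛ : ∀ a, FΛ a = F a) (L : B →ₗ[Λ] A)
    (hL : L.comp FΛ = LinearMap.id) (hsc : ∀ l : Λ, ∃ r : R, ∀ b : B, r • b = l • b)
    {n : ℕ} (hn : DimGE Λ n) {P : Ideal R} [P.IsPrime] (hM : Module.annihilator R M ≤ P)
    (G : B →ₗ[R] M) (hG : Function.Surjective G)
    (hGF : ∀ a, G (F a) ∈ P • (⊤ : Submodule R M)) {e : R}
    (he : ∀ b : B, e • b ∈ LinearMap.range F)
    (N : Matrix (Fin 2) (Fin 2) R)
    (hU : ∀ Q : Ideal R, Q.IsPrime → Module.annihilator R B ≤ Q → e ∈ Q →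
      (∀ i k, N i k ∈ Q) → ¬ DimGE (R ⧸ Q) n) :
    ∃ P₁ : Ideal R, P₁.IsPrime ∧ P₁ ≤ P ∧ Module.annihilator R B ≤ P₁ ∧ e ∈ P₁ ∧
      DimGE (R ⧸ P₁) n ∧ ∃ i k, N i k ∉ P₁ := by
  classical
  let C := B ⧸ LinearMap.range F
  have hC : Module.annihilator R C ≤ P := fun r hr => by
    refine mem_of_range_le_smul hM fun m => ?_
    obtain ⟨b, rfl⟩ := hG m
    have hb := Module.mem_annihilator.1 hr (Submodule.Quotient.mk b)
    rw [← Submodule.Quotient.mk_smul, Submodule.Quotient.mk_eq_zero] at hb
    obtain ⟨a, ha⟩ := hb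
    rw [← map_smul, ← ha]
    exact hGF a
  obtain ⟨P₁, hP₁, hle⟩ := Ideal.exists_minimalPrimes_le hC
  have := hP₁.1.1
  -- `C` as a finite free `Λ`-module
  let S : Submodule Λ B := LinearMap.range FΛ
  have hS : (LinearMap.range F : Set B) = S := by
    ext b
    simp only [LinearMap.coe_range, Set.mem_range, S, hFΛ]
  have : Module.Free Λ (B ⧸ S) := free_coker FΛ L hL
  let op : R → B →ₗ[Λ] B := fun r =>
    { toFun := fun b => r • b
      map_add' := smul_add r
      map_smul' := fun l b => smul_comm r l b }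
  let : Module R (B ⧸ S) :=
    { smul := fun r => S.mapQ S (op r) fun b hb => by
        rw [← SetLike.mem_coe, ← hS] at hb
        show r • b ∈ S
        rw [← SetLike.mem_coe, ← hS]
        exact (LinearMap.range F).smul_mem r hb
      one_smul := by rintro ⟨b⟩; exact congrArg Submodule.Quotient.mk (one_smul R b)
      mul_smul := by rintro r s ⟨b⟩; exact congrArg Submodule.Quotient.mk (mul_smul r s b)
      smul_zero := fun r => congrArg Submodule.Quotient.mk (smul_zero r)
      smul_add := by rintro r ⟨b⟩ ⟨b'⟩; exact congrArg Submodule.Quotient.mk (smul_add r b b')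
      add_smul := by rintro r s ⟨b⟩; exact congrArg Submodule.Quotient.mk (add_smul r s b)
      zero_smul := by rintro ⟨b⟩; exact congrArg Submodule.Quotient.mk (zero_smul R b) }
  have : SMulCommClass R Λ (B ⧸ S) := ⟨by
    rintro r l ⟨b⟩; exact congrArg Submodule.Quotient.mk (smul_comm r l b)⟩
  have hann : Module.annihilator R (B ⧸ S) = Module.annihilator R C := by
    ext r
    simp only [Module.mem_annihilator]
    constructor
    · intro h c
      obtain ⟨b, rfl⟩ := Submodule.Quotient.mk_surjective _ c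
      have := h (Submodule.Quotient.mk b)
      change Submodule.Quotient.mk (r • b) = (0 : B ⧸ S) at this
      rw [Submodule.Quotient.mk_eq_zero, ← SetLike.mem_coe, ← hS] at this
      exact (Submodule.Quotient.mk_eq_zero _).2 this
    · rintro h ⟨b⟩
      change Submodule.Quotient.mk (r • b) = (0 : B ⧸ S)
      have := h (Submodule.Quotient.mk b)
      rw [← Submodule.Quotient.mk_smul, Submodule.Quotient.mk_eq_zero] at this
      rw [Submodule.Quotient.mk_eq_zero, ← SetLike.mem_coe, ← hS]
      exact this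
  obtain ⟨d, ρ, hρsc, hker, hd⟩ := exists_matrixAction (R := R) (C := B ⧸ S) fun l => by
    obtain ⟨r, hr⟩ := hsc l
    exact ⟨r, by rintro ⟨b⟩; exact congrArg Submodule.Quotient.mk (hr b)⟩
  have : NeZero d := ⟨hd (by
    by_contra hnt
    rw [not_nontrivial_iff_subsingleton] at hnt
    refine Ideal.IsPrime.ne_top ‹P.IsPrime› (top_le_iff.1 (le_trans (fun r _ => ?_) hC))
    rw [← hann, Module.mem_annihilator]
    exact fun c => Subsingleton.elim _ _)⟩
  have hdim : DimGE (R ⧸ P₁) n :=
    dimGE_of_mem_minimalPrimes hρsc (by rw [hker, hann]; exact hP₁) hn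
  have hBP₁ : Module.annihilator R B ≤ P₁ := fun r hr => hP₁.1.2 <| by
    rw [Module.mem_annihilator] at hr ⊢
    intro c
    obtain ⟨b, rfl⟩ := Submodule.Quotient.mk_surjective _ c
    rw [← Submodule.Quotient.mk_smul, hr b, Submodule.Quotient.mk_zero]
  have heP₁ : e ∈ P₁ := hP₁.1.2 <| Module.mem_annihilator.2 fun c => by
    obtain ⟨b, rfl⟩ := Submodule.Quotient.mk_surjective _ c
    exact (Submodule.Quotient.mk_eq_zero _).2 (he b)
  refine ⟨P₁, hP₁.1.1, hle, hBP₁, heP₁, hdim, ?_⟩
  by_contra hall
  push Not at hall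
  exact hU P₁ hP₁.1.1 hBP₁ heP₁ hall hdim

/-- A component of the biggest dimension containing a prime `J` is `J`. -/
theorem eq_of_le_of_dimGE {R : Type*} [CommRing R] {J P : Ideal R} [J.IsPrime] [P.IsPrime]
    (hle : J ≤ P) {n : ℕ} (hJ : ¬ DimGE (R ⧸ J) (n + 1)) (hP : DimGE (R ⧸ P) n) : P = J :=
  ((eq_or_lt_of_le hle).symm.resolve_left fun h => hJ (dimGE_succ_of_lt h hP)).symm

end Fermat.Agent.Engine
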